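import Fermat.Agent.DS.Sep
import Fermat.Agent.MFLib.RatBasis
import Fermat.Prelude.Thm_ModularForm_sturm_bound_Gamma0

/-!
# A Sturm bound for subgroups of finite index, and finite generation of coefficients
-/

set_option autoImplicit false
set_option linter.style.haveILetI false
set_option linter.unusedSectionVars false

noncomputable section

open UpperHalfPlane hiding I
open Complex Filter ModularForm
open scoped Topology MatrixGroups Real Manifold
open Finset

namespace Fermat.Agent.DS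

open Fermat.Agent.GamH Fermat.Agent.MFLib CongruenceSubgroup

variable {Γ : Subgroup SL(2, ℤ)} [Γ.FiniteIndex] {k : ℤ} {f : ℍ → ℂ}

/-- the product of the other conjugates -/
def cof (Γ : Subgroup SL(2, ℤ)) [Γ.FiniteIndex] (k : ℤ) (f : ℍ → ℂ) : ℍ → ℂ :=
  ∏ δ ∈ univ.erase ((1 : SL(2, ℤ)) : SL(2, ℤ) ⧸ Γ), conj Γ k f δ

theorem isMF_cof (hf : IsMF Γ k f) : IsMF Γ ((idx Γ - 1 : ℕ) * k) (cof Γ k f) where
  toHB := by
    have := HB.prod (s := univ.erase ((1 : SL(2, ℤ)) : SL(2, ℤ) ⧸ Γ))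
      (F := fun δ => conj Γ k f δ) (k := k) (fun δ _ => hf.toHB.conj δ)
    rwa [card_erase_of_mem (mem_univ _), card_univ] at this
  slash γ hγ := by
    have h1 := prod_slash_SL (univ.erase ((1 : SL(2, ℤ)) : SL(2, ℤ) ⧸ Γ))
      (fun δ => conj Γ k f δ) k γ
    rw [card_erase_of_mem (mem_univ _), card_univ] at h1
    rw [cof, h1]
    refine Finset.prod_bij' (fun δ _ => γ⁻¹ • δ) (fun δ _ => γ • δ) ?_ ?_ ?_ ?_ ?_
    · intro δ hδ
      simp only [mem_erase, mem_univ, and_true] at hδ ⊢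
      intro h
      apply hδ
      rw [inv_smul_eq_iff] at h
      rw [h]
      change ((γ * 1 : SL(2, ℤ)) : SL(2, ℤ) ⧸ Γ) = _
      rw [mul_one]
      have : ((γ : SL(2, ℤ)) : SL(2, ℤ) ⧸ Γ) = ((1 : SL(2, ℤ)) : SL(2, ℤ) ⧸ Γ) := by
        rw [QuotientGroup.eq]
        simpa using Γ.inv_mem hγ
      exact this
    · intro δ hδ
      simp only [mem_erase, mem_univ, and_true] at hδ ⊢
      intro h
      apply hδ
      rw [← eq_inv_smul_iff] at h
      rw [h]
      change ((γ⁻¹ * 1 : SL(2, ℤ)) : SL(2, ℤ) ⧸ Γ) = _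
      rw [mul_one]
      have : ((γ⁻¹ : SL(2, ℤ)) : SL(2, ℤ) ⧸ Γ) = ((1 : SL(2, ℤ)) : SL(2, ℤ) ⧸ Γ) := by
        rw [QuotientGroup.eq]
        simpa using hγ
      exact this
    · intro δ _; simp
    · intro δ _; simp
    · intro δ _
      rw [conj_slash hf]

theorem mul_cof (hf : IsMF Γ k f) : f * cof Γ k f = esym Γ k f (idx Γ) := by
  have h1 : esym Γ k f (idx Γ) = ∏ q, conj Γ k f q := by
    rw [esym, idx, ← Finset.card_univ, Finset.powersetCard_self, Finset.sum_singleton]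
  rw [h1, cof, ← Finset.mul_prod_erase univ _ (mem_univ ((1 : SL(2, ℤ)) : SL(2, ℤ) ⧸ Γ)),
    conj_one hf]

theorem prod_eq_zero_MDiff {ι : Type*} (s : Finset ι) (F : ι → ℍ → ℂ) (hF : ∀ i ∈ s, MDiff (F i))
    (h : ∏ i ∈ s, F i = 0) : ∃ i ∈ s, F i = 0 := by
  classical
  induction s using Finset.induction_on with
  | empty =>
    exfalso
    rw [Finset.prod_empty] at h
    exact one_ne_zero h
  | insert a s ha ih =>
    rw [Finset.prod_insert ha] at h
    have hprod : MDiff (∏ i ∈ s, F i) := by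
      have : ∀ t ⊆ s, MDiff (∏ i ∈ t, F i) := by
        intro t
        induction t using Finset.induction_on with
        | empty =>
          intro _
          rw [Finset.prod_empty]
          exact fun _ => mdifferentiableAt_const
        | insert b t hb iht =>
          intro ht
          rw [Finset.prod_insert hb]
          exact (hF b (Finset.mem_insert_of_mem (ht (Finset.mem_insert_self _ _)))).mul
            (iht fun x hx => ht (Finset.mem_insert_of_mem hx))
      exact this s (Finset.Subset.refl s)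
    rcases (UpperHalfPlane.mul_eq_zero_iff (hF a (Finset.mem_insert_self _ _)) hprod).mp h with
      h1 | h1
    · exact ⟨a, Finset.mem_insert_self _ _, h1⟩
    · obtain ⟨i, hi, h2⟩ := ih (fun i hi => hF i (Finset.mem_insert_of_mem hi)) h1
      exact ⟨i, Finset.mem_insert_of_mem hi, h2⟩

/-- **Sturm bound** -/
theorem sturm (hT : ModularGroup.T ∈ Γ) (k : ℤ) :
    ∃ B : ℕ, ∀ f : ℍ → ℂ, IsMF Γ k f → (∀ n ≤ B, (qe f).coeff n = 0) → f = 0 := by
  refine ⟨((idx Γ * k : ℤ) * (Gamma0 1).index).toNat / 12, fun f hf h0 => ?_⟩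
  have hF : IsMF ⊤ (idx Γ * k) (esym Γ k f (idx Γ)) := isMF_esym hf _
  have hqf : QG f := hf.qg hT
  have hqc : QG (cof Γ k f) := (isMF_cof hf).qg hT
  have h1 : esym Γ k f (idx Γ) = 0 := by
    have h2 : IsMF (Gamma0 1) (idx Γ * k) (esym Γ k f (idx Γ)) := hF.mono le_top
    have h3 := ModularForm.sturm_bound_Gamma0 1 h2.toForm (fun n hn => by
      rw [IsMF.coe_toForm]
      change (qe _).coeff n = 0
      rw [← mul_cof hf, hqf.qe_mul hqc, PowerSeries.coeff_mul]
      refine Finset.sum_eq_zero fun x hx => ?_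
      have hx' := Finset.HasAntidiagonal.mem_antidiagonal.1 hx
      rw [h0 x.1 (by omega), zero_mul])
    have h4 := congrArg (fun g : ModularForm (Gamma0 1) (idx Γ * k) => (g : ℍ → ℂ)) h3
    simpa using h4
  have h5 : ∏ q, conj Γ k f q = 0 := by
    rw [← h1, esym, idx, ← Finset.card_univ, Finset.powersetCard_self, Finset.sum_singleton]
  obtain ⟨q, -, hq⟩ := prod_eq_zero_MDiff univ _ (fun q _ => (hf.toHB.conj q).holo) h5
  exact (slash_eq_zero_iff _).1 hq

/-- the space of modular forms, as a subspace of functions -/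
def MFs (Γ : Subgroup SL(2, ℤ)) (k : ℤ) : Submodule ℂ (ℍ → ℂ) where
  carrier := {f | IsMF Γ k f}
  add_mem' := fun ha hb => IsMF.add ha hb
  zero_mem' := IsMF.zero
  smul_mem' := fun c _ hf => IsMF.smul c hf

omit [Γ.FiniteIndex] in
theorem mem_MFs {f : ℍ → ℂ} : f ∈ MFs Γ k ↔ IsMF Γ k f := Iff.rfl

/-- coefficient functionals -/
def cfn (hT : ModularGroup.T ∈ Γ) (k : ℤ) (n : ℕ) : MFs Γ k →ₗ[ℂ] ℂ where
  toFun f := (qe f.1).coeff n
  map_add' f g := by
    have hf : QG f.1 := IsMF.qg f.2 hT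
    have hg : QG g.1 := IsMF.qg g.2 hT
    change (qe (f.1 + g.1)).coeff n = _
    rw [hf.qe_add hg, map_add]
  map_smul' c f := by
    have hf : QG f.1 := IsMF.qg f.2 hT
    change (qe (c • f.1)).coeff n = _
    rw [hf.qe_smul]
    simp

theorem finiteDimensional_MFs (hT : ModularGroup.T ∈ Γ) (k : ℤ) :
    FiniteDimensional ℂ (MFs Γ k) := by
  obtain ⟨B, hB⟩ := sturm hT k
  let e : MFs Γ k →ₗ[ℂ] (Fin (B + 1) → ℂ) := LinearMap.pi fun i => cfn hT k i
  have he : Function.Injective e := by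
    rw [← LinearMap.ker_eq_bot, LinearMap.ker_eq_bot']
    intro f hf
    apply Subtype.ext
    refine hB f.1 f.2 fun n hn => ?_
    have := congrFun hf ⟨n, Nat.lt_succ_of_le hn⟩
    exact this
  exact Module.Finite.of_injective e he

variable {N : ℕ} [NeZero N]

theorem span_rational_MFs (hN : 3 ≤ N) (k : ℤ) :
    Submodule.span ℂ {f : MFs (Gamma1 N) k | ∀ n, ∃ r : ℚ, cfn (T_mem_Gamma1 N) k n f = r} = ⊤ := by
  obtain ⟨B, hB⟩ := sturm (T_mem_Gamma1 N) k
  refine span_rational (cfn (T_mem_Gamma1 N) k) B ?_ ?_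
  · intro f hf
    exact Subtype.ext (hB f.1 f.2 hf)
  · intro σ f
    obtain ⟨f', hf', hq⟩ := exists_conj_Gamma1 hN σ f.2
    refine ⟨⟨f', hf'⟩, fun n => ?_⟩
    change (qe f').coeff n = σ ((qe f.1).coeff n)
    rw [hq, PowerSeries.coeff_map]

/-- forms whose coefficients lie in a finitely generated `ℤ`-module -/
def FGs (N : ℕ) [NeZero N] (k : ℤ) : Submodule ℂ (MFs (Gamma1 N) k) where
  carrier := {g | ∃ L : Submodule ℤ ℂ, L.FG ∧ ∀ n, cfn (T_mem_Gamma1 N) k n g ∈ L}
  zero_mem' := ⟨⊥, Submodule.fg_bot, fun n => by rw [map_zero]; exact zero_mem _⟩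
  add_mem' := by
    rintro g h ⟨L, hL, hgL⟩ ⟨L', hL', hhL⟩
    refine ⟨L ⊔ L', hL.sup hL', fun n => ?_⟩
    rw [map_add]
    exact Submodule.add_mem_sup (hgL n) (hhL n)
  smul_mem' := by
    rintro c g ⟨L, hL, hgL⟩
    refine ⟨L.map (LinearMap.mulLeft ℤ c), hL.map _, fun n => ?_⟩
    rw [map_smul, smul_eq_mul]
    exact Submodule.mem_map_of_mem (f := LinearMap.mulLeft ℤ c) (hgL n)

theorem mem_FGs_of_rational (hN : 3 ≤ N) {k : ℤ} {g : MFs (Gamma1 N) k}
    (hg : ∀ n, ∃ r : ℚ, cfn (T_mem_Gamma1 N) k n g = r) : g ∈ FGs N k := by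
  obtain ⟨m, hm, hint⟩ := BD_Gamma1 hN g.2 (fun n => hg n)
  refine ⟨Submodule.span ℤ {((m : ℂ))⁻¹}, Submodule.fg_span_singleton _, fun n => ?_⟩
  obtain ⟨z, hz⟩ := hint n
  rw [PowerSeries.coeff_smul, smul_eq_mul] at hz
  have : cfn (T_mem_Gamma1 N) k n g = z • ((m : ℂ))⁻¹ := by
    change (qe g.1).coeff n = _
    rw [zsmul_eq_mul, ← hz]
    have : (m : ℂ) ≠ 0 := by exact_mod_cast hm
    field_simp
  rw [this]
  exact Submodule.smul_mem _ _ (Submodule.mem_span_singleton_self _)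

/-- **the coefficients of a modular form on `Γ₁(N)` lie in a finitely generated `ℤ`-module** -/
theorem exists_fg_coeff (hN : 3 ≤ N) {k : ℤ} {f : ℍ → ℂ} (hf : IsMF (Gamma1 N) k f) :
    ∃ L : Submodule ℤ ℂ, L.FG ∧ ∀ n, (qe f).coeff n ∈ L := by
  have hle : Submodule.span ℂ
      {f : MFs (Gamma1 N) k | ∀ n, ∃ r : ℚ, cfn (T_mem_Gamma1 N) k n f = r} ≤ FGs N k :=
    Submodule.span_le.2 fun g hg => mem_FGs_of_rational hN hg
  rw [span_rational_MFs hN] at hle
  obtain ⟨L, hL, h⟩ := hle (x := ⟨f, hf⟩) Submodule.mem_top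
  exact ⟨L, hL, h⟩

end Fermat.Agent.DS
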