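import Fermat.Agent.DS.WF

/-!
# The coefficients of a weight one eigenform are algebraic integers in a number field
-/

set_option autoImplicit false
set_option linter.style.haveILetI false
set_option linter.unusedSectionVars false

noncomputable section

open UpperHalfPlane hiding I
open Complex Filter ModularForm
open scoped Topology MatrixGroups Real Manifold

namespace Fermat.Agent.DS

open Fermat.Agent.GamH Fermat.Agent.MFLib CongruenceSubgroup

variable {N : ℕ} [NeZero N] {ε : DirichletCharacter ℂ N} {f : ℍ → ℂ}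

/-- the ring generated by the Hecke eigenvalues and the values of the character -/
def Bring (ε : DirichletCharacter ℂ N) (f : ℍ → ℂ) : Subalgebra ℤ ℂ :=
  Algebra.adjoin ℤ (Set.range ε ∪ {z | ∃ p : ℕ, p.Prime ∧ ¬ p ∣ N ∧ z = (qe f).coeff p})

/-- the lattice generated by the `ε(x) a_n` -/
def Slat (ε : DirichletCharacter ℂ N) (f : ℍ → ℂ) : Submodule ℤ ℂ :=
  Submodule.span ℤ {z | ∃ (x : ZMod N) (n : ℕ), z = ε x * (qe f).coeff n}

theorem eps_mem_Bring (x : ZMod N) : ε x ∈ Bring ε f :=
  Algebra.subset_adjoin (Or.inl ⟨x, rfl⟩)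

theorem coeff_prime_mem_Bring {p : ℕ} (hp : p.Prime) (hpN : ¬ p ∣ N) :
    (qe f).coeff p ∈ Bring ε f :=
  Algebra.subset_adjoin (Or.inr ⟨p, hp, hpN, rfl⟩)

theorem WF.coeff_mem_Bring (h : WF ε f) (n : ℕ) : (qe f).coeff n ∈ Bring ε f := by
  induction n using Nat.strong_induction_on with
  | _ n ih =>
    by_cases hn : n.Coprime N
    · rcases Nat.lt_or_ge 1 n with h1 | h1
      · have hp : n.minFac.Prime := Nat.minFac_prime (by omega)
        obtain ⟨m, hm⟩ := n.minFac_dvd
        obtain ⟨p, hpe⟩ : ∃ p, p = n.minFac := ⟨_, rfl⟩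
        rw [← hpe] at hp hm
        have hpN : ¬ p ∣ N := by
          intro hd
          have h2 : p ∣ n := ⟨m, hm⟩
          exact hp.one_lt.ne' (Nat.dvd_one.1 (hn ▸ Nat.dvd_gcd h2 hd))
        have hm0 : 0 < m := by
          rcases Nat.eq_zero_or_pos m with rfl | h'
          · omega
          · exact h'
        have hmn : m < n := by
          rw [hm]; nlinarith [hp.two_le]
        have hrel := h.rel p hp hpN m
        rw [← hm] at hrel
        have h3 : (qe f).coeff n = (qe f).coeff p * (qe f).coeff m -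
            ε (p : ZMod N) * (if p ∣ m then (qe f).coeff (m / p) else 0) := by
          linear_combination hrel
        rw [h3]
        refine sub_mem (mul_mem (coeff_prime_mem_Bring hp hpN) (ih m hmn))
          (mul_mem (eps_mem_Bring _) ?_)
        split_ifs
        · exact ih _ (lt_of_le_of_lt (Nat.div_le_self m p) hmn)
        · exact zero_mem _
      · rcases Nat.eq_zero_or_pos n with rfl | h'
        · have hz : IsZeroAtImInfty f := by simpa using h.cf.zero_cusps 1
          have h0 : (qe f).coeff 0 = 0 := by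
            rw [qExpansion_coeff_zero one_pos ((h.cf.qg (T_mem_Gamma1 N)).analyticAt)
              (h.cf.qg (T_mem_Gamma1 N)).per]
            exact hz.valueAtInfty_eq_zero
          rw [h0]; exact zero_mem _
        · have : n = 1 := by omega
          rw [this, h.one]; exact one_mem _
    · rw [h.cop n hn]; exact zero_mem _

theorem WF.mul_mem_Slat (h : WF ε f) {b : ℂ} (hb : b ∈ Bring ε f) :
    ∀ s ∈ Slat ε f, b * s ∈ Slat ε f := by
  induction hb using Algebra.adjoin_induction with
  | mem x hx =>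
    intro s hs
    induction hs using Submodule.span_induction with
    | mem s hs =>
      obtain ⟨y, n, rfl⟩ := hs
      rcases hx with ⟨z, rfl⟩ | ⟨p, hp, hpN, rfl⟩
      · rw [← mul_assoc, ← map_mul]
        exact Submodule.subset_span ⟨_, _, rfl⟩
      · have h1 : (qe f).coeff p * (ε y * (qe f).coeff n) = ε y * (qe f).coeff (p * n) +
            ε (y * p) * (if p ∣ n then (qe f).coeff (n / p) else 0) := by
          rw [map_mul]
          linear_combination (-(ε y)) * h.rel p hp hpN n
        rw [h1]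
        refine add_mem (Submodule.subset_span ⟨_, _, rfl⟩) ?_
        split_ifs
        · exact Submodule.subset_span ⟨_, _, rfl⟩
        · rw [mul_zero]; exact zero_mem _
    | zero => rw [mul_zero]; exact zero_mem _
    | add s t _ _ h1 h2 => rw [mul_add]; exact add_mem h1 h2
    | smul c s _ h1 => rw [mul_smul_comm]; exact Submodule.smul_mem _ _ h1
  | algebraMap r =>
    intro s hs
    have : algebraMap ℤ ℂ r * s = r • s := by rw [Algebra.smul_def]
    rw [this]
    exact Submodule.smul_mem _ _ hs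
  | add x y _ _ hx hy => intro s hs; rw [add_mul]; exact add_mem (hx s hs) (hy s hs)
  | mul x y _ _ hx hy => intro s hs; rw [mul_assoc]; exact hx _ (hy s hs)

theorem WF.Bring_le (h : WF ε f) : Subalgebra.toSubmodule (Bring ε f) ≤ Slat ε f := by
  intro b hb
  have h1 : (1 : ℂ) ∈ Slat ε f := Submodule.subset_span ⟨1, 1, by rw [map_one, h.one, one_mul]⟩
  have := h.mul_mem_Slat hb 1 h1
  rwa [mul_one] at this

theorem WF.Slat_fg (h : WF ε f) : (Slat ε f).FG := by
  obtain ⟨L, hL, hmem⟩ := exists_fg_coeff h.three_le h.cf.toIsMF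
  have h1 : Slat ε f ≤ ⨆ x ∈ (Finset.univ : Finset (ZMod N)), L.map (LinearMap.mulLeft ℤ (ε x)) := by
    rw [Slat, Submodule.span_le]
    rintro _ ⟨x, n, rfl⟩
    have h2 : ε x * (qe f).coeff n ∈ L.map (LinearMap.mulLeft ℤ (ε x)) :=
      Submodule.mem_map_of_mem (f := LinearMap.mulLeft ℤ (ε x)) (hmem n)
    exact (le_iSup₂ (f := fun (x : ZMod N) (_ : x ∈ (Finset.univ : Finset (ZMod N))) =>
      L.map (LinearMap.mulLeft ℤ (ε x))) x (Finset.mem_univ x)) h2
  have h2 : (⨆ x ∈ (Finset.univ : Finset (ZMod N)), L.map (LinearMap.mulLeft ℤ (ε x))).FG :=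
    Submodule.fg_biSup _ _ fun x _ => hL.map _
  exact Submodule.FG.of_le h2 h1

theorem WF.Bring_fg (h : WF ε f) : (Subalgebra.toSubmodule (Bring ε f)).FG :=
  Submodule.FG.of_le h.Slat_fg h.Bring_le

theorem WF.isIntegral (h : WF ε f) {b : ℂ} (hb : b ∈ Bring ε f) : IsIntegral ℤ b :=
  IsIntegral.of_mem_of_fg (Bring ε f) h.Bring_fg b hb

variable {L : Type*} [Field L] [CharZero L] [inst : Algebra ℚ L] [IsAlgClosed L]
  [Algebra.IsAlgebraic ℚ L]

/-- **algebraicity** -/
theorem WF.exists_alg (h : WF ε f) (ι : L →+* ℂ) :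
    ∃ K : IntermediateField ℚ L, FiniteDimensional ℚ K ∧
      ∀ b ∈ Bring ε f, ∃ b' ∈ K, IsIntegral ℤ b' ∧ ι b' = b := by
  obtain ⟨T, hT⟩ := h.Bring_fg
  -- preimages
  have hex : ∀ b ∈ Bring ε f, ∃ b' : L, ι b' = b := by
    intro b hb
    have h1 : IsIntegral ℤ b := h.isIntegral hb
    have h2 : IsAlgebraic ℚ b := (h1.tower_top (A := ℚ)).isAlgebraic
    obtain ⟨p, hp0, hpb⟩ := h2
    let P : Polynomial L := p.map (algebraMap ℚ L)
    have hP0 : P ≠ 0 := (Polynomial.map_ne_zero_iff (algebraMap ℚ L).injective).2 hp0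
    have hPι : P.map ι = p.map (algebraMap ℚ ℂ) := by
      rw [Polynomial.map_map]
      congr 1
      exact Subsingleton.elim _ _
    have hroot : b ∈ (P.map ι).roots := by
      rw [Polynomial.mem_roots ((Polynomial.map_ne_zero_iff ι.injective).2 hP0), hPι,
        Polynomial.IsRoot.def, Polynomial.eval_map]
      exact hpb
    have hspl : P.Splits := IsAlgClosed.splits P
    rw [hspl.roots_map ι] at hroot
    obtain ⟨b', -, hb'⟩ := Multiset.mem_map.1 hroot
    exact ⟨b', hb'⟩
  have hTB : ∀ t ∈ T, t ∈ Bring ε f := by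
    intro t ht
    have : t ∈ Submodule.span ℤ (T : Set ℂ) := Submodule.subset_span ht
    rw [hT] at this
    exact this
  classical
  let g : ℂ → L := fun b => if hb : b ∈ Bring ε f then (hex b hb).choose else 0
  have hg : ∀ b ∈ Bring ε f, ι (g b) = b := by
    intro b hb
    simp only [g, dif_pos hb]
    exact (hex b hb).choose_spec
  have hint : ∀ x : L, IsIntegral ℤ (ι x) → IsIntegral ℤ x := by
    intro x hx
    exact (isIntegral_algHom_iff (ι.toIntAlgHom) ι.injective).1 hx
  let K : IntermediateField ℚ L := IntermediateField.adjoin ℚ (g '' T)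
  have hfin : FiniteDimensional ℚ K := by
    have : Finite (g '' (T : Set ℂ)) := (T.finite_toSet.image g)
    refine IntermediateField.finiteDimensional_adjoin fun x _ => ?_
    exact Algebra.IsIntegral.isIntegral x
  refine ⟨K, hfin, fun b hb => ?_⟩
  have h1 : b ∈ Submodule.span ℤ (T : Set ℂ) := by rw [hT]; exact hb
  have key : ∀ b ∈ Submodule.span ℤ (T : Set ℂ), ∃ b' ∈ K, ι b' = b := by
    intro b hb
    induction hb using Submodule.span_induction with
    | mem t ht => exact ⟨g t, IntermediateField.subset_adjoin _ _ ⟨t, ht, rfl⟩, hg t (hTB t ht)⟩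
    | zero => exact ⟨0, zero_mem _, map_zero _⟩
    | add s t _ _ h1 h2 =>
      obtain ⟨s', hs', rfl⟩ := h1
      obtain ⟨t', ht', rfl⟩ := h2
      exact ⟨s' + t', add_mem hs' ht', map_add _ _ _⟩
    | smul c s _ h1 =>
      obtain ⟨s', hs', rfl⟩ := h1
      exact ⟨c • s', zsmul_mem hs' c, by rw [map_zsmul]⟩
  obtain ⟨b', hb', hb''⟩ := key b h1
  refine ⟨b', hb', hint b' ?_, hb''⟩
  rw [hb'']
  exact h.isIntegral hb

end Fermat.Agent.DS
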