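import Mathlib

/-!
# Counting elements with an eigenvalue of exact order `P` in finite subgroups of `SL₂`
-/

set_option autoImplicit false
set_option linter.style.haveILetI false

namespace Fermat.Agent.DS

open Finset Matrix

variable {F : Type*} [Field F]

theorem pow_identity {g : Matrix (Fin 2) (Fin 2) F} {χ : F} (hχ : χ ≠ 0)
    (hg : g * g = (χ + χ⁻¹) • g - 1) (i : ℕ) :
    (χ - χ⁻¹) • g ^ (i + 1) = (χ ^ (i + 1) - (χ⁻¹) ^ (i + 1)) • g - (χ ^ i - (χ⁻¹) ^ i) • 1 := by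
  induction i with
  | zero => simp
  | succ i ih =>
    rw [pow_succ, ← smul_mul_assoc, ih, sub_mul, smul_mul_assoc, hg, smul_mul_assoc, one_mul]
    have h1 : χ * χ⁻¹ = 1 := mul_inv_cancel₀ hχ
    rw [smul_sub, smul_smul]
    have e1 : (χ ^ (i + 1) - (χ⁻¹) ^ (i + 1)) * (χ + χ⁻¹) - (χ ^ i - (χ⁻¹) ^ i) =
        χ ^ (i + 1 + 1) - (χ⁻¹) ^ (i + 1 + 1) := by
      have : χ ^ (i + 1) * χ⁻¹ = χ ^ i := by rw [pow_succ, mul_assoc, h1, mul_one]
      have h3 : (χ⁻¹) ^ (i + 1) * χ = (χ⁻¹) ^ i := by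
        rw [pow_succ, mul_assoc, inv_mul_cancel₀ hχ, mul_one]
      calc _ = χ ^ (i + 1 + 1) - (χ⁻¹) ^ (i + 1 + 1) + (χ ^ (i + 1) * χ⁻¹ - χ ^ i) -
            ((χ⁻¹) ^ (i + 1) * χ - (χ⁻¹) ^ i) := by ring
        _ = _ := by rw [this, h3]; ring
    rw [← e1, sub_smul ((χ ^ (i + 1) - (χ⁻¹) ^ (i + 1)) * (χ + χ⁻¹))]
    abel

theorem mul_self_eq {g : Matrix (Fin 2) (Fin 2) F} {χ : F} (hχ : χ ≠ 0) (hdet : g.det = 1)
    (hroot : g.charpoly.IsRoot χ) : g.trace = χ + χ⁻¹ ∧ g * g = (χ + χ⁻¹) • g - 1 := by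
  have h1 : g.trace = χ + χ⁻¹ := by
    rw [Matrix.charpoly_fin_two, Polynomial.IsRoot.def] at hroot
    simp only [Polynomial.eval_add, Polynomial.eval_sub, Polynomial.eval_pow, Polynomial.eval_X,
      Polynomial.eval_mul, Polynomial.eval_C, hdet] at hroot
    field_simp
    linear_combination -hroot
  refine ⟨h1, ?_⟩
  rw [← h1]
  have h2 : g.det = g 0 0 * g 1 1 - g 0 1 * g 1 0 := Matrix.det_fin_two g
  rw [h2] at hdet
  ext i j
  fin_cases i <;> fin_cases j <;>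
    simp [Matrix.mul_apply, Fin.sum_univ_two, Matrix.trace_fin_two] <;>
    first
    | linear_combination -hdet
    | linear_combination (0 : F) * hdet

theorem trace_pow {g : Matrix (Fin 2) (Fin 2) F} {χ : F} (hχ : χ ≠ 0) (hne : χ - χ⁻¹ ≠ 0)
    (hdet : g.det = 1) (hroot : g.charpoly.IsRoot χ) (i : ℕ) :
    (g ^ i).trace = χ ^ i + (χ⁻¹) ^ i := by
  cases i with
  | zero => simp; norm_num
  | succ i =>
    obtain ⟨h1, h2⟩ := mul_self_eq hχ hdet hroot
    have h3 := congrArg Matrix.trace (pow_identity hχ h2 i)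
    rw [Matrix.trace_smul, Matrix.trace_sub, Matrix.trace_smul, Matrix.trace_smul, h1,
      Matrix.trace_one, Fintype.card_fin] at h3
    simp only [smul_eq_mul] at h3
    apply mul_left_cancel₀ hne
    rw [h3]
    have e : χ * χ⁻¹ = 1 := mul_inv_cancel₀ hχ
    have : χ ^ (i + 1) * χ⁻¹ = χ ^ i := by rw [pow_succ, mul_assoc, e, mul_one]
    have h4 : (χ⁻¹) ^ (i + 1) * χ = (χ⁻¹) ^ i := by
      rw [pow_succ, mul_assoc, inv_mul_cancel₀ hχ, mul_one]
    push_cast
    linear_combination 2 * this - 2 * h4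

/-- **torus counting** -/
theorem torus_count (G : Subgroup (GL (Fin 2) F)) [Finite G] {P : ℕ} (hP : 3 ≤ P) :
    Nat.card {g : G // (g.1 : Matrix (Fin 2) (Fin 2) F).det = 1 ∧
      ∃ ζ : F, IsPrimitiveRoot ζ P ∧ (g.1 : Matrix (Fin 2) (Fin 2) F).charpoly.IsRoot ζ} * (P - 2) ≤
      P.totient * Nat.card G := by
  classical
  letI : Fintype G := Fintype.ofFinite G
  set D : Finset G := Finset.univ.filter fun g : G => (g.1 : Matrix (Fin 2) (Fin 2) F).det = 1 ∧
      ∃ ζ : F, IsPrimitiveRoot ζ P ∧ (g.1 : Matrix (Fin 2) (Fin 2) F).charpoly.IsRoot ζ with hD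
  have hcard : Nat.card {g : G // (g.1 : Matrix (Fin 2) (Fin 2) F).det = 1 ∧
      ∃ ζ : F, IsPrimitiveRoot ζ P ∧ (g.1 : Matrix (Fin 2) (Fin 2) F).charpoly.IsRoot ζ} =
      D.card := by
    rw [Nat.card_eq_fintype_card, Fintype.card_subtype]
  rw [hcard]
  have hP0 : 0 < P := by omega
  haveI : NeZero P := ⟨hP0.ne'⟩
  set J : Finset ℕ := (range P).filter fun i => ¬ P ∣ 2 * i with hJ
  have hJcard : P - 2 ≤ J.card := by
    have h1 : (range P).filter (fun i => P ∣ 2 * i) ⊆ {0, P / 2} := by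
      intro i hi
      rw [Finset.mem_filter, Finset.mem_range] at hi
      obtain ⟨hi1, c, hc⟩ := hi
      rw [Finset.mem_insert, Finset.mem_singleton]
      have hc2 : c < 2 := by
        by_contra h
        push Not at h
        nlinarith
      interval_cases c
      · left; omega
      · right; omega
    have h2 := Finset.card_filter_add_card_filter_not (s := range P) (fun i => P ∣ 2 * i)
    have h3 := Finset.card_le_card h1
    have h4 : ({0, P / 2} : Finset ℕ).card ≤ 2 := Finset.card_le_two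
    rw [Finset.card_range] at h2
    have h5 : ((range P).filter (fun i => P ∣ 2 * i)).card + J.card = P := by
      rw [hJ]; convert h2
    omega
  set S : Finset (G × ℕ) := D ×ˢ J with hS
  have hmap := Finset.card_le_mul_card_image (f := fun x : G × ℕ => x.1 ^ x.2) S P.totient (by
    intro x _
    -- the fibre over `x`
    by_cases hemp : (S.filter fun y => y.1 ^ y.2 = x) = ∅
    · rw [hemp, Finset.card_empty]; exact Nat.zero_le _
    obtain ⟨y₀, hy₀⟩ := Finset.nonempty_iff_ne_empty.2 hemp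
    rw [Finset.mem_filter, hS, Finset.mem_product, hD, hJ, Finset.mem_filter, Finset.mem_filter]
      at hy₀
    obtain ⟨⟨⟨-, hdet₀, ζ₀, hζ₀, hroot₀⟩, -, hi₀⟩, hx₀⟩ := hy₀
    have hreg : ∀ ζ : F, IsPrimitiveRoot ζ P → ζ ≠ 0 ∧ ζ - ζ⁻¹ ≠ 0 := by
      intro ζ hζ
      have h0 : ζ ≠ 0 := hζ.ne_zero hP0.ne'
      refine ⟨h0, fun h => ?_⟩
      have h2 : ζ ^ 2 = 1 := by
        have : ζ = ζ⁻¹ := sub_eq_zero.1 h
        calc ζ ^ 2 = ζ * ζ := sq ζ
          _ = ζ * ζ⁻¹ := by rw [← this]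
          _ = 1 := mul_inv_cancel₀ h0
      have := Nat.le_of_dvd two_pos (hζ.dvd_of_pow_eq_one 2 h2)
      omega
    set μ : F := ζ₀ ^ y₀.2 with hμ
    have hμ0 : μ ≠ 0 := pow_ne_zero _ (hreg ζ₀ hζ₀).1
    have hμr : μ - μ⁻¹ ≠ 0 := by
      intro h
      apply hi₀
      have h2 : μ ^ 2 = 1 := by
        have : μ = μ⁻¹ := sub_eq_zero.1 h
        calc μ ^ 2 = μ * μ := sq μ
          _ = μ * μ⁻¹ := by rw [← this]
          _ = 1 := mul_inv_cancel₀ hμ0
      rw [hμ, ← pow_mul, mul_comm] at h2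
      exact hζ₀.dvd_of_pow_eq_one _ h2
    have hxm : ∀ y : G × ℕ, y.1 ^ y.2 = x →
        ((y.1.1 : Matrix (Fin 2) (Fin 2) F)) ^ y.2 = (x.1 : Matrix (Fin 2) (Fin 2) F) := by
      intro y hy
      rw [← hy]
      simp
    have htr₀ : (x.1 : Matrix (Fin 2) (Fin 2) F).trace = μ + μ⁻¹ := by
      rw [← hxm y₀ hx₀, trace_pow (hreg ζ₀ hζ₀).1 (hreg ζ₀ hζ₀).2 hdet₀ hroot₀, hμ, inv_pow]
    -- choice of the eigenvalue
    have hchoice : ∀ y ∈ S.filter (fun y => y.1 ^ y.2 = x), ∃ χ : F, IsPrimitiveRoot χ P ∧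
        (y.1.1 : Matrix (Fin 2) (Fin 2) F).charpoly.IsRoot χ ∧ χ ^ y.2 = μ := by
      intro y hy
      rw [Finset.mem_filter, hS, Finset.mem_product, hD, hJ, Finset.mem_filter,
        Finset.mem_filter] at hy
      obtain ⟨⟨⟨-, hdet, ζ, hζ, hroot⟩, -, hi⟩, hx⟩ := hy
      have htr := trace_pow (hreg ζ hζ).1 (hreg ζ hζ).2 hdet hroot y.2
      rw [hxm y hx, htr₀] at htr
      have hζi : ζ ^ y.2 ≠ 0 := pow_ne_zero _ (hreg ζ hζ).1
      rw [inv_pow] at htr
      have h1 : (ζ ^ y.2 - μ) * (ζ ^ y.2 - μ⁻¹) = 0 := by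
        field_simp at htr ⊢
        linear_combination -htr
      rcases mul_eq_zero.1 h1 with h2 | h2
      · exact ⟨ζ, hζ, hroot, sub_eq_zero.1 h2⟩
      · refine ⟨ζ⁻¹, hζ.inv, ?_, ?_⟩
        · have h3 := (mul_self_eq (hreg ζ hζ).1 hdet hroot).1
          rw [Matrix.charpoly_fin_two, Polynomial.IsRoot.def]
          simp only [Polynomial.eval_add, Polynomial.eval_sub, Polynomial.eval_pow,
            Polynomial.eval_X, Polynomial.eval_mul, Polynomial.eval_C, hdet, h3]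
          have := (hreg ζ hζ).1
          field_simp
          ring
        · rw [inv_pow, sub_eq_zero.1 h2, inv_inv]
    choose! χ hχ using hchoice
    have hinj : Set.InjOn χ (S.filter (fun y => y.1 ^ y.2 = x) : Set (G × ℕ)) := by
      intro y hy z hz hyz
      rw [Finset.mem_coe] at hy hz
      obtain ⟨hy1, hy2, hy3⟩ := hχ y hy
      obtain ⟨hz1, hz2, hz3⟩ := hχ z hz
      rw [Finset.mem_filter, hS, Finset.mem_product, hD, hJ, Finset.mem_filter,
        Finset.mem_filter] at hy hz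
      obtain ⟨⟨⟨-, hdy, -⟩, hiy, hiy'⟩, hxy⟩ := hy
      obtain ⟨⟨⟨-, hdz, -⟩, hiz, hiz'⟩, hxz⟩ := hz
      have hi : y.2 = z.2 := by
        rw [← hyz] at hz3
        exact hy1.pow_inj (Finset.mem_range.1 hiy) (Finset.mem_range.1 hiz) (hy3.trans hz3.symm)
      obtain ⟨i, hii⟩ : ∃ i, y.2 = i + 1 := by
        refine ⟨y.2 - 1, ?_⟩
        have : y.2 ≠ 0 := by
          intro h
          rw [h] at hiy'
          exact hiy' (dvd_zero _)
        omega
      have hχ0 := (hreg (χ y) hy1).1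
      have e1 := pow_identity hχ0 (mul_self_eq hχ0 hdy hy2).2 i
      have e2 := pow_identity hχ0 (mul_self_eq (g := (z.1.1 : Matrix (Fin 2) (Fin 2) F))
        hχ0 hdz (by rw [hyz]; exact hz2)).2 i
      rw [← hii, hxm y hxy] at e1
      have hzi : z.2 = i + 1 := by rw [← hi, hii]
      rw [← hzi, hxm z hxz, hzi, ← hii, e1] at e2
      have e3 : (χ y ^ y.2 - (χ y)⁻¹ ^ y.2) • (y.1.1 : Matrix (Fin 2) (Fin 2) F) =
          (χ y ^ y.2 - (χ y)⁻¹ ^ y.2) • (z.1.1 : Matrix (Fin 2) (Fin 2) F) := by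
        have := congrArg (fun M => M + (χ y ^ i - (χ y)⁻¹ ^ i) • (1 : Matrix (Fin 2) (Fin 2) F)) e2
        simpa using this
      have hne : χ y ^ y.2 - (χ y)⁻¹ ^ y.2 ≠ 0 := by
        rw [inv_pow, hy3]; exact hμr
      have e4 := smul_right_injective _ hne e3
      exact Prod.ext (Subtype.ext (Units.ext e4)) hi
    have himg : (S.filter (fun y => y.1 ^ y.2 = x)).image χ ⊆ primitiveRoots P F := by
      intro c hc
      obtain ⟨y, hy, rfl⟩ := Finset.mem_image.1 hc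
      exact (mem_primitiveRoots hP0).2 (hχ y hy).1
    rw [← Finset.card_image_of_injOn hinj, ← hζ₀.card_primitiveRoots]
    exact Finset.card_le_card himg)
  have h1 : D.card * (P - 2) ≤ S.card := by
    rw [hS, Finset.card_product]
    exact Nat.mul_le_mul_left _ hJcard
  have h2 : (S.image fun x : G × ℕ => x.1 ^ x.2).card ≤ Nat.card G := by
    rw [Nat.card_eq_fintype_card]
    exact Finset.card_le_univ _
  exact h1.trans (hmap.trans (Nat.mul_le_mul_left _ h2))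

end Fermat.Agent.DS
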