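import Mathlib

/-!
# `φ(P)/P` is small when `P` is divisible by many primes
-/

set_option autoImplicit false

namespace Fermat.Agent.DS

open Finset

theorem totient_le_prod {R : Finset ℕ} (hR : ∀ r ∈ R, r.Prime) {P : ℕ} (hP : 0 < P)
    (h : ∀ r ∈ R, r ∣ P) : (P.totient : ℝ) ≤ P * ∏ r ∈ R, (1 - (r : ℝ)⁻¹) := by
  have h1 : (P.totient : ℝ) = P * ∏ p ∈ P.primeFactors, (1 - (p : ℝ)⁻¹) := by
    have := congrArg (fun q : ℚ => (q : ℝ)) (Nat.totient_eq_mul_prod_factors P)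
    push_cast at this
    exact this
  have h2 : R ⊆ P.primeFactors := fun r hr => Nat.mem_primeFactors.2 ⟨hR r hr, h r hr, hP.ne'⟩
  rw [h1, ← Finset.prod_sdiff h2]
  have h3 : ∏ r ∈ P.primeFactors \ R, (1 - (r : ℝ)⁻¹) ≤ 1 := by
    refine Finset.prod_le_one (fun r hr => ?_) (fun r hr => ?_)
    · have hr' : 1 ≤ (r : ℝ) := by
        exact_mod_cast (Nat.prime_of_mem_primeFactors (Finset.mem_sdiff.1 hr).1).one_le
      have := inv_le_one_of_one_le₀ hr'
      linarith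
    · have : (0 : ℝ) ≤ (r : ℝ)⁻¹ := by positivity
      linarith
  have h4 : 0 ≤ ∏ r ∈ R, (1 - (r : ℝ)⁻¹) := by
    refine Finset.prod_nonneg fun r hr => ?_
    have hr' : 1 ≤ (r : ℝ) := by exact_mod_cast (hR r hr).one_le
    have := inv_le_one_of_one_le₀ hr'
    linarith
  refine mul_le_mul_of_nonneg_left ?_ (by positivity)
  exact mul_le_of_le_one_left h4 h3

theorem exists_prod_lt {δ : ℝ} (hδ : 0 < δ) :
    ∃ R : Finset ℕ, (∀ r ∈ R, r.Prime) ∧ ∏ r ∈ R, (1 - (r : ℝ)⁻¹) < δ := by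
  classical
  -- the sum of `1/r` is unbounded
  have h1 : ∀ C : ℝ, ∃ T : Finset Nat.Primes, C < ∑ r ∈ T, ((r : ℕ) : ℝ)⁻¹ := by
    intro C
    by_contra hcon
    push Not at hcon
    have : Summable fun r : Nat.Primes => ((r : ℕ) : ℝ)⁻¹ :=
      summable_of_sum_le (fun r => by positivity) hcon
    exact Nat.Primes.not_summable_one_div (by simpa [one_div] using this)
  obtain ⟨T, hT⟩ := h1 (-Real.log δ)
  refine ⟨T.image (fun r : Nat.Primes => (r : ℕ)), fun r hr => ?_, ?_⟩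
  · obtain ⟨r', -, rfl⟩ := Finset.mem_image.1 hr
    exact r'.2
  · rw [Finset.prod_image (g := fun r : Nat.Primes => (r : ℕ))
      (fun a _ b _ h => Nat.Primes.coe_nat_injective h)]
    calc ∏ r ∈ T, (1 - (((r : ℕ) : ℝ))⁻¹) ≤ ∏ r ∈ T, Real.exp (-(((r : ℕ) : ℝ))⁻¹) := by
          refine Finset.prod_le_prod (fun r _ => ?_) (fun r _ => ?_)
          · have hr' : 1 ≤ ((r : ℕ) : ℝ) := by exact_mod_cast r.2.one_le
            have := inv_le_one_of_one_le₀ hr'
            linarith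
          · have := Real.add_one_le_exp (-(((r : ℕ) : ℝ))⁻¹)
            linarith
      _ = Real.exp (-∑ r ∈ T, (((r : ℕ) : ℝ))⁻¹) := by
          rw [← Real.exp_sum, Finset.sum_neg_distrib]
      _ < Real.exp (Real.log δ) := Real.exp_lt_exp.2 (by linarith)
      _ = δ := Real.exp_log hδ

/-- **`φ(P)/P` is small when `P` is divisible by many primes** -/
theorem exists_totient_le {δ : ℝ} (hδ : 0 < δ) :
    ∃ R : Finset ℕ, (∀ r ∈ R, r.Prime) ∧ ∀ P : ℕ, 0 < P → (∀ r ∈ R, r ∣ P) →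
      (P.totient : ℝ) ≤ δ * P := by
  obtain ⟨R, hR, hlt⟩ := exists_prod_lt hδ
  refine ⟨R, hR, fun P hP h => (totient_le_prod hR hP h).trans ?_⟩
  rw [mul_comm]
  exact mul_le_mul_of_nonneg_right hlt.le (by positivity)

end Fermat.Agent.DS
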