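import Fermat.Agent.DS.Conj
import Fermat.Agent.DS.Torus
import Fermat.Agent.DS.Totient

/-!
# Frobenius elements with an eigenvalue of given order
-/

set_option autoImplicit false
set_option linter.style.haveILetI false
set_option linter.unusedSectionVars false

namespace Fermat.Agent.DS

open Fermat.Agent.Places Fermat.Agent.Cheb Filter Topology

section linalg

variable {F : Type*} [Field F]

theorem exists_eigenvector {M : Matrix (Fin 2) (Fin 2) F} {ζ : F} (h : M.charpoly.IsRoot ζ) :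
    ∃ v : Fin 2 → F, v ≠ 0 ∧ M.mulVec v = ζ • v := by
  have h1 : (Matrix.scalar (Fin 2) ζ - M).det = 0 := by
    rw [← Matrix.eval_charpoly]; exact h
  obtain ⟨v, hv, hv'⟩ := Matrix.exists_mulVec_eq_zero_iff.2 h1
  refine ⟨v, hv, ?_⟩
  rw [Matrix.sub_mulVec, sub_eq_zero] at hv'
  rw [← hv']
  ext i
  simp [Matrix.scalar_apply, Matrix.mulVec_diagonal]

theorem isRoot_of_eigenvector {M : Matrix (Fin 2) (Fin 2) F} {ζ : F} {v : Fin 2 → F} (hv : v ≠ 0)
    (h : M.mulVec v = ζ • v) : M.charpoly.IsRoot ζ := by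
  rw [Polynomial.IsRoot.def, Matrix.eval_charpoly]
  refine Matrix.exists_mulVec_eq_zero_iff.1 ⟨v, hv, ?_⟩
  rw [Matrix.sub_mulVec, h, sub_eq_zero]
  ext i
  simp [Matrix.scalar_apply, Matrix.mulVec_diagonal]

theorem pow_mulVec {M : Matrix (Fin 2) (Fin 2) F} {ζ : F} {v : Fin 2 → F}
    (h : M.mulVec v = ζ • v) (n : ℕ) : (M ^ n).mulVec v = ζ ^ n • v := by
  induction n with
  | zero => simp
  | succ n ih => rw [pow_succ, ← Matrix.mulVec_mulVec, h, Matrix.mulVec_smul, ih, smul_smul, pow_succ']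

theorem eigen_ne_zero {g : GL (Fin 2) F} {ζ : F} {v : Fin 2 → F} (hv : v ≠ 0)
    (h : (g : Matrix (Fin 2) (Fin 2) F).mulVec v = ζ • v) : ζ ≠ 0 := by
  rintro rfl
  rw [zero_smul] at h
  apply hv
  have h1 : ((g⁻¹ : GL (Fin 2) F) : Matrix (Fin 2) (Fin 2) F).mulVec
      ((g : Matrix (Fin 2) (Fin 2) F).mulVec v) = v := by
    rw [Matrix.mulVec_mulVec, ← Matrix.GeneralLinearGroup.coe_mul, inv_mul_cancel]
    simp
  rw [← h1, h, Matrix.mulVec_zero]

/-- finite order elements: equal cyclic subgroups -/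
theorem exists_primitive_of_zpowers {g g' : GL (Fin 2) F} (hfin : IsOfFinOrder g)
    (h : Subgroup.zpowers g = Subgroup.zpowers g') {P : ℕ}
    (hg : ∃ ζ : F, IsPrimitiveRoot ζ P ∧ (g : Matrix (Fin 2) (Fin 2) F).charpoly.IsRoot ζ) :
    ∃ ζ : F, IsPrimitiveRoot ζ P ∧ (g' : Matrix (Fin 2) (Fin 2) F).charpoly.IsRoot ζ := by
  obtain ⟨ζ, hζ, hroot⟩ := hg
  obtain ⟨v, hv, hgv⟩ := exists_eigenvector hroot
  have hg' : g' ∈ Submonoid.powers g := by
    rw [hfin.mem_powers_iff_mem_zpowers, h]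
    exact Subgroup.mem_zpowers _
  obtain ⟨a, rfl⟩ := hg'
  have hfin' : IsOfFinOrder (g ^ a) := hfin.pow
  have hg'' : g ∈ Submonoid.powers (g ^ a) := by
    rw [hfin'.mem_powers_iff_mem_zpowers, ← h]
    exact Subgroup.mem_zpowers _
  obtain ⟨b, hb⟩ := hg''
  have h1 : ((g ^ a : GL (Fin 2) F) : Matrix (Fin 2) (Fin 2) F).mulVec v = ζ ^ a • v := by
    have := pow_mulVec hgv a
    rwa [← Units.val_pow_eq_pow_val] at this
  have h2 : (ζ ^ a) ^ b • v = ζ • v := by
    have := pow_mulVec h1 b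
    rw [← Units.val_pow_eq_pow_val] at this
    rw [← this, show (g ^ a) ^ b = g from hb, hgv]
  have h3 : (ζ ^ a) ^ b = ζ := by
    obtain ⟨i, hi⟩ := Function.ne_iff.1 hv
    have := congrFun h2 i
    simp only [Pi.smul_apply, smul_eq_mul] at this
    exact mul_right_cancel₀ hi this
  refine ⟨ζ ^ a, ⟨?_, fun l hl => ?_⟩, isRoot_of_eigenvector hv h1⟩
  · rw [← pow_mul, mul_comm, pow_mul, hζ.pow_eq_one, one_pow]
  · apply hζ.dvd_of_pow_eq_one
    rw [← h3, ← pow_mul, mul_comm b l, pow_mul, hl, one_pow]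

theorem isRoot_charpoly_iff {M : Matrix (Fin 2) (Fin 2) F} {ζ : F} :
    M.charpoly.IsRoot ζ ↔ ζ ^ 2 - M.trace * ζ + M.det = 0 := by
  rw [Matrix.charpoly_fin_two, Polynomial.IsRoot.def]
  simp

end linalg

variable {L : Type*} [Field L] [CharZero L] [inst : Algebra ℚ L] [IsGalois ℚ L]

theorem finite_range_of_open {G : Type*} [Group G] (ρ : (L ≃ₐ[ℚ] L) →* G)
    (hρ : IsOpen (ρ.ker : Set (L ≃ₐ[ℚ] L))) : Finite ρ.range := by
  haveI : Finite ((L ≃ₐ[ℚ] L) ⧸ ρ.ker) := Subgroup.quotient_finite_of_isOpen _ hρ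
  exact Finite.of_equiv _ (QuotientGroup.quotientKerEquivRange ρ).toEquiv

/-- **upper density of the primes whose Frobenius has an eigenvalue of exact order `P`** -/
theorem UD_eigen {F : Type*} [Field F] (ρ : (L ≃ₐ[ℚ] L) →* GL (Fin 2) F)
    (hρ : IsOpen (ρ.ker : Set (L ≃ₐ[ℚ] L))) {P : ℕ} (hP : 3 ≤ P) {t d : ℕ → F}
    {S₀ : Set Nat.Primes} (hS₀ : S₀.Finite)
    (hfrob : ∀ p ∉ S₀, ∀ A : ValuationSubring L, A.LiesOverPrime p → ∀ τ : L ≃ₐ[ℚ] L,
      A.IsFrobeniusAt τ p → (ρ τ : Matrix (Fin 2) (Fin 2) F).trace = t p ∧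
        (ρ τ : Matrix (Fin 2) (Fin 2) F).det = d p) :
    UD {p : Nat.Primes | d p = 1 ∧ ∃ ζ : F, IsPrimitiveRoot ζ P ∧ ζ ^ 2 - t p * ζ + 1 = 0}
      ((P.totient : ℝ) / (P - 2)) := by
  classical
  haveI hfin : Finite ρ.range := finite_range_of_open ρ hρ
  letI : Fintype ρ.range := Fintype.ofFinite _
  let C : ρ.range → Prop := fun g => (g.1 : Matrix (Fin 2) (Fin 2) F).det = 1 ∧
    ∃ ζ : F, IsPrimitiveRoot ζ P ∧ (g.1 : Matrix (Fin 2) (Fin 2) F).charpoly.IsRoot ζ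
  have hC : ∀ g g' : ρ.range, Subgroup.zpowers g = Subgroup.zpowers g' → C g → C g' := by
    intro g g' h hg
    have hfg : IsOfFinOrder g.1 := by
      exact MonoidHom.isOfFinOrder ρ.range.subtype (isOfFinOrder_of_finite g)
    have h1 : Subgroup.zpowers g.1 = Subgroup.zpowers g'.1 := by
      have := congrArg (Subgroup.map ρ.range.subtype) h
      rwa [MonoidHom.map_zpowers, MonoidHom.map_zpowers] at this
    refine ⟨?_, exists_primitive_of_zpowers hfg h1 hg.2⟩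
    have hg' : g'.1 ∈ Submonoid.powers g.1 := by
      rw [hfg.mem_powers_iff_mem_zpowers, h1]
      exact Subgroup.mem_zpowers _
    obtain ⟨a, ha⟩ := hg'
    rw [← ha]
    change ((g.1 ^ a : GL (Fin 2) F) : Matrix (Fin 2) (Fin 2) F).det = 1
    rw [Units.val_pow_eq_pow_val, Matrix.det_pow, hg.1, one_pow]
  let h : ρ.range → ℝ := fun g => if C g then 1 else 0
  let S : Set Nat.Primes :=
    {p : Nat.Primes | d p = 1 ∧ ∃ ζ : F, IsPrimitiveRoot ζ P ∧ ζ ^ 2 - t p * ζ + 1 = 0}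
  have hmean : HasMean (ind S) ((∑ g : ρ.range, h g) / Fintype.card ρ.range) := by
    refine hasMean_frobenius ρ.rangeRestrict ?_ ρ.rangeRestrict_surjective ?_ hS₀ ?_
    · rwa [MonoidHom.ker_rangeRestrict]
    · intro g g' hgg
      simp only [h]
      by_cases hg : C g
      · rw [if_pos hg, if_pos (hC g g' hgg hg)]
      · rw [if_neg hg, if_neg fun h' => hg (hC g' g hgg.symm h')]
    · intro p hp A hA τ hτ
      obtain ⟨h1, h2⟩ := hfrob p hp A hA τ hτ
      have h3 : C (ρ.rangeRestrict τ) ↔ p ∈ S := by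
        simp only [C, S, Set.mem_ofPred_eq]
        change ((ρ τ : Matrix (Fin 2) (Fin 2) F).det = 1 ∧ ∃ ζ : F, IsPrimitiveRoot ζ P ∧
          (ρ τ : Matrix (Fin 2) (Fin 2) F).charpoly.IsRoot ζ) ↔ _
        simp only [isRoot_charpoly_iff]
        rw [h1, h2]
        constructor
        · rintro ⟨h4, ζ, h5, h6⟩
          exact ⟨h4, ζ, h5, by rw [h4] at h6; exact h6⟩
        · rintro ⟨h4, ζ, h5, h6⟩
          exact ⟨h4, ζ, h5, by rw [h4]; exact h6⟩
      simp only [h, ind, h3]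
      split_ifs <;> rfl
  have hle : (∑ g : ρ.range, h g) / Fintype.card ρ.range ≤ (P.totient : ℝ) / (P - 2) := by
    have h1 : (∑ g : ρ.range, h g) = Nat.card {g : ρ.range // C g} := by
      simp only [h]
      rw [Finset.sum_boole, Nat.card_eq_fintype_card, Fintype.card_subtype]
    have h2 := torus_count ρ.range hP
    have hP' : (0 : ℝ) < P - 2 := by
      have : (3 : ℝ) ≤ P := by exact_mod_cast hP
      linarith
    have hcard : (0 : ℝ) < Fintype.card ρ.range := by exact_mod_cast Fintype.card_pos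
    rw [h1, div_le_div_iff₀ hcard hP']
    have h3 : ((Nat.card {g : ρ.range // C g} * (P - 2) : ℕ) : ℝ) ≤
        ((P.totient * Nat.card ρ.range : ℕ) : ℝ) := Nat.cast_le.2 h2
    rw [Nat.cast_mul, Nat.cast_sub (by omega), Nat.cast_mul,
      Nat.card_eq_fintype_card (α := ρ.range)] at h3
    exact h3
  exact (UD.of_hasMean hmean fun p => le_rfl).mono subset_rfl hle

/-- eigenvalues of elements of a finite image are roots of unity -/
theorem eigen_finite {F : Type*} [Field F] (ρ : (L ≃ₐ[ℚ] L) →* GL (Fin 2) F)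
    (hρ : IsOpen (ρ.ker : Set (L ≃ₐ[ℚ] L))) {τ : L ≃ₐ[ℚ] L} {v : Fin 2 → F} (hv : v ≠ 0) {ζ : F}
    (h : (ρ τ : Matrix (Fin 2) (Fin 2) F).mulVec v = ζ • v) : ∃ n : ℕ, 0 < n ∧ ζ ^ n = 1 := by
  haveI := finite_range_of_open ρ hρ
  have h5 : IsOfFinOrder (ρ τ) := by
    have h6 := isOfFinOrder_of_finite (ρ.rangeRestrict τ)
    exact MonoidHom.isOfFinOrder ρ.range.subtype h6
  obtain ⟨n, hn, hn1⟩ := isOfFinOrder_iff_pow_eq_one.1 h5
  have h6 := pow_mulVec h n
  rw [← Units.val_pow_eq_pow_val, hn1, Units.val_one, Matrix.one_mulVec] at h6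
  refine ⟨n, hn, ?_⟩
  obtain ⟨i, hi⟩ := Function.ne_iff.1 hv
  have h7 := congrFun h6 i
  simp only [Pi.smul_apply, smul_eq_mul] at h7
  have hi' : v i ≠ 0 := hi
  exact mul_right_cancel₀ hi' (by rw [← h7, one_mul])

section residual

/-- reduction of algebraic integers at a place -/
noncomputable def redI (A : ValuationSubring L) :
    integralClosure ℤ L →+* IsLocalRing.ResidueField A :=
  (IsLocalRing.residue A).comp
    ((algebraMap (integralClosure ℤ L) L).codRestrict A fun x => mem_of_isIntegral_int A x.2)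

theorem redI_eq_zero_iff {A : ValuationSubring L} {x : integralClosure ℤ L} :
    redI A x = 0 ↔ (x : L) ∈ A.nonunits := by
  rw [redI, RingHom.comp_apply, IsLocalRing.residue_eq_zero_iff]
  constructor
  · intro h
    have : ((x : L)) ∈ (A.nonunits : Set L) := by
      rw [← ValuationSubring.image_maximalIdeal]
      exact ⟨_, h, rfl⟩
    exact this
  · intro h
    have h1 : ((x : L)) ∈ (A.nonunits : Set L) := h
    rw [← ValuationSubring.image_maximalIdeal] at h1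
    obtain ⟨y, hy, hxy⟩ := h1
    have h2 : y = ((algebraMap (integralClosure ℤ L) L).codRestrict A
      fun x => mem_of_isIntegral_int A x.2) x := Subtype.ext hxy
    rw [← h2]; exact hy

theorem redI_eq_iff {A : ValuationSubring L} {x y : integralClosure ℤ L} :
    redI A x = redI A y ↔ (x : L) - y ∈ A.nonunits := by
  rw [← sub_eq_zero, ← map_sub, redI_eq_zero_iff]
  rfl

/-- the residual representations attached to the eigenvalues `α p`, `e p` -/
structure IsRes (N : ℕ) (α e : ℕ → integralClosure ℤ L) (A : ValuationSubring L) (ℓ : ℕ)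
    (ρ : (L ≃ₐ[ℚ] L) →* GL (Fin 2) (IsLocalRing.ResidueField A)) : Prop where
  open_ker : IsOpen (ρ.ker : Set (L ≃ₐ[ℚ] L))
  unr : ∀ p : ℕ, p.Prime → ¬ p ∣ N → p ≠ ℓ → ∀ A' : ValuationSubring L, A'.LiesOverPrime p →
    ∀ σ ∈ A'.inertiaSubgroupIn ℚ, ρ σ = 1
  trace : ∀ p : ℕ, p.Prime → ¬ p ∣ N → p ≠ ℓ → ∀ A' : ValuationSubring L, A'.LiesOverPrime p →
    ∀ τ : L ≃ₐ[ℚ] L, A'.IsFrobeniusAt τ p →
      (ρ τ : Matrix (Fin 2) (Fin 2) (IsLocalRing.ResidueField A)).trace = redI A (α p)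
  det : ∀ p : ℕ, p.Prime → ¬ p ∣ N → p ≠ ℓ → ∀ A' : ValuationSubring L, A'.LiesOverPrime p →
    ∀ τ : L ≃ₐ[ℚ] L, A'.IsFrobeniusAt τ p →
      (ρ τ : Matrix (Fin 2) (Fin 2) (IsLocalRing.ResidueField A)).det = redI A (e p)

/-- existence of the residual representations at all places of large residue characteristic -/
def HasRes (N : ℕ) (α e : ℕ → integralClosure ℤ L) (ℓ₀ : ℕ) : Prop :=
  ∀ ℓ : ℕ, ℓ.Prime → ℓ₀ ≤ ℓ → ∀ A : ValuationSubring L, A.LiesOverPrime ℓ →
    ∃ ρ : (L ≃ₐ[ℚ] L) →* GL (Fin 2) (IsLocalRing.ResidueField A), IsRes N α e A ℓ ρ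

theorem finite_exceptional {N : ℕ} (hN : N ≠ 0) (ℓ : ℕ) :
    {p : Nat.Primes | (p : ℕ) ∣ N ∨ (p : ℕ) = ℓ}.Finite := by
  have h1 : ((N.divisors ∪ {ℓ} : Finset ℕ) : Set ℕ).Finite := Finset.finite_toSet _
  refine (h1.preimage (f := fun p : Nat.Primes => (p : ℕ))
    Nat.Primes.coe_nat_injective.injOn).subset ?_
  rintro p (hp | hp)
  · simp only [Set.mem_preimage, Finset.coe_union, Set.mem_union, Finset.mem_coe]
    left
    exact Nat.mem_divisors.2 ⟨hp, hN⟩
  · simp only [Set.mem_preimage, Finset.coe_union, Set.mem_union, Finset.mem_coe]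
    right
    simpa using hp

variable [IsAlgClosed L]

/-- **values `u + u⁻¹` with `u` not a root of unity are taken on a set of density zero** -/
theorem UD_value {N : ℕ} (hN : N ≠ 0) {α e : ℕ → integralClosure ℤ L} {ℓ₀ : ℕ}
    (hres : HasRes N α e ℓ₀) {u : integralClosure ℤ L} {y : integralClosure ℤ L}
    (hu : u ^ 2 - y * u + 1 = 0) (hnr : ∀ n : ℕ, 0 < n → u ^ n ≠ 1) :
    UD {p : Nat.Primes | ¬ (p : ℕ) ∣ N ∧ e p = 1 ∧ α p = y} 0 := by
  classical
  have hu0 : (u : L) ≠ 0 := by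
    intro h
    have h1 : u = 0 := Subtype.ext h
    rw [h1] at hu
    simp at hu
  have hnr' : ∀ n : ℕ, 0 < n → (u : L) ^ n ≠ 1 := fun n hn h => hnr n hn (Subtype.ext (by simpa using h))
  refine UD.of_forall fun η hη => ?_
  rw [zero_add]
  obtain ⟨R, hR, hRP⟩ := exists_totient_le (show (0 : ℝ) < η / 3 by positivity)
  obtain ⟨ℓ, hℓS, A, hA, hord⟩ := exists_place_order u.2 hu0 hnr' (insert 3 R)
    (fun r hr => by
      rcases Finset.mem_insert.1 hr with rfl | h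
      · exact Nat.prime_three
      · exact hR r h) (S := {p : Nat.Primes | (p : ℕ) < ℓ₀}) (UD.of_finite (by
        exact (Set.finite_lt_nat ℓ₀).preimage Nat.Primes.coe_nat_injective.injOn))
  have hℓ : ℓ₀ ≤ ℓ := by
    by_contra h
    exact hℓS (by simpa using h)
  obtain ⟨ρ, hρ⟩ := hres ℓ ℓ.2 hℓ A hA
  have hS₀ := finite_exceptional hN ℓ
  have hS₀' : ∀ p : Nat.Primes, p ∉ {p : Nat.Primes | (p : ℕ) ∣ N ∨ (p : ℕ) = ℓ} →
      ¬ (p : ℕ) ∣ N ∧ (p : ℕ) ≠ ℓ := by
    intro p hp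
    rw [Set.mem_ofPred_eq, not_or] at hp
    exact hp
  have hub : (redI A u) ^ 2 - redI A y * redI A u + 1 = 0 := by
    have := congrArg (redI A) hu
    rwa [map_add, map_sub, map_pow, map_mul, map_one, map_zero] at this
  by_cases hfin : ∃ n : ℕ, 0 < n ∧ (redI A u) ^ n = 1
  · obtain ⟨P, hP⟩ : ∃ P, P = orderOf (redI A u) := ⟨_, rfl⟩
    have hP0 : 0 < P := by
      rw [hP, orderOf_pos_iff, isOfFinOrder_iff_pow_eq_one]
      exact hfin
    have hdvd : ∀ r ∈ insert 3 R, r ∣ P := by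
      refine hord P ?_
      have h1 : redI A (u ^ P) = redI A 1 := by
        rw [map_pow, map_one, hP, pow_orderOf_eq_one]
      rw [redI_eq_iff] at h1
      simpa using h1
    have hP3 : 3 ≤ P := Nat.le_of_dvd hP0 (hdvd 3 (Finset.mem_insert_self _ _))
    have h1 := UD_eigen ρ hρ.open_ker hP3 (t := fun p => redI A (α p)) (d := fun p => redI A (e p))
      hS₀ (fun p hp A' hA' τ hτ => ⟨hρ.trace p p.2 (hS₀' p hp).1 (hS₀' p hp).2 A' hA' τ hτ,
        hρ.det p p.2 (hS₀' p hp).1 (hS₀' p hp).2 A' hA' τ hτ⟩)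
    refine h1.mono ?_ ?_
    · rintro p ⟨hpN, hep, hap⟩
      refine ⟨by simp only [hep, map_one], redI A u, ?_, ?_⟩
      · rw [hP]; exact IsPrimitiveRoot.orderOf _
      · simp only [hap]; exact hub
    · have h2 := hRP P hP0 fun r hr => hdvd r (Finset.mem_insert_of_mem hr)
      have h3 : (3 : ℝ) ≤ P := by exact_mod_cast hP3
      rw [div_le_iff₀ (by linarith)]
      refine h2.trans ?_
      nlinarith
  · -- `u` is not a root of unity modulo `A`: impossible
    push Not at hfin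
    have h1 : UD {p : Nat.Primes | (p : ℕ) ∣ N ∨ (p : ℕ) = ℓ} 0 := UD.of_finite hS₀
    refine h1.mono ?_ hη.le
    rintro p ⟨hpN, hep, hap⟩
    by_contra hp
    obtain ⟨A', hA'⟩ := exists_liesOverPrime L p.2
    obtain ⟨τ, hτ⟩ := exists_isFrobeniusAt A' p.2 hA'
    have h2 := hρ.trace p p.2 (hS₀' p hp).1 (hS₀' p hp).2 A' hA' τ hτ
    have h3 := hρ.det p p.2 (hS₀' p hp).1 (hS₀' p hp).2 A' hA' τ hτ
    have h4 : (ρ τ : Matrix (Fin 2) (Fin 2) (IsLocalRing.ResidueField A)).charpoly.IsRoot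
        (redI A u) := by
      rw [isRoot_charpoly_iff, h2, h3, hap, hep, map_one]
      exact hub
    obtain ⟨v, hv, hgv⟩ := exists_eigenvector h4
    obtain ⟨n, hn, hn1⟩ := eigen_finite ρ hρ.open_ker hv hgv
    exact hfin n hn hn1

end residual

end Fermat.Agent.DS
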