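import Fermat.Agent.DS.Bad

/-!
# The eigenvalues of the residual representations have bounded order
-/

set_option autoImplicit false
set_option linter.style.haveILetI false
set_option linter.unusedSectionVars false

namespace Fermat.Agent.DS

open Fermat.Agent.Places Fermat.Agent.Cheb Fermat.Agent.GalRep Filter Topology

variable {L : Type*} [Field L] [CharZero L] [inst : Algebra ℚ L] [IsGalois ℚ L] [IsAlgClosed L]

theorem exists_ext (K : IntermediateField ℚ L) (τ : K →+* ℂ) :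
    ∃ σ : L →+* ℂ, ∀ x : K, σ x = τ x := by
  letI : Algebra K ℂ := τ.toAlgebra
  haveI : Algebra.IsAlgebraic K L := Algebra.IsAlgebraic.tower_top (K := ℚ) K
  exact ⟨(IsAlgClosed.lift (R := K) (S := L) (M := ℂ)).toRingHom, fun x =>
    (IsAlgClosed.lift (R := K) (S := L) (M := ℂ)).commutes x⟩

theorem exists_root_bound (K : IntermediateField ℚ L) [FiniteDimensional ℚ K] :
    ∃ B : ℕ, 0 < B ∧ ∀ u y : integralClosure ℤ L, u ^ 2 - y * u + 1 = 0 → (y : L) ∈ K →
      (∃ n : ℕ, 0 < n ∧ u ^ n = 1) → u ^ B = 1 := by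
  classical
  haveI : NumberField K := numberField_of K
  have hfin := NumberField.Embeddings.finite_of_norm_le K ℂ 2
  have hYfin : {y : integralClosure ℤ L | ∃ h : (y : L) ∈ K,
      ∀ φ : K →+* ℂ, ‖φ ⟨y, h⟩‖ ≤ 2}.Finite := by
    have h1 : ((fun x : K => (x : L)) '' {x : K | IsIntegral ℤ x ∧ ∀ φ : K →+* ℂ, ‖φ x‖ ≤ 2}).Finite :=
      hfin.image _
    refine (h1.preimage (f := fun y : integralClosure ℤ L => (y : L))
      Subtype.val_injective.injOn).subset ?_
    rintro y ⟨h, hy⟩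
    refine ⟨⟨y, h⟩, ⟨?_, hy⟩, rfl⟩
    exact (isIntegral_algHom_iff ((algebraMap K L).toIntAlgHom) (algebraMap K L).injective).1 y.2
  have hUfin : {u : integralClosure ℤ L | ∃ y : integralClosure ℤ L, u ^ 2 - y * u + 1 = 0 ∧
      (y : L) ∈ K ∧ ∃ n : ℕ, 0 < n ∧ u ^ n = 1}.Finite := by
    have h2 : (⋃ y ∈ {y : integralClosure ℤ L | ∃ h : (y : L) ∈ K,
        ∀ φ : K →+* ℂ, ‖φ ⟨y, h⟩‖ ≤ 2},
        {u : integralClosure ℤ L | (Polynomial.X ^ 2 - Polynomial.C y * Polynomial.X + 1).IsRoot u}).Finite := by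
      refine hYfin.biUnion fun y _ => Polynomial.finite_setOfPred_isRoot ?_
      intro h0
      have := congrArg (fun P : Polynomial (integralClosure ℤ L) => P.coeff 0) h0
      simp at this
    refine h2.subset ?_
    rintro u ⟨y, huy, hyK, n, hn, hun⟩
    simp only [Set.mem_iUnion]
    refine ⟨y, ⟨hyK, fun φ => ?_⟩, ?_⟩
    · obtain ⟨σ, hσ⟩ := exists_ext K φ
      have h3 : φ ⟨y, hyK⟩ = σ y := (hσ ⟨y, hyK⟩).symm
      have h4 : ‖σ (u : L)‖ = 1 := by
        have h5 : (σ (u : L)) ^ n = 1 := by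
          rw [← map_pow, ← SubmonoidClass.coe_pow, hun]
          exact map_one σ
        exact Complex.norm_eq_one_of_pow_eq_one h5 hn.ne'
      have hu0 : (u : L) ≠ 0 := by
        intro h
        rw [h, map_zero, norm_zero] at h4
        exact zero_ne_one h4
      have h6 : (y : L) = u + (u : L)⁻¹ := by
        have h7 : (u : L) ^ 2 - y * u + 1 = 0 := by
          have := congrArg (fun z : integralClosure ℤ L => (z : L)) huy
          simpa using this
        field_simp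
        linear_combination -h7
      rw [h3, h6, map_add, map_inv₀]
      refine (norm_add_le _ _).trans ?_
      rw [norm_inv, h4]
      norm_num
    · simp only [Set.mem_ofPred_eq, Polynomial.IsRoot.def]
      simpa using huy
  refine ⟨∏ u ∈ hUfin.toFinset, orderOf u, ?_, fun u y huy hyK hn => ?_⟩
  · refine Finset.prod_pos fun u hu => ?_
    rw [Set.Finite.mem_toFinset] at hu
    obtain ⟨y, -, -, n, hn, hun⟩ := hu
    rw [orderOf_pos_iff, isOfFinOrder_iff_pow_eq_one]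
    exact ⟨n, hn, hun⟩
  · apply orderOf_dvd_iff_pow_eq_one.1
    exact Finset.dvd_prod_of_mem _ ((Set.Finite.mem_toFinset _).2 ⟨y, huy, hyK, hn⟩)

omit [IsGalois ℚ L] in
theorem exists_root_int (a b : integralClosure ℤ L) :
    ∃ u : integralClosure ℤ L, u ^ 2 - a * u + b = 0 := by
  obtain ⟨x, hx⟩ := IsAlgClosed.exists_root
    (Polynomial.X ^ 2 - Polynomial.C (a : L) * Polynomial.X + Polynomial.C (b : L)) (by
      have : (Polynomial.X ^ 2 - Polynomial.C (a : L) * Polynomial.X + Polynomial.C (b : L)).degree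
        = 2 := by compute_degree!
      rw [this]; norm_num)
  have hx' : x ^ 2 - a * x + b = 0 := by simpa using hx
  have hint : IsIntegral ℤ x := by
    have h1 : IsIntegral (integralClosure ℤ L) x := by
      refine ⟨Polynomial.X ^ 2 - Polynomial.C a * Polynomial.X + Polynomial.C b, ?_, ?_⟩
      · monicity!
      · simpa using hx'
    exact isIntegral_trans (R := ℤ) (A := integralClosure ℤ L) x h1
  exact ⟨⟨x, hint⟩, Subtype.ext (by simpa using hx')⟩

/-- **the eigenvalues of the residual representations are killed by a uniform integer** -/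
theorem exists_eigen_bound {N : ℕ} (hN : N ≠ 0) {α e : ℕ → integralClosure ℤ L} {ℓ₀ : ℕ}
    (hres : HasRes N α e ℓ₀) (K : IntermediateField ℚ L) [FiniteDimensional ℚ K]
    (hαK : ∀ p, (α p : L) ∈ K) {m : ℕ} (hm : 0 < m)
    (he : ∀ p : ℕ, p.Prime → ¬ p ∣ N → e p ^ m = 1)
    (hR : ∀ σ : L →+* ℂ, ∃ C' : ℝ, ∀ s : ℝ, 1 < s → s ≤ 2 → ∀ F : Finset ℕ,
      (∀ p ∈ F, p.Prime ∧ ¬ p ∣ N) →
      ∑ p ∈ F, ‖σ (α p)‖ ^ 2 * (p : ℝ) ^ (-s) ≤ Real.log (1 / (s - 1)) + C') :
    ∃ B : ℕ, 0 < B ∧ ∀ ℓ : ℕ, ℓ.Prime → m < ℓ → ∀ A : ValuationSubring L, A.LiesOverPrime ℓ →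
      ∀ ρ : (L ≃ₐ[ℚ] L) →* GL (Fin 2) (IsLocalRing.ResidueField A), IsRes N α e A ℓ ρ →
      ∀ (g : L ≃ₐ[ℚ] L) (v : Fin 2 → IsLocalRing.ResidueField A) (ζ : IsLocalRing.ResidueField A),
        v ≠ 0 → (ρ g : Matrix (Fin 2) (Fin 2) (IsLocalRing.ResidueField A)).mulVec v = ζ • v →
        ζ ^ B = 1 := by
  obtain ⟨B₀, hB₀, hB⟩ := exists_root_bound K
  refine ⟨m * B₀, Nat.mul_pos hm hB₀, fun ℓ hℓ hmℓ A hA ρ hρ g v ζ hv hgv => ?_⟩
  have hζ0 : ζ ≠ 0 := eigen_ne_zero hv hgv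
  -- the exceptional set
  let bad : L → Prop := fun y => ∃ u y' : integralClosure ℤ L, (y' : L) = y ∧
    u ^ 2 - y' * u + 1 = 0 ∧ ∀ n : ℕ, 0 < n → u ^ n ≠ 1
  have hbad : UD {p : Nat.Primes | ¬ (p : ℕ) ∣ N ∧ e p = 1 ∧ bad (α p)} 0 := by
    refine UD_bad K (α := fun p => (α p : L)) hαK (fun p => (α p).2) hR (fun p => e p = 1) bad ?_
    rintro y hyK hyi ⟨u, y', rfl, huy, hnr⟩
    have h1 := UD_value hN hres huy hnr
    refine h1.mono ?_ le_rfl
    rintro p ⟨h2, h3, h4⟩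
    exact ⟨h2, h3, Subtype.ext h4⟩
  have hS : UD ({p : Nat.Primes | ¬ (p : ℕ) ∣ N ∧ e p = 1 ∧ bad (α p)} ∪
      {p : Nat.Primes | (p : ℕ) ∣ N ∨ (p : ℕ) = ℓ}) 0 := by
    have := hbad.union (UD.of_finite (finite_exceptional hN ℓ))
    rwa [add_zero] at this
  -- the determinant of `ρ` has order dividing `m`
  have hdet : ∀ g : L ≃ₐ[ℚ] L,
      (ρ g : Matrix (Fin 2) (Fin 2) (IsLocalRing.ResidueField A)).det ^ m = 1 := by
    intro g
    obtain ⟨p, hp, A', hA', τ, hτ, n, -, hn, -⟩ := exists_frobenius_avoiding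
      (UD.of_finite (finite_exceptional hN ℓ)) ρ.ker hρ.open_ker g
    rw [Set.mem_ofPred_eq, not_or] at hp
    have h1 : ρ g = ρ τ ^ n := by
      rw [MonoidHom.mem_ker, map_mul, map_inv, map_pow, inv_mul_eq_one] at hn
      exact hn
    rw [h1, Units.val_pow_eq_pow_val, Matrix.det_pow, hρ.det p p.2 hp.1 hp.2 A' hA' τ hτ,
      ← map_pow, ← map_pow, ← pow_mul, mul_comm, pow_mul, he p p.2 hp.1, one_pow, map_one]
  -- apply the density theorem to `g ^ m`
  obtain ⟨p, hp, A', hA', τ, hτ, n, m', hn, hm'⟩ :=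
    exists_frobenius_avoiding hS ρ.ker hρ.open_ker (g ^ m)
  rw [Set.mem_union, not_or] at hp
  obtain ⟨hp1, hp2⟩ := hp
  rw [Set.mem_ofPred_eq, not_or] at hp2
  have h1 : ρ (g ^ m) = ρ τ ^ n := by
    rw [MonoidHom.mem_ker, map_mul, map_inv, map_pow ρ τ, inv_mul_eq_one] at hn
    exact hn
  have h2 : ρ τ = ρ (g ^ m) ^ m' := by
    rw [MonoidHom.mem_ker, map_mul, map_inv, map_pow ρ (g ^ m), inv_mul_eq_one] at hm'
    exact hm'
  have h3 : (ρ (g ^ m) : Matrix (Fin 2) (Fin 2) (IsLocalRing.ResidueField A)).mulVec v =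
      ζ ^ m • v := by
    rw [map_pow, Units.val_pow_eq_pow_val]
    exact pow_mulVec hgv m
  have h4 : (ρ τ : Matrix (Fin 2) (Fin 2) (IsLocalRing.ResidueField A)).mulVec v =
      (ζ ^ m) ^ m' • v := by
    rw [h2, Units.val_pow_eq_pow_val]
    exact pow_mulVec h3 m'
  -- `e p = 1`
  have h5 : redI A (e p) = 1 := by
    rw [← hρ.det p p.2 hp2.1 hp2.2 A' hA' τ hτ, h2, Units.val_pow_eq_pow_val, Matrix.det_pow,
      map_pow, Units.val_pow_eq_pow_val, Matrix.det_pow, hdet, one_pow]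
  have h6 : e p = 1 := by
    rw [← map_one (redI A), redI_eq_iff] at h5
    have h7 : ((e p : integralClosure ℤ L) : L) = ((1 : integralClosure ℤ L) : L) := by
      refine eq_of_sub_mem_nonunits hA ?_ ?_ ?_ hm.ne' h5
      · exact (Nat.Prime.coprime_iff_not_dvd hℓ).2 fun h => absurd (Nat.le_of_dvd hm h) (by omega)
      · rw [← SubmonoidClass.coe_pow, he p p.2 hp2.1]
        rfl
      · simp
    exact Subtype.ext h7
  -- a root of the characteristic polynomial
  obtain ⟨u, hu⟩ := exists_root_int (α p) 1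
  have hu1 : u ^ B₀ = 1 := by
    refine hB u (α p) (by rw [← hu]) (hαK p) ?_
    by_contra hcon
    push Not at hcon
    exact hp1 ⟨hp2.1, h6, u, α p, rfl, hu, hcon⟩
  obtain ⟨ξ, hξ⟩ : ∃ ξ, ξ = (ζ ^ m) ^ m' := ⟨_, rfl⟩
  rw [← hξ] at h4
  have h7 : ξ ^ 2 - redI A (α p) * ξ + 1 = 0 := by
    have := isRoot_charpoly_iff.1 (isRoot_of_eigenvector hv h4)
    rwa [hρ.trace p p.2 hp2.1 hp2.2 A' hA' τ hτ, hρ.det p p.2 hp2.1 hp2.2 A' hA' τ hτ, h6,
      map_one] at this
  have h8 : (redI A u) ^ 2 - redI A (α p) * redI A u + 1 = 0 := by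
    have := congrArg (redI A) hu
    rwa [map_add, map_sub, map_pow, map_mul, map_one, map_zero] at this
  have h9 : (redI A u) ^ B₀ = 1 := by rw [← map_pow, hu1, map_one]
  have h10 : ξ ^ B₀ = 1 := by
    have h11 : (ξ - redI A u) * (ξ + redI A u - redI A (α p)) = 0 := by
      linear_combination h7 - h8
    rcases mul_eq_zero.1 h11 with h12 | h12
    · rw [sub_eq_zero.1 h12, h9]
    · have h13 : ξ * redI A u = 1 := by
        have : ξ = redI A (α p) - redI A u := by linear_combination h12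
        rw [this]; linear_combination -h8
      have h14 := congrArg (fun z => z ^ B₀) h13
      simp only [mul_pow, h9, mul_one, one_pow] at h14
      exact h14
  have h11 : ζ ^ m = ξ ^ n := by
    have h12 : (ρ (g ^ m) : Matrix (Fin 2) (Fin 2) (IsLocalRing.ResidueField A)).mulVec v =
        ξ ^ n • v := by
      rw [h1, Units.val_pow_eq_pow_val]
      exact pow_mulVec h4 n
    rw [h3] at h12
    obtain ⟨i, hi⟩ := Function.ne_iff.1 hv
    have h13 := congrFun h12 i
    simp only [Pi.smul_apply, smul_eq_mul] at h13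
    exact mul_right_cancel₀ hi h13
  rw [pow_mul, h11, ← pow_mul, mul_comm, pow_mul, h10, one_pow]

end Fermat.Agent.DS
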