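import Fermat.Agent.DS.Upper
import Fermat.Agent.GalRep.Cyclo

/-!
# Kummer theory: places where the order of `u` is divisible by many primes
-/

set_option autoImplicit false
set_option linter.style.haveILetI false
set_option linter.unusedSectionVars false

namespace Fermat.Agent.DS

open Fermat.Agent.Places Fermat.Agent.GalRep Fermat.Agent.Cheb

variable {L : Type*} [Field L] [CharZero L] [inst : Algebra ℚ L]

/-- automorphisms fixing `u` and all roots of unity -/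
def Cst (u : L) : Subgroup (L ≃ₐ[ℚ] L) where
  carrier := {σ | σ u = u ∧ ∀ (ζ : L) (n : ℕ), 0 < n → ζ ^ n = 1 → σ ζ = ζ}
  mul_mem' := by
    rintro σ τ ⟨h1, h2⟩ ⟨h3, h4⟩
    refine ⟨by rw [AlgEquiv.mul_apply, h3, h1], fun ζ n hn hζ => ?_⟩
    rw [AlgEquiv.mul_apply, h4 ζ n hn hζ, h2 ζ n hn hζ]
  one_mem' := ⟨rfl, fun _ _ _ _ => rfl⟩
  inv_mem' := by
    rintro σ ⟨h1, h2⟩
    refine ⟨?_, fun ζ n hn hζ => ?_⟩
    · conv_lhs => rw [← h1]
      exact σ.symm_apply_apply u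
    · conv_lhs => rw [← h2 ζ n hn hζ]
      exact σ.symm_apply_apply ζ

theorem mem_Cst {u : L} {σ : L ≃ₐ[ℚ] L} : σ ∈ Cst u ↔
    σ u = u ∧ ∀ (ζ : L) (n : ℕ), 0 < n → ζ ^ n = 1 → σ ζ = ζ := Iff.rfl

/-- the action on a root of unity is by a power -/
theorem exists_pow_of_root [IsAlgClosed L] (σ : L ≃ₐ[ℚ] L) {n : ℕ} (hn : 0 < n) :
    ∃ j : ℕ, ∀ ζ : L, ζ ^ n = 1 → σ ζ = ζ ^ j := by
  haveI : NeZero n := ⟨hn.ne'⟩
  obtain ⟨ξ, hξ⟩ : ∃ ξ : L, IsPrimitiveRoot ξ n := HasEnoughRootsOfUnity.exists_primitiveRoot L n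
  have h1 : (σ ξ) ^ n = 1 := by rw [← map_pow, hξ.pow_eq_one, map_one]
  obtain ⟨j, -, hj⟩ := hξ.eq_pow_of_pow_eq_one h1
  refine ⟨j, fun ζ hζ => ?_⟩
  obtain ⟨i, -, rfl⟩ := hξ.eq_pow_of_pow_eq_one hζ
  rw [map_pow, ← hj, ← pow_mul, ← pow_mul, mul_comm]

/-- commutators of elements fixing `u` lie in `Cst u` -/
theorem commutator_mem_Cst [IsAlgClosed L] {u : L} {σ τ : L ≃ₐ[ℚ] L} (hσ : σ u = u)
    (hτ : τ u = u) : σ⁻¹ * τ⁻¹ * σ * τ ∈ Cst u := by
  have hσ' : σ⁻¹ u = u := by conv_lhs => rw [← hσ]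
                             exact σ.symm_apply_apply u
  have hτ' : τ⁻¹ u = u := by conv_lhs => rw [← hτ]
                             exact τ.symm_apply_apply u
  refine ⟨?_, fun ζ n hn hζ => ?_⟩
  · simp only [AlgEquiv.mul_apply]
    rw [hτ, hσ, hτ', hσ']
  · obtain ⟨i, hi⟩ := exists_pow_of_root σ hn
    obtain ⟨j, hj⟩ := exists_pow_of_root τ hn
    have h1 : σ (τ ζ) = τ (σ ζ) := by
      rw [hj ζ hζ, hi ζ hζ, map_pow, map_pow, hi ζ hζ, hj ζ hζ, ← pow_mul, ← pow_mul, mul_comm]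
    simp only [AlgEquiv.mul_apply]
    rw [h1]
    have h2 : τ⁻¹ (τ (σ ζ)) = σ ζ := τ.symm_apply_apply _
    rw [h2]
    exact σ.symm_apply_apply _

variable [IsGalois ℚ L] [IsAlgClosed L]

/-- Schinzel's argument -/
theorem exists_root_mem {u w : L} {r k c : ℕ} (hu0 : u ≠ 0) (hr : r.Prime) (hc : 1 ≤ c)
    (hw : w ^ r ^ k = u) (hfix : ∀ σ ∈ Cst u, σ w = w) {σ₀ : L ≃ₐ[ℚ] L} (hσ₀ : σ₀ u = u)
    (hact : ∀ ζ : L, ζ ^ r ^ k = 1 → σ₀ ζ = ζ ^ c) :
    ∃ v ∈ IntermediateField.adjoin ℚ {u}, v ^ r ^ k = u ^ (c - 1) := by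
  have hrk : 0 < r ^ k := pow_pos hr.pos k
  have hw0 : w ≠ 0 := by
    rintro rfl
    rw [zero_pow hrk.ne'] at hw
    exact hu0 hw.symm
  have hz : ∀ σ : L ≃ₐ[ℚ] L, σ u = u → (σ w / w) ^ r ^ k = 1 := by
    intro σ hσ
    rw [div_pow, ← map_pow, hw, hσ, div_self hu0]
  obtain ⟨ζ₀, hζ₀⟩ : ∃ ζ₀, ζ₀ = σ₀ w / w := ⟨_, rfl⟩
  have hζ₀1 : ζ₀ ^ r ^ k = 1 := by rw [hζ₀]; exact hz σ₀ hσ₀
  have hζ₀0 : ζ₀ ≠ 0 := by
    rintro rfl
    rw [zero_pow hrk.ne'] at hζ₀1
    exact zero_ne_one hζ₀1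
  have hσ₀w : σ₀ w = ζ₀ * w := by rw [hζ₀, div_mul_cancel₀ _ hw0]
  refine ⟨w ^ (c - 1) * ζ₀⁻¹, ?_, ?_⟩
  · have hF : (IntermediateField.adjoin ℚ {u} : IntermediateField ℚ L) =
        IntermediateField.fixedField (IntermediateField.adjoin ℚ {u}).fixingSubgroup :=
      (InfiniteGalois.fixedField_fixingSubgroup _).symm
    rw [hF, IntermediateField.mem_fixedField_iff]
    intro σ hσ
    have hσu : σ u = u := (IntermediateField.mem_fixingSubgroup_iff _ _).1 hσ u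
      (IntermediateField.mem_adjoin_simple_self ℚ u)
    obtain ⟨ζ, hζ⟩ : ∃ ζ, ζ = σ w / w := ⟨_, rfl⟩
    have hζ1 : ζ ^ r ^ k = 1 := by rw [hζ]; exact hz σ hσu
    have hζ0 : ζ ≠ 0 := by
      rintro rfl
      rw [zero_pow hrk.ne'] at hζ1
      exact zero_ne_one hζ1
    have hσw : σ w = ζ * w := by rw [hζ, div_mul_cancel₀ _ hw0]
    have hcomm : σ (σ₀ w) = σ₀ (σ w) := by
      have h1 := hfix _ (commutator_mem_Cst hσu hσ₀)
      simp only [AlgEquiv.mul_apply] at h1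
      have h2 : σ (σ₀ w) = σ₀ (σ (σ⁻¹ (σ₀⁻¹ (σ (σ₀ w))))) := by
        have h3 : σ (σ⁻¹ (σ₀⁻¹ (σ (σ₀ w)))) = σ₀⁻¹ (σ (σ₀ w)) := σ.apply_symm_apply _
        rw [h3]
        exact (σ₀.apply_symm_apply _).symm
      rw [h2, h1]
    have h1 : σ ζ₀ * ζ = ζ ^ c * ζ₀ := by
      rw [hσ₀w, map_mul, hσw, map_mul, hact ζ hζ1, hσ₀w] at hcomm
      apply mul_right_cancel₀ hw0
      linear_combination hcomm
    have h2 : σ ζ₀ = ζ ^ (c - 1) * ζ₀ := by
      apply mul_right_cancel₀ hζ0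
      rw [h1]
      have : ζ ^ c = ζ ^ (c - 1) * ζ := by rw [← pow_succ]; congr 1; omega
      rw [this]; ring
    rw [map_mul, map_pow, hσw, map_inv₀, h2, mul_pow]
    field_simp
  · rw [mul_pow, inv_pow, hζ₀1, inv_one, mul_one, ← pow_mul, mul_comm (c - 1), pow_mul, hw]

theorem finite_conj (u : L) : (Set.range fun σ : L ≃ₐ[ℚ] L => σ u).Finite := by
  have h1 : IsAlgebraic ℚ u := Algebra.IsAlgebraic.isAlgebraic u
  refine ((minpoly ℚ u).rootSet_finite L).subset ?_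
  rintro _ ⟨σ, rfl⟩
  rw [Polynomial.mem_rootSet]
  refine ⟨minpoly.ne_zero h1.isIntegral, ?_⟩
  change Polynomial.aeval (σ u) (minpoly ℚ u) = 0
  rw [← AlgEquiv.coe_toAlgHom, Polynomial.aeval_algHom_apply, minpoly.aeval, map_zero]

/-- a uniform power of every automorphism fixes `u` -/
theorem exists_pow_fix (u : L) : ∃ m : ℕ, 0 < m ∧ ∀ σ : L ≃ₐ[ℚ] L, (σ ^ m) u = u := by
  have h1 : (MulAction.stabilizer (L ≃ₐ[ℚ] L) u).index ≠ 0 := by
    rw [MulAction.index_stabilizer]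
    have h2 : (MulAction.orbit (L ≃ₐ[ℚ] L) u).Finite := finite_conj u
    have h3 : (MulAction.orbit (L ≃ₐ[ℚ] L) u).Nonempty := ⟨u, MulAction.mem_orbit_self u⟩
    exact (Set.ncard_pos h2).2 h3 |>.ne'
  refine ⟨(MulAction.stabilizer (L ≃ₐ[ℚ] L) u).index.factorial, Nat.factorial_pos _, fun σ => ?_⟩
  have h2 := Subgroup.pow_mem_of_index_ne_zero_of_dvd h1 σ
    (n := (MulAction.stabilizer (L ≃ₐ[ℚ] L) u).index.factorial)
    (fun m hm hm' => Nat.dvd_factorial hm hm')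
  exact h2

theorem numberField_of (F : IntermediateField ℚ L) [h : FiniteDimensional ℚ F] : NumberField F := by
  letI algE : Algebra ℚ F := F.algebra'
  have h2 : algE = DivisionRing.toRatAlgebra := Subsingleton.elim _ _
  exact { to_charZero := inferInstance, to_finiteDimensional := h2 ▸ h }

theorem exists_move {u : L} (hu : IsIntegral ℤ u) (hu0 : u ≠ 0) (hnr : ∀ n : ℕ, 0 < n → u ^ n ≠ 1)
    {r : ℕ} (hr : r.Prime) :
    ∃ (k : ℕ) (w : L), w ^ r ^ k = u ∧ ∃ σ ∈ Cst u, σ w ≠ w := by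
  by_contra hcon
  push Not at hcon
  -- a Frobenius element at an auxiliary prime
  obtain ⟨q, hqr, hq⟩ := Nat.exists_infinite_primes (r + 1)
  obtain ⟨A, hA⟩ := exists_liesOverPrime L hq
  obtain ⟨τ, hτ⟩ := exists_isFrobeniusAt A hq hA
  obtain ⟨m, hm, hmfix⟩ := exists_pow_fix u
  have hqr' : Nat.Coprime q r := (Nat.coprime_primes hq hr).2 (by omega)
  have hτact : ∀ (k : ℕ) (ζ : L), ζ ^ r ^ k = 1 → τ ζ = ζ ^ q := by
    intro k ζ hζ
    have hrk : r ^ k ≠ 0 := pow_ne_zero k hr.ne_zero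
    have hmem : ζ ∈ A := by
      rw [← A.valuation_le_one_iff]
      have h1 : A.valuation ζ ^ (r ^ k) = 1 := by rw [← map_pow, hζ, map_one]
      by_contra h
      push Not at h
      exact absurd h1 (ne_of_gt (one_lt_pow₀ h hrk))
    refine eq_of_sub_mem_nonunits hA (Nat.Coprime.pow_right k hqr') ?_ ?_ hrk
      (sub_pow_mem_nonunits hτ hmem)
    · rw [← map_pow, hζ, map_one]
    · rw [← pow_mul, mul_comm, pow_mul, hζ, one_pow]
  have hact : ∀ (k : ℕ) (n : ℕ) (ζ : L), ζ ^ r ^ k = 1 → (τ ^ n) ζ = ζ ^ q ^ n := by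
    intro k n
    induction n with
    | zero => intro ζ _; simp
    | succ n ih =>
      intro ζ hζ
      rw [pow_succ, AlgEquiv.mul_apply, hτact k ζ hζ, map_pow, ih ζ hζ, ← pow_mul, ← pow_succ]
  obtain ⟨c, hc⟩ : ∃ c, c = q ^ m := ⟨_, rfl⟩
  have hc2 : 2 ≤ c := by
    rw [hc]
    calc 2 ≤ q := hq.two_le
      _ = q ^ 1 := (pow_one q).symm
      _ ≤ q ^ m := Nat.pow_le_pow_right hq.pos hm
  -- roots in `ℚ(u)`
  have hex : ∀ k : ℕ, ∃ v ∈ IntermediateField.adjoin ℚ {u}, v ^ r ^ k = u ^ (c - 1) := by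
    intro k
    obtain ⟨w, hw⟩ := IsAlgClosed.exists_pow_nat_eq u (pow_pos hr.pos k)
    refine exists_root_mem hu0 hr (by omega) hw (fun σ hσ => hcon k w hw σ hσ) (hmfix τ) ?_
    intro ζ hζ
    rw [hc]
    exact hact k m ζ hζ
  choose v hvF hv using hex
  let F : IntermediateField ℚ L := IntermediateField.adjoin ℚ {u}
  haveI hfin : FiniteDimensional ℚ F :=
    IntermediateField.adjoin.finiteDimensional (Algebra.IsAlgebraic.isAlgebraic u).isIntegral
  haveI : NumberField F := numberField_of F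
  let u' : F := ⟨u, IntermediateField.mem_adjoin_simple_self ℚ u⟩
  let v' : ℕ → F := fun k => ⟨v k, hvF k⟩
  have hv' : ∀ k, v' k ^ r ^ k = u' ^ (c - 1) := fun k => Subtype.ext (hv k)
  have hint : ∀ k, IsIntegral ℤ (v' k) := by
    intro k
    have h1 : IsIntegral ℤ (v' k ^ r ^ k) := by
      rw [hv' k]
      have h2 : IsIntegral ℤ u' :=
        (isIntegral_algHom_iff ((algebraMap F L).toIntAlgHom) (algebraMap F L).injective).1 hu
      exact h2.pow _
    exact IsIntegral.of_pow (pow_pos hr.pos k) h1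
  -- bounds
  haveI : Finite (F →+* ℂ) := Finite.of_fintype _
  obtain ⟨B, hB⟩ : ∃ B : ℝ, 1 ≤ B ∧ ∀ φ : F →+* ℂ, ‖φ u'‖ ^ (c - 1) ≤ B := by
    classical
    refine ⟨1 + ∑ φ : F →+* ℂ, ‖φ u'‖ ^ (c - 1), ?_, fun φ => ?_⟩
    · have : 0 ≤ ∑ φ : F →+* ℂ, ‖φ u'‖ ^ (c - 1) := Finset.sum_nonneg fun _ _ => by positivity
      linarith
    · have := Finset.single_le_sum (f := fun φ : F →+* ℂ => ‖φ u'‖ ^ (c - 1))
        (fun _ _ => by positivity) (Finset.mem_univ φ)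
      linarith
  have hbd : ∀ k, ∀ φ : F →+* ℂ, ‖φ (v' k)‖ ≤ B := by
    intro k φ
    have h1 : ‖φ (v' k)‖ ^ r ^ k ≤ B := by
      rw [← norm_pow, ← map_pow, hv' k, map_pow, norm_pow]
      exact hB.2 φ
    by_contra h2
    push Not at h2
    have h3 : 1 ≤ ‖φ (v' k)‖ := hB.1.trans h2.le
    have h4 : ‖φ (v' k)‖ ≤ ‖φ (v' k)‖ ^ r ^ k := le_self_pow₀ h3 (pow_pos hr.pos k).ne'
    linarith
  have hfinset := NumberField.Embeddings.finite_of_norm_le F ℂ B
  have hrange : (Set.range v').Finite := hfinset.subset (by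
    rintro _ ⟨k, rfl⟩
    exact ⟨hint k, hbd k⟩)
  haveI : Finite (Set.range v') := hrange
  obtain ⟨i, j, hij, hvij⟩ : ∃ i j, i ≠ j ∧ v' i = v' j := by
    have h1 : ¬ Function.Injective (Set.rangeFactorization v') := by
      intro hinj
      exact (Infinite.of_injective _ hinj).not_finite inferInstance
    rw [Function.Injective] at h1
    push Not at h1
    obtain ⟨i, j, h2, h3⟩ := h1
    exact ⟨i, j, h3, congrArg Subtype.val h2⟩
  -- without loss of generality `i < j`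
  have key : ∀ i j : ℕ, i < j → v i = v j → False := by
    intro i j hij hvij
    have h0 : v i ≠ 0 := by
      intro h0
      have h1 := hv i
      rw [h0, zero_pow (pow_pos hr.pos i).ne'] at h1
      exact pow_ne_zero (c - 1) hu0 h1.symm
    have hlt : r ^ i < r ^ j := Nat.pow_lt_pow_right hr.one_lt hij
    have h1 : v i ^ (r ^ j - r ^ i) = 1 := by
      apply mul_right_cancel₀ (pow_ne_zero (r ^ i) h0)
      rw [← pow_add, Nat.sub_add_cancel hlt.le, one_mul, hv i, hvij, hv j]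
    refine hnr ((c - 1) * (r ^ j - r ^ i)) (Nat.mul_pos (by omega) (by omega)) ?_
    rw [pow_mul, ← hv i, ← pow_mul, mul_comm (r ^ i), pow_mul, h1, one_pow]
  rcases lt_or_gt_of_ne hij with h | h
  · exact key i j h (congrArg Subtype.val hvij)
  · exact key j i h (congrArg Subtype.val hvij).symm

/-- for `σ ∈ Cst u`, `σ w = χ(σ) w` with `χ(σ)` a root of unity fixed by `Cst u` -/
theorem Cst_pow_apply {u w : L} {n : ℕ} (hn : 0 < n) (hu0 : u ≠ 0) (hw : w ^ n = u)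
    {σ : L ≃ₐ[ℚ] L} (hσ : σ ∈ Cst u) (a : ℕ) : (σ ^ a) w = (σ w / w) ^ a * w := by
  have hw0 : w ≠ 0 := by
    rintro rfl
    rw [zero_pow hn.ne'] at hw
    exact hu0 hw.symm
  have hz : (σ w / w) ^ n = 1 := by
    rw [div_pow, ← map_pow, hw, hσ.1, div_self hu0]
  induction a with
  | zero => simp
  | succ a ih =>
    rw [pow_succ', AlgEquiv.mul_apply, ih, map_mul, map_pow, hσ.2 _ n hn hz, pow_succ]
    have : σ w = (σ w / w) * w := by rw [div_mul_cancel₀ _ hw0]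
    conv_lhs => rw [this]
    have h2 : (σ w / w) * w / w = σ w / w := by rw [div_mul_cancel₀ _ hw0]
    rw [h2]
    ring

theorem pow_congr_of_one {z : L} {n a c : ℕ} (hz : z ^ n = 1) (h : a ≡ c [MOD n]) :
    z ^ a = z ^ c := by
  have key : ∀ a : ℕ, z ^ a = z ^ (a % n) := by
    intro a
    conv_lhs => rw [← Nat.mod_add_div a n, pow_add, pow_mul, hz, one_pow, mul_one]
  rw [key a, key c, h]

theorem exists_move_all {u : L} (hu : IsIntegral ℤ u) (hu0 : u ≠ 0)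
    (hnr : ∀ n : ℕ, 0 < n → u ^ n ≠ 1) (R : Finset ℕ) (hR : ∀ r ∈ R, r.Prime) :
    ∃ (k : ℕ → ℕ) (w : ℕ → L), (∀ r ∈ R, w r ^ r ^ k r = u) ∧
      ∃ σ ∈ Cst u, ∀ r ∈ R, σ (w r) ≠ w r := by
  classical
  induction R using Finset.induction_on with
  | empty => exact ⟨fun _ => 0, fun _ => 0, fun _ h => absurd h (Finset.notMem_empty _), 1,
      one_mem _, fun _ h => absurd h (Finset.notMem_empty _)⟩
  | insert r₀ R hr₀ ih =>
    obtain ⟨k, w, hw, σ, hσ, hσw⟩ := ih fun r hr => hR r (Finset.mem_insert_of_mem hr)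
    have hr₀p := hR r₀ (Finset.mem_insert_self _ _)
    obtain ⟨k₀, w₀, hw₀, τ, hτ, hτw⟩ := exists_move hu hu0 hnr hr₀p
    obtain ⟨Q, hQ⟩ : ∃ Q, Q = ∏ r ∈ R, r ^ k r := ⟨_, rfl⟩
    have hcop : Nat.Coprime Q (r₀ ^ k₀) := by
      rw [hQ]
      refine Nat.Coprime.prod_left fun r hr => ?_
      refine Nat.Coprime.pow _ _ ((Nat.coprime_primes (hR r (Finset.mem_insert_of_mem hr)) hr₀p).2 ?_)
      rintro rfl
      exact hr₀ hr
    obtain ⟨a, ha1, ha0⟩ := Nat.chineseRemainder hcop 1 0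
    obtain ⟨b, hb0, hb1⟩ := Nat.chineseRemainder hcop 0 1
    have hne : ∀ {w : L} {n : ℕ}, 0 < n → w ^ n = u → w ≠ 0 := by
      rintro w n hn hw rfl
      rw [zero_pow hn.ne'] at hw
      exact hu0 hw.symm
    have hroot : ∀ {ρ : L ≃ₐ[ℚ] L} (_ : ρ ∈ Cst u) {w : L} {n : ℕ}, w ^ n = u →
        (ρ w / w) ^ n = 1 := by
      intro ρ hρ w n hw
      rw [div_pow, ← map_pow, hw, hρ.1, div_self hu0]
    have hmod : ∀ {z : L} {n a c : ℕ}, z ^ n = 1 → a ≡ c [MOD n] → z ^ a = z ^ c := by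
      intro z n a c hz hac
      exact pow_congr_of_one hz hac
    have hcomb : ∀ {w : L} {n : ℕ}, 0 < n → w ^ n = u →
        (σ ^ a * τ ^ b) w = (σ w / w) ^ a * (τ w / w) ^ b * w := by
      intro w n hn hw
      rw [AlgEquiv.mul_apply, Cst_pow_apply hn hu0 hw hτ, map_mul, map_pow,
        ((Cst u).pow_mem hσ a).2 _ n hn (hroot hτ hw), Cst_pow_apply hn hu0 hw hσ]
      ring
    refine ⟨Function.update k r₀ k₀, Function.update w r₀ w₀, fun r hr => ?_, σ ^ a * τ ^ b,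
      mul_mem ((Cst u).pow_mem hσ a) ((Cst u).pow_mem hτ b), fun r hr => ?_⟩
    · rcases eq_or_ne r r₀ with rfl | hne'
      · rw [Function.update_self, Function.update_self]; exact hw₀
      · rw [Function.update_of_ne hne', Function.update_of_ne hne']
        exact hw r (Finset.mem_of_mem_insert_of_ne hr hne')
    · rcases eq_or_ne r r₀ with rfl | hne'
      · rw [Function.update_self, hcomb (pow_pos hr₀p.pos k₀) hw₀,
          hmod (hroot hσ hw₀) ha0, hmod (hroot hτ hw₀) hb1, pow_zero, pow_one, one_mul,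
          div_mul_cancel₀ _ (hne (pow_pos hr₀p.pos k₀) hw₀)]
        exact hτw
      · have hrR := Finset.mem_of_mem_insert_of_ne hr hne'
        have hrp := hR r hr
        have hdvd : r ^ k r ∣ Q := by rw [hQ]; exact Finset.dvd_prod_of_mem _ hrR
        rw [Function.update_of_ne hne', hcomb (pow_pos hrp.pos _) (hw r hrR),
          hmod (hroot hσ (hw r hrR)) (ha1.of_dvd hdvd), hmod (hroot hτ (hw r hrR)) (hb0.of_dvd hdvd),
          pow_zero, pow_one, mul_one, div_mul_cancel₀ _ (hne (pow_pos hrp.pos _) (hw r hrR))]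
        exact hσw r hrR

/-- the stabiliser of a finite set is open -/
theorem isOpen_stab (T : Set L) (hT : T.Finite) :
    IsOpen ((IntermediateField.adjoin ℚ T).fixingSubgroup : Set (L ≃ₐ[ℚ] L)) := by
  haveI : Finite T := hT
  haveI : FiniteDimensional ℚ (IntermediateField.adjoin ℚ T) :=
    IntermediateField.finiteDimensional_adjoin fun x _ =>
      (Algebra.IsAlgebraic.isAlgebraic x).isIntegral
  exact IntermediateField.fixingSubgroup_isOpen _

/-- powers of a Frobenius element -/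
theorem frob_pow_sub {A : ValuationSubring L} {τ : L ≃ₐ[ℚ] L} {p : ℕ} (hτ : A.IsFrobeniusAt τ p)
    (n : ℕ) {x : L} (hx : x ∈ A) : (τ ^ n) x - x ^ p ^ n ∈ A.nonunits := by
  induction n generalizing x with
  | zero => simp
  | succ n ih =>
    have h1 := ih (x := x ^ p) (pow_mem hx p)
    have h2 := sub_pow_mem_nonunits hτ hx
    -- `τ x ∈ A`
    have h3 : τ x ∈ A := by
      have := add_mem (mem_of_mem_nonunits A h2) (pow_mem hx p)
      rwa [sub_add_cancel] at this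
    have h4 := ih h3
    have h5 : (τ x) ^ p ^ n - (x ^ p) ^ p ^ n ∈ A.nonunits := by
      obtain ⟨y, hy⟩ := sub_dvd_pow_sub_pow (⟨τ x, h3⟩ : A) ⟨x ^ p, pow_mem hx p⟩ (p ^ n)
      have h6 := congrArg (fun z : A => (z : L)) hy
      push_cast at h6
      rw [h6]
      exact mul_mem_nonunits A h2 y.2
    have h6 := add_mem_nonunits A h4 h5
    rw [sub_add_sub_cancel, ← pow_mul, ← pow_succ'] at h6
    rwa [pow_succ, AlgEquiv.mul_apply]

theorem sub_pow_sub_pow_mem {A : ValuationSubring L} {x y : L} (hx : x ∈ A) (hy : y ∈ A)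
    (h : x - y ∈ A.nonunits) (n : ℕ) : x ^ n - y ^ n ∈ A.nonunits := by
  obtain ⟨z, hz⟩ := sub_dvd_pow_sub_pow (⟨x, hx⟩ : A) ⟨y, hy⟩ n
  have h6 := congrArg (fun z : A => (z : L)) hz
  push_cast at h6
  rw [h6]
  exact mul_mem_nonunits A h z.2

/-- **places at which the order of `u` is divisible by prescribed primes** -/
theorem exists_place_order {u : L} (hu : IsIntegral ℤ u) (hu0 : u ≠ 0)
    (hnr : ∀ n : ℕ, 0 < n → u ^ n ≠ 1) (R : Finset ℕ) (hR : ∀ r ∈ R, r.Prime)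
    {S : Set Nat.Primes} (hS : UD S 0) :
    ∃ p ∉ S, ∃ A : ValuationSubring L, A.LiesOverPrime p ∧
      ∀ n : ℕ, u ^ n - 1 ∈ A.nonunits → ∀ r ∈ R, r ∣ n := by
  classical
  obtain ⟨k, w, hw, σ, hσ, hσw⟩ := exists_move_all hu hu0 hnr R hR
  have hξ : ∀ r : ℕ, ∃ ξ : L, r.Prime → IsPrimitiveRoot ξ (r ^ k r) := by
    intro r
    by_cases hr : r.Prime
    · haveI : NeZero (r ^ k r) := ⟨pow_ne_zero _ hr.ne_zero⟩
      obtain ⟨ξ, hξ⟩ := HasEnoughRootsOfUnity.exists_primitiveRoot L (r ^ k r)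
      exact ⟨ξ, fun _ => hξ⟩
    · exact ⟨0, fun h => absurd h hr⟩
  choose ξ hξ using hξ
  let T : Set L := (R.image w ∪ R.image ξ : Finset L)
  have hT : T.Finite := Finset.finite_toSet _
  have hS' : UD (S ∪ {p : Nat.Primes | (p : ℕ) ∈ R}) 0 := by
    have h1 : UD {p : Nat.Primes | (p : ℕ) ∈ R} 0 := by
      refine UD.of_finite ?_
      exact Set.Finite.preimage (Subtype.val_injective.injOn) R.finite_toSet
    have := hS.union h1
    rwa [add_zero] at this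
  obtain ⟨p, hpS, A, hA, τ, hτ, n', -, hU, -⟩ := exists_frobenius_avoiding hS' _ (isOpen_stab T hT) σ
  rw [Set.mem_union, not_or] at hpS
  refine ⟨p, hpS.1, A, hA, fun n hn r hr => ?_⟩
  have hfix : ∀ t ∈ T, (τ ^ n') t = σ t := by
    intro t ht
    have h1 := (IntermediateField.mem_fixingSubgroup_iff _ _).1 hU t
      (IntermediateField.subset_adjoin _ _ ht)
    rw [AlgEquiv.mul_apply] at h1
    conv_rhs => rw [← h1]
    exact (σ.apply_symm_apply _).symm
  by_contra hrn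
  have hrp := hR r hr
  have hrk : 0 < r ^ k r := pow_pos hrp.pos _
  have hpr : (p : ℕ) ≠ r := by
    intro h
    exact hpS.2 (by rw [Set.mem_ofPred_eq, h]; exact hr)
  have hcop : Nat.Coprime p (r ^ k r) :=
    Nat.Coprime.pow_right _ ((Nat.coprime_primes p.2 hrp).2 hpr)
  have hwr := hw r hr
  have hwint : IsIntegral ℤ (w r) := IsIntegral.of_pow hrk (by rw [hwr]; exact hu)
  have hwA : w r ∈ A := mem_of_isIntegral_int A hwint
  have hw0 : w r ≠ 0 := by
    intro h0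
    rw [h0, zero_pow hrk.ne'] at hwr
    exact hu0 hwr.symm
  obtain ⟨ζ, hζ⟩ : ∃ ζ, ζ = σ (w r) / w r := ⟨_, rfl⟩
  have hζ1 : ζ ^ r ^ k r = 1 := by
    rw [hζ, div_pow, ← map_pow, hwr, hσ.1, div_self hu0]
  have hζne : ζ ≠ 1 := by
    intro h
    rw [h, eq_comm, div_eq_one_iff_eq hw0] at hζ
    exact hσw r hr hζ
  have hζA : ζ ∈ A := mem_of_isIntegral_int A (IsIntegral.of_pow hrk (by rw [hζ1]; exact isIntegral_one))
  have hσwr : σ (w r) = ζ * w r := by rw [hζ, div_mul_cancel₀ _ hw0]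
  -- `r ^ k ∣ q - 1`
  have hp0 : 0 < (p : ℕ) ^ n' := pow_pos p.2.pos _
  have hdvd : r ^ k r ∣ (p : ℕ) ^ n' - 1 := by
    have hprim := hξ r hrp
    have h1 : (τ ^ n') (ξ r) = ξ r := by
      rw [hfix (ξ r) (by
        rw [Finset.mem_coe]
        exact Finset.mem_union_right _ (Finset.mem_image_of_mem _ hr)),
        hσ.2 _ _ hrk hprim.pow_eq_one]
    have hmem : ξ r ∈ A := mem_of_isIntegral_int A
      (IsIntegral.of_pow hrk (by rw [hprim.pow_eq_one]; exact isIntegral_one))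
    have h2 := frob_pow_sub hτ n' hmem
    rw [h1] at h2
    have h3 := eq_of_sub_mem_nonunits hA hcop hprim.pow_eq_one
      (by rw [← pow_mul, mul_comm, pow_mul, hprim.pow_eq_one, one_pow]) hrk.ne' h2
    rw [← hprim.pow_eq_one_iff_dvd]
    have h4 : ξ r ≠ 0 := hprim.ne_zero hrk.ne'
    apply mul_right_cancel₀ h4
    rw [← pow_succ, Nat.sub_add_cancel hp0, one_mul]
    exact h3.symm
  obtain ⟨m, hm⟩ := hdvd
  have hq : (p : ℕ) ^ n' = r ^ k r * m + 1 := by omega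
  -- the congruence
  have h1 := frob_pow_sub hτ n' hwA
  rw [hfix (w r) (by
    rw [Finset.mem_coe]
    exact Finset.mem_union_left _ (Finset.mem_image_of_mem _ hr)), hσwr] at h1
  have h2 := sub_pow_sub_pow_mem (mul_mem hζA hwA) (pow_mem hwA _) h1 n
  have h3 : (w r ^ (p : ℕ) ^ n') ^ n = (u ^ n) ^ m * w r ^ n := by
    rw [hq, pow_succ, pow_mul, hwr, mul_pow, ← pow_mul, ← pow_mul, mul_comm m n]
  have huA : u ∈ A := mem_of_isIntegral_int A hu
  have h4 : (u ^ n) ^ m - 1 ∈ A.nonunits := by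
    have := sub_pow_sub_pow_mem (pow_mem huA n) (one_mem A) hn m
    rwa [one_pow] at this
  have h5 : (ζ ^ n - 1) * w r ^ n ∈ A.nonunits := by
    rw [h3, mul_pow] at h2
    have h6 := add_mem_nonunits A h2 (mul_mem_nonunits A h4 (pow_mem hwA n))
    convert h6 using 1
    ring
  have h6 : w r ^ n ∉ A.nonunits := by
    intro h7
    have h8 : u ^ n ∈ A.nonunits := by
      rw [← hwr, ← pow_mul, mul_comm, pow_mul]
      obtain ⟨b, hb⟩ : ∃ b, r ^ k r = b + 1 := ⟨r ^ k r - 1, by omega⟩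
      rw [hb, pow_succ, mul_comm]
      exact mul_mem_nonunits A h7 (pow_mem (pow_mem hwA n) b)
    have h9 := sub_mem_nonunits A h8 hn
    rw [sub_sub_cancel] at h9
    exact one_notMem_nonunits A h9
  have h7 : ζ ^ n - 1 ∈ A.nonunits := by
    rcases mem_nonunits_or_of_mul A (sub_mem (pow_mem hζA n) (one_mem A)) (pow_mem hwA n) h5 with h | h
    · exact h
    · exact absurd h h6
  have h8 : ζ ^ n = 1 := by
    refine eq_of_sub_mem_nonunits hA hcop ?_ (one_pow _) hrk.ne' h7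
    rw [← pow_mul, mul_comm, pow_mul, hζ1, one_pow]
  apply hζne
  have h9 : Nat.Coprime n (r ^ k r) :=
    Nat.Coprime.pow_right _ ((Nat.Prime.coprime_iff_not_dvd hrp).2 hrn).symm
  have h10 : orderOf ζ ∣ Nat.gcd n (r ^ k r) :=
    Nat.dvd_gcd (orderOf_dvd_of_pow_eq_one h8) (orderOf_dvd_of_pow_eq_one hζ1)
  rw [h9.gcd_eq_one, Nat.dvd_one] at h10
  exact orderOf_eq_one_iff.1 h10

end Fermat.Agent.DS
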