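import Fermat.Agent.DS.Alg
import Fermat.Agent.DS.Kummer

/-!
# Conjugates of the eigenvalues: Rankin bounds and upper densities
-/

set_option autoImplicit false
set_option linter.style.haveILetI false
set_option linter.unusedSectionVars false

namespace Fermat.Agent.DS

open Fermat.Agent.Places Fermat.Agent.Cheb Fermat.Agent.MFLib Filter Topology

section ext

variable {L : Type} [Field L] [CharZero L] [inst : Algebra ℚ L] [IsAlgClosed L]
  [Algebra.IsAlgebraic ℚ L]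

theorem mem_range_of_isAlgebraic (ι : L →+* ℂ) {b : ℂ} (hb : IsAlgebraic ℚ b) : ∃ b' : L, ι b' = b := by
  obtain ⟨p, hp0, hpb⟩ := hb
  let P : Polynomial L := p.map (algebraMap ℚ L)
  have hP0 : P ≠ 0 := (Polynomial.map_ne_zero_iff (algebraMap ℚ L).injective).2 hp0
  have hPι : P.map ι = p.map (algebraMap ℚ ℂ) := by
    rw [Polynomial.map_map]
    congr 1
    exact Subsingleton.elim _ _
  have hroot : b ∈ (P.map ι).roots := by
    rw [Polynomial.mem_roots ((Polynomial.map_ne_zero_iff ι.injective).2 hP0), hPι,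
      Polynomial.IsRoot.def, Polynomial.eval_map]
    exact hpb
  have hspl : P.Splits := IsAlgClosed.splits P
  rw [hspl.roots_map ι] at hroot
  obtain ⟨b', -, hb'⟩ := Multiset.mem_map.1 hroot
  exact ⟨b', hb'⟩

theorem isAlgebraic_image (σ : L →+* ℂ) (x : L) : IsAlgebraic ℚ (σ x) := by
  obtain ⟨p, hp0, hp⟩ := Algebra.IsAlgebraic.isAlgebraic (R := ℚ) x
  refine ⟨p, hp0, ?_⟩
  have h1 : algebraMap ℚ ℂ = σ.comp (algebraMap ℚ L) := Subsingleton.elim _ _
  rw [Polynomial.aeval_def, h1, ← Polynomial.hom_eval₂]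
  change Polynomial.eval₂ (algebraMap ℚ L) x p = 0 at hp
  rw [hp, map_zero]

theorem exists_extension (ι σ : L →+* ℂ) : ∃ σ' : ℂ →+* ℂ, ∀ x, σ' (ι x) = σ x := by
  choose τ hτ using fun x : L => mem_range_of_isAlgebraic ι (isAlgebraic_image σ x)
  let τ' : L →+* L :=
    { toFun := τ
      map_one' := ι.injective (by rw [hτ, map_one, map_one])
      map_zero' := ι.injective (by rw [hτ, map_zero, map_zero])
      map_add' := fun x y => ι.injective (by rw [hτ, map_add, map_add, hτ, hτ])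
      map_mul' := fun x y => ι.injective (by rw [hτ, map_mul, map_mul, hτ, hτ]) }
  letI : Algebra L ℂ := ι.toAlgebra
  obtain ⟨σ', hσ'⟩ := extend_of_subfield L τ'
  exact ⟨σ', fun x => (hσ' x).trans (hτ x)⟩

variable {N : ℕ} [NeZero N] {ε : DirichletCharacter ℂ N} {f : UpperHalfPlane → ℂ}

/-- **Rankin's bound for all conjugates** -/
theorem WF.rankin_conj (h : WF ε f) (ι σ : L →+* ℂ) {α : ℕ → L}
    (hα : ∀ n, ι (α n) = (qe f).coeff n) :
    ∃ C' : ℝ, ∀ s : ℝ, 1 < s → s ≤ 2 → ∀ F : Finset ℕ, (∀ p ∈ F, p.Prime ∧ ¬ p ∣ N) →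
      ∑ p ∈ F, ‖σ (α p)‖ ^ 2 * (p : ℝ) ^ (-s) ≤ Real.log (1 / (s - 1)) + C' := by
  obtain ⟨σ', hσ'⟩ := exists_extension ι σ
  obtain ⟨f', hf', hq⟩ := h.conj σ'
  obtain ⟨C', hC'⟩ := hf'.rankin
  refine ⟨C', fun s hs hs2 F hF => ?_⟩
  refine le_trans (le_of_eq ?_) (hC' s hs hs2 F hF)
  refine Finset.sum_congr rfl fun p _ => ?_
  rw [hq, ← hα, hσ']

end ext

/-- upper densities from Rankin's bound -/
theorem UD_of_rankin {N : ℕ} {b : ℕ → ℝ}
    (h : ∃ C' : ℝ, ∀ s : ℝ, 1 < s → s ≤ 2 → ∀ F : Finset ℕ, (∀ p ∈ F, p.Prime ∧ ¬ p ∣ N) →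
      ∑ p ∈ F, b p * (p : ℝ) ^ (-s) ≤ Real.log (1 / (s - 1)) + C') {B : ℝ} (hB : 0 < B) :
    UD {p : Nat.Primes | ¬ (p : ℕ) ∣ N ∧ B < b p} (1 / B) := by
  classical
  obtain ⟨C', hC'⟩ := h
  intro δ hδ
  have h2 : ∀ᶠ s : ℝ in 𝓝[>] 1, s ≤ 2 := by
    filter_upwards [Ioo_mem_nhdsGT (show (1 : ℝ) < 2 by norm_num)] with s hs using hs.2.le
  filter_upwards [self_mem_nhdsWithin, h2, tendsto_log_atTop.eventually_ge_atTop (C' / B / δ)]
    with s hs1 hs2 hs3
  have key : primeSum (ind {p : Nat.Primes | ¬ (p : ℕ) ∣ N ∧ B < b p}) s ≤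
      1 / B * (Real.log (1 / (s - 1)) + C') := by
    unfold primeSum
    refine (summable_primeSum (abs_ind_le _) hs1).tsum_le_of_sum_le fun F => ?_
    rw [div_mul_eq_mul_div, one_mul, le_div_iff₀ hB, mul_comm, Finset.mul_sum]
    let F' : Finset ℕ := (F.filter fun p : Nat.Primes => ¬ (p : ℕ) ∣ N ∧ B < b p).image
      (fun p : Nat.Primes => (p : ℕ))
    have hF' : ∀ p ∈ F', p.Prime ∧ ¬ p ∣ N := by
      intro p hp
      obtain ⟨p', hp', rfl⟩ := Finset.mem_image.1 hp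
      exact ⟨p'.2, (Finset.mem_filter.1 hp').2.1⟩
    refine le_trans ?_ (hC' s hs1 hs2 F' hF')
    rw [Finset.sum_image (g := fun p : Nat.Primes => (p : ℕ))
      (fun a _ b _ h => Nat.Primes.coe_nat_injective h), Finset.sum_filter]
    refine Finset.sum_le_sum fun p _ => ?_
    rw [ind]
    simp only [Set.mem_ofPred_eq]
    split_ifs with h3
    · rw [one_mul]
      exact mul_le_mul_of_nonneg_right h3.2.le (by positivity)
    · simp
  refine key.trans ?_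
  have h3 : C' / B ≤ δ * Real.log (1 / (s - 1)) := by
    rw [mul_comm, ← div_le_iff₀ hδ]; exact hs3
  calc 1 / B * (Real.log (1 / (s - 1)) + C') = 1 / B * Real.log (1 / (s - 1)) + C' / B := by ring
    _ ≤ 1 / B * Real.log (1 / (s - 1)) + δ * Real.log (1 / (s - 1)) := by linarith
    _ = _ := by ring

theorem UD.biUnion' {ι : Type*} (T : Finset ι) {S : ι → Set Nat.Primes} {δ : ℝ}
    (h : ∀ i ∈ T, UD (S i) δ) : UD (⋃ i ∈ T, S i) (T.card * δ) := by
  classical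
  induction T using Finset.induction_on with
  | empty => simpa using UD.of_finite Set.finite_empty
  | insert a T ha ih =>
    have h1 := (h a (Finset.mem_insert_self _ _)).union
      (ih fun i hi => h i (Finset.mem_insert_of_mem hi))
    rw [Finset.card_insert_of_notMem ha]
    refine h1.mono ?_ (le_of_eq (by push_cast; ring))
    rw [Finset.set_biUnion_insert]

section main

variable {L : Type*} [Field L] [CharZero L] [inst : Algebra ℚ L] [IsGalois ℚ L] [IsAlgClosed L]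

/-- it suffices to treat finitely many values -/
theorem UD_bad (K : IntermediateField ℚ L) [FiniteDimensional ℚ K] {N : ℕ} {α : ℕ → L}
    (hαK : ∀ p, α p ∈ K) (hαi : ∀ p, IsIntegral ℤ (α p))
    (hR : ∀ σ : L →+* ℂ, ∃ C' : ℝ, ∀ s : ℝ, 1 < s → s ≤ 2 → ∀ F : Finset ℕ,
      (∀ p ∈ F, p.Prime ∧ ¬ p ∣ N) →
      ∑ p ∈ F, ‖σ (α p)‖ ^ 2 * (p : ℝ) ^ (-s) ≤ Real.log (1 / (s - 1)) + C')
    (Q : ℕ → Prop) (bad : L → Prop)
    (h : ∀ y ∈ K, IsIntegral ℤ y → bad y →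
      UD {p : Nat.Primes | ¬ (p : ℕ) ∣ N ∧ Q p ∧ α p = y} 0) :
    UD {p : Nat.Primes | ¬ (p : ℕ) ∣ N ∧ Q p ∧ bad (α p)} 0 := by
  classical
  haveI : NumberField K := numberField_of K
  haveI : Fintype (K →+* ℂ) := Fintype.ofFinite _
  refine UD.of_forall fun η hη => ?_
  rw [zero_add]
  obtain ⟨B, hB⟩ : ∃ B : ℝ, B = (Fintype.card (K →+* ℂ) + 1) / η := ⟨_, rfl⟩
  have hB0 : 0 < B := by rw [hB]; positivity
  -- the embeddings
  have hext : ∀ τ : K →+* ℂ, ∃ σ : L →+* ℂ, ∀ x : K, σ x = τ x := by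
    intro τ
    letI : Algebra K ℂ := τ.toAlgebra
    haveI : Algebra.IsAlgebraic K L := Algebra.IsAlgebraic.tower_top (K := ℚ) K
    exact ⟨(IsAlgClosed.lift (R := K) (S := L) (M := ℂ)).toRingHom, fun x =>
      (IsAlgClosed.lift (R := K) (S := L) (M := ℂ)).commutes x⟩
  choose σ hσ using hext
  have h1 : UD (⋃ τ ∈ (Finset.univ : Finset (K →+* ℂ)),
      {p : Nat.Primes | ¬ (p : ℕ) ∣ N ∧ B < ‖σ τ (α p)‖ ^ 2}) (Fintype.card (K →+* ℂ) * (1 / B)) :=
    UD.biUnion' _ fun τ _ => UD_of_rankin (hR (σ τ)) hB0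
  have hfin := NumberField.Embeddings.finite_of_norm_le K ℂ (Real.sqrt B)
  obtain ⟨Y, hY⟩ : ∃ Y : Finset K, ∀ x, x ∈ Y ↔
      (IsIntegral ℤ x ∧ ∀ φ : K →+* ℂ, ‖φ x‖ ≤ Real.sqrt B) :=
    ⟨hfin.toFinset, fun x => by rw [Set.Finite.mem_toFinset]; rfl⟩
  have h2 : UD (⋃ y ∈ Y.filter (fun y : K => bad (y : L)),
      {p : Nat.Primes | ¬ (p : ℕ) ∣ N ∧ Q p ∧ α p = (y : L)}) 0 := by
    refine UD.biUnion _ fun y hy => ?_
    rw [Finset.mem_filter] at hy
    have hyi : IsIntegral ℤ (y : L) :=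
      (isIntegral_algHom_iff ((algebraMap K L).toIntAlgHom) (algebraMap K L).injective).2
        ((hY y).1 hy.1).1
    exact h y y.2 hyi hy.2
  refine (h1.union h2).mono ?_ ?_
  · intro p hp
    by_cases hb : ∃ τ : K →+* ℂ, B < ‖σ τ (α p)‖ ^ 2
    · left
      obtain ⟨τ, hτ⟩ := hb
      simp only [Set.mem_iUnion]
      exact ⟨τ, Finset.mem_univ τ, hp.1, hτ⟩
    · right
      push Not at hb
      simp only [Set.mem_iUnion]
      have hpi : IsIntegral ℤ (⟨α p, hαK p⟩ : K) :=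
        (isIntegral_algHom_iff ((algebraMap K L).toIntAlgHom) (algebraMap K L).injective).1 (hαi p)
      refine ⟨⟨α p, hαK p⟩, Finset.mem_filter.2 ⟨(hY _).2 ⟨hpi, fun φ => ?_⟩, hp.2.2⟩,
        hp.1, hp.2.1, rfl⟩
      rw [← hσ φ]
      exact Real.le_sqrt_of_sq_le (hb φ)
  · rw [add_zero, hB, one_div_div, mul_div_assoc', div_le_iff₀ (by positivity)]
    have : 0 ≤ (Fintype.card (K →+* ℂ) : ℝ) := by positivity
    nlinarith

end main

end Fermat.Agent.DS
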