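import Fermat.Agent.Cheb.Places

/-!
# Frobenius density theorem for class functions invariant under generator change
-/

set_option autoImplicit false
set_option linter.unusedSectionVars false
set_option linter.style.haveILetI false

namespace Fermat.Agent.DS

open NumberField Filter Topology Ideal Fermat.Agent.Cheb Fermat.Agent.Places

section finite

variable {K : Type*} [Field K] [NumberField K] [IsGalois ℚ K]

open scoped Classical in
theorem sum_T {p : Nat.Primes} (hp : Unr K p) :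
    ∑ P ∈ T K p, P.inertiaDeg ℤ = Nat.card Gal(K/ℚ) := by
  haveI : Fintype ((pp p).primesOver (𝓞 K)) :=
    (Algebra.QuasiFinite.finite_primesOver (S := 𝓞 K) (pp p)).fintype
  rw [← Ideal.sum_ramification_inertia_eq_card (pp p) (𝓞 K) (G := Gal(K/ℚ))]
  rw [Finset.sum_subtype (T K p) (p := fun P => P ∈ (pp p).primesOver (𝓞 K))]
  · refine Finset.sum_congr rfl fun P _ => ?_
    haveI := P.2.1
    haveI := P.2.2
    rw [hp.ramificationIdx_eq_one P.1, one_mul]
  · intro P
    rw [mem_T]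
    rfl

open scoped Classical in
/-- **Frobenius density theorem** for functions invariant under change of generators -/
theorem hasMean_class {h : Gal(K/ℚ) → ℝ}
    (hh : ∀ g g', Subgroup.zpowers g = Subgroup.zpowers g' → h g = h g') {b : Nat.Primes → ℝ}
    (hb : {p : Nat.Primes | ¬ ∀ P : Ideal (𝓞 K), P.IsPrime → P.LiesOver (pp p) →
      ∀ σ : Gal(K/ℚ), IsArithFrobAt ℤ σ P → b p = h σ}.Finite) :
    HasMean b ((∑ g : Gal(K/ℚ), h g) / Nat.card Gal(K/ℚ)) := by
  haveI : Nonempty Gal(K/ℚ) := ⟨1⟩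
  have hG : (Nat.card Gal(K/ℚ) : ℝ) ≠ 0 := by exact_mod_cast Nat.card_pos.ne'
  -- the function on cyclic subgroups
  let hs : Subgroup Gal(K/ℚ) → ℝ := fun H =>
    if hc : ∃ g, Subgroup.zpowers g = H then h hc.choose else 0
  have hhs : ∀ g, hs (Subgroup.zpowers g) = h g := by
    intro g
    have hc : ∃ g', Subgroup.zpowers g' = Subgroup.zpowers g := ⟨g, rfl⟩
    simp only [hs, dif_pos hc]
    exact hh _ _ hc.choose_spec
  have h1 : HasMean (fun p => ∑ H : Subgroup Gal(K/ℚ), hs H / Nat.card Gal(K/ℚ) * (EE H p : ℝ))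
      (∑ H : Subgroup Gal(K/ℚ), hs H / Nat.card Gal(K/ℚ) * (gen H : ℝ)) :=
    HasMean.sum _ fun H _ => (hasMean_EE H).const_mul _
  have h2 : ∑ H : Subgroup Gal(K/ℚ), hs H / Nat.card Gal(K/ℚ) * (gen H : ℝ) =
      (∑ g : Gal(K/ℚ), h g) / Nat.card Gal(K/ℚ) := by
    rw [Finset.sum_div, ← Finset.sum_fiberwise_of_maps_to (s := Finset.univ) (t := Finset.univ)
      (g := fun g : Gal(K/ℚ) => Subgroup.zpowers g) (fun _ _ => Finset.mem_univ _)]
    refine Finset.sum_congr rfl fun H _ => ?_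
    have h3 : ∀ g ∈ Finset.univ.filter (fun g : Gal(K/ℚ) => Subgroup.zpowers g = H),
        h g / (Nat.card Gal(K/ℚ) : ℝ) = hs H / Nat.card Gal(K/ℚ) := by
      intro g hg
      rw [← (Finset.mem_filter.1 hg).2, hhs]
    rw [Finset.sum_congr rfl h3, Finset.sum_const, nsmul_eq_mul, mul_comm, gen,
      Nat.card_eq_fintype_card (α := {g : Gal(K/ℚ) // Subgroup.zpowers g = H}),
      Fintype.card_subtype]
  rw [h2] at h1
  refine h1.congr ((hb.union (finite_not_unr K)).subset fun p hp => ?_)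
  by_contra hcon
  rw [Set.mem_union, not_or] at hcon
  obtain ⟨hb1, hunr⟩ := hcon
  simp only [Set.mem_ofPred_eq, not_not] at hb1 hunr
  apply hp
  -- the value at `p`
  have h4 : ∑ H : Subgroup Gal(K/ℚ), hs H * (EE H p : ℝ) = b p * Nat.card Gal(K/ℚ) := by
    rw [← sum_T hunr]
    unfold EE
    push_cast
    simp only [Finset.mul_sum]
    rw [Finset.sum_comm]
    refine Finset.sum_congr rfl fun P hP => ?_
    obtain ⟨g1, g2⟩ := mem_T.mp hP
    obtain ⟨σ, hσ⟩ := exists_isArithFrobAt (p := p) P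
    have h3 : ∀ H' : Subgroup Gal(K/ℚ), (∃ σ : Gal(K/ℚ), IsArithFrobAt ℤ σ P ∧
        Subgroup.zpowers σ = H') ↔ Subgroup.zpowers σ = H' := fun H' =>
      ⟨fun ⟨τ, hτ, hτ'⟩ => by rw [hunr.eq_of_isArithFrobAt P hσ hτ]; exact hτ', fun h => ⟨σ, hσ, h⟩⟩
    simp only [h3]
    rw [hb1 P g1 g2 σ hσ, ← hhs σ]
    simp only [mul_ite, mul_zero]
    rw [Finset.sum_ite_eq]
    simp
  have h5 : ∑ H : Subgroup Gal(K/ℚ), hs H / Nat.card Gal(K/ℚ) * (EE H p : ℝ) =
      (∑ H : Subgroup Gal(K/ℚ), hs H * (EE H p : ℝ)) / Nat.card Gal(K/ℚ) := by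
    rw [Finset.sum_div]
    exact Finset.sum_congr rfl fun H _ => by ring
  rw [h5, h4, mul_div_cancel_right₀ _ hG]

end finite

section finite'

variable (K : Type*) [Field K] [CharZero K] [inst : Algebra ℚ K] [FiniteDimensional ℚ K]
  [IsGalois ℚ K]

/-- Frobenius density theorem, elementary formulation. -/
theorem hasMean_class' {h : (K ≃ₐ[ℚ] K) → ℝ}
    (hh : ∀ g g', Subgroup.zpowers g = Subgroup.zpowers g' → h g = h g') {b : Nat.Primes → ℝ}
    {S : Set Nat.Primes} (hS : S.Finite)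
    (hb : ∀ p ∉ S, ∀ P : Ideal (𝓞 K), P.IsPrime → ((p : ℕ) : 𝓞 K) ∈ P → ∀ σ : K ≃ₐ[ℚ] K,
      (∀ x : 𝓞 K, σ • x - x ^ (p : ℕ) ∈ P) →
      (∀ τ : K ≃ₐ[ℚ] K, (∀ x : 𝓞 K, τ • x - x ^ (p : ℕ) ∈ P) → τ = σ) → b p = h σ) :
    HasMean b ((∑ g : K ≃ₐ[ℚ] K, h g) / Nat.card (K ≃ₐ[ℚ] K)) := by
  obtain rfl : inst = DivisionRing.toRatAlgebra := Subsingleton.elim _ _
  haveI : NumberField K := ⟨⟩
  refine hasMean_class hh ((hS.union (finite_not_unr K)).subset fun p hp => ?_)
  by_contra hcon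
  rw [Set.mem_union, not_or] at hcon
  obtain ⟨hpS, hunr⟩ := hcon
  simp only [Set.mem_ofPred_eq, not_not] at hunr
  apply hp
  intro P hP1 hP2 σ hσ
  have hpP : ((p : ℕ) : 𝓞 K) ∈ P := by
    have h1 : ((p : ℕ) : ℤ) ∈ P.under ℤ := by
      rw [← P.over_def (pp p)]
      exact Ideal.mem_span_singleton_self _
    simpa [Ideal.under] using h1
  refine hb p hpS P hP1 hpP σ (fun x => ?_) fun τ hτ => ?_
  · have := hσ x
    rwa [natCard_quot K p P] at this
  · refine hunr.eq_of_isArithFrobAt P (fun x => ?_) hσ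
    rw [natCard_quot K p P]
    exact hτ x

end finite'

section places

variable {L : Type*} [Field L] [CharZero L] [inst : Algebra ℚ L] [IsGalois ℚ L]

attribute [-instance] DivisionRing.toRatAlgebra in
/-- a Frobenius element at a place over a given prime of a finite Galois extension -/
theorem exists_place_of_prime (E : IntermediateField ℚ L) [FiniteDimensional ℚ E] [Normal ℚ E]
    [NumberField E] {p : ℕ} (hp : p.Prime) (P : Ideal (𝓞 E)) [hP : P.IsPrime]
    (hpP : (p : 𝓞 E) ∈ P) (σ : E ≃ₐ[ℚ] E)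
    (huniq : ∀ τ : E ≃ₐ[ℚ] E, (∀ x : 𝓞 E, τ • x - x ^ p ∈ P) → τ = σ) :
    ∃ A : ValuationSubring L, A.LiesOverPrime p ∧ ∃ τ : L ≃ₐ[ℚ] L, A.IsFrobeniusAt τ p ∧
      AlgEquiv.restrictNormal τ E = σ := by
  have hcomp : ∀ x : 𝓞 E, IsIntegral ℤ ((x : E) : L) := fun x =>
    (RingOfIntegers.isIntegral_coe x).map (algebraMap E L).toIntAlgHom
  let i : 𝓞 E →+* integralClosure ℤ L :=
    { toFun := fun x => ⟨((x : E) : L), hcomp x⟩
      map_one' := by ext; simp
      map_mul' := fun x y => by ext; simp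
      map_zero' := by ext; simp
      map_add' := fun x y => by ext; simp }
  letI : Algebra (𝓞 E) (integralClosure ℤ L) := i.toAlgebra
  haveI : Algebra.IsIntegral (𝓞 E) (integralClosure ℤ L) := ⟨fun x => by
    haveI : IsScalarTower ℤ (𝓞 E) (integralClosure ℤ L) := IsScalarTower.of_algebraMap_eq' (by
      ext; simp)
    exact (Algebra.IsIntegral.isIntegral (R := ℤ) x).tower_top⟩
  have hinj : Function.Injective i := fun x y hxy => by
    have : ((x : E) : L) = ((y : E) : L) :=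
      congrArg (fun z : integralClosure ℤ L => (z : L)) hxy
    exact RingOfIntegers.ext (by exact_mod_cast this)
  obtain ⟨Q, -, hQprime, hQ⟩ := Ideal.exists_ideal_over_prime_of_isIntegral P
    (⊥ : Ideal (integralClosure ℤ L)) (by
      change Ideal.comap i ⊥ ≤ P
      rw [Ideal.comap_bot_of_injective _ hinj]; exact bot_le)
  have hP0 : P ≠ ⊥ := by
    intro h
    rw [h, Ideal.mem_bot] at hpP
    exact hp.ne_zero (by exact_mod_cast hpP)
  haveI hPmax : P.IsMaximal := hP.isMaximal hP0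
  haveI hQmax : Q.IsMaximal := Ideal.isMaximal_of_isIntegral_of_isMaximal_comap Q
    (by rw [hQ]; exact hPmax)
  obtain ⟨A, hA⟩ := exists_center_eq Q
  have hAp : A.LiesOverPrime p := by
    have h1 : i (p : 𝓞 E) ∈ Q := by
      rw [← hQ] at hpP
      exact hpP
    rw [← hA, mem_center] at h1
    have h2 : ((i (p : 𝓞 E) : integralClosure ℤ L) : L) = (p : L) := by simp [i]
    rw [h2] at h1
    exact h1
  obtain ⟨τ, hτ⟩ := exists_isFrobeniusAt A hp hAp
  refine ⟨A, hAp, τ, hτ, huniq _ fun x => ?_⟩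
  have h1 : τ ((x : E) : L) - ((x : E) : L) ^ p ∈ A.nonunits :=
    sub_pow_mem_nonunits hτ (mem_of_isIntegral_int A (hcomp x))
  rw [← hQ, Ideal.mem_comap]
  change i _ ∈ Q
  rw [← hA, mem_center]
  have h2 : ((i (AlgEquiv.restrictNormal τ E • x - x ^ p) : integralClosure ℤ L) : L) =
      τ ((x : E) : L) - ((x : E) : L) ^ p := by
    have h3 : ((AlgEquiv.restrictNormal τ E (x : E) : E) : L) = τ ((x : E) : L) :=
      AlgEquiv.restrictNormal_commutes τ E (x : E)
    rw [← h3]
    simp only [i, RingHom.coe_mk, MonoidHom.coe_mk, OneHom.coe_mk, map_sub, map_pow]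
    rfl
  rw [h2]
  exact h1

open scoped Classical in
/-- averages over finite quotients -/
theorem sum_comp_surjective {A B : Type*} [Group A] [Group B] [Fintype A] [Fintype B]
    (φ : A →* B) (hφ : Function.Surjective φ) (h : B → ℝ) :
    (∑ a, h (φ a)) / Fintype.card A = (∑ b, h b) / Fintype.card B := by
  have hfib : ∀ b : B, (Finset.univ.filter (fun a => φ a = b)).card =
      (Finset.univ.filter (fun a => φ a = 1)).card := by
    intro b
    obtain ⟨a₀, rfl⟩ := hφ b
    refine Finset.card_bij (fun a _ => a₀⁻¹ * a) ?_ ?_ ?_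
    · intro a ha
      simp only [Finset.mem_filter, Finset.mem_univ, true_and] at ha ⊢
      rw [map_mul, map_inv, ha, inv_mul_cancel]
    · intro a _ a' _ h
      exact mul_left_cancel h
    · intro a ha
      simp only [Finset.mem_filter, Finset.mem_univ, true_and] at ha ⊢
      exact ⟨a₀ * a, by rw [map_mul, ha, mul_one], by rw [inv_mul_cancel_left]⟩
  set c := (Finset.univ.filter (fun a => φ a = 1)).card with hc
  have h1 : ∑ a, h (φ a) = c * ∑ b, h b := by
    rw [← Finset.sum_fiberwise_of_maps_to (s := Finset.univ) (t := Finset.univ) (g := φ)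
      (fun _ _ => Finset.mem_univ _), Finset.mul_sum]
    refine Finset.sum_congr rfl fun b _ => ?_
    rw [Finset.sum_congr rfl (g := fun _ => h b), Finset.sum_const, hfib, nsmul_eq_mul]
    intro a ha
    rw [(Finset.mem_filter.1 ha).2]
  have h2 : (Fintype.card A : ℝ) = c * Fintype.card B := by
    rw [← Finset.card_univ, Finset.card_eq_sum_card_fiberwise (f := φ) (t := Finset.univ)
      (fun _ _ => Finset.mem_coe.2 (Finset.mem_univ _)), Finset.sum_congr rfl fun b _ => hfib b,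
      Finset.sum_const, Finset.card_univ, smul_eq_mul]
    push_cast
    ring
  have hc0 : (c : ℝ) ≠ 0 := by
    have : 0 < c := Finset.card_pos.2 ⟨1, by simp⟩
    exact_mod_cast this.ne'
  have hB0 : (Fintype.card B : ℝ) ≠ 0 := by
    haveI : Nonempty B := ⟨1⟩
    exact_mod_cast Fintype.card_ne_zero
  rw [h1, h2, mul_div_mul_left _ _ hc0]

/-- **Frobenius density theorem** for finite quotients of the absolute Galois group -/
theorem hasMean_frobenius {G : Type*} [Group G] [Fintype G] (ρ : (L ≃ₐ[ℚ] L) →* G)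
    (hρ : IsOpen (ρ.ker : Set (L ≃ₐ[ℚ] L))) (hsurj : Function.Surjective ρ) {h : G → ℝ}
    (hh : ∀ g g', Subgroup.zpowers g = Subgroup.zpowers g' → h g = h g') {b : Nat.Primes → ℝ}
    {S : Set Nat.Primes} (hS : S.Finite)
    (hb : ∀ p ∉ S, ∀ A : ValuationSubring L, A.LiesOverPrime p → ∀ τ : L ≃ₐ[ℚ] L,
      A.IsFrobeniusAt τ p → b p = h (ρ τ)) :
    HasMean b ((∑ g : G, h g) / Fintype.card G) := by
  classical
  obtain ⟨E, hfin, hnorm, hE⟩ := (krullTopology_mem_nhds_one_iff_of_normal ℚ L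
    (ρ.ker : Set (L ≃ₐ[ℚ] L))).mp (hρ.mem_nhds (one_mem ρ.ker))
  letI algE : Algebra ℚ E := E.algebra'
  haveI := hfin
  haveI : Algebra.IsSeparable ℚ E := Algebra.IsAlgebraic.isSeparable_of_perfectField
  haveI hgal : IsGalois ℚ E := ⟨⟩
  haveI hNF : NumberField E := by
    have h := hfin
    have h2 : algE = DivisionRing.toRatAlgebra := Subsingleton.elim _ _
    exact { to_charZero := inferInstance, to_finiteDimensional := h2 ▸ h }
  -- the induced homomorphism
  have hker : (AlgEquiv.restrictNormalHom (F := ℚ) (K₁ := L) E).ker ≤ ρ.ker := by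
    intro σ hσ
    apply hE
    rw [SetLike.mem_coe, IntermediateField.mem_fixingSubgroup_iff]
    intro x hx
    have h1 : ((AlgEquiv.restrictNormal σ E ⟨x, hx⟩ : E) : L) = σ x :=
      AlgEquiv.restrictNormal_commutes σ E ⟨x, hx⟩
    have h2 : AlgEquiv.restrictNormal σ E = 1 := hσ
    rw [← h1, h2]
    rfl
  have hresurj : Function.Surjective (AlgEquiv.restrictNormalHom (F := ℚ) (K₁ := L) E) :=
    AlgEquiv.restrictNormalHom_surjective L
  let φ : (E ≃ₐ[ℚ] E) →* G := (QuotientGroup.lift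
    (AlgEquiv.restrictNormalHom (F := ℚ) (K₁ := L) E).ker ρ hker).comp
      (QuotientGroup.quotientKerEquivOfSurjective _ hresurj).symm.toMonoidHom
  have hφ : ∀ σ : L ≃ₐ[ℚ] L, φ (AlgEquiv.restrictNormal σ E) = ρ σ := by
    intro σ
    have h1 : (QuotientGroup.quotientKerEquivOfSurjective
        (AlgEquiv.restrictNormalHom (F := ℚ) (K₁ := L) E) hresurj).symm
        (AlgEquiv.restrictNormal σ E) = QuotientGroup.mk σ := by
      rw [MulEquiv.symm_apply_eq]
      rfl
    change QuotientGroup.lift _ ρ hker ((QuotientGroup.quotientKerEquivOfSurjective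
        (AlgEquiv.restrictNormalHom (F := ℚ) (K₁ := L) E) hresurj).symm
        (AlgEquiv.restrictNormal σ E)) = ρ σ
    rw [h1]
    rfl
  have hφsurj : Function.Surjective φ := by
    intro g
    obtain ⟨σ, rfl⟩ := hsurj g
    exact ⟨_, hφ σ⟩
  have hzp : ∀ g g' : E ≃ₐ[ℚ] E, Subgroup.zpowers g = Subgroup.zpowers g' →
      h (φ g) = h (φ g') := by
    intro g g' hg
    apply hh
    rw [← MonoidHom.map_zpowers, ← MonoidHom.map_zpowers, hg]
  have key : HasMean b ((∑ g : E ≃ₐ[ℚ] E, h (φ g)) / Nat.card (E ≃ₐ[ℚ] E)) := by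
    refine hasMean_class' E hzp hS fun p hpS P hP1 hpP σ _ huniq => ?_
    obtain ⟨A, hA, τ, hτ, hτσ⟩ := exists_place_of_prime E p.2 P hpP σ huniq
    rw [hb p hpS A hA τ hτ, ← hφ, hτσ]
  rw [Nat.card_eq_fintype_card, sum_comp_surjective φ hφsurj] at key
  exact key

end places

end Fermat.Agent.DS
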