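import Fermat.Agent.DS.Unip
import Fermat.Prelude.Thm_ModularForm_isBoundedAtImInfty_heckeU
import Fermat.Prelude.Thm_ModularForm_isBoundedAtImInfty_heckeT
import Fermat.Prelude.Thm_ModularForm_periodic_heckeU_comp_ofComplex
import Fermat.Prelude.Thm_ModularForm_periodic_heckeT_comp_ofComplex
import Fermat.Prelude.Thm_ModularForm_mdifferentiable_heckeU
import Fermat.Prelude.Thm_ModularForm_mdifferentiable_heckeT

/-!
# Hecke relations at `p` determine the diamond operator `⟨p⟩`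
-/

set_option autoImplicit false
set_option linter.style.haveILetI false
set_option linter.unusedSectionVars false

noncomputable section

open UpperHalfPlane hiding I
open Complex Filter ModularForm
open scoped Topology MatrixGroups Real Manifold

namespace Fermat.Agent.DS

open Fermat.Agent.GamH Fermat.Agent.MFLib CongruenceSubgroup

variable {N : ℕ} {p : ℕ}

theorem heckeMatrix_eq_gm (hp : p ≠ 0) (j : ℕ) :
    heckeMatrix p j = gm 1 j 0 p (by simpa using hp) := by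
  apply Matrix.GeneralLinearGroup.ext
  intro i k
  rw [val_heckeMatrix hp, val_gm]

theorem sub_slash' {G : Type*} [Monoid G] [SlashAction ℤ G (ℍ → ℂ)] (k : ℤ) (x : G) (f g : ℍ → ℂ) :
    (f - g) ∣[k] x = f ∣[k] x - g ∣[k] x := by
  rw [sub_eq_add_neg, SlashAction.add_slash, SlashAction.neg_slash, sub_eq_add_neg]

/-- lower unipotent element -/
def Lm (N : ℕ) (m : ℤ) : SL(2, ℤ) := sm 1 0 (m * N) 1 (by ring)

theorem Lm_mem (m : ℤ) : Lm N m ∈ Gamma1 N := sm_mem_Gamma1 (Dvd.intro_left _ rfl) (by simp)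

theorem Lm_mul (m n : ℤ) : Lm N m * Lm N n = Lm N (m + n) := by
  apply Subtype.ext
  rw [Matrix.SpecialLinearGroup.coe_mul]
  change !![1, 0; m * (N : ℤ), 1] * !![1, 0; n * (N : ℤ), 1] = !![1, 0; (m + n) * (N : ℤ), 1]
  rw [Matrix.mul_fin_two]
  congr 1
  simp only [mul_one, mul_zero, add_zero, zero_mul, one_mul, zero_add, add_mul]

section

variable [Fact p.Prime] {k : ℤ} {f : ℍ → ℂ}

theorem pne : p ≠ 0 := (Fact.out : p.Prime).ne_zero

/-- slash by `α_x` -/
def al (k : ℤ) (f : ℍ → ℂ) (x : ZMod p) : ℍ → ℂ := f ∣[k] heckeMatrix p x.val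

theorem heckeU_eq_sum : heckeU k p f = ∑ x : ZMod p, al k f x := by
  rw [heckeU_def]
  refine Finset.sum_bij' (fun j _ => (j : ZMod p)) (fun x _ => x.val) ?_ ?_ ?_ ?_ ?_
  · intro j _; exact Finset.mem_univ _
  · intro x _; exact Finset.mem_range.2 (ZMod.val_lt x)
  · intro j hj
    exact ZMod.val_cast_of_lt (Finset.mem_range.1 hj)
  · intro x _
    exact ZMod.natCast_zmod_val x
  · intro j hj
    rw [al, ZMod.val_cast_of_lt (Finset.mem_range.1 hj)]

/-- `α_x L_m = γ' α_{x/(1+xmN)}` -/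
theorem al_slash (hf : ∀ γ ∈ Gamma1 N, f ∣[k] γ = f) (x : ZMod p) (m : ℤ)
    (hx : 1 + x * (m : ZMod p) * (N : ZMod p) ≠ 0) :
    (al k f x) ∣[k] Lm N m = al k f (x / (1 + x * (m : ZMod p) * (N : ZMod p))) := by
  obtain ⟨y, hy⟩ : ∃ y : ZMod p, y = x / (1 + x * (m : ZMod p) * (N : ZMod p)) := ⟨_, rfl⟩
  rw [← hy]
  have h1 : y * (1 + x * (m : ZMod p) * (N : ZMod p)) = x := by rw [hy, div_mul_cancel₀ _ hx]
  -- lift to integers
  have h2 : (p : ℤ) ∣ (x.val : ℤ) - y.val * (1 + x.val * m * N) := by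
    rw [← ZMod.intCast_zmod_eq_zero_iff_dvd]
    push_cast
    rw [ZMod.natCast_zmod_val, ZMod.natCast_zmod_val, h1, sub_self]
  obtain ⟨b', hb'⟩ := h2
  have hpZ : (p : ℤ) ≠ 0 := by exact_mod_cast pne (p := p)
  let γ : SL(2, ℤ) := sm (1 + x.val * m * N) b' (p * m * N) (1 - m * N * y.val) (by
    apply mul_left_cancel₀ hpZ
    linear_combination ((p : ℤ) * m * N) * hb')
  have hγ : γ ∈ Gamma1 N := sm_mem_Gamma1 (Dvd.intro_left _ rfl)
    ⟨-(m * y.val), by ring⟩
  have hbR : (x.val : ℝ) - y.val * (1 + x.val * m * N) = p * b' := by exact_mod_cast hb'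
  have key : heckeMatrix p x.val * ((Lm N m : SL(2, ℤ)) : GL (Fin 2) ℝ) =
      ((γ : SL(2, ℤ)) : GL (Fin 2) ℝ) * heckeMatrix p y.val := by
    rw [Lm, coe_sm, coe_sm, heckeMatrix_eq_gm pne, heckeMatrix_eq_gm pne, gm_mul, gm_mul]
    apply gm_congr
    · push_cast; ring
    · push_cast; linear_combination hbR
    · push_cast; ring
    · push_cast; ring
  rw [al, al, SL_slash, ← SlashAction.slash_mul, key, SlashAction.slash_mul, ← SL_slash, hf γ hγ]

end

theorem sum_diamond [NeZero N] {k : ℤ} {f : ℍ → ℂ} (hf : ∀ γ ∈ Gamma1 N, f ∣[k] γ = f)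
    (hp : p.Prime) (hpN : ¬ p ∣ N) {e a : ℂ}
    (hrel : heckeU k p f + e • (f ∣[k] heckeDiagMatrix p) = a • f) :
    ∃ γ : SL(2, ℤ), γ ∈ Gamma0 N ∧ γ 1 1 = p ∧
      lT (N / p) ∈ stb k (f ∣[k] γ - e • f) := by
  haveI : Fact p.Prime := ⟨hp⟩
  have hpZ : (p : ℤ) ≠ 0 := by exact_mod_cast hp.ne_zero
  have hpR : (p : ℝ) ≠ 0 := by exact_mod_cast hp.ne_zero
  have hN0 : (N : ZMod p) ≠ 0 := by
    rw [Ne, ZMod.natCast_eq_zero_iff]; exact hpN
  obtain ⟨x₀, hx₀⟩ : ∃ x₀ : ZMod p, 1 + x₀ * N = 0 := ⟨-(N : ZMod p)⁻¹, by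
    rw [neg_mul, inv_mul_cancel₀ hN0]; ring⟩
  obtain ⟨a', ha'⟩ : (p : ℤ) ∣ 1 + x₀.val * N := by
    rw [← ZMod.intCast_zmod_eq_zero_iff_dvd]
    push_cast
    rw [ZMod.natCast_zmod_val, hx₀]
  let γ : SL(2, ℤ) := sm a' x₀.val N p (by linear_combination -ha')
  have haR : (1 : ℝ) + x₀.val * N = p * a' := by exact_mod_cast ha'
  have hL1 : ∀ g : ℍ → ℂ, g ∣[k] (Lm N 1) = g ∣[k] lT N := by
    intro g
    rw [SL_slash, Lm, coe_sm, lT]
    congr 1
    apply gm_congr <;> simp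
  -- `α_{x₀} L = γ β`
  have hx₀L : (al k f x₀) ∣[k] Lm N 1 = (f ∣[k] γ) ∣[k] heckeDiagMatrix p := by
    have key : heckeMatrix p x₀.val * ((Lm N 1 : SL(2, ℤ)) : GL (Fin 2) ℝ) =
        ((γ : SL(2, ℤ)) : GL (Fin 2) ℝ) * heckeDiagMatrix p := by
      rw [Lm, coe_sm, coe_sm, heckeMatrix_eq_gm hp.ne_zero, bM_eq hp.ne_zero, bM, gm_mul, gm_mul]
      apply gm_congr
      · push_cast; linear_combination haR
      · push_cast; ring
      · push_cast; ring
      · push_cast; ring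
    rw [al, SL_slash, ← SlashAction.slash_mul, key, SlashAction.slash_mul, SL_slash]
  have hx₀LL : ((f ∣[k] γ) ∣[k] heckeDiagMatrix p) ∣[k] Lm N 1 = al k f (-x₀) := by
    rw [← hx₀L, ← SlashAction.slash_mul, Lm_mul]
    have h1 : 1 + x₀ * ((1 + 1 : ℤ) : ZMod p) * N = -1 := by
      push_cast
      linear_combination 2 * hx₀
    rw [al_slash hf x₀ (1 + 1) (by rw [h1]; exact neg_ne_zero.2 one_ne_zero), h1]
    congr 1
    rw [div_neg, div_one]
  -- the sum
  have hsum : (∑ x : ZMod p, al k f x) ∣[k] Lm N 1 =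
      (f ∣[k] γ) ∣[k] heckeDiagMatrix p + ∑ y ∈ Finset.univ.erase (-x₀), al k f y := by
    rw [sum_slash_SL, ← Finset.add_sum_erase _ _ (Finset.mem_univ x₀), hx₀L]
    congr 1
    refine Finset.sum_bij' (fun x _ => x / (1 + x * N)) (fun y _ => y / (1 - y * N)) ?_ ?_ ?_ ?_ ?_
    · intro x hx
      rw [Finset.mem_erase] at hx ⊢
      refine ⟨fun h => ?_, Finset.mem_univ _⟩
      have h1 : 1 + x * N ≠ 0 := by
        intro h1
        apply hx.1
        have : (x - x₀) * N = 0 := by linear_combination h1 - hx₀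
        rcases mul_eq_zero.1 this with h2 | h2
        · exact sub_eq_zero.1 h2
        · exact absurd h2 hN0
      rw [div_eq_iff h1] at h
      have : (0 : ZMod p) = 1 := by
        have h4 : x₀ = 0 := by linear_combination h - x * hx₀
        rw [h4] at hx₀
        simp at hx₀
      exact one_ne_zero this.symm
    · intro y hy
      rw [Finset.mem_erase] at hy ⊢
      refine ⟨fun h => ?_, Finset.mem_univ _⟩
      have h1 : 1 - y * N ≠ 0 := by
        intro h1
        apply hy.1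
        have : (y + x₀) * N = 0 := by linear_combination -h1 + hx₀
        rcases mul_eq_zero.1 this with h2 | h2
        · exact eq_neg_of_add_eq_zero_left h2
        · exact absurd h2 hN0
      rw [div_eq_iff h1] at h
      have h4 : x₀ = 0 := by linear_combination -h + y * hx₀
      rw [h4] at hx₀
      simp at hx₀
    · intro x hx
      rw [Finset.mem_erase] at hx
      have h1 : 1 + x * N ≠ 0 := by
        intro h1
        apply hx.1
        have : (x - x₀) * N = 0 := by linear_combination h1 - hx₀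
        rcases mul_eq_zero.1 this with h2 | h2
        · exact sub_eq_zero.1 h2
        · exact absurd h2 hN0
      have h2 : 1 - x / (1 + x * N) * N = 1 / (1 + x * N) := by field_simp; ring
      simp only [h2]
      field_simp
    · intro y hy
      rw [Finset.mem_erase] at hy
      have h1 : 1 - y * N ≠ 0 := by
        intro h1
        apply hy.1
        have : (y + x₀) * N = 0 := by linear_combination -h1 + hx₀
        rcases mul_eq_zero.1 this with h2 | h2
        · exact eq_neg_of_add_eq_zero_left h2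
        · exact absurd h2 hN0
      have h2 : 1 + y / (1 - y * N) * N = 1 / (1 - y * N) := by field_simp; ring
      simp only [h2]
      field_simp
    · intro x hx
      rw [Finset.mem_erase] at hx
      have h1 : 1 + x * ((1 : ℤ) : ZMod p) * N ≠ 0 := by
        rw [Int.cast_one, mul_one]
        intro h1
        apply hx.1
        have : (x - x₀) * N = 0 := by linear_combination h1 - hx₀
        rcases mul_eq_zero.1 this with h2 | h2
        · exact sub_eq_zero.1 h2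
        · exact absurd h2 hN0
      rw [al_slash hf x 1 h1, Int.cast_one, mul_one]
  -- apply `L` to the relation
  have hrel' : (∑ x : ZMod p, al k f x) + e • (f ∣[k] heckeDiagMatrix p) = a • f := by
    rw [← heckeU_eq_sum]; exact hrel
  have h2 := congrArg (fun g : ℍ → ℂ => g ∣[k] Lm N 1) hrel'
  simp only [SlashAction.add_slash] at h2
  rw [hsum, SL_smul_slash, SL_smul_slash, hf _ (Lm_mem 1), ← hrel',
    ← Finset.add_sum_erase _ _ (Finset.mem_univ (-x₀))] at h2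
  refine ⟨γ, ?_, rfl, ?_⟩
  · rw [Gamma0_mem]
    change ((N : ℤ) : ZMod N) = 0
    simp
  · -- conjugation
    have h3 : ((f ∣[k] γ - e • f) ∣[k] heckeDiagMatrix p) ∣[k] Lm N 1 =
        (f ∣[k] γ - e • f) ∣[k] heckeDiagMatrix p := by
      have hs : (f ∣[k] γ - e • f) ∣[k] heckeDiagMatrix p =
          (f ∣[k] γ) ∣[k] heckeDiagMatrix p - e • (f ∣[k] heckeDiagMatrix p) := by
        rw [sub_slash', ModularForm.smul_slash, σ_heckeDiagMatrix,
          ContinuousAlgEquiv.refl_apply]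
      rw [hs, sub_slash', SL_smul_slash, hx₀LL]
      linear_combination -h2
    have h4 : lT N ∈ stb k ((f ∣[k] γ - e • f) ∣[k] heckeDiagMatrix p) := by
      rw [mem_stb, ← hL1]; exact h3
    rw [mem_stb_slash, bM_eq hp.ne_zero] at h4
    have h5 : bM hp.ne_zero * lT N * (bM hp.ne_zero)⁻¹ = lT (N / p) := by
      rw [mul_inv_eq_iff_eq_mul, bM, lT, lT, gm_mul, gm_mul]
      apply gm_congr
      · ring
      · ring
      · field_simp; ring
      · ring
    rwa [h5] at h4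

theorem mem_Gamma1_of [NeZero N] {γ : SL(2, ℤ)} (hγ : γ ∈ Gamma0 N) (h : ((γ 1 1 : ℤ) : ZMod N) = 1) :
    γ ∈ Gamma1 N := by
  rw [Gamma1_mem]
  have h1 := Gamma0_det hγ
  rw [h, mul_one] at h1
  exact ⟨h1, h, Gamma0_mem.1 hγ⟩

theorem conj_mem_Gamma1 [NeZero N] {γ δ : SL(2, ℤ)} (hγ : γ ∈ Gamma0 N) (hδ : δ ∈ Gamma1 N) :
    γ * δ * γ⁻¹ ∈ Gamma1 N := by
  have hδ0 : δ ∈ Gamma0 N := Gamma1_in_Gamma0 N hδ
  have h1 : (γ⁻¹) 1 1 = γ 0 0 := by
    rw [Matrix.SpecialLinearGroup.coe_inv, Matrix.adjugate_fin_two]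
    simp
  refine mem_Gamma1_of (mul_mem (mul_mem hγ hδ0) (inv_mem hγ)) ?_
  rw [Gamma0_mul_11 (mul_mem hγ hδ0), Gamma0_mul_11 hγ, h1, ((Gamma1_mem N δ).1 hδ).2.1, mul_one]
  have := Gamma0_det hγ
  rw [mul_comm]; exact this

theorem isMF_slash_Gamma0 [NeZero N] {k : ℤ} {f : ℍ → ℂ} (hf : IsMF (Gamma1 N) k f) {γ : SL(2, ℤ)}
    (hγ : γ ∈ Gamma0 N) : IsMF (Gamma1 N) k (f ∣[k] γ) where
  toHB := hf.toHB.slash γ
  slash δ hδ := by
    rw [← SlashAction.slash_mul, show γ * δ = (γ * δ * γ⁻¹) * γ by group, SlashAction.slash_mul,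
      hf.slash _ (conj_mem_Gamma1 hγ hδ)]

theorem isCF_slash_Gamma0 [NeZero N] {k : ℤ} {f : ℍ → ℂ} (hf : IsCF (Gamma1 N) k f) {γ : SL(2, ℤ)}
    (hγ : γ ∈ Gamma0 N) : IsCF (Gamma1 N) k (f ∣[k] γ) where
  toIsMF := isMF_slash_Gamma0 hf.toIsMF hγ
  zero_cusps δ := by
    rw [← SlashAction.slash_mul]
    exact hf.zero_cusps _

theorem slash_eq_of_congr [NeZero N] {k : ℤ} {f : ℍ → ℂ} (hf : ∀ γ ∈ Gamma1 N, f ∣[k] γ = f)
    {γ δ : SL(2, ℤ)} (hγ : γ ∈ Gamma0 N) (hδ : δ ∈ Gamma0 N)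
    (h : ((γ 1 1 : ℤ) : ZMod N) = ((δ 1 1 : ℤ) : ZMod N)) : f ∣[k] γ = f ∣[k] δ := by
  have h1 : (δ⁻¹) 1 1 = δ 0 0 := by
    rw [Matrix.SpecialLinearGroup.coe_inv, Matrix.adjugate_fin_two]
    simp
  have h2 : γ * δ⁻¹ ∈ Gamma1 N := by
    refine mem_Gamma1_of (mul_mem hγ (inv_mem hδ)) ?_
    rw [Gamma0_mul_11 hγ, h1, h, mul_comm]
    exact Gamma0_det hδ
  rw [show γ = (γ * δ⁻¹) * δ by group, SlashAction.slash_mul, hf _ h2]

/-- **the Hecke relation at `p` determines the action of `⟨p⟩`** -/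
theorem diamond_prime [NeZero N] {k : ℤ} {f : ℍ → ℂ} (hf : IsCF (Gamma1 N) k f)
    (hp : p.Prime) (hpN : ¬ p ∣ N) {e a : ℂ}
    (hrel : heckeU k p f + e • (f ∣[k] heckeDiagMatrix p) = a • f) {γ : SL(2, ℤ)}
    (hγ : γ ∈ Gamma0 N) (hd : ((γ 1 1 : ℤ) : ZMod N) = p) : f ∣[k] γ = e • f := by
  obtain ⟨δ, hδ, hδp, hA⟩ := sum_diamond hf.slash hp hpN hrel
  have h1 : f ∣[k] γ = f ∣[k] δ :=
    slash_eq_of_congr hf.slash hγ hδ (by rw [hd, hδp]; simp)
  have hg : IsCF (Gamma1 N) k (f ∣[k] δ) := isCF_slash_Gamma0 hf hδ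
  have h2 : f ∣[k] δ - e • f = 0 := by
    refine eq_zero_of_lT (NeZero.ne N) hp hpN (hg.toHB.sub (hf.toHB.smul e)).holo ?_ ?_ hA
    · have hz1 : IsZeroAtImInfty (f ∣[k] δ) := hf.zero_cusps δ
      have hz2 : IsZeroAtImInfty f := by simpa using hf.zero_cusps 1
      have h3 : Tendsto (f ∣[k] δ) atImInfty (𝓝 0) := hz1
      have h4 : Tendsto f atImInfty (𝓝 0) := hz2
      have h5 := h3.sub (h4.const_smul e)
      rw [smul_zero, sub_zero] at h5
      exact h5
    · intro δ' hδ'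
      rw [mem_stb, ← SL_slash, sub_slash', SL_smul_slash, hg.slash δ' hδ', hf.slash δ' hδ']
  rw [h1, sub_eq_zero.1 h2]

theorem qg_heckeU {k : ℤ} {f : ℍ → ℂ} (hf : QG f) (p : ℕ) : QG (heckeU k p f) where
  per := by
    have := ModularForm.periodic_heckeU_comp_ofComplex (f := f) (by simpa using hf.per) k p
    simpa using this
  holo := ModularForm.mdifferentiable_heckeU hf.holo k p
  bdd := ModularForm.isBoundedAtImInfty_heckeU hf.bdd k p

theorem qg_heckeT {k : ℤ} {f : ℍ → ℂ} (hf : QG f) (p : ℕ) : QG (heckeT k p f) where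
  per := by
    have := ModularForm.periodic_heckeT_comp_ofComplex (f := f) (by simpa using hf.per) k p
    simpa using this
  holo := ModularForm.mdifferentiable_heckeT hf.holo k p
  bdd := ModularForm.isBoundedAtImInfty_heckeT hf.bdd k p

theorem coeff_heckeU {k : ℤ} {f : ℍ → ℂ} (hf : QG f) {p : ℕ} (hp : p ≠ 0) (n : ℕ) :
    (qe (heckeU k p f)).coeff n = (qe f).coeff (p * n) := by
  have := UpperHalfPlane.qCoeff_heckeU (f := f) (by simpa using hf.per) hf.holo hf.bdd k hp n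
  rw [coeffHeckeU_apply, mul_comm] at this
  exact this

theorem coeff_heckeT {k : ℤ} {f : ℍ → ℂ} (hf : QG f) {p : ℕ} (hp : p ≠ 0) (n : ℕ) :
    (qe (heckeT k p f)).coeff n = (qe f).coeff (p * n) +
      (p : ℂ) ^ (k - 1) * (if p ∣ n then (qe f).coeff (n / p) else 0) := by
  have := UpperHalfPlane.qCoeff_heckeT (f := f) (by simpa using hf.per) hf.holo hf.bdd k hp n
  rw [coeffHeckeT_apply, mul_comm n p] at this
  rw [mul_ite, mul_zero]
  exact this

theorem bM_eq_sub (k : ℤ) (f : ℍ → ℂ) (p : ℕ) :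
    f ∣[k] heckeDiagMatrix p = heckeT k p f - heckeU k p f := by
  rw [heckeT, add_sub_cancel_left]

theorem qg_diag {k : ℤ} {f : ℍ → ℂ} (hf : QG f) (p : ℕ) : QG (f ∣[k] heckeDiagMatrix p) := by
  rw [bM_eq_sub]
  exact (qg_heckeT hf p).sub (qg_heckeU hf p)

theorem coeff_diag {k : ℤ} {f : ℍ → ℂ} (hf : QG f) {p : ℕ} (hp : p ≠ 0) (n : ℕ) :
    (qe (f ∣[k] heckeDiagMatrix p)).coeff n =
      (p : ℂ) ^ (k - 1) * (if p ∣ n then (qe f).coeff (n / p) else 0) := by
  rw [bM_eq_sub, (qg_heckeT hf p).qe_sub (qg_heckeU hf p), map_sub, coeff_heckeT hf hp,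
    coeff_heckeU hf hp]
  ring

/-- **a weight one form satisfying the Hecke relations with character `ε` is an eigenvector of
the diamond operators** -/
theorem diamond_char [NeZero N] (ε : DirichletCharacter ℂ N) {f : ℍ → ℂ}
    (hf : IsCF (Gamma1 N) 1 f) {a : ℕ → ℂ}
    (hrel : ∀ p : ℕ, p.Prime → ¬ p ∣ N → ∀ n : ℕ, (qe f).coeff (p * n) +
      ε (p : ZMod N) * (if p ∣ n then (qe f).coeff (n / p) else 0) = a p * (qe f).coeff n)
    {γ : SL(2, ℤ)} (hγ : γ ∈ Gamma0 N) : f ∣[(1 : ℤ)] γ = ε ((γ 1 1 : ℤ) : ZMod N) • f := by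
  have hqf : QG f := hf.qg (T_mem_Gamma1 N)
  have hunit : IsUnit ((γ 1 1 : ℤ) : ZMod N) :=
    IsUnit.of_mul_eq_one _ (by rw [mul_comm]; exact Gamma0_det hγ)
  obtain ⟨p, hpN', hp, hpd⟩ := Nat.forall_exists_prime_gt_and_eq_mod hunit N
  have hpN : ¬ p ∣ N := fun h => absurd (Nat.le_of_dvd (Nat.pos_of_ne_zero (NeZero.ne N)) h)
    (by omega)
  have h1 : heckeU 1 p f + ε (p : ZMod N) • (f ∣[(1 : ℤ)] heckeDiagMatrix p) = a p • f := by
    have hQ1 : QG (heckeU 1 p f + ε (p : ZMod N) • (f ∣[(1 : ℤ)] heckeDiagMatrix p)) :=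
      (qg_heckeU hqf p).add ((qg_diag hqf p).smul _)
    rw [← hQ1.qe_inj (hqf.smul _)]
    ext n
    rw [(qg_heckeU hqf p).qe_add ((qg_diag hqf p).smul _), (qg_diag hqf p).qe_smul, hqf.qe_smul,
      map_add, PowerSeries.coeff_smul, PowerSeries.coeff_smul, coeff_heckeU hqf hp.ne_zero,
      coeff_diag hqf hp.ne_zero, sub_self, zpow_zero, one_mul, smul_eq_mul, smul_eq_mul]
    exact hrel p hp hpN n
  rw [diamond_prime hf hp hpN h1 hγ hpd.symm, hpd]

end Fermat.Agent.DS
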