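import Fermat.Agent.GamH.Forms

/-!
# Eisenstein series of weight `k + 1 ≥ 3` for `Γ(M)` as lattice sums, with their `q`-expansions
-/

set_option autoImplicit false
set_option linter.style.haveILetI false
set_option linter.unusedSectionVars false

noncomputable section

open UpperHalfPlane hiding I
open Complex Filter ModularForm EisensteinSeries Matrix
open scoped Topology MatrixGroups Real Manifold

namespace Fermat.Agent.DS

open Fermat.Agent.GamH Fermat.Agent.MFLib Fermat.Agent.ModPoly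

variable (k : ℕ) (M : ℕ) [NeZero M]

/-- the normalising constant -/
def CK : ℂ := (-2 * π * I) ^ (k + 1) / k.factorial / (M : ℂ) ^ (k + 1)

theorem CK_ne_zero : CK k M ≠ 0 := by
  rw [CK]
  have h1 : (π : ℂ) ≠ 0 := by exact_mod_cast Real.pi_ne_zero
  have h2 : (M : ℂ) ≠ 0 := by exact_mod_cast NeZero.ne M
  have h3 : (-2 * π * I : ℂ) ≠ 0 := by
    simp [h1]
  exact div_ne_zero (div_ne_zero (pow_ne_zero _ h3) (by exact_mod_cast k.factorial_ne_zero))
    (pow_ne_zero _ h2)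

variable {k M}

/-- the sum over one residue class -/
theorem tsum_classK (hk : 1 ≤ k) (a : ZMod M) (z : ℍ) :
    ∑' n : ℤ, (if (n : ZMod M) = a then (((z : ℂ) + n) ^ (k + 1))⁻¹ else 0) =
      CK k M * ∑' d : ℕ+, (d : ℂ) ^ k * (zM M ^ a.val * qM M z) ^ (d : ℕ) := by
  have hM0 : (M : ℂ) ≠ 0 := by exact_mod_cast NeZero.ne M
  have hMr : (0 : ℝ) < M := by exact_mod_cast NeZero.pos M
  let j : ℤ → ℤ := fun i => a.val + M * i
  have hj : Function.Injective j := by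
    intro i l h
    have h1 : (M : ℤ) * i = M * l := by simpa [j] using h
    exact mul_left_cancel₀ (by exact_mod_cast NeZero.ne M) h1
  have hjc : ∀ i, ((j i : ℤ) : ZMod M) = a := by
    intro i
    simp [j]
  have hsupp : Function.support
      (fun n : ℤ => if (n : ZMod M) = a then (((z : ℂ) + n) ^ (k + 1))⁻¹ else 0)
      ⊆ Set.range j := by
    intro n hn
    rw [Function.mem_support] at hn
    have h1 : (n : ZMod M) = a := by
      by_contra h
      rw [if_neg h] at hn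
      exact hn rfl
    have h2 : ((n - a.val : ℤ) : ZMod M) = 0 := by
      push_cast
      rw [h1, ZMod.natCast_zmod_val, sub_self]
    rw [ZMod.intCast_zmod_eq_zero_iff_dvd] at h2
    obtain ⟨i, hi⟩ := h2
    exact ⟨i, by simp only [j]; linarith⟩
  rw [← hj.tsum_eq hsupp]
  have him : 0 < (((z : ℂ) + a.val) / M).im := by
    rw [Complex.div_natCast_im]
    have : ((z : ℂ) + (a.val : ℂ)).im = z.im := by
      rw [Complex.add_im, Complex.natCast_im, add_zero, UpperHalfPlane.coe_im]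
    rw [this]
    exact div_pos z.im_pos hMr
  have h1 := EisensteinSeries.qExpansion_identity_pnat (k := k) hk
    (⟨((z : ℂ) + a.val) / M, him⟩ : ℍ)
  have h2 : ∀ i : ℤ, (if ((j i : ℤ) : ZMod M) = a then (((z : ℂ) + (j i : ℤ)) ^ (k + 1))⁻¹ else 0) =
      ((M : ℂ) ^ (k + 1))⁻¹ *
        (1 / (((⟨((z : ℂ) + a.val) / M, him⟩ : ℍ) : ℂ) + i) ^ (k + 1)) := by
    intro i
    rw [if_pos (hjc i)]
    change _ = ((M : ℂ) ^ (k + 1))⁻¹ * (1 / (((z : ℂ) + a.val) / M + i) ^ (k + 1))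
    have : (((z : ℂ) + a.val) / M + i) = ((z : ℂ) + (j i : ℤ)) / M := by
      simp only [j]
      push_cast
      field_simp
      ring
    rw [this, div_pow, one_div_div]
    field_simp
  rw [tsum_congr h2, tsum_mul_left, h1]
  have h3 : ∀ d : ℕ+, ((d : ℕ) : ℂ) ^ k *
      cexp (2 * π * I * ((⟨((z : ℂ) + a.val) / M, him⟩ : ℍ) : ℂ)) ^ (d : ℕ) =
      (d : ℂ) ^ k * (zM M ^ a.val * qM M z) ^ (d : ℕ) := by
    intro d
    congr 2
    rw [zM, qM, ← Complex.exp_nat_mul, ← Complex.exp_add]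
    congr 1
    change 2 * π * I * (((z : ℂ) + a.val) / M) = _
    field_simp
    ring
  rw [tsum_congr h3, CK]
  ring

/-! ### lattice sums with congruence conditions -/

open Classical in
/-- the terms of the lattice sum -/
def trK (k : ℕ) (P : ℤ → Prop) (b : ZMod M) (z : ℍ) (w : ℤ × ℤ) : ℂ :=
  if P w.1 ∧ (w.2 : ZMod M) = b then (((w.1 : ℂ) * z + w.2) ^ (k + 1))⁻¹ else 0

/-- the lattice sum over `P m`, `n ≡ b` -/
def lsK (k : ℕ) (P : ℤ → Prop) (b : ZMod M) (z : ℍ) : ℂ := ∑' w : ℤ × ℤ, trK k P b z w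

theorem summable_trK (hk : 2 ≤ k) (P : ℤ → Prop) (b : ZMod M) (z : ℍ) :
    Summable (trK k P b z) := by
  classical
  have h1 : Summable fun x : ℤ × ℤ ↦ eisSummand ((k + 1 : ℕ) : ℤ) ![x.1, x.2] z :=
    summable_prod_eisSummand (by exact_mod_cast Nat.succ_le_succ hk) z
  refine Summable.of_norm_bounded
    (g := fun x : ℤ × ℤ ↦ ‖eisSummand ((k + 1 : ℕ) : ℤ) ![x.1, x.2] z‖) h1.norm ?_
  intro w
  rw [trK]
  split_ifs
  · apply le_of_eq
    rw [eisSummand, _root_.zpow_neg, zpow_natCast]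
    simp
  · simp

/-- the constant -/
def kaK (k : ℕ) (b : ZMod M) : ℂ :=
  ∑' n : ℤ, (if (n : ZMod M) = b then (((n : ℂ)) ^ (k + 1))⁻¹ else 0)

open Classical in
/-- the coefficients of the `q_M`-expansion -/
def cGK (k : ℕ) (P : ℤ → Prop) (b : ZMod M) (n : ℕ) : ℂ :=
  if n = 0 then (if P 0 then kaK k b else 0) else
    CK k M * ∑ x ∈ n.divisorsAntidiagonal,
      ((if P (x.1 : ℤ) then (x.2 : ℂ) ^ k * (zM M ^ b.val) ^ x.2 else 0) + (-1) ^ (k + 1) *
        (if P (-(x.1 : ℤ)) then (x.2 : ℂ) ^ k * (zM M ^ (-b).val) ^ x.2 else 0))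

/-- the double series -/
theorem summable_doubleK (P : ℤ → Prop) [DecidablePred P] (c : ℂ) (hc : ‖c‖ = 1) {q : ℂ}
    (hq : ‖q‖ < 1) : Summable fun x : ℕ+ × ℕ+ =>
      (if P ((x.1 : ℕ) : ℤ) then ((x.2 : ℕ) : ℂ) ^ k * (c * q ^ (x.1 : ℕ)) ^ (x.2 : ℕ) else 0) := by
  have h1 := (summable_prod_mul_pow k hq).norm
  refine Summable.of_norm_bounded h1 ?_
  rintro ⟨m, d⟩
  simp only
  split_ifs
  · rw [mul_pow, norm_mul, norm_mul, norm_mul, norm_pow c, hc, one_pow, one_mul, ← pow_mul]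
  · rw [norm_zero]; exact norm_nonneg _

theorem tsum_trK_pos (hk : 1 ≤ k) (P : ℤ → Prop) [DecidablePred P] (b : ZMod M) (z : ℍ) (m : ℕ+) :
    ∑' n : ℤ, trK k P b z (((m : ℕ) : ℤ), n) = CK k M * ∑' d : ℕ+,
      (if P ((m : ℕ) : ℤ) then ((d : ℕ) : ℂ) ^ k * (zM M ^ b.val * qM M z ^ (m : ℕ)) ^ (d : ℕ)
        else 0) := by
  have him : 0 < (((m : ℕ) : ℂ) * z).im := by
    have : (((m : ℕ) : ℂ) * z).im = ((m : ℕ) : ℝ) * z.im := by simp
    rw [this]
    exact mul_pos (by exact_mod_cast m.pos) z.im_pos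
  by_cases hP : P ((m : ℕ) : ℤ)
  · have h1 := tsum_classK hk b (⟨((m : ℕ) : ℂ) * z, him⟩ : ℍ)
    have h2 : ∀ n : ℤ, trK k P b z (((m : ℕ) : ℤ), n) =
        if (n : ZMod M) = b then ((((⟨((m : ℕ) : ℂ) * z, him⟩ : ℍ) : ℂ) + n) ^ (k + 1))⁻¹
          else 0 := by
      intro n
      rw [trK]
      simp only [hP, true_and]
      congr 1
    rw [tsum_congr h2, h1]
    congr 1
    refine tsum_congr fun d => ?_
    rw [if_pos hP]
    congr 3
    exact qM_mul (m : ℕ) z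
  · have h2 : ∀ n : ℤ, trK k P b z (((m : ℕ) : ℤ), n) = 0 := by
      intro n
      rw [trK, if_neg (fun h => hP h.1)]
    rw [tsum_congr h2]
    simp [hP]

theorem trK_neg (P : ℤ → Prop) (b : ZMod M) (z : ℍ) (m n : ℤ) :
    trK k P b z (-m, n) = (-1) ^ (k + 1) * trK k (fun i => P (-i)) (-b) z (m, -n) := by
  rw [trK, trK]
  have h1 : ((n : ZMod M) = b) ↔ (((-n : ℤ) : ZMod M) = -b) := by
    push_cast
    exact (neg_inj).symm
  have h2 : ((((-m : ℤ) : ℂ) * z + n) ^ (k + 1))⁻¹ =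
      (-1) ^ (k + 1) * (((m : ℂ) * z + ((-n : ℤ) : ℂ)) ^ (k + 1))⁻¹ := by
    push_cast
    have : (-(m : ℂ) * z + n) = (-1) * ((m : ℂ) * z + -n) := by ring
    rw [this, mul_pow, mul_inv]
    congr 1
    rw [← inv_pow]
    norm_num
  by_cases h : P (-m) ∧ (n : ZMod M) = b
  · rw [if_pos h, if_pos ⟨h.1, h1.1 h.2⟩, h2]
  · rw [if_neg h, if_neg (fun h' => h ⟨h'.1, h1.2 h'.2⟩), mul_zero]

theorem tsum_trK_neg (hk : 1 ≤ k) (P : ℤ → Prop) [DecidablePred P] (b : ZMod M) (z : ℍ) (m : ℕ+) :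
    ∑' n : ℤ, trK k P b z (-((m : ℕ) : ℤ), n) = CK k M * ∑' d : ℕ+, ((-1) ^ (k + 1) *
      (if P (-((m : ℕ) : ℤ)) then ((d : ℕ) : ℂ) ^ k * (zM M ^ (-b).val * qM M z ^ (m : ℕ)) ^ (d : ℕ)
        else 0)) := by
  rw [tsum_mul_left, mul_left_comm, ← tsum_trK_pos hk (fun i => P (-i)) (-b) z m, ← tsum_mul_left,
    ← (Equiv.neg ℤ).tsum_eq]
  refine tsum_congr fun n => ?_
  rw [Equiv.neg_apply, trK_neg, neg_neg]

theorem tsum_trK_zero (P : ℤ → Prop) [DecidablePred P] (b : ZMod M) (z : ℍ) :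
    ∑' n : ℤ, trK k P b z (0, n) = if P 0 then kaK k b else 0 := by
  by_cases hP : P 0
  · rw [if_pos hP, kaK]
    refine tsum_congr fun n => ?_
    rw [trK]
    simp [hP]
  · rw [if_neg hP]
    have h2 : ∀ n : ℤ, trK k P b z (0, n) = 0 := by
      intro n
      rw [trK, if_neg (fun h => hP h.1)]
    rw [tsum_congr h2, tsum_zero]

/-- **the `q_M`-expansion of the lattice sums** -/
theorem hasSum_lsK (hk : 2 ≤ k) (P : ℤ → Prop) (b : ZMod M) (z : ℍ) :
    HasSum (fun n : ℕ => cGK k P b n * qM M z ^ n) (lsK k P b z) := by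
  classical
  have hk1 : 1 ≤ k := by omega
  have hs : Summable (trK k P b z) := summable_trK hk P b z
  have h1 : lsK k P b z = ∑' m : ℤ, ∑' n : ℤ, trK k P b z (m, n) := hs.tsum_prod
  rw [tsum_int_eq_zero_add_tsum_pnat hs.prod] at h1
  have e1 : ∑' m : ℕ+, ∑' n : ℤ, trK k P b z (((m : ℕ) : ℤ), n) = CK k M * ∑' x : ℕ+ × ℕ+,
      (if P ((x.1 : ℕ) : ℤ) then ((x.2 : ℕ) : ℂ) ^ k *
        (zM M ^ b.val * qM M z ^ (x.1 : ℕ)) ^ (x.2 : ℕ) else 0) := by
    rw [(summable_doubleK P (zM M ^ b.val) (by rw [norm_pow, norm_zM, one_pow])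
      (norm_qM_lt z)).tsum_prod, ← tsum_mul_left]
    exact tsum_congr fun m => tsum_trK_pos hk1 P b z m
  have hB0 := summable_doubleK (k := k) (fun i => P (-i)) (zM M ^ (-b).val)
      (by rw [norm_pow, norm_zM, one_pow]) (norm_qM_lt (M := M) z)
  have hB : Summable fun x : ℕ+ × ℕ+ => (-1 : ℂ) ^ (k + 1) *
      (if P (-((x.1 : ℕ) : ℤ)) then ((x.2 : ℕ) : ℂ) ^ k *
        (zM M ^ (-b).val * qM M z ^ (x.1 : ℕ)) ^ (x.2 : ℕ) else 0) := hB0.mul_left _
  have e2 : ∑' m : ℕ+, ∑' n : ℤ, trK k P b z (-((m : ℕ) : ℤ), n) = CK k M * ∑' x : ℕ+ × ℕ+,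
      ((-1 : ℂ) ^ (k + 1) * (if P (-((x.1 : ℕ) : ℤ)) then ((x.2 : ℕ) : ℂ) ^ k *
        (zM M ^ (-b).val * qM M z ^ (x.1 : ℕ)) ^ (x.2 : ℕ) else 0)) := by
    rw [hB.tsum_prod, ← tsum_mul_left]
    exact tsum_congr fun m => tsum_trK_neg hk1 P b z m
  have hA := summable_doubleK (k := k) P (zM M ^ b.val) (by rw [norm_pow, norm_zM, one_pow])
      (norm_qM_lt (M := M) z)
  have hAB := (hA.add hB)
  set g : ℕ+ × ℕ+ → ℂ := fun x =>
    (if P ((x.1 : ℕ) : ℤ) then ((x.2 : ℕ) : ℂ) ^ k *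
        (zM M ^ b.val * qM M z ^ (x.1 : ℕ)) ^ (x.2 : ℕ) else 0) +
    (-1 : ℂ) ^ (k + 1) * (if P (-((x.1 : ℕ) : ℤ)) then ((x.2 : ℕ) : ℂ) ^ k *
        (zM M ^ (-b).val * qM M z ^ (x.1 : ℕ)) ^ (x.2 : ℕ) else 0) with hg
  have e3 : lsK k P b z = (if P 0 then kaK k b else 0) + CK k M * ∑' x, g x := by
    rw [h1, e1, e2, tsum_trK_zero, hg, hA.tsum_add hB]
    ring
  have e4 : HasSum g (∑' x, g x) := hAB.hasSum
  rw [← sigmaAntidiagonalEquivProd.hasSum_iff] at e4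
  have e5 := e4.sigma (fun n => hasSum_fintype _)
  have e6 : HasSum (fun n : ℕ+ => CK k M * ∑ c : (n : ℕ).divisorsAntidiagonal,
      (g ∘ sigmaAntidiagonalEquivProd) ⟨n, c⟩) (CK k M * ∑' x, g x) := e5.mul_left _
  have e7 : ∀ n : ℕ+, CK k M * ∑ c : (n : ℕ).divisorsAntidiagonal,
      (g ∘ sigmaAntidiagonalEquivProd) ⟨n, c⟩ = cGK k P b (n : ℕ) * qM M z ^ (n : ℕ) := by
    intro n
    have hn : (n : ℕ) ≠ 0 := n.ne_zero
    rw [cGK, if_neg hn, mul_assoc, Finset.sum_mul]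
    congr 1
    rw [← Finset.sum_coe_sort (n : ℕ).divisorsAntidiagonal]
    refine Finset.sum_congr rfl fun x _ => ?_
    have hx : (x.1.1 * x.1.2 : ℕ) = n := (Nat.mem_divisorsAntidiagonal.1 x.2).1
    change g (divisorsAntidiagonalFactors n x) = _
    have f1 : (((divisorsAntidiagonalFactors n x).1 : ℕ+) : ℕ) = x.1.1 := rfl
    have f2 : (((divisorsAntidiagonalFactors n x).2 : ℕ+) : ℕ) = x.1.2 := rfl
    simp only [hg, f1, f2]
    have hq : qM M z ^ (n : ℕ) = (qM M z ^ x.1.1) ^ x.1.2 := by rw [← pow_mul, hx]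
    rw [hq, add_mul]
    congr 1
    · split_ifs <;> ring
    · split_ifs <;> ring
  rw [funext e7] at e6
  have e8 : HasSum (fun n : ℕ => cGK k P b n * qM M z ^ n)
      ((if P 0 then kaK k b else 0) + CK k M * ∑' x, g x) := by
    have h0 : cGK k P b 0 * qM M z ^ 0 = if P 0 then kaK k b else 0 := by
      rw [cGK, if_pos rfl, pow_zero, mul_one]
    have e9 := (hasSum_pnat_iff (f := fun n : ℕ => cGK k P b n * qM M z ^ n)).1 e6
    rw [h0] at e9
    rwa [add_comm] at e9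
  rw [e3]
  exact e8

/-! ### holomorphy and boundedness -/

theorem conv_lsK (hk : 2 ≤ k) (P : ℤ → Prop) (b : ZMod M) :
    Conv (HahnSeries.ofPowerSeries ℤ ℂ (PowerSeries.mk (cGK k P b))) :=
  conv_ofPowerSeries fun z hz hz1 => by
    obtain ⟨τ, rfl⟩ := exists_qpp_eq M hz hz1
    simp only [PowerSeries.coeff_mk]
    rw [qpp_eq_qM]
    exact (hasSum_lsK hk P b τ).summable

theorem evP_lsK (hk : 2 ≤ k) (P : ℤ → Prop) (b : ZMod M) :
    evP M ⟨_, conv_lsK hk P b⟩ = lsK k P b := by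
  funext τ
  rw [evP_apply]
  refine (hasSum_ofPowerSeries ?_).tsum_eq
  simp only [PowerSeries.coeff_mk]
  rw [qpp_eq_qM]
  exact hasSum_lsK hk P b τ

theorem mdiff_lsK (hk : 2 ≤ k) (P : ℤ → Prop) (b : ZMod M) : MDiff (lsK k P b : ℍ → ℂ) := by
  rw [← evP_lsK hk P b]
  exact mdiff_evP M _

theorem bounded_lsK (hk : 2 ≤ k) (P : ℤ → Prop) (b : ZMod M) :
    IsBoundedAtImInfty (lsK k P b : ℍ → ℂ) := by
  rw [← evP_lsK hk P b]
  refine bounded_evP_of_coeff M fun n hn => ?_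
  exact ModularCurve.ofPowerSeries_coeff_of_neg _ hn

open Classical in
/-- the lattice sum of weight `k + 1` over the vectors satisfying `R` -/
def LatK (k : ℕ) (R : (Fin 2 → ℤ) → Prop) (z : ℍ) : ℂ :=
  ∑' v : Fin 2 → ℤ, if R v then eisSummand ((k + 1 : ℕ) : ℤ) v z else 0

theorem LatK_slash (R : (Fin 2 → ℤ) → Prop) (γ : SL(2, ℤ)) :
    LatK k R ∣[((k + 1 : ℕ) : ℤ)] γ = LatK k (fun v => R (v ᵥ* (γ⁻¹).1)) := by
  classical
  funext z
  have hr : LatK k (fun v => R (v ᵥ* (γ⁻¹).1)) z = ∑' v : Fin 2 → ℤ,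
      if R (vecE γ v ᵥ* (γ⁻¹).1) then eisSummand ((k + 1 : ℕ) : ℤ) (vecE γ v) z else 0 := by
    rw [LatK]
    exact ((vecE γ).tsum_eq _).symm
  rw [hr, SL_slash_apply, LatK, ← tsum_mul_right]
  refine tsum_congr fun v => ?_
  have h1 : (vecE γ v) ᵥ* (γ⁻¹).1 = v := (vecE γ).left_inv v
  rw [h1]
  by_cases h : R v
  · rw [if_pos h, if_pos h]
    have h2 := eisSummand_SL2_apply ((k + 1 : ℕ) : ℤ) v γ z
    rw [h2]
    have h3 : denom (γ : GL (Fin 2) ℝ) z ≠ 0 := denom_ne_zero _ z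
    have h4 : vecE γ v = v ᵥ* γ.1 := rfl
    rw [h4, mul_right_comm, ← zpow_add₀ h3]
    simp
  · rw [if_neg h, if_neg h, zero_mul]

theorem LatK_eq_sum (hk : 2 ≤ k) {N : ℕ} [NeZero N] (R : (Fin 2 → ZMod N) → Prop) :
    LatK k (fun v => R (fun i => (v i : ZMod N))) =
      ∑ b : ZMod N, lsK k (fun m => R ![(m : ZMod N), b]) b := by
  classical
  funext z
  rw [Finset.sum_apply, LatK]
  simp only [lsK]
  rw [← Summable.tsum_finsetSum (fun b _ => summable_trK hk _ b z),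
    ← (finTwoArrowEquiv ℤ).symm.tsum_eq]
  refine tsum_congr fun w => ?_
  have h0 : (finTwoArrowEquiv ℤ).symm w = ![w.1, w.2] := rfl
  have h1 : (fun i => ((![w.1, w.2] i : ℤ) : ZMod N)) = ![(w.1 : ZMod N), (w.2 : ZMod N)] := by
    funext i
    fin_cases i <;> rfl
  rw [h0, h1, Finset.sum_eq_single ((w.2 : ZMod N))]
  · rw [trK]
    simp only [and_true]
    congr 1
  · intro b _ hb
    rw [trK, if_neg (fun h => hb h.2.symm)]
  · intro h
    exact absurd (Finset.mem_univ _) h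

theorem HB_LatK (hk : 2 ≤ k) {N : ℕ} [NeZero N] (R : (Fin 2 → ZMod N) → Prop) :
    HB ((k + 1 : ℕ) : ℤ) (LatK k (fun v => R (fun i => (v i : ZMod N)))) where
  holo := by
    rw [LatK_eq_sum hk]
    have : ∀ s : Finset (ZMod N),
        MDiff (∑ b ∈ s, lsK k (fun m => R ![(m : ZMod N), b]) b : ℍ → ℂ) := by
      intro s
      classical
      induction s using Finset.induction_on with
      | empty => exact fun _ => mdifferentiableAt_const
      | insert i s hi ih =>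
        rw [Finset.sum_insert hi]
        exact (mdiff_lsK hk _ _).add ih
    exact this _
  bdd γ := by
    rw [LatK_slash]
    have h1 : (fun v : Fin 2 → ℤ => R (fun i =>
        (((v ᵥ* (γ⁻¹).1) i : ℤ) : ZMod N))) =
      fun v : Fin 2 → ℤ => (fun u : Fin 2 → ZMod N => R (u ᵥ*
        (γ⁻¹).1.map (Int.cast : ℤ → ZMod N)))
          (fun i => (v i : ZMod N)) := by
      funext v
      congr 1
      funext i
      simp [Matrix.vecMul, dotProduct]
    rw [h1, LatK_eq_sum hk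
      (fun u : Fin 2 → ZMod N => R (u ᵥ* (γ⁻¹).1.map (Int.cast : ℤ → ZMod N)))]
    have : ∀ (s : Finset (ZMod N)) (f : ZMod N → ℤ → Prop),
        IsBoundedAtImInfty (∑ b ∈ s, lsK k (f b) b : ℍ → ℂ) := by
      intro s f
      classical
      induction s using Finset.induction_on with
      | empty =>
        rw [Finset.sum_empty]
        exact zero_form_isBoundedAtImInfty
      | insert i s hi ih =>
        rw [Finset.sum_insert hi]
        exact (bounded_lsK hk _ _).add ih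
    exact this _ _

end Fermat.Agent.DS
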