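import Fermat.Agent.DS.Local

/-!
# Rankin's bound: the Euler product
-/

set_option autoImplicit false

namespace Fermat.Agent.DS

open Finset

/-- a sequence satisfying the Hecke relations away from `N` -/
structure HeckeSeq (N : ℕ) (a e : ℕ → ℂ) : Prop where
  one : a 1 = 1
  rel : ∀ p, p.Prime → ¬ p ∣ N → ∀ n, a (p * n) + e p * (if p ∣ n then a (n / p) else 0) = a p * a n

variable {N : ℕ} {a e : ℕ → ℂ}

namespace HeckeSeq

theorem mul_of_not_dvd (h : HeckeSeq N a e) {p : ℕ} (hp : p.Prime) (hpN : ¬ p ∣ N) {n : ℕ}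
    (hn : ¬ p ∣ n) : a (p * n) = a p * a n := by
  have := h.rel p hp hpN n
  rwa [if_neg hn, mul_zero, add_zero] at this

theorem rec_mul (h : HeckeSeq N a e) {p : ℕ} (hp : p.Prime) (hpN : ¬ p ∣ N) (k m : ℕ) :
    a (p ^ (k + 2) * m) = a p * a (p ^ (k + 1) * m) - e p * a (p ^ k * m) := by
  have h1 := h.rel p hp hpN (p ^ (k + 1) * m)
  have h2 : p ∣ p ^ (k + 1) * m := Dvd.dvd.mul_right (dvd_pow_self p (Nat.succ_ne_zero k)) m
  have h3 : p ^ (k + 1) * m / p = p ^ k * m := by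
    rw [pow_succ', mul_assoc, Nat.mul_div_cancel_left _ hp.pos]
  rw [if_pos h2, h3] at h1
  have h4 : p * (p ^ (k + 1) * m) = p ^ (k + 2) * m := by ring
  rw [h4] at h1
  linear_combination h1

theorem pow_mul (h : HeckeSeq N a e) {p : ℕ} (hp : p.Prime) (hpN : ¬ p ∣ N) {m : ℕ}
    (hm : ¬ p ∣ m) (k : ℕ) : a (p ^ k * m) = cseq (a p) (e p) k * a m := by
  induction k using Nat.twoStepInduction with
  | zero => simp [cseq]
  | one => rw [pow_one, h.mul_of_not_dvd hp hpN hm]; rfl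
  | more k ih1 ih2 => rw [h.rec_mul hp hpN, ih1, ih2, cseq]; ring

theorem pow (h : HeckeSeq N a e) {p : ℕ} (hp : p.Prime) (hpN : ¬ p ∣ N) (k : ℕ) :
    a (p ^ k) = cseq (a p) (e p) k := by
  have := h.pow_mul hp hpN (m := 1) (fun hd => hp.one_lt.ne' (Nat.dvd_one.1 hd)) k
  rwa [mul_one, h.one, mul_one] at this

theorem mul (h : HeckeSeq N a e) {n : ℕ} (hn0 : n ≠ 0) (hn : n.Coprime N) :
    ∀ m : ℕ, n.Coprime m → a (n * m) = a n * a m := by
  induction n using Nat.recOnPosPrimePosCoprime with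
  | prime_pow p k hp hk =>
    intro m hm
    have hpN : ¬ p ∣ N := by
      intro hd
      have := Nat.Coprime.eq_one_of_dvd (Nat.Coprime.coprime_dvd_left (dvd_pow_self p hk.ne') hn) hd
      exact hp.one_lt.ne' this
    have hpm : ¬ p ∣ m := by
      intro hd
      have := Nat.Coprime.eq_one_of_dvd (Nat.Coprime.coprime_dvd_left (dvd_pow_self p hk.ne') hm) hd
      exact hp.one_lt.ne' this
    rw [h.pow_mul hp hpN hpm, h.pow hp hpN]
  | zero => exact absurd rfl hn0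
  | one => intro m _; rw [one_mul, h.one, one_mul]
  | coprime u v hu hv huv ihu ihv =>
    intro m hm
    have hu' : u.Coprime N := Nat.Coprime.coprime_dvd_left (dvd_mul_right u v) hn
    have hv' : v.Coprime N := Nat.Coprime.coprime_dvd_left (dvd_mul_left v u) hn
    have hum : u.Coprime m := Nat.Coprime.coprime_dvd_left (dvd_mul_right u v) hm
    have hvm : v.Coprime m := Nat.Coprime.coprime_dvd_left (dvd_mul_left v u) hm
    have hu0 : u ≠ 0 := by omega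
    have hv0 : v ≠ 0 := by omega
    rw [mul_assoc, ihu hu0 hu' (v * m) (Nat.Coprime.mul_right huv hum), ihv hv0 hv' m hvm,
      ihu hu0 hu' v huv, mul_assoc]

end HeckeSeq

/-- the terms of the Rankin series -/
noncomputable def rk (N : ℕ) (a : ℕ → ℂ) (s : ℝ) (n : ℕ) : ℝ :=
  if n.Coprime N then ‖a n‖ ^ 2 * (n : ℝ) ^ (-s) else 0

theorem rk_nonneg (N : ℕ) (a : ℕ → ℂ) (s : ℝ) (n : ℕ) : 0 ≤ rk N a s n := by
  rw [rk]
  split_ifs
  · positivity
  · exact le_rfl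

theorem rk_mul (h : HeckeSeq N a e) (s : ℝ) {m n : ℕ} (hm : m ≠ 0) (hmn : m.Coprime n) :
    rk N a s (m * n) = rk N a s m * rk N a s n := by
  rw [rk, rk, rk]
  by_cases h1 : m.Coprime N
  · by_cases h2 : n.Coprime N
    · rw [if_pos h1, if_pos h2, if_pos (Nat.Coprime.mul_left h1 h2), h.mul hm h1 n hmn, norm_mul,
        Nat.cast_mul, Real.mul_rpow (Nat.cast_nonneg _) (Nat.cast_nonneg _)]
      ring
    · rw [if_neg h2, mul_zero, if_neg]
      exact fun h3 => h2 (Nat.Coprime.coprime_dvd_left (dvd_mul_left n m) h3)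
  · rw [if_neg h1, zero_mul, if_neg]
    exact fun h3 => h1 (Nat.Coprime.coprime_dvd_left (dvd_mul_right m n) h3)

theorem rk_one (h : HeckeSeq N a e) (s : ℝ) : rk N a s 1 = 1 := by
  rw [rk, if_pos (Nat.coprime_one_left N), h.one]
  simp

/-- **Rankin's bound**: from an upper bound for the Rankin series. -/
theorem sum_le_log (h : HeckeSeq N a e) (he : ∀ p, p.Prime → ¬ p ∣ N → ‖e p‖ = 1)
    {s : ℝ} (hs : 1 < s) (hsum : Summable (rk N a s)) (F : Finset ℕ)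
    (hF : ∀ p ∈ F, p.Prime ∧ ¬ p ∣ N) :
    ∑ p ∈ F, ‖a p‖ ^ 2 * (p : ℝ) ^ (-s) ≤ Real.log (∑' n, rk N a s n) + 2 := by
  classical
  -- the Euler product over `F`
  have hpp : ∀ {p : ℕ}, p.Prime → Summable (fun n : ℕ => ‖rk N a s (p ^ n)‖) := by
    intro p hp
    have h1 : Function.Injective (fun n : ℕ => p ^ n) := Nat.pow_right_injective hp.two_le
    have h2 := hsum.comp_injective h1
    refine h2.congr fun n => ?_
    exact (Real.norm_of_nonneg (rk_nonneg _ _ _ _)).symm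
  have hmul : ∀ {m n : ℕ}, m.Coprime n → rk N a s (m * n) = rk N a s m * rk N a s n := by
    intro m n hmn
    by_cases hm : m = 0
    · subst hm
      have hn : n = 1 := by simpa using hmn
      rw [hn, mul_one, rk_one h, mul_one]
    · exact rk_mul h s hm hmn
  have h1 := (EulerProduct.summable_and_hasSum_factoredNumbers_prod_filter_prime_tsum
    (rk_one h s) hmul hpp F).2
  have h2 : ∏ p ∈ F with p.Prime, ∑' n : ℕ, rk N a s (p ^ n) ≤ ∑' n, rk N a s n := by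
    rw [← h1.tsum_eq]
    exact hsum.tsum_subtype_le _ (Nat.factoredNumbers F) (fun n => rk_nonneg _ _ _ _)
  have h3 : F.filter (fun p => p.Prime) = F := by
    rw [Finset.filter_eq_self]
    exact fun p hp => (hF p hp).1
  rw [h3] at h2
  have hX : ∀ p ∈ F, (p : ℝ) ^ (-s) ≤ (p : ℝ)⁻¹ := by
    intro p hp
    have hp1 : (1 : ℝ) ≤ p := by exact_mod_cast (hF p hp).1.one_lt.le
    rw [← Real.rpow_neg_one]
    exact Real.rpow_le_rpow_of_exponent_le hp1 (by linarith)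
  have hX0 : ∀ p : ℕ, 0 ≤ (p : ℝ) ^ (-s) := fun p => Real.rpow_nonneg (Nat.cast_nonneg _) _
  have hinv : ∀ p ∈ F, (p : ℝ)⁻¹ ≤ 1 / 2 := by
    intro p hp
    have hp2 : (2 : ℝ) ≤ p := by exact_mod_cast (hF p hp).1.two_le
    rw [one_div]
    exact inv_anti₀ (by norm_num) hp2
  -- local factors
  have h4 : ∀ p ∈ F, (1 - ((p : ℝ) ^ (-s)) ^ 2) * Real.exp (‖a p‖ ^ 2 * (p : ℝ) ^ (-s)) ≤
      ∑' n : ℕ, rk N a s (p ^ n) := by
    intro p hp
    obtain ⟨hpp', hpN⟩ := hF p hp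
    refine exp_le_local (e := e p) (he p hpp' hpN) (hX0 p) ?_ fun K => ?_
    · have := hX p hp
      have := hinv p hp
      linarith
    · have h5 : ∀ k : ℕ, ‖cseq (a p) (e p) k‖ ^ 2 * ((p : ℝ) ^ (-s)) ^ k = rk N a s (p ^ k) := by
        intro k
        rw [rk, if_pos (Nat.Coprime.pow_left k ((Nat.Prime.coprime_iff_not_dvd hpp').2 hpN)),
          h.pow hpp' hpN, Nat.cast_pow, Real.rpow_pow_comm (Nat.cast_nonneg _)]
      rw [Finset.sum_congr rfl fun k _ => h5 k]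
      have h6 : Summable (fun n : ℕ => rk N a s (p ^ n)) := by
        refine (hpp hpp').congr fun n => ?_
        exact Real.norm_of_nonneg (rk_nonneg _ _ _ _)
      exact h6.sum_le_tsum _ fun n _ => rk_nonneg _ _ _ _
  have hpos : ∀ p ∈ F, 0 < 1 - ((p : ℝ) ^ (-s)) ^ 2 := by
    intro p hp
    have h5 := hX p hp
    have h6 := hinv p hp
    have h7 := hX0 p
    nlinarith
  have h5 : ∏ p ∈ F, ((1 - ((p : ℝ) ^ (-s)) ^ 2) * Real.exp (‖a p‖ ^ 2 * (p : ℝ) ^ (-s))) ≤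
      ∑' n, rk N a s n :=
    (Finset.prod_le_prod (fun p hp => mul_nonneg (hpos p hp).le (Real.exp_pos _).le) h4).trans h2
  have h6 : 0 < ∏ p ∈ F, ((1 - ((p : ℝ) ^ (-s)) ^ 2) * Real.exp (‖a p‖ ^ 2 * (p : ℝ) ^ (-s))) :=
    Finset.prod_pos fun p hp => mul_pos (hpos p hp) (Real.exp_pos _)
  have h7 := Real.log_le_log h6 h5
  rw [Real.log_prod (fun p hp => (mul_pos (hpos p hp) (Real.exp_pos _)).ne')] at h7
  have h8 : ∀ p ∈ F, Real.log ((1 - ((p : ℝ) ^ (-s)) ^ 2) * Real.exp (‖a p‖ ^ 2 * (p : ℝ) ^ (-s))) =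
      Real.log (1 - ((p : ℝ) ^ (-s)) ^ 2) + ‖a p‖ ^ 2 * (p : ℝ) ^ (-s) := by
    intro p hp
    rw [Real.log_mul (hpos p hp).ne' (Real.exp_pos _).ne', Real.log_exp]
  rw [Finset.sum_congr rfl h8, Finset.sum_add_distrib] at h7
  have h9 : ∀ p ∈ F, -(2 * ((p : ℝ)⁻¹) ^ 2) ≤ Real.log (1 - ((p : ℝ) ^ (-s)) ^ 2) := by
    intro p hp
    have g1 := hX p hp
    have g2 := hinv p hp
    have g3 := hX0 p
    have g4 : ((p : ℝ) ^ (-s)) ^ 2 ≤ ((p : ℝ)⁻¹) ^ 2 := pow_le_pow_left₀ g3 g1 2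
    have g5 : ((p : ℝ)⁻¹) ^ 2 ≤ 1 / 4 := by
      have : 0 ≤ (p : ℝ)⁻¹ := by positivity
      nlinarith
    have g6 := Real.one_sub_inv_le_log_of_pos (hpos p hp)
    set t := ((p : ℝ) ^ (-s)) ^ 2 with ht
    have g7 : 0 ≤ t := by positivity
    have g8 : 0 < 1 - t := hpos p hp
    have g9 : 1 - (1 - t)⁻¹ = -(t / (1 - t)) := by field_simp; ring
    have g10 : t / (1 - t) ≤ 2 * t := by
      rw [div_le_iff₀ g8]
      nlinarith
    rw [g9] at g6
    linarith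
  have h10 : ∑ p ∈ F, (2 * ((p : ℝ)⁻¹) ^ 2) ≤ 2 := by
    rw [← Finset.mul_sum]
    have g1 : ∑ p ∈ F, ((p : ℝ)⁻¹) ^ 2 ≤ ∑ p ∈ Finset.Ioc 1 (F.sup id), ((p : ℝ) ^ 2)⁻¹ := by
      simp only [inv_pow]
      refine Finset.sum_le_sum_of_subset_of_nonneg ?_ fun _ _ _ => by positivity
      intro p hp
      rw [Finset.mem_Ioc]
      exact ⟨(hF p hp).1.one_lt, Finset.le_sup (f := id) hp⟩
    have g2 := sum_Ioc_inv_sq_le_sub (α := ℝ) (k := 1) (n := max 1 (F.sup id)) one_ne_zero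
      (le_max_left _ _)
    have g3 : ∑ p ∈ Finset.Ioc 1 (F.sup id), ((p : ℝ) ^ 2)⁻¹ ≤
        ∑ p ∈ Finset.Ioc 1 (max 1 (F.sup id)), ((p : ℝ) ^ 2)⁻¹ := by
      refine Finset.sum_le_sum_of_subset_of_nonneg ?_ fun _ _ _ => by positivity
      exact Finset.Ioc_subset_Ioc_right (le_max_right _ _)
    have g4 : 0 ≤ ((max 1 (F.sup id) : ℕ) : ℝ)⁻¹ := by positivity
    push_cast at g2 g4
    simp only [inv_one] at g2
    linarith
  have h11 : -(∑ p ∈ F, (2 * ((p : ℝ)⁻¹) ^ 2)) ≤ ∑ p ∈ F, Real.log (1 - ((p : ℝ) ^ (-s)) ^ 2) := by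
    rw [← Finset.sum_neg_distrib]
    exact Finset.sum_le_sum h9
  linarith

end Fermat.Agent.DS
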