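import Fermat.Agent.DS.Irred
import Fermat.Prelude.Def_GaloisRep_Residual
import Fermat.Prelude.Def_GaloisRep_ComplexConjugation

/-!
# Deligne–Serre from the residual representations
-/

set_option autoImplicit false
set_option linter.style.haveILetI false
set_option linter.unusedSectionVars false

noncomputable section

namespace Fermat.Agent.DS

open Fermat.Agent.Places Fermat.Agent.Cheb Fermat.Agent.GalRep Fermat.Agent.MFLib Filter Topology

local notation "𝕂" => AlgebraicClosure ℚ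

variable {N : ℕ} [NeZero N] {ε : DirichletCharacter ℂ N} {f : UpperHalfPlane → ℂ}

/-- the ring of algebraic integers (to fix the instances) -/
abbrev OI (L : Type*) [Field L] : Subalgebra ℤ L := integralClosure ℤ L

variable {L : Type} [Field L] [CharZero L] [inst : Algebra ℚ L] [IsGalois ℚ L] [IsAlgClosed L]

/-- **the theorem of Deligne and Serre**, given the residual representations -/
theorem WF.exists_rep_gen (h : WF ε f) (iota : L →+* ℂ) (c₀ : L ≃ₐ[ℚ] L) (hcc : c₀ * c₀ = 1)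
    (cy : (L ≃ₐ[ℚ] L) →* ZMod N) (hcyc : cy c₀ = -1)
    (hcyF : ∀ p : ℕ, p.Prime → ¬ p ∣ N → ∀ A : ValuationSubring L, A.LiesOverPrime p →
      ∀ τ : L ≃ₐ[ℚ] L, A.IsFrobeniusAt τ p → cy τ = p)
    (hcyo : ∃ U : Subgroup (L ≃ₐ[ℚ] L), IsOpen (U : Set (L ≃ₐ[ℚ] L)) ∧
      ∀ g, ∀ u ∈ U, cy (g * u) = cy g)
    (hemb : ∀ (B : ℕ) [NeZero B] (j : (ZMod B)ˣ), ∃ σ : L →+* ℂ,
      ∀ u : L, u ^ B = 1 → σ u = iota u ^ (j : ZMod B).val)
    (hres : ∀ α e : ℕ → integralClosure ℤ L, (∀ n, iota (α n) = (qe f).coeff n) →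
      (∀ n : ℕ, iota (e n) = ε (n : ZMod N)) → ∃ ℓ₀, HasRes N α e ℓ₀) :
    ∃ ρ : (L ≃ₐ[ℚ] L) →* GL (Fin 2) ℂ, IsOpen (ρ.ker : Set (L ≃ₐ[ℚ] L)) ∧
      (Deformation.matrixRepresentation ρ).IsIrreducible ∧
      ∀ p : ℕ, p.Prime → ¬ p ∣ N → ∀ A : ValuationSubring L, A.LiesOverPrime p →
        (∀ σ ∈ A.inertiaSubgroupIn ℚ, ρ σ = 1) ∧
        ∀ σ : (L ≃ₐ[ℚ] L), A.IsFrobeniusAt σ p →
          ((ρ σ : GL (Fin 2) ℂ) : Matrix (Fin 2) (Fin 2) ℂ).trace = (qe f).coeff p ∧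
          ((ρ σ : GL (Fin 2) ℂ) : Matrix (Fin 2) (Fin 2) ℂ).det = ε (p : ZMod N) := by
  classical
  have hN : N ≠ 0 := NeZero.ne N
  obtain ⟨K, hK, hlift⟩ := h.exists_alg iota
  haveI := hK
  -- the algebraic eigenvalues
  have hα' : ∀ n : ℕ, ∃ a : integralClosure ℤ L, (a : L) ∈ K ∧ iota a = (qe f).coeff n := by
    intro n
    obtain ⟨b, hb, hbi, hb'⟩ := hlift _ (h.coeff_mem_Bring n)
    exact ⟨⟨b, hbi⟩, hb, hb'⟩
  choose α hαK hα using hα'
  have he' : ∀ x : ZMod N, ∃ a : integralClosure ℤ L, (a : L) ∈ K ∧ iota a = ε x := by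
    intro x
    obtain ⟨b, hb, hbi, hb'⟩ := hlift _ (eps_mem_Bring x)
    exact ⟨⟨b, hbi⟩, hb, hb'⟩
  choose e' he'K he' using he'
  have hinj : ∀ {x y : integralClosure ℤ L}, iota x = iota y → x = y := fun hxy =>
    Subtype.ext (iota.injective hxy)
  let e : ℕ → integralClosure ℤ L := fun n => e' n
  obtain ⟨ℓ₀, hHR⟩ := hres α e hα fun n => he' n
  have hR : ∀ σ : L →+* ℂ, ∃ C' : ℝ, ∀ s : ℝ, 1 < s → s ≤ 2 → ∀ F : Finset ℕ,
      (∀ p ∈ F, p.Prime ∧ ¬ p ∣ N) →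
      ∑ p ∈ F, ‖σ (α p)‖ ^ 2 * (p : ℝ) ^ (-s) ≤ Real.log (1 / (s - 1)) + C' := fun σ =>
    h.rankin_conj iota σ (α := fun n => (α n : L)) hα
  -- the values of the character
  obtain ⟨m, hm, hεm⟩ : ∃ m : ℕ, 0 < m ∧ ∀ p : ℕ, p.Prime → ¬ p ∣ N → e p ^ m = 1 := by
    refine ⟨Fintype.card (ZMod N)ˣ, Fintype.card_pos, fun p hp hpN => hinj ?_⟩
    have hu : IsUnit (p : ZMod N) := by
      rw [ZMod.isUnit_iff_coprime]
      exact (Nat.Prime.coprime_iff_not_dvd hp).2 hpN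
    obtain ⟨u, hu⟩ := hu
    rw [SubmonoidClass.coe_pow, map_pow, he', ← hu, ← map_pow, ← Units.val_pow_eq_pow_val,
      pow_card_eq_one, Units.val_one, map_one]
    exact (map_one iota).symm
  obtain ⟨B, hB0, hB⟩ := exists_eigen_bound hN hHR K hαK hm hεm hR
  have hroot : ∀ p : ℕ, p.Prime → ¬ p ∣ N → ∀ u : integralClosure ℤ L,
      u ^ 2 - α p * u + e p = 0 → u ^ B = 1 := fun p hp hpN u hu =>
    root_pow_eq_one hHR hB hp hpN hu
  obtain ⟨T, D, hTD, ⟨U, hU, hUT⟩, hTu⟩ := exists_lift hN hHR hB0 hroot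
  have hps := isPseudoRep_lift hHR hTD
  have key : ∀ {x y : integralClosure ℤ L} (C : ℕ), (∀ (A : ValuationSubring L) (ℓ : ℕ)
      (ρ : (L ≃ₐ[ℚ] L) →* GL (Fin 2) (IsLocalRing.ResidueField A)), C < ℓ → IsRes N α e A ℓ ρ →
      redI A x = redI A y) → x = y := by
    intro x y C' h
    refine eq_of_redI fun C => ?_
    obtain ⟨ℓ, hℓ', hℓ⟩ := Nat.exists_infinite_primes (C + C' + ℓ₀ + 1)
    obtain ⟨A, hA⟩ := exists_liesOverPrime L hℓ
    obtain ⟨ρ, hρ⟩ := hHR ℓ hℓ (by omega) A hA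
    exact ⟨ℓ, hℓ, by omega, A, hA, h A ℓ ρ (by omega) hρ⟩
  -- Frobenius elements
  have hTfrob : ∀ p : ℕ, p.Prime → ¬ p ∣ N → ∀ A : ValuationSubring L, A.LiesOverPrime p →
      ∀ σ : (L ≃ₐ[ℚ] L), A.IsFrobeniusAt σ p → T σ = α p ∧ D σ = e p := by
    intro p hp hpN A hA σ hσ
    constructor
    · refine key p fun A' ℓ ρ hℓ hρ => ?_
      rw [← (hTD ℓ A' ρ hρ σ).1, hρ.trace p hp hpN (by omega) A hA σ hσ]
    · refine key p fun A' ℓ ρ hℓ hρ => ?_
      rw [← (hTD ℓ A' ρ hρ σ).2, hρ.det p hp hpN (by omega) A hA σ hσ]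
  -- the determinant
  have hDc : ∀ g : (L ≃ₐ[ℚ] L), D g = e' (cy g) := by
    intro g
    obtain ⟨V, hV, hVc⟩ := hcyo
    refine key 0 fun A ℓ ρ _ hρ => ?_
    obtain ⟨p, hp, A', hA', τ, hτ, n, -, hn, -⟩ := exists_frobenius_avoiding
      (UD.of_finite (finite_exceptional hN ℓ)) (ρ.ker ⊓ V) (hρ.open_ker.inter hV) g
    rw [Set.mem_ofPred_eq, not_or] at hp
    have h1 : ρ g = ρ τ ^ n := by
      have := (Subgroup.mem_inf.1 hn).1
      rw [MonoidHom.mem_ker, map_mul, map_inv, map_pow, inv_mul_eq_one] at this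
      exact this
    have h2 : cy g = (p : ZMod N) ^ n := by
      have h3 := hVc g _ (Subgroup.mem_inf.1 hn).2
      rw [mul_inv_cancel_left] at h3
      rw [← h3, map_pow, hcyF p p.2 hp.1 A' hA' τ hτ]
    rw [← (hTD ℓ A ρ hρ g).2, h1, Units.val_pow_eq_pow_val, Matrix.det_pow,
      hρ.det p p.2 hp.1 hp.2 A' hA' τ hτ, ← map_pow, h2]
    congr 1
    apply hinj
    rw [SubmonoidClass.coe_pow, map_pow, he', he', map_pow]
  -- over `ℂ`
  let j : integralClosure ℤ L →+* ℂ := iota.comp (algebraMap (integralClosure ℤ L) L)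
  have hj : ∀ x : integralClosure ℤ L, j x = iota x := fun _ => rfl
  have hps' := hps.comp j
  have hDc' : j (D c₀) = -1 := by
    rw [hj, hDc, hcyc, he', h.eps_neg_one]
  have hTc' : j (T c₀) = 0 := by
    have h1 := hps'.t_sq c₀
    rw [hcc] at h1
    have h2 : j (T 1) = 2 := hps'.t_one
    rw [h2, hDc'] at h1
    have h3 : j (T c₀) * j (T c₀) = 0 := by
      rw [← h1]; norm_num
    exact mul_self_eq_zero.1 h3
  obtain ⟨ρ₀, htr, hdet, hspan⟩ := hps'.exists_matrix (g₀ := c₀) (α := 1) (β := -1)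
    (by norm_num) (by rw [hTc']; norm_num) (by rw [hDc']; norm_num)
  -- elements invisible to `T`
  have hone : ∀ u : (L ≃ₐ[ℚ] L), (∀ x, T (x * u) = T x) → ρ₀ u = 1 := by
    intro u hu
    rw [← map_one ρ₀]
    ext i k
    have h1 : ∀ φ ∈ Submodule.span ℂ (Set.range fun (x : (L ≃ₐ[ℚ] L)) (g : (L ≃ₐ[ℚ] L)) => j (T (x * g))),
        φ u = φ 1 := by
      intro φ hφ
      induction hφ using Submodule.span_induction with
      | mem φ hφ =>
        obtain ⟨x, rfl⟩ := hφ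
        change j (T (x * u)) = j (T (x * 1))
        rw [hu, mul_one]
      | zero => rfl
      | add φ ψ _ _ h1 h2 => rw [Pi.add_apply, Pi.add_apply, h1, h2]
      | smul c φ _ h1 => rw [Pi.smul_apply, Pi.smul_apply, h1]
    exact h1 _ (hspan i k)
  let ρ : (L ≃ₐ[ℚ] L) →* GL (Fin 2) ℂ := ρ₀.toHomUnits
  have hρval : ∀ g, ((ρ g : GL (Fin 2) ℂ) : Matrix (Fin 2) (Fin 2) ℂ) = ρ₀ g := fun g => rfl
  have hρone : ∀ u : (L ≃ₐ[ℚ] L), (∀ x, T (x * u) = T x) → ρ u = 1 := fun u hu => Units.ext (hone u hu)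
  have hUker : U ≤ ρ.ker := fun u hu => hρone u fun x => (hUT x u hu).1
  have hρopen : IsOpen (ρ.ker : Set (L ≃ₐ[ℚ] L)) := Subgroup.isOpen_mono hUker hU
  refine ⟨ρ, hρopen, ?_, fun p hp hpN A hA => ⟨fun σ hσ => ?_, fun σ hσ => ⟨?_, ?_⟩⟩⟩
  · -- irreducibility
    refine isIrreducible_of ρ fun v hv => ?_
    by_contra hcon
    push Not at hcon
    choose c hc using hcon
    have hc0 : ∀ g, c g ≠ 0 := fun g => eigen_ne_zero hv (hc g)
    have hcuniq : ∀ g (z : ℂ), ((ρ g : GL (Fin 2) ℂ) : Matrix (Fin 2) (Fin 2) ℂ).mulVec v = z • v →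
        c g = z := by
      intro g z hz
      rw [hc] at hz
      obtain ⟨i, hi⟩ := Function.ne_iff.1 hv
      have := congrFun hz i
      simp only [Pi.smul_apply, smul_eq_mul] at this
      exact mul_right_cancel₀ hi this
    have hcmul : ∀ g g', c (g * g') = c g * c g' := by
      intro g g'
      apply hcuniq
      rw [map_mul, Units.val_mul, ← Matrix.mulVec_mulVec, hc, Matrix.mulVec_smul, hc, smul_smul,
        mul_comm]
    have hcone : c 1 = 1 := by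
      apply hcuniq
      rw [map_one, Units.val_one, Matrix.one_mulVec, one_smul]
    let χ₁ : (L ≃ₐ[ℚ] L) →* ℂˣ := MonoidHom.toHomUnits ⟨⟨c, hcone⟩, hcmul⟩
    have hχ₁ : ∀ g, (χ₁ g : ℂ) = c g := fun g => rfl
    let dt : (L ≃ₐ[ℚ] L) →* ℂˣ := Matrix.GeneralLinearGroup.det.comp ρ
    have hdt : ∀ g, (dt g : ℂ) = j (D g) := fun g => by
      change (ρ₀ g).det = _
      exact hdet g
    let χ₂ : (L ≃ₐ[ℚ] L) →* ℂˣ := dt / χ₁
    -- sum and product
    have hprod : ∀ g, (χ₁ g : ℂ) * (χ₂ g : ℂ) = j (D g) := by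
      intro g
      rw [← hdt, ← Units.val_mul]
      congr 1
      change χ₁ g * (dt g / χ₁ g) = dt g
      rw [mul_div_cancel]
    have hsum : ∀ g, (χ₁ g : ℂ) + (χ₂ g : ℂ) = j (T g) := by
      intro g
      have h1 := isRoot_charpoly_iff.1 (isRoot_of_eigenvector hv (hc g))
      rw [hρval, htr, hdet] at h1
      have h2 := hprod g
      rw [hχ₁] at h2 ⊢
      apply mul_left_cancel₀ (hc0 g)
      linear_combination h1 + h2
    -- the roots
    have hroots : ∀ g, ∀ u₁ u₂ : integralClosure ℤ L, T g = u₁ + u₂ → D g = u₁ * u₂ →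
        ((χ₁ g : ℂ) = j u₁ ∧ (χ₂ g : ℂ) = j u₂) ∨ ((χ₁ g : ℂ) = j u₂ ∧ (χ₂ g : ℂ) = j u₁) := by
      intro g u₁ u₂ h1 h2
      have h3 := hsum g
      have h4 := hprod g
      rw [h1, map_add] at h3
      rw [h2, map_mul] at h4
      have h5 : ((χ₁ g : ℂ) - j u₁) * ((χ₁ g : ℂ) - j u₂) = 0 := by
        linear_combination (χ₁ g : ℂ) * h3 - h4
      rcases mul_eq_zero.1 h5 with h6 | h6
      · left
        exact ⟨sub_eq_zero.1 h6, by linear_combination h3 - h6⟩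
      · right
        exact ⟨sub_eq_zero.1 h6, by linear_combination h3 - h6⟩
    haveI : NeZero B := ⟨hB0.ne'⟩
    have hpow : ∀ u : integralClosure ℤ L, u ^ B = 1 → j u ^ B = 1 := fun u hu => by
      rw [← map_pow, hu, map_one]
    have hχB : ∀ g, χ₁ g ^ B = 1 ∧ χ₂ g ^ B = 1 := by
      intro g
      obtain ⟨u₁, u₂, hu₁, hu₂, h1, h2⟩ := hTu g
      rcases hroots g u₁ u₂ h1 h2 with ⟨h3, h4⟩ | ⟨h3, h4⟩
      · exact ⟨Units.ext (by rw [Units.val_pow_eq_pow_val, h3, hpow u₁ hu₁, Units.val_one]),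
          Units.ext (by rw [Units.val_pow_eq_pow_val, h4, hpow u₂ hu₂, Units.val_one])⟩
      · exact ⟨Units.ext (by rw [Units.val_pow_eq_pow_val, h3, hpow u₂ hu₂, Units.val_one]),
          Units.ext (by rw [Units.val_pow_eq_pow_val, h4, hpow u₁ hu₁, Units.val_one])⟩
    have hker₁ : ρ.ker ≤ χ₁.ker := by
      intro g hg
      rw [MonoidHom.mem_ker] at hg ⊢
      apply Units.ext
      rw [hχ₁, Units.val_one]
      apply hcuniq
      rw [hg, Units.val_one, Matrix.one_mulVec, one_smul]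
    have hker₂ : ρ.ker ≤ χ₂.ker := by
      intro g hg
      have h1 := hker₁ hg
      rw [MonoidHom.mem_ker] at hg h1 ⊢
      change dt g / χ₁ g = 1
      rw [h1, div_one]
      change Matrix.GeneralLinearGroup.det (ρ g) = 1
      rw [hg, map_one]
    refine no_two_characters hN (α := fun n => (α n : L)) χ₁ χ₂ hρopen hker₁ hker₂
      (fun g => (hχB g).1) (fun g => (hχB g).2) ⟨c₀, fun heq => ?_⟩ (fun jj => ?_) hR
    · have h1 := hsum c₀
      have h2 := hprod c₀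
      rw [hTc', ← heq] at h1
      rw [hDc', ← heq] at h2
      have h3 : (χ₁ c₀ : ℂ) = 0 := by linear_combination h1 / 2
      rw [h3] at h2
      norm_num at h2
    · obtain ⟨σ, hσ⟩ := hemb B jj
      refine ⟨σ, fun p hp hpN A hA τ hτ => ?_⟩
      obtain ⟨h1, h2⟩ := hTfrob p hp hpN A hA τ hτ
      obtain ⟨u₁, u₂, hu₁, hu₂, h3, h4⟩ := hTu τ
      have h5 : (α p : L) = u₁ + u₂ := by
        rw [← h1, h3]; rfl
      have h6 : (u₁ : L) ^ B = 1 := by
        rw [← SubmonoidClass.coe_pow, hu₁]; rfl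
      have h7 : (u₂ : L) ^ B = 1 := by
        rw [← SubmonoidClass.coe_pow, hu₂]; rfl
      change σ (α p : L) = _
      rw [h5, map_add, hσ _ h6, hσ _ h7]
      rcases hroots τ u₁ u₂ h3 h4 with ⟨h8, h9⟩ | ⟨h8, h9⟩
      · rw [h8, h9]; rfl
      · rw [h8, h9, add_comm]; rfl
  · -- inertia
    refine hρone σ fun x => ?_
    refine key p fun A' ℓ ρ' hℓ hρ' => ?_
    rw [← (hTD ℓ A' ρ' hρ' _).1, ← (hTD ℓ A' ρ' hρ' _).1, map_mul,
      hρ'.unr p hp hpN (by omega) A hA σ hσ, mul_one]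
  · rw [hρval, htr]
    change iota (T σ) = _
    rw [(hTfrob p hp hpN A hA σ hσ).1, hα]
  · rw [hρval, hdet]
    change iota (D σ) = _
    rw [(hTfrob p hp hpN A hA σ hσ).2, he']


/-- the embedding -/
def iota : 𝕂 →+* ℂ := complexEmbedding.toRingHom

theorem exists_embedding_pow {B : ℕ} [NeZero B] (j : (ZMod B)ˣ) :
    ∃ σ : 𝕂 →+* ℂ, ∀ u : 𝕂, u ^ B = 1 → σ u = iota u ^ (j : ZMod B).val := by
  obtain ⟨q, hq', hq, hqj⟩ := Nat.forall_exists_prime_gt_and_eq_mod j.isUnit B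
  obtain ⟨A, hA⟩ := exists_liesOverPrime 𝕂 hq
  obtain ⟨τ, hτ⟩ := exists_isFrobeniusAt A hq hA
  refine ⟨iota.comp (τ : 𝕂 →+* 𝕂), fun u hu => ?_⟩
  have hcop : Nat.Coprime q B := (Nat.Prime.coprime_iff_not_dvd hq).2 fun h =>
    absurd (Nat.le_of_dvd (Nat.pos_of_ne_zero (NeZero.ne B)) h) (by omega)
  have h1 := cyc_frobenius hcop hA hτ
  change iota (τ u) = _
  rw [apply_eq_pow_cyc B τ hu, h1, hqj, map_pow]

/-- the cyclotomic character has open kernel -/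
theorem isOpen_cyc (n : ℕ) [NeZero n] : ∃ U : Subgroup GQ, IsOpen (U : Set GQ) ∧
    ∀ g, ∀ u ∈ U, cyc n (g * u) = cyc n g := by
  refine ⟨(IntermediateField.adjoin ℚ {(exists_zeta n).choose}).fixingSubgroup,
    isOpen_stab _ (Set.finite_singleton _), fun g u hu => ?_⟩
  have h1 : cyc n u = 1 := by
    have := cyc_eq_of_forall n u 1 fun x hx => ?_
    · simpa using this
    obtain ⟨i, -, rfl⟩ := (exists_zeta n).choose_spec.eq_pow_of_pow_eq_one hx
    rw [map_pow, (IntermediateField.mem_fixingSubgroup_iff _ _).1 hu _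
      (IntermediateField.subset_adjoin ℚ _ rfl), pow_one]
  rw [map_mul, h1, mul_one]


/-- **the theorem of Deligne and Serre**, given the residual representations -/
theorem WF.exists_rep (h : WF ε f)
    (hres : ∀ α e : ℕ → OI 𝕂, (∀ n, iota (α n : 𝕂) = (qe f).coeff n) →
      (∀ n : ℕ, iota (e n : 𝕂) = ε (n : ZMod N)) → ∃ ℓ₀, HasRes N α e ℓ₀) :
    ∃ ρ : GQ →* GL (Fin 2) ℂ, GaloisFactorsThroughFiniteLevel ρ ∧
      (Deformation.matrixRepresentation ρ).IsIrreducible ∧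
      ∀ p : ℕ, p.Prime → ¬ p ∣ N → ∀ A : ValuationSubring 𝕂, A.LiesOverPrime p →
        (∀ σ ∈ A.inertiaSubgroupIn ℚ, ρ σ = 1) ∧
        ∀ σ : GQ, A.IsFrobeniusAt σ p →
          ((ρ σ : GL (Fin 2) ℂ) : Matrix (Fin 2) (Fin 2) ℂ).trace = (qe f).coeff p ∧
          ((ρ σ : GL (Fin 2) ℂ) : Matrix (Fin 2) (Fin 2) ℂ).det = ε (p : ZMod N) := by
  obtain ⟨ρ, h1, h2, h3⟩ := h.exists_rep_gen (L := 𝕂) iota complexConjugation
    complexConjugation_mul_self (cyc N) (cyc_complexConjugation N)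
    (fun p hp hpN A hA τ hτ => cyc_frobenius ((Nat.Prime.coprime_iff_not_dvd hp).2 hpN) hA hτ)
    (isOpen_cyc N) (fun B _ j => exists_embedding_pow j) hres
  refine ⟨ρ, ?_, h2, h3⟩
  obtain ⟨E, hfin, hE⟩ := (krullTopology_mem_nhds_one_iff ℚ 𝕂
    (ρ.ker : Set GQ)).mp (h1.mem_nhds (one_mem _))
  refine ⟨E, hfin, fun σ hσ => ?_⟩
  exact hE ((IntermediateField.mem_fixingSubgroup_iff _ _).2 hσ)

end Fermat.Agent.DS
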