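import Fermat.Agent.DS.Lift
import Fermat.Prelude.Def_Deformations_MatrixRepresentation

/-!
# Irreducibility from Rankin's bound
-/

set_option autoImplicit false
set_option linter.style.haveILetI false
set_option linter.unusedSectionVars false

namespace Fermat.Agent.DS

open Fermat.Agent.Places Fermat.Agent.Cheb Fermat.Agent.GalRep Filter Topology

theorem pow_congr_monoid {M : Type*} [Monoid M] {z : M} {n a c : ℕ} (hz : z ^ n = 1)
    (h : a ≡ c [MOD n]) : z ^ a = z ^ c := by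
  have key : ∀ a : ℕ, z ^ a = z ^ (a % n) := by
    intro a
    conv_lhs => rw [← Nat.mod_add_div a n, pow_add, pow_mul, hz, one_pow, mul_one]
  rw [key a, key c, h]

section rep

variable {G : Type} [Group G] {k : Type} [Field k]

theorem isIrreducible_of (ρ : G →* GL (Fin 2) k)
    (h : ∀ v : Fin 2 → k, v ≠ 0 → ∃ g, ∀ c : k, (ρ g : Matrix (Fin 2) (Fin 2) k).mulVec v ≠ c • v) :
    (Deformation.matrixRepresentation ρ).IsIrreducible := by
  haveI : Nontrivial (Subrepresentation (Deformation.matrixRepresentation ρ)) := by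
    refine ⟨⊥, ⊤, fun h => ?_⟩
    have h1 := congrArg Subrepresentation.toSubmodule h
    have h2 : (⊥ : Submodule k (Fin 2 → k)) = ⊤ := h1
    exact bot_ne_top h2
  refine ⟨fun W => ?_⟩
  by_cases hW : W.toSubmodule = ⊥
  · left
    exact Subrepresentation.toSubmodule_injective hW
  · right
    apply Subrepresentation.toSubmodule_injective
    change W.toSubmodule = ⊤
    by_contra htop
    obtain ⟨v, hv, hv0⟩ := (Submodule.ne_bot_iff _).1 hW
    obtain ⟨g, hg⟩ := h v hv0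
    have hgv : (ρ g : Matrix (Fin 2) (Fin 2) k).mulVec v ∈ W.toSubmodule := by
      have := W.apply_mem_toSubmodule g hv
      rwa [Deformation.matrixRepresentation_apply, Matrix.mulVecLin_apply] at this
    have hlt : Module.finrank k W.toSubmodule < 2 := by
      have := Submodule.finrank_lt htop
      rwa [Module.finrank_fintype_fun_eq_card, Fintype.card_fin] at this
    have hli : LinearIndependent k ![(⟨v, hv⟩ : W.toSubmodule),
        ⟨(ρ g : Matrix (Fin 2) (Fin 2) k).mulVec v, hgv⟩] := by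
      rw [LinearIndependent.pair_iff' (by
        intro h0
        exact hv0 (congrArg Subtype.val h0))]
      intro a ha
      exact hg a (congrArg Subtype.val ha).symm
    have := hli.fintype_card_le_finrank
    rw [Fintype.card_fin] at this
    omega

end rep

section char

variable {H : Type*} [CommGroup H] [Fintype H]

theorem sum_norm_sq (x₁ x₂ : H →* ℂˣ) (h₁ : ∀ x, ‖(x₁ x : ℂ)‖ = 1) (h₂ : ∀ x, ‖(x₂ x : ℂ)‖ = 1)
    (hne : ∃ x, x₁ x ≠ x₂ x) :
    ∑ x : H, ‖(x₁ x : ℂ) + (x₂ x : ℂ)‖ ^ 2 = 2 * Fintype.card H := by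
  have h3 : ∀ x : H, ‖(x₁ x : ℂ) + (x₂ x : ℂ)‖ ^ 2 = 2 + 2 * (((x₁ x / x₂ x : ℂˣ) : ℂ)).re := by
    intro x
    have h4 : ((x₁ x / x₂ x : ℂˣ) : ℂ) = (x₁ x : ℂ) * (starRingEnd ℂ) (x₂ x : ℂ) := by
      rw [Units.val_div_eq_div_val, div_eq_mul_inv, Complex.inv_eq_conj (h₂ x)]
    rw [h4, ← Complex.normSq_eq_norm_sq, Complex.normSq_add, Complex.normSq_eq_norm_sq,
      Complex.normSq_eq_norm_sq, h₁, h₂]
    norm_num
  have h4 : ∑ x : H, ((x₁ x / x₂ x : ℂˣ) : ℂ) = 0 := by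
    obtain ⟨y, hy⟩ := hne
    have h5 : ((x₁ y / x₂ y : ℂˣ) : ℂ) ≠ 1 := by
      intro h
      apply hy
      rwa [Units.val_eq_one, div_eq_one] at h
    have h6 : ((x₁ y / x₂ y : ℂˣ) : ℂ) * ∑ x : H, ((x₁ x / x₂ x : ℂˣ) : ℂ) =
        ∑ x : H, ((x₁ x / x₂ x : ℂˣ) : ℂ) := by
      rw [Finset.mul_sum]
      refine Fintype.sum_equiv (Equiv.mulLeft y) _ _ fun x => ?_
      rw [Equiv.coe_mulLeft, map_mul, map_mul, mul_div_mul_comm, Units.val_mul]
    have h7 : (((x₁ y / x₂ y : ℂˣ) : ℂ) - 1) * ∑ x : H, ((x₁ x / x₂ x : ℂˣ) : ℂ) = 0 := by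
      rw [sub_mul, h6, one_mul, sub_self]
    exact (mul_eq_zero.1 h7).resolve_left (sub_ne_zero.2 h5)
  have h5 : ∑ x : H, (((x₁ x / x₂ x : ℂˣ) : ℂ)).re = 0 := by
    rw [← Complex.re_sum, h4, Complex.zero_re]
  rw [Finset.sum_congr rfl fun x _ => h3 x, Finset.sum_add_distrib, ← Finset.mul_sum, h5]
  simp
  ring

end char

variable {L : Type*} [Field L] [CharZero L] [inst : Algebra ℚ L] [IsGalois ℚ L]

/-- **Rankin's bound excludes the sum of two distinct characters** -/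
theorem no_two_characters {N : ℕ} (hN : N ≠ 0) {α : ℕ → L} (χ₁ χ₂ : (L ≃ₐ[ℚ] L) →* ℂˣ)
    {U : Subgroup (L ≃ₐ[ℚ] L)} (hU : IsOpen (U : Set (L ≃ₐ[ℚ] L))) (hU₁ : U ≤ χ₁.ker)
    (hU₂ : U ≤ χ₂.ker) {B : ℕ} [NeZero B] (hB₁ : ∀ g, χ₁ g ^ B = 1) (hB₂ : ∀ g, χ₂ g ^ B = 1)
    (hne : ∃ c, χ₁ c ≠ χ₂ c)
    (hσ : ∀ j : (ZMod B)ˣ, ∃ σ : L →+* ℂ, ∀ p : ℕ, p.Prime → ¬ p ∣ N →
      ∀ A : ValuationSubring L, A.LiesOverPrime p → ∀ τ : L ≃ₐ[ℚ] L, A.IsFrobeniusAt τ p →
        σ (α p) = (χ₁ τ : ℂ) ^ (j : ZMod B).val + (χ₂ τ : ℂ) ^ (j : ZMod B).val)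
    (hR : ∀ σ : L →+* ℂ, ∃ C' : ℝ, ∀ s : ℝ, 1 < s → s ≤ 2 → ∀ F : Finset ℕ,
      (∀ p ∈ F, p.Prime ∧ ¬ p ∣ N) →
      ∑ p ∈ F, ‖σ (α p)‖ ^ 2 * (p : ℝ) ^ (-s) ≤ Real.log (1 / (s - 1)) + C') : False := by
  classical
  choose σ hσ using hσ
  let φ : (L ≃ₐ[ℚ] L) →* ℂˣ × ℂˣ := χ₁.prod χ₂
  have hφ : IsOpen (φ.ker : Set (L ≃ₐ[ℚ] L)) := by
    refine Subgroup.isOpen_mono (H₁ := U) (fun u hu => ?_) hU
    rw [MonoidHom.mem_ker]
    exact Prod.ext (MonoidHom.mem_ker.1 (hU₁ hu)) (MonoidHom.mem_ker.1 (hU₂ hu))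
  haveI hfin : Finite φ.range := finite_range_of_open φ hφ
  letI : Fintype φ.range := Fintype.ofFinite _
  have hBH : ∀ x : φ.range, x ^ B = 1 := by
    rintro ⟨_, g, rfl⟩
    apply Subtype.ext
    exact Prod.ext (hB₁ g) (hB₂ g)
  let x₁ : φ.range →* ℂˣ := (MonoidHom.fst ℂˣ ℂˣ).comp φ.range.subtype
  let x₂ : φ.range →* ℂˣ := (MonoidHom.snd ℂˣ ℂˣ).comp φ.range.subtype
  have hnorm : ∀ (y : φ.range →* ℂˣ) (x : φ.range), ‖(y x : ℂ)‖ = 1 := by
    intro y x
    refine Complex.norm_eq_one_of_pow_eq_one (n := B) ?_ (NeZero.ne B)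
    rw [← Units.val_pow_eq_pow_val, ← map_pow, hBH, map_one, Units.val_one]
  let h : φ.range → ℝ := fun x => ∑ j : (ZMod B)ˣ,
    ‖(x₁ x : ℂ) ^ (j : ZMod B).val + (x₂ x : ℂ) ^ (j : ZMod B).val‖ ^ 2
  -- powers only depend on the exponent modulo `B`
  have hmod : ∀ (y : φ.range →* ℂˣ) (x : φ.range) (a b : ℕ), a ≡ b [MOD B] →
      (y x : ℂ) ^ a = (y x : ℂ) ^ b := by
    intro y x a b hab
    refine pow_congr_monoid (n := B) ?_ hab
    rw [← Units.val_pow_eq_pow_val, ← map_pow, hBH, map_one, Units.val_one]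
  have hh : ∀ x x' : φ.range, Subgroup.zpowers x = Subgroup.zpowers x' → h x = h x' := by
    intro x x' hxx
    have hx' : x' ∈ Submonoid.powers x := by
      rw [mem_powers_iff_mem_zpowers, hxx]
      exact Subgroup.mem_zpowers _
    obtain ⟨a, rfl⟩ := hx'
    -- the exponent is prime to the order
    obtain ⟨d, hd⟩ : ∃ d, d = orderOf x := ⟨_, rfl⟩
    have hdB : d ∣ B := by rw [hd]; exact orderOf_dvd_of_pow_eq_one (hBH x)
    have hd0 : 0 < d := Nat.pos_of_dvd_of_pos hdB (Nat.pos_of_ne_zero (NeZero.ne B))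
    haveI : NeZero d := ⟨hd0.ne'⟩
    have hcop : a.Coprime d := by
      have h1 : orderOf (x ^ a) = orderOf x := by
        rw [← Nat.card_zpowers, ← Nat.card_zpowers, hxx]
      rw [orderOf_pow, ← hd] at h1
      rw [Nat.coprime_comm]
      have h3 : d / d.gcd a = d := h1
      rcases Nat.lt_or_ge 1 (d.gcd a) with h4 | h4
      · exact absurd h3 (Nat.div_lt_self hd0 h4).ne
      · have h5 : 0 < d.gcd a := Nat.gcd_pos_of_pos_left _ hd0
        exact le_antisymm h4 h5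
    obtain ⟨u, hu⟩ := ZMod.unitsMap_surjective hdB (ZMod.unitOfCoprime a hcop)
    have hua : (u : ZMod B).val ≡ a [MOD d] := by
      have h1 := congrArg (fun w : (ZMod d)ˣ => (w : ZMod d)) hu
      simp only [ZMod.unitsMap_val, ZMod.coe_unitOfCoprime] at h1
      rw [← ZMod.natCast_eq_natCast_iff, ← h1, ZMod.natCast_val]
    have hxa : x ^ a = x ^ (u : ZMod B).val := by
      rw [pow_eq_pow_iff_modEq, ← hd]
      exact hua.symm
    rw [show (fun m => x ^ m) a = x ^ a from rfl, hxa]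
    simp only [h]
    refine Fintype.sum_equiv (Equiv.mulLeft u⁻¹) _ _ fun j => ?_
    have h1 : ∀ y : φ.range →* ℂˣ, ((y (x ^ (u : ZMod B).val) : ℂˣ) : ℂ) ^
        ((u⁻¹ * j : (ZMod B)ˣ) : ZMod B).val = (y x : ℂ) ^ (j : ZMod B).val := by
      intro y
      rw [map_pow, Units.val_pow_eq_pow_val, ← pow_mul]
      refine hmod y x _ _ ?_
      rw [← ZMod.natCast_eq_natCast_iff]
      push_cast
      rw [ZMod.natCast_zmod_val, ZMod.natCast_zmod_val, ZMod.natCast_zmod_val, ← Units.val_mul,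
        ← Units.val_mul, mul_inv_cancel_left]
    rw [Equiv.coe_mulLeft, h1, h1]
  -- the mean
  have hmeanval : ∑ x : φ.range, h x = 2 * Fintype.card (ZMod B)ˣ * Fintype.card φ.range := by
    simp only [h]
    rw [Finset.sum_comm]
    have h1 : ∀ j : (ZMod B)ˣ, ∑ x : φ.range,
        ‖(x₁ x : ℂ) ^ (j : ZMod B).val + (x₂ x : ℂ) ^ (j : ZMod B).val‖ ^ 2 =
        2 * Fintype.card φ.range := by
      intro j
      have h2 : ∑ x : φ.range,
          ‖(x₁ x : ℂ) ^ (j : ZMod B).val + (x₂ x : ℂ) ^ (j : ZMod B).val‖ ^ 2 =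
          ∑ x : φ.range, ‖(x₁ x : ℂ) + (x₂ x : ℂ)‖ ^ 2 := by
        let E : φ.range ≃ φ.range :=
          { toFun := fun x => x ^ (j : ZMod B).val
            invFun := fun x => x ^ ((j⁻¹ : (ZMod B)ˣ) : ZMod B).val
            left_inv := fun x => by
              change (x ^ (j : ZMod B).val) ^ ((j⁻¹ : (ZMod B)ˣ) : ZMod B).val = x
              rw [← pow_mul]
              conv_rhs => rw [← pow_one x]
              refine pow_congr_monoid (hBH x) ?_
              rw [← ZMod.natCast_eq_natCast_iff]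
              push_cast
              rw [ZMod.natCast_zmod_val, ZMod.natCast_zmod_val, ← Units.val_mul, mul_inv_cancel,
                Units.val_one]
            right_inv := fun x => by
              change (x ^ ((j⁻¹ : (ZMod B)ˣ) : ZMod B).val) ^ (j : ZMod B).val = x
              rw [← pow_mul]
              conv_rhs => rw [← pow_one x]
              refine pow_congr_monoid (hBH x) ?_
              rw [← ZMod.natCast_eq_natCast_iff]
              push_cast
              rw [ZMod.natCast_zmod_val, ZMod.natCast_zmod_val, ← Units.val_mul, inv_mul_cancel,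
                Units.val_one] }
        refine Fintype.sum_equiv E _ _ fun x => ?_
        change _ = ‖(x₁ (x ^ (j : ZMod B).val) : ℂ) + (x₂ (x ^ (j : ZMod B).val) : ℂ)‖ ^ 2
        rw [map_pow, map_pow, Units.val_pow_eq_pow_val, Units.val_pow_eq_pow_val]
      rw [h2]
      refine sum_norm_sq x₁ x₂ (hnorm x₁) (hnorm x₂) ?_
      obtain ⟨c, hc⟩ := hne
      exact ⟨φ.rangeRestrict c, hc⟩
    rw [Finset.sum_congr rfl fun j _ => h1 j, Finset.sum_const, Finset.card_univ, nsmul_eq_mul]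
    ring
  -- the arithmetic function
  let b : Nat.Primes → ℝ := fun p => if (p : ℕ) ∣ N then 0 else ∑ j : (ZMod B)ˣ, ‖σ j (α p)‖ ^ 2
  have hmean : HasMean b ((∑ x : φ.range, h x) / Fintype.card φ.range) := by
    have hS : {p : Nat.Primes | (p : ℕ) ∣ N}.Finite := by
      refine (finite_exceptional hN 0).subset fun p hp => Or.inl hp
    refine hasMean_frobenius φ.rangeRestrict ?_ φ.rangeRestrict_surjective hh hS ?_
    · rwa [MonoidHom.ker_rangeRestrict]
    · intro p hp A hA τ hτ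
      have hp' : ¬ (p : ℕ) ∣ N := hp
      simp only [b, h, if_neg hp']
      refine Finset.sum_congr rfl fun j _ => ?_
      rw [hσ j p p.2 hp' A hA τ hτ]
      rfl
  have hcard : (0 : ℝ) < Fintype.card φ.range := by exact_mod_cast Fintype.card_pos
  rw [hmeanval, mul_div_assoc, div_self hcard.ne', mul_one] at hmean
  obtain ⟨φB, hφB⟩ : ∃ φB : ℝ, φB = Fintype.card (ZMod B)ˣ := ⟨_, rfl⟩
  have hφB0 : 0 < φB := by rw [hφB]; exact_mod_cast Fintype.card_pos
  rw [← hφB] at hmean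
  -- Rankin's bound
  choose C hC using fun j => hR (σ j)
  obtain ⟨⟨M, hM⟩, hlim⟩ := hmean
  have hb : ∀ s : ℝ, 1 < s → s ≤ 2 → primeSum b s ≤ φB * Real.log (1 / (s - 1)) + ∑ j, C j := by
    intro s hs hs2
    unfold primeSum
    refine (summable_primeSum hM hs).tsum_le_of_sum_le fun F => ?_
    let F' : Finset ℕ := (F.filter fun p : Nat.Primes => ¬ (p : ℕ) ∣ N).image
      (fun p : Nat.Primes => (p : ℕ))
    have hF' : ∀ p ∈ F', p.Prime ∧ ¬ p ∣ N := by
      intro p hp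
      obtain ⟨p', hp', rfl⟩ := Finset.mem_image.1 hp
      exact ⟨p'.2, (Finset.mem_filter.1 hp').2⟩
    have h1 : ∑ p ∈ F, b p * ((p : ℕ) : ℝ) ^ (-s) =
        ∑ j : (ZMod B)ˣ, ∑ p ∈ F', ‖σ j (α p)‖ ^ 2 * (p : ℝ) ^ (-s) := by
      rw [Finset.sum_comm, Finset.sum_image (g := fun p : Nat.Primes => (p : ℕ))
        (fun a _ b _ h => Nat.Primes.coe_nat_injective h), Finset.sum_filter]
      refine Finset.sum_congr rfl fun p _ => ?_
      simp only [b]
      split_ifs with h2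
      · simp
      · rw [Finset.sum_mul]
    rw [h1]
    calc ∑ j : (ZMod B)ˣ, ∑ p ∈ F', ‖σ j (α p)‖ ^ 2 * (p : ℝ) ^ (-s)
        ≤ ∑ j : (ZMod B)ˣ, (Real.log (1 / (s - 1)) + C j) :=
          Finset.sum_le_sum fun j _ => hC j s hs hs2 F' hF'
      _ = φB * Real.log (1 / (s - 1)) + ∑ j, C j := by
          rw [Finset.sum_add_distrib, Finset.sum_const, Finset.card_univ, nsmul_eq_mul, hφB]
  have h2 : ∀ᶠ s : ℝ in 𝓝[>] 1, s ≤ 2 := by
    filter_upwards [Ioo_mem_nhdsGT (show (1 : ℝ) < 2 by norm_num)] with s hs using hs.2.le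
  have h3 := hlim.eventually (lt_mem_nhds (show φB * (3 / 2) < 2 * φB by linarith))
  have h0 : ∀ᶠ s : ℝ in 𝓝[>] 1, 1 < s := self_mem_nhdsWithin
  obtain ⟨s, hs3, hs2, hs1, hs4, hs5⟩ := (h3.and (h2.and (h0.and
    ((tendsto_log_atTop.eventually_gt_atTop 0).and
      (tendsto_log_atTop.eventually_gt_atTop (2 * (∑ j, C j) / φB)))))).exists
  rw [lt_div_iff₀ hs4] at hs3
  have h4 := hb s hs1 hs2
  rw [div_lt_iff₀ hφB0] at hs5
  nlinarith

end Fermat.Agent.DS
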