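import Fermat.Agent.DS.Bounded
import Fermat.Agent.GalRep.PseudoRep

/-!
# Lifting the traces of the residual representations to characteristic zero
-/

set_option autoImplicit false
set_option linter.style.haveILetI false
set_option linter.unusedSectionVars false

namespace Fermat.Agent.DS

open Fermat.Agent.Places Fermat.Agent.Cheb Fermat.Agent.GalRep Filter Topology

section matrices

variable {R : Type*} [CommRing R]

theorem mul_self_fin_two (M : Matrix (Fin 2) (Fin 2) R) :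
    M * M = M.trace • M - M.det • (1 : Matrix (Fin 2) (Fin 2) R) := by
  ext i j
  rw [Matrix.det_fin_two, Matrix.trace_fin_two]
  fin_cases i <;> fin_cases j <;>
    simp [Matrix.mul_apply, Fin.sum_univ_two] <;> ring

theorem trace_pow_of {M : Matrix (Fin 2) (Fin 2) R} {a b : R} (h1 : M.trace = a + b)
    (h2 : M.det = a * b) (n : ℕ) : (M ^ n).trace = a ^ n + b ^ n := by
  induction n using Nat.twoStepInduction with
  | zero => simp [Matrix.trace_one]; norm_num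
  | one => simp [h1]
  | more n ih1 ih2 =>
    have h3 : M ^ (n + 2) = M.trace • M ^ (n + 1) - M.det • M ^ n := by
      rw [pow_add, pow_two, mul_self_fin_two, mul_sub, Matrix.mul_smul, Matrix.mul_smul, mul_one,
        ← pow_succ]
    rw [h3, Matrix.trace_sub, Matrix.trace_smul, Matrix.trace_smul, ih1, ih2, h1, h2,
      smul_eq_mul, smul_eq_mul]
    ring

theorem trace_rel {F : Type*} [Field F] (g h : GL (Fin 2) F) :
    ((g * h : GL (Fin 2) F) : Matrix (Fin 2) (Fin 2) F).trace +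
      (h : Matrix (Fin 2) (Fin 2) F).det * ((g * h⁻¹ : GL (Fin 2) F) : Matrix (Fin 2) (Fin 2) F).trace =
      (g : Matrix (Fin 2) (Fin 2) F).trace * (h : Matrix (Fin 2) (Fin 2) F).trace := by
  have h1 : (h : Matrix (Fin 2) (Fin 2) F).det • ((h⁻¹ : GL (Fin 2) F) : Matrix (Fin 2) (Fin 2) F) =
      (h : Matrix (Fin 2) (Fin 2) F).trace • (1 : Matrix (Fin 2) (Fin 2) F) -
        (h : Matrix (Fin 2) (Fin 2) F) := by
    have h2 := mul_self_fin_two (h : Matrix (Fin 2) (Fin 2) F)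
    have h3 : (h : Matrix (Fin 2) (Fin 2) F) * ((h⁻¹ : GL (Fin 2) F) : Matrix (Fin 2) (Fin 2) F) = 1 := by
      rw [← Matrix.GeneralLinearGroup.coe_mul, mul_inv_cancel]; rfl
    have h4 := congrArg (fun M => M * ((h⁻¹ : GL (Fin 2) F) : Matrix (Fin 2) (Fin 2) F)) h2
    simp only [mul_assoc, h3, mul_one, sub_mul, Matrix.smul_mul, one_mul] at h4
    rw [eq_sub_iff_add_eq, add_comm]
    exact eq_sub_iff_add_eq.1 h4
  rw [Matrix.GeneralLinearGroup.coe_mul, Matrix.GeneralLinearGroup.coe_mul]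
  have h2 : (h : Matrix (Fin 2) (Fin 2) F).det * ((g : Matrix (Fin 2) (Fin 2) F) *
      ((h⁻¹ : GL (Fin 2) F) : Matrix (Fin 2) (Fin 2) F)).trace =
      ((g : Matrix (Fin 2) (Fin 2) F) * ((h : Matrix (Fin 2) (Fin 2) F).det •
        ((h⁻¹ : GL (Fin 2) F) : Matrix (Fin 2) (Fin 2) F))).trace := by
    rw [Matrix.mul_smul, Matrix.trace_smul, smul_eq_mul]
  rw [h2, h1, mul_sub, Matrix.trace_sub, Matrix.mul_smul, mul_one, Matrix.trace_smul, smul_eq_mul]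
  ring

end matrices

variable {L : Type*} [Field L] [CharZero L] [inst : Algebra ℚ L] [IsGalois ℚ L]

theorem exists_poly_aux {x : L} (hx : x ≠ 0) (n : ℕ) : ∀ P : Polynomial ℤ, P ≠ 0 →
    P.natDegree = n → Polynomial.aeval x P = 0 →
      ∃ Q : Polynomial ℤ, Polynomial.aeval x Q = 0 ∧ Q.coeff 0 ≠ 0 := by
  induction n using Nat.strong_induction_on with
  | _ n ih =>
    intro P hP hn hx0
    by_cases hc : P.coeff 0 = 0
    · have h1 := Polynomial.divX_mul_X_add P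
      rw [hc, map_zero, add_zero] at h1
      have h2 : P.divX ≠ 0 := by
        intro h
        rw [h, zero_mul] at h1
        exact hP h1.symm
      have h3 : 0 < P.natDegree := by
        rcases Nat.eq_zero_or_pos P.natDegree with h | h
        · exfalso
          apply hP
          rw [Polynomial.eq_C_of_natDegree_eq_zero h, hc, map_zero]
        · exact h
      refine ih (P.natDegree - 1) (by omega) P.divX h2 ?_ ?_
      · rw [Polynomial.natDegree_divX_eq_natDegree_tsub_one]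
      · rw [← h1, map_mul, Polynomial.aeval_X] at hx0
        exact (mul_eq_zero.1 hx0).resolve_right hx
    · exact ⟨P, hx0, hc⟩

theorem exists_poly {x : L} (hx : x ≠ 0) (hi : IsIntegral ℤ x) :
    ∃ Q : Polynomial ℤ, Polynomial.aeval x Q = 0 ∧ Q.coeff 0 ≠ 0 := by
  obtain ⟨P, hm, hP⟩ := hi
  exact exists_poly_aux hx _ P hm.ne_zero rfl hP

theorem exists_bound_ne {x : integralClosure ℤ L} (hx : x ≠ 0) :
    ∃ C : ℕ, ∀ ℓ : ℕ, ℓ.Prime → C < ℓ → ∀ A : ValuationSubring L, A.LiesOverPrime ℓ →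
      redI A x ≠ 0 := by
  have hx' : (x : L) ≠ 0 := fun h => hx (Subtype.ext h)
  obtain ⟨Q, hQ, hc0⟩ := exists_poly hx' x.2
  obtain ⟨c, hc⟩ : ∃ c, c = Q.coeff 0 := ⟨_, rfl⟩
  rw [← hc] at hc0
  refine ⟨c.natAbs, fun ℓ hℓ hlt A hA hred => ?_⟩
  rw [redI_eq_zero_iff] at hred
  have h1 := hQ
  rw [← Polynomial.divX_mul_X_add Q, map_add, map_mul, Polynomial.aeval_X,
    Polynomial.aeval_C, ← hc] at h1
  have h2 : (c : L) ∈ A.nonunits := by
    have h3 : (c : L) = -((x : L) * Polynomial.aeval (x : L) Q.divX) := by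
      have : (algebraMap ℤ L) c = (c : L) := rfl
      rw [this] at h1
      linear_combination h1
    rw [h3]
    refine neg_mem_nonunits A (mul_mem_nonunits A hred ?_)
    refine mem_of_isIntegral_int A ?_
    rw [Subalgebra.aeval_coe]
    exact (Polynomial.aeval x Q.divX).2
  have hcop : IsCoprime (ℓ : ℤ) c := by
    rw [Int.isCoprime_iff_gcd_eq_one, Int.gcd_eq_natAbs, Int.natAbs_natCast]
    refine (Nat.Prime.coprime_iff_not_dvd hℓ).2 fun h => ?_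
    have := Nat.le_of_dvd (Int.natAbs_pos.2 hc0) h
    omega
  obtain ⟨a, b, hab⟩ := hcop
  have h3 : (1 : L) ∈ A.nonunits := by
    have h4 : (1 : L) = ℓ * a + c * b := by
      have := congrArg (fun z : ℤ => (z : L)) hab
      push_cast at this
      rw [← this]; ring
    rw [h4]
    exact add_mem_nonunits A (mul_mem_nonunits A hA (intCast_mem A _))
      (mul_mem_nonunits A h2 (intCast_mem A _))
  exact one_notMem_nonunits A h3

theorem exists_bound_inj (Z : Set (integralClosure ℤ L)) (hZ : Z.Finite) :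
    ∃ C : ℕ, ∀ ℓ : ℕ, ℓ.Prime → C < ℓ → ∀ A : ValuationSubring L, A.LiesOverPrime ℓ →
      ∀ x ∈ Z, ∀ y ∈ Z, redI A x = redI A y → x = y := by
  classical
  have key : ∀ z : integralClosure ℤ L, ∃ C : ℕ, z ≠ 0 → ∀ ℓ : ℕ, ℓ.Prime → C < ℓ →
      ∀ A : ValuationSubring L, A.LiesOverPrime ℓ → redI A z ≠ 0 := by
    intro z
    by_cases hz : z = 0
    · exact ⟨0, fun h => absurd hz h⟩
    · obtain ⟨C, hC⟩ := exists_bound_ne hz
      exact ⟨C, fun _ => hC⟩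
  choose C hC using key
  refine ⟨∑ x ∈ hZ.toFinset, ∑ y ∈ hZ.toFinset, C (x - y), fun ℓ hℓ hlt A hA x hx y hy hxy => ?_⟩
  by_contra hne
  have h1 : C (x - y) ≤ ∑ x ∈ hZ.toFinset, ∑ y ∈ hZ.toFinset, C (x - y) := by
    refine le_trans ?_ (Finset.single_le_sum
      (f := fun x => ∑ y ∈ hZ.toFinset, C (x - y)) (fun _ _ => Nat.zero_le _)
      ((Set.Finite.mem_toFinset hZ).2 hx))
    exact Finset.single_le_sum (f := fun y => C (x - y)) (fun _ _ => Nat.zero_le _)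
      ((Set.Finite.mem_toFinset hZ).2 hy)
  refine hC (x - y) (sub_ne_zero.2 hne) ℓ hℓ (lt_of_le_of_lt h1 hlt) A hA ?_
  rw [map_sub, hxy, sub_self]

/-- algebraic integers congruent at places over arbitrarily large primes are equal -/
theorem eq_of_redI {x y : integralClosure ℤ L}
    (h : ∀ C : ℕ, ∃ ℓ : ℕ, ℓ.Prime ∧ C < ℓ ∧ ∃ A : ValuationSubring L, A.LiesOverPrime ℓ ∧
      redI A x = redI A y) : x = y := by
  obtain ⟨C, hC⟩ := exists_bound_inj ({x, y} : Set (integralClosure ℤ L)) (Set.toFinite _)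
  obtain ⟨ℓ, hℓ, hlt, A, hA, hxy⟩ := h C
  exact hC ℓ hℓ hlt A hA x (by simp) y (by simp) hxy

variable [IsAlgClosed L]

theorem finite_roots_unity {B : ℕ} (hB : 0 < B) : {u : integralClosure ℤ L | u ^ B = 1}.Finite := by
  refine (Polynomial.finite_setOfPred_isRoot (p := (Polynomial.X ^ B - 1 :
    Polynomial (integralClosure ℤ L))) ?_).subset ?_
  · exact (Polynomial.monic_X_pow_sub_C 1 hB.ne').ne_zero
  · intro u hu
    simp only [Set.mem_ofPred_eq, Polynomial.IsRoot.def, Polynomial.eval_sub, Polynomial.eval_pow,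
      Polynomial.eval_X, Polynomial.eval_one]
    rw [show u ^ B = 1 from hu, sub_self]

section main

variable {N : ℕ} {α e : ℕ → integralClosure ℤ L} {ℓ₀ B C₀ : ℕ}

/-- the roots of the Hecke polynomials are roots of unity -/
theorem root_pow_eq_one (hres : HasRes N α e ℓ₀)
    (hB : ∀ ℓ : ℕ, ℓ.Prime → C₀ < ℓ → ∀ A : ValuationSubring L, A.LiesOverPrime ℓ →
      ∀ ρ : (L ≃ₐ[ℚ] L) →* GL (Fin 2) (IsLocalRing.ResidueField A), IsRes N α e A ℓ ρ →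
      ∀ (g : L ≃ₐ[ℚ] L) (v : Fin 2 → IsLocalRing.ResidueField A) (ζ : IsLocalRing.ResidueField A),
        v ≠ 0 → (ρ g : Matrix (Fin 2) (Fin 2) (IsLocalRing.ResidueField A)).mulVec v = ζ • v →
        ζ ^ B = 1)
    {p : ℕ} (hp : p.Prime) (hpN : ¬ p ∣ N) {u : integralClosure ℤ L}
    (hu : u ^ 2 - α p * u + e p = 0) : u ^ B = 1 := by
  refine eq_of_redI fun C => ?_
  obtain ⟨ℓ, hℓ1, hℓ⟩ := Nat.exists_infinite_primes (C + C₀ + ℓ₀ + p + 1)
  obtain ⟨A, hA⟩ := exists_liesOverPrime L hℓ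
  obtain ⟨ρ, hρ⟩ := hres ℓ hℓ (by omega) A hA
  obtain ⟨A', hA'⟩ := exists_liesOverPrime L hp
  obtain ⟨τ, hτ⟩ := exists_isFrobeniusAt A' hp hA'
  refine ⟨ℓ, hℓ, by omega, A, hA, ?_⟩
  rw [map_pow, map_one]
  have h1 : (ρ τ : Matrix (Fin 2) (Fin 2) (IsLocalRing.ResidueField A)).charpoly.IsRoot
      (redI A u) := by
    rw [isRoot_charpoly_iff, hρ.trace p hp hpN (by omega) A' hA' τ hτ,
      hρ.det p hp hpN (by omega) A' hA' τ hτ]
    have := congrArg (redI A) hu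
    rwa [map_add, map_sub, map_pow, map_mul, map_zero] at this
  obtain ⟨v, hv, hgv⟩ := exists_eigenvector h1
  exact hB ℓ hℓ (by omega) A hA ρ hρ τ v _ hv hgv

/-- **the two places lemma** -/
theorem two_places (hN : N ≠ 0)
    (hroot : ∀ p : ℕ, p.Prime → ¬ p ∣ N → ∀ u : integralClosure ℤ L,
      u ^ 2 - α p * u + e p = 0 → u ^ B = 1)
    {ℓ ℓ' : ℕ} {A A' : ValuationSubring L}
    {ρ : (L ≃ₐ[ℚ] L) →* GL (Fin 2) (IsLocalRing.ResidueField A)} (hρ : IsRes N α e A ℓ ρ)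
    {ρ' : (L ≃ₐ[ℚ] L) →* GL (Fin 2) (IsLocalRing.ResidueField A')} (hρ' : IsRes N α e A' ℓ' ρ')
    (g : L ≃ₐ[ℚ] L) : ∃ u₁ u₂ : integralClosure ℤ L, u₁ ^ B = 1 ∧ u₂ ^ B = 1 ∧
      (ρ g : Matrix (Fin 2) (Fin 2) (IsLocalRing.ResidueField A)).trace = redI A (u₁ + u₂) ∧
      (ρ g : Matrix (Fin 2) (Fin 2) (IsLocalRing.ResidueField A)).det = redI A (u₁ * u₂) ∧
      (ρ' g : Matrix (Fin 2) (Fin 2) (IsLocalRing.ResidueField A')).trace = redI A' (u₁ + u₂) ∧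
      (ρ' g : Matrix (Fin 2) (Fin 2) (IsLocalRing.ResidueField A')).det = redI A' (u₁ * u₂) := by
  have hS : UD ({p : Nat.Primes | (p : ℕ) ∣ N ∨ (p : ℕ) = ℓ} ∪
      {p : Nat.Primes | (p : ℕ) ∣ N ∨ (p : ℕ) = ℓ'}) 0 := by
    have := (UD.of_finite (finite_exceptional hN ℓ)).union (UD.of_finite (finite_exceptional hN ℓ'))
    rwa [add_zero] at this
  obtain ⟨p, hp, A'', hA'', τ, hτ, n, -, hn, -⟩ := exists_frobenius_avoiding hS (ρ.ker ⊓ ρ'.ker)
    (hρ.open_ker.inter hρ'.open_ker) g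
  rw [Set.mem_union, not_or, Set.mem_ofPred_eq, Set.mem_ofPred_eq, not_or, not_or] at hp
  obtain ⟨⟨hpN, hpℓ⟩, -, hpℓ'⟩ := hp
  obtain ⟨u₁, hu₁⟩ := exists_root_int (α p) (e p)
  obtain ⟨u₂, hu₂⟩ : ∃ u₂, u₂ = α p - u₁ := ⟨_, rfl⟩
  have hsum : α p = u₁ + u₂ := by rw [hu₂]; ring
  have hprod : e p = u₁ * u₂ := by rw [hu₂]; linear_combination hu₁
  have hu₂' : u₂ ^ 2 - α p * u₂ + e p = 0 := by rw [hsum, hprod]; ring
  have h1 := hroot p p.2 hpN u₁ hu₁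
  have h2 := hroot p p.2 hpN u₂ hu₂'
  have hg : ρ g = ρ τ ^ n := by
    have := (Subgroup.mem_inf.1 hn).1
    rw [MonoidHom.mem_ker, map_mul, map_inv, map_pow, inv_mul_eq_one] at this
    exact this
  have hg' : ρ' g = ρ' τ ^ n := by
    have := (Subgroup.mem_inf.1 hn).2
    rw [MonoidHom.mem_ker, map_mul, map_inv, map_pow, inv_mul_eq_one] at this
    exact this
  refine ⟨u₁ ^ n, u₂ ^ n, by rw [← pow_mul, mul_comm, pow_mul, h1, one_pow],
    by rw [← pow_mul, mul_comm, pow_mul, h2, one_pow], ?_, ?_, ?_, ?_⟩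
  · rw [hg, Units.val_pow_eq_pow_val, map_add, map_pow, map_pow]
    refine trace_pow_of ?_ ?_ n
    · rw [hρ.trace p p.2 hpN hpℓ A'' hA'' τ hτ, hsum, map_add]
    · rw [hρ.det p p.2 hpN hpℓ A'' hA'' τ hτ, hprod, map_mul]
  · rw [hg, Units.val_pow_eq_pow_val, Matrix.det_pow, hρ.det p p.2 hpN hpℓ A'' hA'' τ hτ, hprod,
      ← map_pow, mul_pow]
  · rw [hg', Units.val_pow_eq_pow_val, map_add, map_pow, map_pow]
    refine trace_pow_of ?_ ?_ n
    · rw [hρ'.trace p p.2 hpN hpℓ' A'' hA'' τ hτ, hsum, map_add]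
    · rw [hρ'.det p p.2 hpN hpℓ' A'' hA'' τ hτ, hprod, map_mul]
  · rw [hg', Units.val_pow_eq_pow_val, Matrix.det_pow, hρ'.det p p.2 hpN hpℓ' A'' hA'' τ hτ, hprod,
      ← map_pow, mul_pow]

/-- **the traces and determinants of the residual representations lift** -/
theorem exists_lift (hN : N ≠ 0) (hres : HasRes N α e ℓ₀) (hB0 : 0 < B)
    (hroot : ∀ p : ℕ, p.Prime → ¬ p ∣ N → ∀ u : integralClosure ℤ L,
      u ^ 2 - α p * u + e p = 0 → u ^ B = 1) :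
    ∃ T D : (L ≃ₐ[ℚ] L) → integralClosure ℤ L,
      (∀ (ℓ : ℕ) (A : ValuationSubring L)
        (ρ : (L ≃ₐ[ℚ] L) →* GL (Fin 2) (IsLocalRing.ResidueField A)), IsRes N α e A ℓ ρ →
        ∀ g, (ρ g : Matrix (Fin 2) (Fin 2) (IsLocalRing.ResidueField A)).trace = redI A (T g) ∧
          (ρ g : Matrix (Fin 2) (Fin 2) (IsLocalRing.ResidueField A)).det = redI A (D g)) ∧
      (∃ U : Subgroup (L ≃ₐ[ℚ] L), IsOpen (U : Set (L ≃ₐ[ℚ] L)) ∧ ∀ g, ∀ u ∈ U,
        T (g * u) = T g ∧ D (g * u) = D g) ∧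
      ∀ g, ∃ u₁ u₂ : integralClosure ℤ L, u₁ ^ B = 1 ∧ u₂ ^ B = 1 ∧ T g = u₁ + u₂ ∧
        D g = u₁ * u₂ := by
  -- the finite sets
  have hμ := finite_roots_unity (L := L) hB0
  have hZ : (Set.image2 (fun x y => x + y) {u : integralClosure ℤ L | u ^ B = 1}
      {u : integralClosure ℤ L | u ^ B = 1}).Finite := hμ.image2 _ hμ
  obtain ⟨C₁, hC₁⟩ := exists_bound_inj _ hZ
  obtain ⟨C₂, hC₂⟩ := exists_bound_inj _ hμ
  obtain ⟨ℓ₁, hℓ₁', hℓ₁⟩ := Nat.exists_infinite_primes (C₁ + C₂ + ℓ₀ + 1)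
  obtain ⟨A₁, hA₁⟩ := exists_liesOverPrime L hℓ₁
  obtain ⟨ρ₁, hρ₁⟩ := hres ℓ₁ hℓ₁ (by omega) A₁ hA₁
  choose u₁ u₂ hu₁ hu₂ ht hd _ _ using fun g => two_places hN hroot hρ₁ hρ₁ g
  have hmul : ∀ {x y : integralClosure ℤ L}, x ^ B = 1 → y ^ B = 1 → (x * y) ^ B = 1 := by
    intro x y hx hy; rw [mul_pow, hx, hy, one_mul]
  refine ⟨fun g => u₁ g + u₂ g, fun g => u₁ g * u₂ g, ?_, ⟨ρ₁.ker, hρ₁.open_ker, ?_⟩, fun g =>
    ⟨u₁ g, u₂ g, hu₁ g, hu₂ g, rfl, rfl⟩⟩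
  · intro ℓ A ρ hρ g
    obtain ⟨v₁, v₂, hv₁, hv₂, h1, h2, h3, h4⟩ := two_places hN hroot hρ₁ hρ g
    have h5 : v₁ + v₂ = u₁ g + u₂ g :=
      hC₁ ℓ₁ hℓ₁ (by omega) A₁ hA₁ _ ⟨v₁, hv₁, v₂, hv₂, rfl⟩ _ ⟨u₁ g, hu₁ g, u₂ g, hu₂ g, rfl⟩
        (by rw [← h1, ht])
    have h6 : v₁ * v₂ = u₁ g * u₂ g :=
      hC₂ ℓ₁ hℓ₁ (by omega) A₁ hA₁ _ (hmul hv₁ hv₂) _ (hmul (hu₁ g) (hu₂ g)) (by rw [← h2, hd])
    exact ⟨by rw [h3, h5], by rw [h4, h6]⟩
  · intro g u hu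
    have hgu : ρ₁ (g * u) = ρ₁ g := by rw [map_mul, (MonoidHom.mem_ker).1 hu, mul_one]
    constructor
    · exact hC₁ ℓ₁ hℓ₁ (by omega) A₁ hA₁ _ ⟨_, hu₁ _, _, hu₂ _, rfl⟩ _ ⟨_, hu₁ _, _, hu₂ _, rfl⟩
        (by rw [← ht, ← ht, hgu])
    · exact hC₂ ℓ₁ hℓ₁ (by omega) A₁ hA₁ _ (hmul (hu₁ _) (hu₂ _)) _ (hmul (hu₁ _) (hu₂ _))
        (by rw [← hd, ← hd, hgu])

theorem isPseudoRep_lift (hres : HasRes N α e ℓ₀) {T D : (L ≃ₐ[ℚ] L) → integralClosure ℤ L}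
    (hTD : ∀ (ℓ : ℕ) (A : ValuationSubring L)
      (ρ : (L ≃ₐ[ℚ] L) →* GL (Fin 2) (IsLocalRing.ResidueField A)), IsRes N α e A ℓ ρ →
      ∀ g, (ρ g : Matrix (Fin 2) (Fin 2) (IsLocalRing.ResidueField A)).trace = redI A (T g) ∧
        (ρ g : Matrix (Fin 2) (Fin 2) (IsLocalRing.ResidueField A)).det = redI A (D g)) :
    IsPseudoRep T D := by
  have key : ∀ {x y : integralClosure ℤ L}, (∀ (A : ValuationSubring L) (ℓ : ℕ)
      (ρ : (L ≃ₐ[ℚ] L) →* GL (Fin 2) (IsLocalRing.ResidueField A)), IsRes N α e A ℓ ρ →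
      redI A x = redI A y) → x = y := by
    intro x y h
    refine eq_of_redI fun C => ?_
    obtain ⟨ℓ, hℓ', hℓ⟩ := Nat.exists_infinite_primes (C + ℓ₀ + 1)
    obtain ⟨A, hA⟩ := exists_liesOverPrime L hℓ
    obtain ⟨ρ, hρ⟩ := hres ℓ hℓ (by omega) A hA
    exact ⟨ℓ, hℓ, by omega, A, hA, h A ℓ ρ hρ⟩
  refine ⟨key ?_, key ?_, fun g h => key ?_, fun g h => key ?_⟩
  · intro A ℓ ρ hρ
    rw [← (hTD ℓ A ρ hρ 1).1, map_one, Units.val_one, Matrix.trace_one, map_ofNat]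
    simp
  · intro A ℓ ρ hρ
    rw [← (hTD ℓ A ρ hρ 1).2, map_one, Units.val_one, Matrix.det_one, map_one]
  · intro A ℓ ρ hρ
    rw [map_mul, ← (hTD ℓ A ρ hρ _).2, ← (hTD ℓ A ρ hρ _).2, ← (hTD ℓ A ρ hρ _).2, map_mul,
      Units.val_mul, Matrix.det_mul]
  · intro A ℓ ρ hρ
    rw [map_add, map_mul, map_mul, ← (hTD ℓ A ρ hρ _).1, ← (hTD ℓ A ρ hρ _).2,
      ← (hTD ℓ A ρ hρ _).1, ← (hTD ℓ A ρ hρ _).1, ← (hTD ℓ A ρ hρ _).1, map_mul, map_mul, map_inv]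
    exact trace_rel _ _

end main

end Fermat.Agent.DS
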