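import Mathlib

/-!
# Rankin's bound: local factors and Euler product
-/

set_option autoImplicit false

namespace Fermat.Agent.DS

open Finset

/-- the sequence `c_k = a_{p^k}` -/
noncomputable def cseq (a e : ℂ) : ℕ → ℂ
  | 0 => 1
  | 1 => a
  | (k + 2) => a * cseq a e (k + 1) - e * cseq a e k

/-- the partial sums `B_k = |c_k|² + |c_{k-2}|² + ⋯` -/
noncomputable def Bseq (a e : ℂ) : ℕ → ℝ
  | 0 => 1
  | 1 => ‖a‖ ^ 2
  | (k + 2) => ‖cseq a e (k + 2)‖ ^ 2 + Bseq a e k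

variable {a e : ℂ}

theorem Bseq_nonneg (k : ℕ) : 0 ≤ Bseq a e k := by
  induction k using Nat.twoStepInduction with
  | zero => exact zero_le_one
  | one => exact sq_nonneg _
  | more k ih _ => rw [Bseq]; positivity

theorem norm_add_sq_le' (x y : ℂ) : ‖x + y‖ ^ 2 ≤ 2 * ‖x‖ ^ 2 + 2 * ‖y‖ ^ 2 := by
  have h1 : ‖x + y‖ ≤ ‖x‖ + ‖y‖ := norm_add_le _ _
  have h2 : ‖x + y‖ ^ 2 ≤ (‖x‖ + ‖y‖) ^ 2 := pow_le_pow_left₀ (norm_nonneg _) h1 2
  nlinarith [sq_nonneg (‖x‖ - ‖y‖)]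

theorem mul_cseq_le (he : ‖e‖ = 1) (k : ℕ) :
    ‖a‖ ^ 2 * ‖cseq a e (k + 1)‖ ^ 2 ≤ 2 * ‖cseq a e (k + 2)‖ ^ 2 + 2 * ‖cseq a e k‖ ^ 2 := by
  have h1 : a * cseq a e (k + 1) = cseq a e (k + 2) + e * cseq a e k := by
    rw [cseq]; ring
  rw [← mul_pow, ← norm_mul, h1]
  refine (norm_add_sq_le' _ _).trans ?_
  rw [norm_mul, he, one_mul]

theorem mul_Bseq_le (he : ‖e‖ = 1) (k : ℕ) :
    ‖a‖ ^ 2 * Bseq a e (k + 1) ≤ 2 * Bseq a e (k + 2) + 2 * Bseq a e k := by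
  have c0 : cseq a e 0 = 1 := rfl
  have c1 : cseq a e 1 = a := rfl
  induction k using Nat.twoStepInduction with
  | zero =>
    have h := mul_cseq_le (a := a) he 0
    simp only [Bseq, c0, c1, norm_one, one_pow, zero_add] at h ⊢
    linarith
  | one =>
    have h := mul_cseq_le (a := a) he 1
    simp only [Bseq, c1] at h ⊢
    have e1 : (1 + 1 : ℕ) = 2 := rfl
    have e2 : (1 + 2 : ℕ) = 3 := rfl
    simp only [e1, e2] at h ⊢
    rw [mul_add]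
    linarith [sq_nonneg ‖a‖]
  | more k ih _ =>
    have h := mul_cseq_le (a := a) he (k + 2)
    have e1 : Bseq a e (k + 2 + 1) = ‖cseq a e (k + 3)‖ ^ 2 + Bseq a e (k + 1) := rfl
    have e2 : Bseq a e (k + 2 + 2) = ‖cseq a e (k + 4)‖ ^ 2 + Bseq a e (k + 2) := rfl
    have e3 : Bseq a e (k + 2) = ‖cseq a e (k + 2)‖ ^ 2 + Bseq a e k := rfl
    have e4 : k + 2 + 1 = k + 3 := rfl
    have e5 : k + 2 + 2 = k + 4 := rfl
    rw [e4, e5] at h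
    rw [e1, e2, mul_add]
    linarith

theorem Bseq_le (k : ℕ) : Bseq a e k ≤ Bseq a e (k + 2) := by
  rw [Bseq]
  linarith [sq_nonneg ‖cseq a e (k + 2)‖]

theorem mul_Bseq_le_four (he : ‖e‖ = 1) (k : ℕ) :
    ‖a‖ ^ 2 * Bseq a e (k + 1) ≤ 4 * Bseq a e (k + 2) := by
  have h1 := mul_Bseq_le (a := a) he k
  have h2 := Bseq_le (a := a) (e := e) k
  linarith

theorem le_Bseq_two (he : ‖e‖ = 1) : (‖a‖ ^ 2) ^ 2 / 2 ≤ Bseq a e 2 := by
  have h1 : Bseq a e 2 = ‖a * a - e * 1‖ ^ 2 + 1 := rfl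
  have h2 : |‖a * a‖ - ‖e * 1‖| ≤ ‖a * a - e * 1‖ := abs_norm_sub_norm_le _ _
  rw [norm_mul, norm_mul, he, norm_one, mul_one] at h2
  have h3 : (‖a‖ * ‖a‖ - 1) ^ 2 ≤ ‖a * a - e * 1‖ ^ 2 := by
    rw [← sq_abs]
    exact pow_le_pow_left₀ (abs_nonneg _) h2 2
  rw [h1]
  nlinarith [sq_nonneg (‖a‖ ^ 2 - 2)]

theorem le_Bseq_three (he : ‖e‖ = 1) : (‖a‖ ^ 2) ^ 3 / 6 ≤ Bseq a e 3 := by
  have h1 : Bseq a e 3 = ‖a * (a * a - e * 1) - e * a‖ ^ 2 + ‖a‖ ^ 2 := rfl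
  have h0 : a * (a * a - e * 1) - e * a = a * (a * a - 2 * e) := by ring
  have h2 : |‖a * a‖ - ‖2 * e‖| ≤ ‖a * a - 2 * e‖ := abs_norm_sub_norm_le _ _
  rw [norm_mul, norm_mul, he, Complex.norm_ofNat, mul_one] at h2
  have h3 : (‖a‖ * ‖a‖ - 2) ^ 2 ≤ ‖a * a - 2 * e‖ ^ 2 := by
    rw [← sq_abs]
    exact pow_le_pow_left₀ (abs_nonneg _) h2 2
  have hA : 0 ≤ ‖a‖ ^ 2 := sq_nonneg _
  rw [h1, h0, norm_mul, mul_pow]
  have h4 : ‖a‖ ^ 2 * (‖a‖ * ‖a‖ - 2) ^ 2 ≤ ‖a‖ ^ 2 * ‖a * a - 2 * e‖ ^ 2 :=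
    mul_le_mul_of_nonneg_left h3 hA
  have h5 : ‖a‖ * ‖a‖ = ‖a‖ ^ 2 := by ring
  rw [h5] at h4
  nlinarith [mul_nonneg hA (sq_nonneg (‖a‖ ^ 2 - 5 / 2)), mul_nonneg hA (sq_nonneg (‖a‖ ^ 2)),
    mul_nonneg hA (mul_nonneg hA hA)]

theorem pow_div_factorial_le_Bseq (he : ‖e‖ = 1) (k : ℕ) :
    (‖a‖ ^ 2) ^ k / k.factorial ≤ Bseq a e k := by
  rcases Nat.lt_or_ge k 4 with hk | hk
  · interval_cases k
    · simp [Bseq]
    · simp [Bseq]
    · simpa [Nat.factorial] using le_Bseq_two (a := a) he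
    · simpa [Nat.factorial] using le_Bseq_three (a := a) he
  · obtain ⟨j, rfl⟩ : ∃ j, k = j + 3 := ⟨k - 3, by omega⟩
    clear hk
    induction j with
    | zero => simpa [Nat.factorial] using le_Bseq_three (a := a) he
    | succ j ih =>
      have h1 := mul_Bseq_le_four (a := a) he (j + 2)
      have hA : 0 ≤ ‖a‖ ^ 2 := sq_nonneg _
      have h2 : ‖a‖ ^ 2 * ((‖a‖ ^ 2) ^ (j + 3) / (j + 3).factorial) ≤ 4 * Bseq a e (j + 4) :=
        (mul_le_mul_of_nonneg_left ih hA).trans h1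
      have h3 : (‖a‖ ^ 2) ^ (j + 4) / (j + 4).factorial =
          (‖a‖ ^ 2 * ((‖a‖ ^ 2) ^ (j + 3) / (j + 3).factorial)) / (j + 4) := by
        rw [show j + 4 = (j + 3) + 1 from rfl, Nat.factorial_succ]
        push_cast
        have : ((j + 3).factorial : ℝ) ≠ 0 := by exact_mod_cast Nat.factorial_ne_zero _
        have : ((j : ℝ) + 3 + 1) ≠ 0 := by positivity
        field_simp
        ring
      change (‖a‖ ^ 2) ^ (j + 4) / (j + 4).factorial ≤ Bseq a e (j + 4)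
      rw [h3, div_le_iff₀ (by positivity)]
      have h4 := Bseq_nonneg (a := a) (e := e) (j + 4)
      have h5 : (4 : ℝ) ≤ (j : ℝ) + 4 := by linarith [Nat.cast_nonneg (α := ℝ) j]
      nlinarith

theorem sum_Bseq_identity (X : ℝ) (K : ℕ) :
    (1 - X ^ 2) * ∑ k ∈ range (K + 2), Bseq a e k * X ^ k + Bseq a e K * X ^ (K + 2) +
      Bseq a e (K + 1) * X ^ (K + 3) = ∑ k ∈ range (K + 2), ‖cseq a e k‖ ^ 2 * X ^ k := by
  induction K with
  | zero =>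
    simp only [zero_add, Finset.sum_range_succ, Finset.sum_range_zero, Bseq, cseq, norm_one]
    ring
  | succ K ih =>
    rw [show K + 1 + 2 = (K + 2) + 1 from rfl, Finset.sum_range_succ (n := K + 2),
      Finset.sum_range_succ (n := K + 2), ← ih]
    have h1 : Bseq a e (K + 1 + 1) = ‖cseq a e (K + 2)‖ ^ 2 + Bseq a e K := rfl
    rw [h1]
    ring

/-- **the local bound** -/
theorem exp_le_local (he : ‖e‖ = 1) {X R : ℝ} (hX0 : 0 ≤ X) (hX1 : X < 1)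
    (hR : ∀ K : ℕ, ∑ k ∈ range K, ‖cseq a e k‖ ^ 2 * X ^ k ≤ R) :
    (1 - X ^ 2) * Real.exp (‖a‖ ^ 2 * X) ≤ R := by
  have h1 : 0 < 1 - X ^ 2 := by nlinarith
  have hpart : ∀ K : ℕ, (1 - X ^ 2) * ∑ k ∈ range K, (‖a‖ ^ 2 * X) ^ k / k.factorial ≤ R := by
    intro K
    have h2 : ∑ k ∈ range K, (‖a‖ ^ 2 * X) ^ k / k.factorial ≤
        ∑ k ∈ range (K + 2), Bseq a e k * X ^ k := by
      refine (Finset.sum_le_sum (g := fun k => Bseq a e k * X ^ k) fun k _ => ?_).trans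
        (Finset.sum_le_sum_of_subset_of_nonneg (by
          intro x hx
          rw [Finset.mem_range] at hx ⊢
          omega) fun k _ _ => mul_nonneg (Bseq_nonneg k) (pow_nonneg hX0 k))
      rw [mul_pow, mul_div_right_comm]
      exact mul_le_mul_of_nonneg_right (pow_div_factorial_le_Bseq he k) (pow_nonneg hX0 k)
    have h3 := sum_Bseq_identity (a := a) (e := e) X K
    have h4 := hR (K + 2)
    have h5 : 0 ≤ Bseq a e K * X ^ (K + 2) := mul_nonneg (Bseq_nonneg _) (pow_nonneg hX0 _)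
    have h6 : 0 ≤ Bseq a e (K + 1) * X ^ (K + 3) := mul_nonneg (Bseq_nonneg _) (pow_nonneg hX0 _)
    have h7 := mul_le_mul_of_nonneg_left h2 h1.le
    linarith
  have hlim : Filter.Tendsto (fun K : ℕ => (1 - X ^ 2) * ∑ k ∈ range K,
      (‖a‖ ^ 2 * X) ^ k / k.factorial) Filter.atTop
      (nhds ((1 - X ^ 2) * Real.exp (‖a‖ ^ 2 * X))) := by
    refine Filter.Tendsto.const_mul _ ?_
    have := (NormedSpace.expSeries_div_hasSum_exp (𝔸 := ℝ) (‖a‖ ^ 2 * X)).tendsto_sum_nat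
    rwa [← Real.exp_eq_exp_ℝ] at this
  exact le_of_tendsto hlim (Filter.Eventually.of_forall hpart)

end Fermat.Agent.DS
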