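import Mathlib

/-!
# The zeros of `℘'`
-/

set_option autoImplicit false

noncomputable section

open Filter Topology PeriodPair

namespace Fermat.Agent.DS

variable (L : PeriodPair)

theorem isOpen_compl_lat : IsOpen ((L.lattice : Set ℂ)ᶜ) := L.isClosed_lattice.isOpen_compl

theorem countable_lat : (L.lattice : Set ℂ).Countable :=
  countable_of_Lindelof_of_discrete (X := L.lattice)

theorem isPreconnected_compl_lat : IsPreconnected ((L.lattice : Set ℂ)ᶜ) :=
  (Set.Countable.isConnected_compl_of_one_lt_rank (by simp) (countable_lat L)).2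

theorem tendsto_wp (l : ℂ) (hl : l ∈ L.lattice) : Tendsto ℘[L] (𝓝[≠] l) (Bornology.cobounded ℂ) :=
  tendsto_cobounded_of_meromorphicOrderAt_neg (by rw [order_weierstrassP L l hl]; decide)

/-- the second order differential equation -/
theorem deriv_deriv_wp {z : ℂ} (hz : z ∉ L.lattice) :
    deriv ℘'[L] z = 6 * ℘[L] z ^ 2 - L.g₂ / 2 := by
  have hP : AnalyticOnNhd ℂ ℘[L] ((L.lattice : Set ℂ)ᶜ) := L.analyticOnNhd_weierstrassP
  have hP' : AnalyticOnNhd ℂ ℘'[L] ((L.lattice : Set ℂ)ᶜ) := L.analyticOnNhd_derivWeierstrassP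
  have hP'' : AnalyticOnNhd ℂ (deriv ℘'[L]) ((L.lattice : Set ℂ)ᶜ) := hP'.deriv
  let f₂ : ℂ → ℂ := fun z => deriv ℘'[L] z - (6 * ℘[L] z ^ 2 - L.g₂ / 2)
  have hf₂ : AnalyticOnNhd ℂ f₂ ((L.lattice : Set ℂ)ᶜ) := by
    intro x hx
    have h1 := hP x hx
    have h2 := hP'' x hx
    have : AnalyticAt ℂ (fun z => 6 * ℘[L] z ^ 2 - L.g₂ / 2) x := by fun_prop
    exact h2.sub this
  have hprod : ∀ x ∈ (L.lattice : Set ℂ)ᶜ, ℘'[L] x * f₂ x = 0 := by
    intro x hx
    have h1 : (fun z => ℘'[L] z ^ 2) =ᶠ[𝓝 x]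
        fun z => 4 * ℘[L] z ^ 3 - L.g₂ * ℘[L] z - L.g₃ := by
      filter_upwards [(isOpen_compl_lat L).mem_nhds hx] with z hz
      exact L.derivWeierstrassP_sq z hz
    have h2 := h1.deriv_eq
    have hd : HasDerivAt ℘[L] (℘'[L] x) x := by
      have := (hP x hx).differentiableAt.hasDerivAt
      rwa [deriv_weierstrassP] at this
    have hd' : HasDerivAt ℘'[L] (deriv ℘'[L] x) x := (hP' x hx).differentiableAt.hasDerivAt
    have h3 : HasDerivAt (fun z => ℘'[L] z ^ 2) (2 * ℘'[L] x ^ 1 * deriv ℘'[L] x) x := by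
      have := hd'.fun_pow 2
      simpa using this
    have h4 : HasDerivAt (fun z => 4 * ℘[L] z ^ 3 - L.g₂ * ℘[L] z - L.g₃)
        (4 * (3 * ℘[L] x ^ 2 * ℘'[L] x) - L.g₂ * ℘'[L] x) x := by
      have h5 := ((hd.pow 3).const_mul 4).sub (hd.const_mul L.g₂)
      have h6 := h5.sub_const L.g₃
      simpa using h6
    rw [h3.deriv, h4.deriv] at h2
    simp only [f₂]
    linear_combination h2 / 2
  rcases hP'.eq_zero_or_eq_zero_of_mul_eq_zero hf₂ hprod (isPreconnected_compl_lat L) with h | h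
  · -- `℘` would be constant
    exfalso
    have hx₀ : L.ω₁ / 2 ∈ (L.lattice : Set ℂ)ᶜ := L.ω₁_div_two_notMem_lattice
    have hconst : ∀ x ∈ (L.lattice : Set ℂ)ᶜ, ℘[L] x = ℘[L] (L.ω₁ / 2) := by
      intro x hx
      have h1 : Set.EqOn ℘[L] (fun _ => ℘[L] (L.ω₁ / 2)) ((L.lattice : Set ℂ)ᶜ) := by
        apply IsOpen.eqOn_of_deriv_eq (𝕜 := ℂ) (isOpen_compl_lat L) (isPreconnected_compl_lat L)
          L.differentiableOn_weierstrassP (differentiableOn_const _) ?_ hx₀ rfl
        intro y hy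
        rw [deriv_weierstrassP, h y hy, deriv_const]
      exact h1 hx
    have h1 := tendsto_wp L 0 (zero_mem _)
    have h2 : Tendsto ℘[L] (𝓝[≠] 0) (𝓝 (℘[L] (L.ω₁ / 2))) := by
      refine tendsto_const_nhds.congr' ?_
      have h3 := L.compl_lattice_sdiff_singleton_mem_nhds 0
      filter_upwards [self_mem_nhdsWithin, mem_nhdsWithin_of_mem_nhds h3] with z hz hz'
      refine (hconst z fun hmem => hz' ⟨hmem, hz⟩).symm
    have h3 : (𝓝[≠] (0 : ℂ)).NeBot := inferInstance
    have h4 := tendsto_inf.2 ⟨h2, h1⟩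
    rw [(Metric.disjoint_nhds_cobounded (℘[L] (L.ω₁ / 2))).eq_bot] at h4
    exact (Filter.NeBot.map h3 ℘[L]).ne (le_bot_iff.1 h4)
  · have := h z hz
    simp only [f₂] at this
    linear_combination this

/-- **`℘'` only vanishes at the points of order two** -/
theorem derivWP_ne_zero {u : ℂ} (hu : 2 * u ∉ L.lattice) : ℘'[L] u ≠ 0 := by
  intro h0
  have huL : u ∉ L.lattice := by
    intro h
    apply hu
    rw [two_mul]
    exact add_mem h h
  have hP : AnalyticOnNhd ℂ ℘[L] ((L.lattice : Set ℂ)ᶜ) := L.analyticOnNhd_weierstrassP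
  -- the domain
  let S : Set ℂ := {z | u + z ∉ L.lattice ∧ u - z ∉ L.lattice}
  have hSo : IsOpen S := by
    refine IsOpen.inter ?_ ?_
    · exact (isOpen_compl_lat L).preimage (by fun_prop : Continuous fun z : ℂ => u + z)
    · exact (isOpen_compl_lat L).preimage (by fun_prop : Continuous fun z : ℂ => u - z)
  have hSc : Sᶜ.Countable := by
    have h1 : ((fun z : ℂ => u + z) ⁻¹' (L.lattice : Set ℂ)).Countable :=
      (countable_lat L).preimage (add_right_injective u)
    have h2 : ((fun z : ℂ => u - z) ⁻¹' (L.lattice : Set ℂ)).Countable :=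
      (countable_lat L).preimage (sub_right_injective)
    refine (h1.union h2).mono ?_
    intro z hz
    by_contra h
    rw [Set.mem_union, not_or] at h
    exact hz ⟨h.1, h.2⟩
  have hSpre : IsPreconnected S := by
    have := (Set.Countable.isConnected_compl_of_one_lt_rank (E := ℂ) (by simp) hSc).2
    rwa [compl_compl] at this
  have h0S : (0 : ℂ) ∈ S := by simp [S, huL]
  let F : ℂ → ℂ := fun z => ℘[L] (u + z)
  let G : ℂ → ℂ := fun z => ℘[L] (u - z)
  have hF : AnalyticOnNhd ℂ F S := fun z hz =>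
    (hP (u + z) hz.1).comp (g := ℘[L]) (f := fun z => u + z) (by fun_prop)
  have hG : AnalyticOnNhd ℂ G S := fun z hz =>
    (hP (u - z) hz.2).comp (g := ℘[L]) (f := fun z => u - z) (by fun_prop)
  -- derivatives
  have hF' : ∀ z, deriv F z = ℘'[L] (u + z) := fun z => by
    have := deriv_comp_const_add (f := ℘[L]) u z
    simp only [F]
    rw [this, deriv_weierstrassP]
  have hG' : ∀ z, deriv G z = -℘'[L] (u - z) := fun z => by
    have := deriv_comp_const_sub (f := ℘[L]) u z
    simp only [G]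
    rw [this, deriv_weierstrassP]
  have hF'' : ∀ z ∈ S, deriv (deriv F) z = 6 * F z ^ 2 - L.g₂ / 2 := by
    intro z hz
    have h1 : deriv F = fun z => ℘'[L] (u + z) := funext hF'
    rw [h1, deriv_comp_const_add, deriv_deriv_wp L hz.1]
  have hG'' : ∀ z ∈ S, deriv (deriv G) z = 6 * G z ^ 2 - L.g₂ / 2 := by
    intro z hz
    have h1 : deriv G = fun z => -℘'[L] (u - z) := funext hG'
    rw [h1]
    have h2 : deriv (fun z => -℘'[L] (u - z)) z = deriv ℘'[L] (u - z) := by
      rw [deriv.fun_neg, deriv_comp_const_sub, neg_neg]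
    rw [h2, deriv_deriv_wp L hz.2]
  let H : ℂ → ℂ := fun z => F z - G z
  have hH : AnalyticOnNhd ℂ H S := fun z hz => (hF z hz).sub (hG z hz)
  have hH0 : H 0 = 0 := by simp [H, F, G]
  have hH' : ∀ z ∈ S, deriv H z = deriv F z - deriv G z := fun z hz =>
    deriv_fun_sub (hF z hz).differentiableAt (hG z hz).differentiableAt
  have hH'0 : deriv H 0 = 0 := by
    rw [hH' 0 h0S, hF', hG', add_zero, sub_zero, h0]
    simp
  have hH'' : ∀ z ∈ S, deriv (deriv H) z = 6 * (F z + G z) * H z := by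
    intro z hz
    have h1 : deriv H =ᶠ[𝓝 z] fun z => deriv F z - deriv G z := by
      filter_upwards [hSo.mem_nhds hz] with y hy using hH' y hy
    rw [h1.deriv_eq, deriv_fun_sub ((hF.deriv) z hz).differentiableAt
      ((hG.deriv) z hz).differentiableAt, hF'' z hz, hG'' z hz]
    simp only [H]
    ring
  -- the order of vanishing
  have hord : analyticOrderAt H 0 = ⊤ := by
    have h1 := (hH 0 h0S).analyticOrderAt_deriv_add_one
    have h2 := (hH.deriv 0 h0S).analyticOrderAt_deriv_add_one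
    simp only [hH0, sub_zero] at h1
    simp only [hH'0, sub_zero] at h2
    have h3 : deriv (deriv H) =ᶠ[𝓝 0] (fun z => 6 * (F z + G z)) * H := by
      filter_upwards [hSo.mem_nhds h0S] with z hz using hH'' z hz
    have hA : AnalyticAt ℂ (fun z => 6 * (F z + G z)) 0 := by
      have h5 := hF 0 h0S
      have h6 := hG 0 h0S
      exact analyticAt_const.mul (h5.add h6)
    have h4 : analyticOrderAt (deriv (deriv H)) 0 =
        analyticOrderAt (fun z => 6 * (F z + G z)) 0 + analyticOrderAt H 0 := by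
      rw [analyticOrderAt_congr h3, analyticOrderAt_mul hA (hH 0 h0S)]
    by_contra hne
    obtain ⟨n, hn⟩ := ENat.ne_top_iff_exists.1 hne
    rw [← h2, h4, ← hn] at h1
    have h5 : ((n : ℕ∞) + 1 + 1) ≤ n := by
      calc ((n : ℕ∞) + 1 + 1) ≤ analyticOrderAt (fun z => 6 * (F z + G z)) 0 + n + 1 + 1 := by
            gcongr
            exact le_add_self
        _ = n := h1
    have h6 : n + 1 + 1 ≤ n := by exact_mod_cast h5
    omega
  rw [analyticOrderAt_eq_top] at hord
  have heq : Set.EqOn H 0 S := hH.eqOn_zero_of_preconnected_of_eventuallyEq_zero hSpre h0S hord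
  -- contradiction at `z = -u`
  have h1 : Tendsto F (𝓝[≠] (-u)) (Bornology.cobounded ℂ) := by
    have h2 : Tendsto (fun z : ℂ => u + z) (𝓝[≠] (-u)) (𝓝[≠] 0) := by
      refine tendsto_nhdsWithin_iff.2 ⟨?_, ?_⟩
      · have : Tendsto (fun z : ℂ => u + z) (𝓝 (-u)) (𝓝 (u + -u)) := by
          exact (by fun_prop : Continuous fun z : ℂ => u + z).tendsto _
        rw [add_neg_cancel] at this
        exact this.mono_left nhdsWithin_le_nhds
      · filter_upwards [self_mem_nhdsWithin] with z hz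
        intro h
        apply hz
        rw [Set.mem_singleton_iff]
        rw [Set.mem_singleton_iff] at h
        linear_combination h
    exact (tendsto_wp L 0 (zero_mem _)).comp h2
  have h2 : Tendsto G (𝓝[≠] (-u)) (𝓝 (℘[L] (2 * u))) := by
    have h3 : ContinuousAt ℘[L] (2 * u) := (hP (2 * u) hu).continuousAt
    have h4 : Tendsto (fun z : ℂ => u - z) (𝓝 (-u)) (𝓝 (2 * u)) := by
      have : Tendsto (fun z : ℂ => u - z) (𝓝 (-u)) (𝓝 (u - -u)) :=
        (by fun_prop : Continuous fun z : ℂ => u - z).tendsto _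
      rwa [show u - -u = 2 * u by ring] at this
    exact (h3.tendsto.comp h4).mono_left nhdsWithin_le_nhds
  have h3 : ∀ᶠ z in 𝓝[≠] (-u), F z = G z := by
    have h4 := L.compl_lattice_sdiff_singleton_mem_nhds 0
    have h5 : ∀ᶠ z in 𝓝[≠] (-u), u + z ∉ L.lattice := by
      have h6 : Tendsto (fun z : ℂ => u + z) (𝓝 (-u)) (𝓝 0) := by
        have : Tendsto (fun z : ℂ => u + z) (𝓝 (-u)) (𝓝 (u + -u)) :=
          (by fun_prop : Continuous fun z : ℂ => u + z).tendsto _
        rwa [add_neg_cancel] at this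
      filter_upwards [self_mem_nhdsWithin, mem_nhdsWithin_of_mem_nhds (h6 h4)] with z hz hz' hmem
      apply hz' ⟨hmem, ?_⟩
      intro h
      apply hz
      rw [Set.mem_singleton_iff] at h ⊢
      linear_combination h
    have h6 : ∀ᶠ z in 𝓝[≠] (-u), u - z ∉ L.lattice := by
      have h7 : Tendsto (fun z : ℂ => u - z) (𝓝 (-u)) (𝓝 (2 * u)) := by
        have : Tendsto (fun z : ℂ => u - z) (𝓝 (-u)) (𝓝 (u - -u)) :=
          (by fun_prop : Continuous fun z : ℂ => u - z).tendsto _
        rwa [show u - -u = 2 * u by ring] at this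
      exact mem_nhdsWithin_of_mem_nhds (h7 ((isOpen_compl_lat L).mem_nhds hu))
    filter_upwards [h5, h6] with z hz hz'
    exact sub_eq_zero.1 (heq ⟨hz, hz'⟩)
  have h4 : Tendsto F (𝓝[≠] (-u)) (𝓝 (℘[L] (2 * u))) := h2.congr' (h3.mono fun z hz => hz.symm)
  have h5 := tendsto_inf.2 ⟨h4, h1⟩
  rw [(Metric.disjoint_nhds_cobounded (℘[L] (2 * u))).eq_bot] at h5
  have h6 : (𝓝[≠] (-u)).NeBot := inferInstance
  exact (Filter.NeBot.map h6 F).ne (le_bot_iff.1 h5)

end Fermat.Agent.DS
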