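import Fermat.Agent.DS.EisK
import Fermat.Agent.DS.Wp

/-!
# The weight one multiplier `E_{4,v} / E_{3,v}`
-/

set_option autoImplicit false
set_option linter.style.haveILetI false
set_option linter.unusedSectionVars false

noncomputable section

open UpperHalfPlane hiding I
open Complex Filter ModularForm EisensteinSeries Matrix
open scoped Topology MatrixGroups Real Manifold

namespace Fermat.Agent.DS

open Fermat.Agent.GamH Fermat.Agent.MFLib Fermat.Agent.ModPoly

variable {k : ℕ} {M : ℕ} [NeZero M]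

/-- Eisenstein series of weight `k + 1` attached to a vector modulo `M` -/
def EV (k : ℕ) (v : Fin 2 → ZMod M) : ℍ → ℂ :=
  LatK k (fun w => (fun i => (w i : ZMod M)) = v)

/-- reduction of a unimodular matrix -/
def redM (M : ℕ) (γ : SL(2, ℤ)) : Matrix (Fin 2) (Fin 2) (ZMod M) := γ.1.map (Int.cast : ℤ → ZMod M)

theorem redM_mul_inv (γ : SL(2, ℤ)) : redM M γ * redM M γ⁻¹ = 1 := by
  have h := congrArg (fun A : Matrix (Fin 2) (Fin 2) ℤ => A.map (Int.castRingHom (ZMod M)))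
    (mul_inv_val γ)
  simp only [Matrix.map_mul] at h
  rw [Matrix.map_one _ (map_zero _) (map_one _)] at h
  exact h

theorem redM_inv_mul (γ : SL(2, ℤ)) : redM M γ⁻¹ * redM M γ = 1 := by
  have h := redM_mul_inv (M := M) γ⁻¹
  rwa [inv_inv] at h

theorem cast_vecMul (w : Fin 2 → ℤ) (γ : SL(2, ℤ)) :
    (fun i => (((w ᵥ* γ.1) i : ℤ) : ZMod M)) = (fun i => (w i : ZMod M)) ᵥ* redM M γ := by
  funext i
  simp [Matrix.vecMul, dotProduct, redM]

theorem EV_slash (v : Fin 2 → ZMod M) (γ : SL(2, ℤ)) :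
    EV k v ∣[((k + 1 : ℕ) : ℤ)] γ = EV k (v ᵥ* redM M γ) := by
  rw [EV, LatK_slash, EV]
  congr 1
  funext w
  rw [cast_vecMul]
  apply propext
  constructor
  · intro h
    rw [← h, Matrix.vecMul_vecMul, redM_inv_mul, Matrix.vecMul_one]
  · intro h
    rw [h, Matrix.vecMul_vecMul, redM_mul_inv, Matrix.vecMul_one]

theorem vecMul_redM_ne_zero {v : Fin 2 → ZMod M} (hv : v ≠ 0) (γ : SL(2, ℤ)) :
    v ᵥ* redM M γ ≠ 0 := by
  intro h
  apply hv
  rw [← Matrix.vecMul_one v, ← redM_mul_inv γ, ← Matrix.vecMul_vecMul, h, Matrix.zero_vecMul]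

theorem HB_EV (hk : 2 ≤ k) (v : Fin 2 → ZMod M) : HB ((k + 1 : ℕ) : ℤ) (EV k v) :=
  HB_LatK hk (fun u => u = v)

theorem EV_eq_lsK (hk : 2 ≤ k) (v : Fin 2 → ZMod M) :
    EV k v = lsK k (fun m => (m : ZMod M) = v 0) (v 1) := by
  classical
  have h0 : EV k v = LatK k (fun w => (fun u : Fin 2 → ZMod M => u = v) (fun i => (w i : ZMod M))) :=
    rfl
  rw [h0, LatK_eq_sum hk (fun u : Fin 2 → ZMod M => u = v), Finset.sum_eq_single (v 1)]
  · congr 1
    funext m
    apply propext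
    constructor
    · intro h
      have := congrFun h 0
      simpa using this
    · intro h
      funext i
      fin_cases i
      · simpa using h
      · rfl
  · intro b _ hb
    funext z
    rw [lsK]
    have : ∀ w : ℤ × ℤ, trK k (fun m => ![(m : ZMod M), b] = v) b z w = 0 := by
      intro w
      rw [trK, if_neg]
      rintro ⟨h, -⟩
      apply hb
      have := congrFun h 1
      simpa using this
    rw [tsum_congr this, tsum_zero]
    rfl
  · intro h
    exact absurd (Finset.mem_univ _) h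

theorem hasSum_EV (hk : 2 ≤ k) (v : Fin 2 → ZMod M) (z : ℍ) :
    HasSum (fun n : ℕ => cGK k (fun m => (m : ZMod M) = v 0) (v 1) n * qM M z ^ n) (EV k v z) := by
  rw [EV_eq_lsK hk]
  exact hasSum_lsK hk _ _ z

/-! ### the constant terms -/

theorem norm_inv_pow_le {n : ℤ} (hn : n ≠ 0) {t : ℝ} (k : ℕ) :
    ‖(((I * t : ℂ) + n) ^ (k + 1))⁻¹‖ ≤ (|(n : ℝ)| ^ (k + 1))⁻¹ := by
  rw [norm_inv, norm_pow]
  have h1 : |(n : ℝ)| ≤ ‖(I * t : ℂ) + n‖ := by
    have := Complex.abs_re_le_norm ((I * t : ℂ) + n)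
    simpa using this
  have h2 : 0 < |(n : ℝ)| := abs_pos.2 (by exact_mod_cast hn)
  exact inv_anti₀ (pow_pos h2 _) (pow_le_pow_left₀ h2.le h1 _)

/-- the constant terms as values of a rational function -/
theorem kaK_eq (hk : 2 ≤ k) {P : ℂ → ℂ}
    (hP : ∀ x : ℂ, ‖x‖ < 1 → ∑' d : ℕ+, ((d : ℕ) : ℂ) ^ k * x ^ (d : ℕ) = P x) {b : ZMod M}
    (hb : b ≠ 0) (hc : ContinuousAt P (zM M ^ b.val)) : kaK k b = CK k M * P (zM M ^ b.val) := by
  classical
  let F : ℝ → ℂ := fun t => ∑' n : ℤ, (if (n : ZMod M) = b then ((((I * t : ℂ)) + n) ^ (k + 1))⁻¹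
    else 0)
  have hn0 : ∀ n : ℤ, (n : ZMod M) = b → n ≠ 0 := by
    rintro n hn rfl
    apply hb
    rw [← hn, Int.cast_zero]
  have h1 : Tendsto F (𝓝[>] 0) (𝓝 (kaK k b)) := by
    refine tendsto_tsum_of_dominated_convergence
      (bound := fun n : ℤ => (|(n : ℝ)| ^ (k + 1))⁻¹) ?_ ?_ ?_
    · have : Summable fun n : ℤ => 1 / (n : ℝ) ^ (k + 1) :=
        Real.summable_one_div_int_pow.2 (by omega)
      refine this.abs.congr fun n => ?_
      rw [abs_div, abs_one, abs_pow, one_div]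
    · intro n
      by_cases hn : (n : ZMod M) = b
      · simp only [if_pos hn]
        have h2 : ContinuousAt (fun t : ℝ => ((((I * t : ℂ)) + n) ^ (k + 1))⁻¹) 0 := by
          refine ContinuousAt.inv₀ (by fun_prop) ?_
          have : (n : ℂ) ≠ 0 := by exact_mod_cast hn0 n hn
          simpa using this
        have h3 := h2.tendsto
        simp only [Complex.ofReal_zero, mul_zero, zero_add] at h3
        exact h3.mono_left nhdsWithin_le_nhds
      · simp only [if_neg hn]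
        exact tendsto_const_nhds
    · refine Eventually.of_forall fun t n => ?_
      split_ifs with hn
      · exact norm_inv_pow_le (hn0 n hn) k
      · rw [norm_zero]; positivity
  have hM0 : (M : ℂ) ≠ 0 := by exact_mod_cast NeZero.ne M
  have h4 : Tendsto (fun t : ℝ => CK k M * P (zM M ^ b.val * qM M (I * t))) (𝓝[>] 0)
      (𝓝 (CK k M * P (zM M ^ b.val))) := by
    have h5 : Tendsto (fun t : ℝ => zM M ^ b.val * qM M (I * t)) (𝓝[>] 0) (𝓝 (zM M ^ b.val)) := by
      have h6 : Continuous fun t : ℝ => zM M ^ b.val * qM M (I * t) := by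
        unfold qM
        fun_prop
      have h7 := h6.tendsto 0
      have h8 : qM M (I * ((0 : ℝ) : ℂ)) = 1 := by
        rw [qM]; simp
      rw [h8, mul_one] at h7
      exact h7.mono_left nhdsWithin_le_nhds
    exact (hc.tendsto.comp h5).const_mul _
  refine tendsto_nhds_unique h1 (h4.congr' ?_)
  filter_upwards [self_mem_nhdsWithin] with t ht
  have ht' : 0 < (I * (t : ℂ)).im := by simpa using ht
  have h9 := tsum_classK (M := M) (k := k) (by omega) b (⟨I * t, ht'⟩ : ℍ)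
  change _ = ∑' n : ℤ, (if (n : ZMod M) = b then ((((I * t : ℂ)) + n) ^ (k + 1))⁻¹ else 0)
  refine Eq.trans ?_ h9.symm
  rw [hP]
  rw [norm_mul, norm_pow, norm_zM, one_pow, one_mul]
  exact norm_qM_lt (⟨I * t, ht'⟩ : ℍ)

/-- the rational function for weight three -/
def Pd {K : Type*} [Field K] (x : K) : K := x * (1 + x) / (1 - x) ^ 3

theorem tsum_sq {x : ℂ} (hx : ‖x‖ < 1) : ∑' d : ℕ+, ((d : ℕ) : ℂ) ^ 2 * x ^ (d : ℕ) = Pd x := by
  have hs : Summable (fun n : ℕ => (n : ℂ) ^ 2 * x ^ n) :=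
    summable_pow_mul_geometric_of_norm_lt_one 2 hx
  have hx1 : (1 - x) ≠ 0 := by
    intro h
    have : x = 1 := by linear_combination -h
    rw [this] at hx
    simp at hx
  have hb1 : HasSum (fun n : ℕ => ((n + 1).choose 1 : ℂ) * x ^ n) (1 / (1 - x) ^ (1 + 1)) :=
    hasSum_choose_mul_geometric_of_norm_lt_one 1 hx
  have hb2 : HasSum (fun n : ℕ => ((n + 2).choose 2 : ℂ) * x ^ n) (1 / (1 - x) ^ (2 + 1)) :=
    hasSum_choose_mul_geometric_of_norm_lt_one 2 hx
  have hb0 : HasSum (fun n : ℕ => x ^ n) (1 - x)⁻¹ := hasSum_geometric_of_norm_lt_one hx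
  have hc : HasSum (fun n : ℕ => (n : ℂ) ^ 2 * x ^ n)
      (2 * (1 / (1 - x) ^ (2 + 1)) - 3 * (1 / (1 - x) ^ (1 + 1)) + (1 - x)⁻¹) := by
    have h := ((hb2.mul_left 2).sub (hb1.mul_left 3)).add hb0
    have e : (fun n : ℕ => (n : ℂ) ^ 2 * x ^ n) = fun b : ℕ =>
        2 * (((b + 2).choose 2 : ℂ) * x ^ b) - 3 * (((b + 1).choose 1 : ℂ) * x ^ b) + x ^ b := by
      funext n
      rw [choose2, Nat.choose_one_right]
      push_cast
      ring
    rw [e]
    exact h
  have h5 : ∑' n : ℕ, (n : ℂ) ^ 2 * x ^ n = ∑' d : ℕ+, (d : ℂ) ^ 2 * x ^ (d : ℕ) := by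
    rw [← tsum_zero_pnat_eq_tsum_nat hs]
    simp
  rw [← h5, hc.tsum_eq, Pd]
  field_simp
  ring

theorem continuousAt_Pd {x : ℂ} (hx : x ≠ 1) : ContinuousAt (Pd : ℂ → ℂ) x := by
  unfold Pd
  refine ContinuousAt.div (by fun_prop) (by fun_prop) (pow_ne_zero _ ?_)
  exact fun h => hx (by linear_combination -h)

theorem continuousAt_Pc {x : ℂ} (hx : x ≠ 1) : ContinuousAt (Pc : ℂ → ℂ) x := by
  unfold Pc
  refine ContinuousAt.div (by fun_prop) (by fun_prop) (pow_ne_zero _ ?_)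
  exact fun h => hx (by linear_combination -h)

theorem zM_pow_ne_one {b : ZMod M} (hb : b ≠ 0) : zM M ^ b.val ≠ 1 := by
  intro h
  have h1 := (zM_primitive M).dvd_of_pow_eq_one _ h
  have h2 : b.val < M := ZMod.val_lt b
  have h3 : b.val = 0 := Nat.eq_zero_of_dvd_of_lt h1 h2
  exact hb ((ZMod.val_eq_zero b).1 h3)

theorem kaK_two {b : ZMod M} (hb : b ≠ 0) : kaK 2 b = CK 2 M * Pd (zM M ^ b.val) :=
  kaK_eq le_rfl (fun _ hx => tsum_sq hx) hb (continuousAt_Pd (zM_pow_ne_one hb))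

theorem kaK_three {b : ZMod M} (hb : b ≠ 0) : kaK 3 b = CK 3 M * Pc (zM M ^ b.val) :=
  kaK_eq (by norm_num) (fun _ hx => tsum_cube hx) hb (continuousAt_Pc (zM_pow_ne_one hb))

end Fermat.Agent.DS
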