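import Fermat.Agent.DS.Mult

/-!
# Non-vanishing and boundedness
-/

set_option autoImplicit false
set_option linter.style.haveILetI false
set_option linter.unusedSectionVars false

noncomputable section

open UpperHalfPlane hiding I
open Complex Filter ModularForm EisensteinSeries Matrix
open scoped Topology MatrixGroups Real Manifold

namespace Fermat.Agent.DS

open Fermat.Agent.GamH Fermat.Agent.MFLib Fermat.Agent.ModPoly PeriodPair

variable {k : ℕ} {M : ℕ} [NeZero M]

/-- the lattice `M (ℤ τ + ℤ)` -/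
def latP (M : ℕ) [NeZero M] (z : ℍ) : PeriodPair where
  ω₁ := M * z
  ω₂ := M
  indep := by
    have hM : (M : ℝ) ≠ 0 := by exact_mod_cast NeZero.ne M
    rw [LinearIndependent.pair_iff]
    intro s t h
    have h1 := congrArg Complex.im h
    have h2 := congrArg Complex.re h
    simp only [Complex.add_im, Complex.real_smul, Complex.mul_im, Complex.ofReal_re,
      Complex.ofReal_im, Complex.natCast_re, Complex.natCast_im, Complex.zero_im, zero_mul,
      add_zero, mul_zero, Complex.mul_re, Complex.add_re, Complex.zero_re, sub_zero] at h1 h2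
    have hz : z.im ≠ 0 := z.im_ne_zero
    have hs : s = 0 := by
      have : s * ((M : ℝ) * z.im) = 0 := h1
      rcases mul_eq_zero.1 this with h3 | h3
      · exact h3
      · rcases mul_eq_zero.1 h3 with h4 | h4
        · exact absurd h4 hM
        · exact absurd h4 hz
    rw [hs, zero_mul, zero_add] at h2
    rcases mul_eq_zero.1 h2 with h3 | h3
    · exact ⟨hs, h3⟩
    · exact absurd h3 hM

theorem EV_two_eq (v : Fin 2 → ZMod M) (z : ℍ) :
    2 * EV 2 v z = ℘'[latP M z] (-(((v 0).val : ℂ) * z + (v 1).val)) := by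
  classical
  have hM0 : (M : ℂ) ≠ 0 := by exact_mod_cast NeZero.ne M
  set L := latP M z with hL
  let j : ℤ × ℤ → (Fin 2 → ℤ) := fun x => ![(v 0).val + M * x.1, (v 1).val + M * x.2]
  have hj : Function.Injective j := by
    rintro ⟨a, b⟩ ⟨c, d⟩ h
    have h0 := congrFun h 0
    have h1 := congrFun h 1
    simp only [j, Matrix.cons_val_zero, Matrix.cons_val_one] at h0 h1
    have hMz : (M : ℤ) ≠ 0 := by exact_mod_cast NeZero.ne M
    have h2 : a = c := mul_left_cancel₀ hMz (by linarith)
    have h3 : b = d := mul_left_cancel₀ hMz (by linarith)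
    rw [h2, h3]
  have hjv : ∀ x, (fun i => ((j x i : ℤ) : ZMod M)) = v := by
    intro x
    funext i
    fin_cases i
    · simp [j]
    · simp [j]
  have hsupp : Function.support (fun w : Fin 2 → ℤ => if (fun i => ((w i : ℤ) : ZMod M)) = v then
      eisSummand ((2 + 1 : ℕ) : ℤ) w z else 0) ⊆ Set.range j := by
    intro w hw
    rw [Function.mem_support] at hw
    have h1 : (fun i => ((w i : ℤ) : ZMod M)) = v := by
      by_contra h
      rw [if_neg h] at hw
      exact hw rfl
    have h2 : ∀ i, ∃ c : ℤ, w i - (v i).val = M * c := by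
      intro i
      have h3 : ((w i - (v i).val : ℤ) : ZMod M) = 0 := by
        push_cast
        rw [congrFun h1 i, ZMod.natCast_zmod_val, sub_self]
      rwa [ZMod.intCast_zmod_eq_zero_iff_dvd] at h3
    obtain ⟨a, ha⟩ := h2 0
    obtain ⟨b, hb⟩ := h2 1
    refine ⟨(a, b), ?_⟩
    funext i
    fin_cases i
    · simp only [j]
      change ((v 0).val : ℤ) + M * a = w 0
      linarith
    · simp only [j]
      change ((v 1).val : ℤ) + M * b = w 1
      linarith
  have e0 : EV 2 v z = ∑' w : Fin 2 → ℤ, (if (fun i => ((w i : ℤ) : ZMod M)) = v then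
      eisSummand ((2 + 1 : ℕ) : ℤ) w z else 0) := by
    rw [EV, LatK]
    refine tsum_congr fun w => ?_
    congr
  rw [e0, ← hj.tsum_eq hsupp, derivWeierstrassP, ← (L.latticeEquivProd.symm.toEquiv).tsum_eq,
    ← tsum_mul_left, ← tsum_neg]
  refine tsum_congr fun x => ?_
  rw [if_pos (hjv x)]
  have h1 : ((L.latticeEquivProd.symm.toEquiv x : L.lattice) : ℂ) = x.1 * L.ω₁ + x.2 * L.ω₂ :=
    L.latticeEquiv_symm_apply x
  rw [h1]
  have h2 : L.ω₁ = M * z := rfl
  have h3 : L.ω₂ = M := rfl
  rw [h2, h3, eisSummand, _root_.zpow_neg, zpow_natCast]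
  have h4 : ((j x 0 : ℤ) : ℂ) = (v 0).val + M * x.1 := by simp [j]
  have h5 : ((j x 1 : ℤ) : ℂ) = (v 1).val + M * x.2 := by simp [j]
  rw [h4, h5]
  have h6 : -(((v 0).val : ℂ) * z + (v 1).val) - (x.1 * (M * z) + x.2 * M) =
      -((((v 0).val : ℂ) + M * x.1) * z + ((v 1).val + M * x.2)) := by ring
  rw [h6, Odd.neg_pow (by decide : Odd 3), div_neg, neg_neg, div_eq_mul_inv]

theorem EV_two_ne_zero (hM : Odd M) {v : Fin 2 → ZMod M} (hv : v ≠ 0) (z : ℍ) : EV 2 v z ≠ 0 := by
  intro h0
  have h1 := EV_two_eq v z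
  rw [h0, mul_zero] at h1
  refine derivWP_ne_zero (latP M z) (u := -(((v 0).val : ℂ) * z + (v 1).val)) ?_ h1.symm
  intro hmem
  rw [PeriodPair.mem_lattice] at hmem
  obtain ⟨m, n, hmn⟩ := hmem
  have h2 : (latP M z).ω₁ = M * z := rfl
  have h3 : (latP M z).ω₂ = M := rfl
  rw [h2, h3] at hmn
  have hz : z.im ≠ 0 := z.im_ne_zero
  have him := congrArg Complex.im hmn
  have h4 : ((m * M + 2 * (v 0).val : ℤ) : ℝ) = 0 := by
    have h5 : ((m : ℝ) * M + 2 * (v 0).val) * z.im = 0 := by
      have h6 : ((m : ℂ) * (M * z) + n * M).im = (m : ℝ) * M * z.im := by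
        have : ((m : ℂ) * (M * z) + n * M) = (((m * M : ℤ) : ℝ) : ℂ) * z + (((n * M : ℤ) : ℝ) : ℂ) := by
          push_cast; ring
        rw [this, Complex.add_im, Complex.ofReal_im, Complex.im_ofReal_mul]
        push_cast
        simp
      have h7 : (2 * -(((v 0).val : ℂ) * z + (v 1).val)).im = -(2 * (v 0).val * z.im) := by
        have : (2 * -(((v 0).val : ℂ) * z + (v 1).val)) =
            ((-(2 * (v 0).val : ℤ) : ℝ) : ℂ) * z + ((-(2 * (v 1).val : ℤ) : ℝ) : ℂ) := by
          push_cast; ring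
        rw [this, Complex.add_im, Complex.ofReal_im, Complex.im_ofReal_mul]
        push_cast
        simp
      rw [h6, h7] at him
      linear_combination him
    rcases mul_eq_zero.1 h5 with h6 | h6
    · push_cast
      exact h6
    · exact absurd h6 hz
  have h5 : (m * M + 2 * (v 0).val : ℤ) = 0 := by exact_mod_cast h4
  have h6 : (n * M + 2 * (v 1).val : ℤ) = 0 := by
    have h7 : (m : ℂ) * M + 2 * (v 0).val = 0 := by exact_mod_cast congrArg (Int.cast : ℤ → ℂ) h5
    have h8 : (n : ℂ) * M + 2 * (v 1).val = 0 := by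
      linear_combination hmn - (z : ℂ) * h7
    exact_mod_cast h8
  have key : ∀ (c : ℤ) (x : ZMod M), (c * M + 2 * x.val : ℤ) = 0 → x = 0 := by
    intro c x h
    have h9 := congrArg (Int.cast : ℤ → ZMod M) h
    push_cast at h9
    rw [ZMod.natCast_self, mul_zero, zero_add, ZMod.natCast_zmod_val] at h9
    have h10 : IsUnit ((2 : ℕ) : ZMod M) := by
      rw [ZMod.isUnit_iff_coprime]
      exact (Nat.coprime_two_left).2 hM
    rw [Nat.cast_ofNat] at h10
    exact (h10.mul_right_eq_zero).1 h9
  apply hv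
  funext i
  fin_cases i
  · exact key m _ h5
  · exact key n _ h6

end Fermat.Agent.DS
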