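import Fermat.Agent.DS.MultB

/-!
# The multiplier is a modular form of weight one
-/

set_option autoImplicit false
set_option linter.style.haveILetI false
set_option linter.unusedSectionVars false

noncomputable section

open UpperHalfPlane hiding I
open Complex Filter ModularForm EisensteinSeries Matrix
open scoped Topology MatrixGroups Real Manifold

namespace Fermat.Agent.DS

open Fermat.Agent.GamH Fermat.Agent.MFLib Fermat.Agent.ModPoly

variable {k : ℕ} {M : ℕ} [NeZero M]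

theorem qM_ne_zero (z : ℂ) : qM M z ≠ 0 := Complex.exp_ne_zero _

theorem hasSum_shift {c : ℕ → ℂ} {a q : ℂ} (hq : q ≠ 0) {m : ℕ} (h0 : ∀ n < m, c n = 0)
    (h : HasSum (fun n => c n * q ^ n) a) : HasSum (fun n => c (n + m) * q ^ n) (a / q ^ m) := by
  have h1 := (hasSum_nat_add_iff' (f := fun n => c n * q ^ n) m).2 h
  have h2 : ∑ i ∈ Finset.range m, c i * q ^ i = 0 :=
    Finset.sum_eq_zero fun i hi => by rw [h0 i (Finset.mem_range.1 hi), zero_mul]
  rw [h2, sub_zero] at h1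
  have h3 := h1.div_const (q ^ m)
  refine h3.congr_fun fun n => ?_
  rw [pow_add, ← mul_assoc, mul_div_cancel_right₀ _ (pow_ne_zero _ hq)]

theorem tendsto_of_hasSum {c : ℕ → ℂ} {F : ℍ → ℂ}
    (h : ∀ z : ℍ, HasSum (fun n => c n * qM M z ^ n) (F z)) {m : ℕ} (h0 : ∀ n < m, c n = 0) :
    Tendsto (fun z : ℍ => F z / qM M z ^ m) atImInfty (𝓝 (c m)) := by
  set G : PowerSeries ℂ := PowerSeries.mk fun n => c (n + m) with hG
  have hs : ∀ z : ℍ, HasSum (fun n => G.coeff n * qM M z ^ n) (F z / qM M z ^ m) := by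
    intro z
    simp only [hG, PowerSeries.coeff_mk]
    exact hasSum_shift (qM_ne_zero _) h0 (h z)
  have hconv : Conv (HahnSeries.ofPowerSeries ℤ ℂ G) := conv_ofPowerSeries fun z hz hz1 => by
    obtain ⟨τ, rfl⟩ := exists_qpp_eq M hz hz1
    rw [qpp_eq_qM]
    exact (hs τ).summable
  have h1 := tendsto_evz_zero hconv fun n hn => ModularCurve.ofPowerSeries_coeff_of_neg _ hn
  have h2 : (HahnSeries.ofPowerSeries ℤ ℂ G).coeff 0 = c m := by
    have := HahnSeries.ofPowerSeries_apply_coeff (Γ := ℤ) G 0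
    rw [Nat.cast_zero] at this
    rw [this, hG, PowerSeries.coeff_mk, zero_add]
  rw [h2] at h1
  have hq : Tendsto (fun τ : ℍ => qpp M τ) atImInfty (𝓝[{0}ᶜ] 0) := by
    refine tendsto_nhdsWithin_iff.mpr ⟨UpperHalfPlane.qParam_tendsto_atImInfty (cast_pos' M), ?_⟩
    exact Eventually.of_forall fun τ => qpp_ne_zero M τ
  refine (h1.comp hq).congr fun z => ?_
  have h3 := (hasSum_ofPowerSeries (f := G) (z := qpp M z) (a := F z / qM M z ^ m) (by
    rw [qpp_eq_qM]; exact hs z)).tsum_eq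
  exact h3

/-- the order of vanishing of `E_{k,v}` at `∞` -/
def nV (v : Fin 2 → ZMod M) : ℕ := if v 0 = 0 then 0 else min (v 0).val (M - (v 0).val)

theorem cGK_lt {v : Fin 2 → ZMod M} {n : ℕ} (hn : n < nV v) :
    cGK k (fun m => (m : ZMod M) = v 0) (v 1) n = 0 := by
  classical
  rw [nV] at hn
  by_cases hv : v 0 = 0
  · rw [if_pos hv] at hn
    omega
  rw [if_neg hv, lt_min_iff] at hn
  rw [cGK]
  by_cases h0 : n = 0
  · rw [if_pos h0, if_neg]
    rw [Int.cast_zero]
    exact fun h => hv h.symm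
  rw [if_neg h0, Finset.sum_eq_zero, mul_zero]
  intro x hx
  have hx1 : x.1 ∣ n := Dvd.intro _ (Nat.mem_divisorsAntidiagonal.1 hx).1
  have hxn : x.1 ≤ n := Nat.le_of_dvd (Nat.pos_of_ne_zero h0) hx1
  have hv1 := ZMod.val_lt (v 0)
  have h1 : ¬ (((x.1 : ℤ) : ZMod M) = v 0) := by
    intro h
    have h2 : ((x.1 : ℕ) : ZMod M).val = (v 0).val := by rw [← h, Int.cast_natCast]
    rw [ZMod.val_natCast_of_lt (by omega)] at h2
    omega
  have h2 : ¬ (((-(x.1 : ℤ) : ℤ) : ZMod M) = v 0) := by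
    intro h
    have h3 : ((x.1 : ℕ) : ZMod M) = -v 0 := by rw [← h]; push_cast; ring
    have h4 : ((x.1 : ℕ) : ZMod M).val = (-v 0).val := by rw [h3]
    haveI : NeZero (v 0) := ⟨hv⟩
    rw [ZMod.val_natCast_of_lt (by omega), ZMod.val_neg_of_ne_zero] at h4
    omega
  rw [if_neg h1, if_neg h2, mul_zero, add_zero]

theorem one_add_zM_ne_zero (hM : Odd M) (a : ℕ) : 1 + zM M ^ a ≠ 0 := by
  intro h
  have h1 : zM M ^ a = -1 := by linear_combination h
  have h2 : (zM M ^ a) ^ M = 1 := by rw [← pow_mul, mul_comm, pow_mul, zM_pow, one_pow]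
  rw [h1, hM.neg_one_pow] at h2
  norm_num at h2

theorem zM_ne_zero : zM M ≠ 0 := Complex.exp_ne_zero _

theorem Pd_ne_zero (hM : Odd M) {b : ZMod M} (hb : b ≠ 0) : (Pd (zM M ^ b.val) : ℂ) ≠ 0 := by
  rw [Pd]
  refine div_ne_zero (mul_ne_zero (pow_ne_zero _ zM_ne_zero) (one_add_zM_ne_zero hM _))
    (pow_ne_zero _ ?_)
  exact fun h => zM_pow_ne_one hb (by linear_combination -h)

theorem cGK_ne (hM : Odd M) {v : Fin 2 → ZMod M} (hv : v ≠ 0) :
    cGK 2 (fun m => (m : ZMod M) = v 0) (v 1) (nV v) ≠ 0 := by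
  classical
  by_cases hv0 : v 0 = 0
  · have hn : nV v = 0 := by rw [nV, if_pos hv0]
    have hv1 : v 1 ≠ 0 := by
      intro h
      apply hv
      funext i
      fin_cases i
      · exact hv0
      · exact h
    rw [hn, cGK, if_pos rfl, if_pos (by rw [hv0, Int.cast_zero]), kaK_two hv1]
    exact mul_ne_zero (CK_ne_zero 2 M) (Pd_ne_zero hM hv1)
  · have hvl := ZMod.val_lt (v 0)
    have hvp : 0 < (v 0).val := Nat.pos_of_ne_zero fun h => hv0 ((ZMod.val_eq_zero _).1 h)
    have hn : nV v = min (v 0).val (M - (v 0).val) := by rw [nV, if_neg hv0]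
    have hn0 : nV v ≠ 0 := by rw [hn]; omega
    rw [cGK, if_neg hn0]
    refine mul_ne_zero (CK_ne_zero 2 M) ?_
    haveI : NeZero (v 0) := ⟨hv0⟩
    have hiff1 : ∀ x : ℕ, 0 < x → x ≤ nV v → ((((x : ℕ) : ℤ) : ZMod M) = v 0 ↔ x = (v 0).val) := by
      intro x hx hxn
      have hxM : x < M := by omega
      constructor
      · intro h
        have h2 : ((x : ℕ) : ZMod M).val = (v 0).val := by rw [← h, Int.cast_natCast]
        rwa [ZMod.val_natCast_of_lt hxM] at h2
      · intro h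
        rw [h, Int.cast_natCast, ZMod.natCast_zmod_val]
    have hiff2 : ∀ x : ℕ, 0 < x → x ≤ nV v →
        (((-((x : ℕ) : ℤ) : ℤ) : ZMod M) = v 0 ↔ x = M - (v 0).val) := by
      intro x hx hxn
      have hxM : x < M := by omega
      constructor
      · intro h
        have h3 : ((x : ℕ) : ZMod M) = -v 0 := by rw [← h]; push_cast; ring
        have h4 : ((x : ℕ) : ZMod M).val = (-v 0).val := by rw [h3]
        rwa [ZMod.val_natCast_of_lt hxM, ZMod.val_neg_of_ne_zero] at h4
      · intro h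
        have h3 : ((x : ℕ) : ZMod M).val = (-v 0).val := by
          rw [ZMod.val_natCast_of_lt hxM, ZMod.val_neg_of_ne_zero, h]
        have h4 : ((x : ℕ) : ZMod M) = -v 0 := ZMod.val_injective M h3
        push_cast
        rw [h4, neg_neg]
    have hodd : (v 0).val ≠ M - (v 0).val := by
      obtain ⟨t, ht⟩ := hM
      omega
    rw [Finset.sum_eq_single (nV v, 1)]
    · simp only [Nat.cast_one, one_pow, pow_one, one_mul]
      rcases lt_or_gt_of_ne hodd with h | h
      · have hn' : nV v = (v 0).val := by rw [hn]; omega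
        rw [if_pos ((hiff1 _ (by omega) le_rfl).2 hn'), if_neg, mul_zero, add_zero]
        · exact pow_ne_zero _ zM_ne_zero
        · rw [hiff2 _ (by omega) le_rfl]; omega
      · have hn' : nV v = M - (v 0).val := by rw [hn]; omega
        rw [if_pos ((hiff2 _ (by omega) le_rfl).2 hn'), if_neg, zero_add]
        · exact mul_ne_zero (pow_ne_zero _ (by norm_num)) (pow_ne_zero _ zM_ne_zero)
        · rw [hiff1 _ (by omega) le_rfl]; omega
    · intro x hx hxne
      have hx1 := (Nat.mem_divisorsAntidiagonal.1 hx).1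
      have hxpos : 0 < x.1 := Nat.pos_of_ne_zero (by rintro h; rw [h, zero_mul] at hx1; omega)
      have hxpos2 : 0 < x.2 := Nat.pos_of_ne_zero (by rintro h; rw [h, mul_zero] at hx1; omega)
      have hxle : x.1 ≤ nV v := Nat.le_of_dvd (by omega) (Dvd.intro _ hx1)
      have hxlt : x.1 < nV v := by
        refine lt_of_le_of_ne hxle fun h => hxne ?_
        have h2 : x.2 = 1 := by
          rw [h] at hx1
          exact Nat.eq_of_mul_eq_mul_left (by omega : 0 < nV v) (by rw [hx1, mul_one])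
        exact Prod.ext h h2
      rw [if_neg, if_neg, mul_zero, add_zero]
      · rw [hiff2 _ hxpos hxle]; omega
      · rw [hiff1 _ hxpos hxle]; omega
    · intro h
      exfalso
      apply h
      rw [Nat.mem_divisorsAntidiagonal]
      exact ⟨mul_one _, hn0⟩

/-- the multiplier -/
def hV (v : Fin 2 → ZMod M) : ℍ → ℂ := EV 3 v / EV 2 v

theorem hV_slash (v : Fin 2 → ZMod M) (γ : SL(2, ℤ)) :
    hV v ∣[(1 : ℤ)] γ = hV (v ᵥ* redM M γ) := by
  have h1 := div_slash_SL2 ((3 + 1 : ℕ) : ℤ) ((2 + 1 : ℕ) : ℤ) γ (EV 3 v) (EV 2 v)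
  rw [EV_slash, EV_slash] at h1
  exact h1

theorem bounded_hV (hM : Odd M) {v : Fin 2 → ZMod M} (hv : v ≠ 0) :
    IsBoundedAtImInfty (hV v) := by
  have h1 := tendsto_of_hasSum (hasSum_EV (k := 3) (by norm_num) v) (m := nV v)
    (fun n hn => cGK_lt hn)
  have h2 := tendsto_of_hasSum (hasSum_EV (k := 2) le_rfl v) (m := nV v) (fun n hn => cGK_lt hn)
  have h3 := h1.div h2 (cGK_ne hM hv)
  have h4 : (fun z : ℍ => hV v z) = fun z : ℍ => (EV 3 v z / qM M z ^ nV v) /
      (EV 2 v z / qM M z ^ nV v) := by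
    funext z
    rw [div_div_div_cancel_right₀ (pow_ne_zero _ (qM_ne_zero _))]
    rfl
  have h5 : Tendsto (hV v) atImInfty (𝓝 (cGK 3 (fun m => (m : ZMod M) = v 0) (v 1) (nV v) /
      cGK 2 (fun m => (m : ZMod M) = v 0) (v 1) (nV v))) := by
    change Tendsto (fun z : ℍ => hV v z) _ _
    rw [h4]
    exact h3
  exact h5.isBigO_one ℝ

theorem HB_hV (hM : Odd M) {v : Fin 2 → ZMod M} (hv : v ≠ 0) : HB 1 (hV v) where
  holo := (HB_EV (by norm_num) v).holo.div (HB_EV le_rfl v).holo (EV_two_ne_zero hM hv)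
  bdd γ := by
    rw [hV_slash]
    exact bounded_hV hM (vecMul_redM_ne_zero hv γ)

end Fermat.Agent.DS
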