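import Fermat.Agent.DS.MultC

/-!
# The `q`-expansion of the multiplier modulo `λ`
-/

set_option autoImplicit false
set_option linter.style.haveILetI false
set_option linter.unusedSectionVars false

noncomputable section

open UpperHalfPlane hiding I
open Complex Filter ModularForm EisensteinSeries Matrix
open scoped Topology MatrixGroups Real Manifold

namespace Fermat.Agent.DS

open Fermat.Agent.GamH Fermat.Agent.MFLib Fermat.Agent.ModPoly

section cg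

variable {R : Subring ℂ} {κ : Type*} [Field κ] (χ₀ : R →+* κ)

/-- `x` is integral with reduction `a` -/
def Cg (x : ℂ) (a : κ) : Prop := ∃ r : R, (r : ℂ) = x ∧ χ₀ r = a

/-- the local ring property -/
def LocR : Prop := ∀ r : R, χ₀ r ≠ 0 → ∃ s : R, (r : ℂ) * s = 1

variable {χ₀} {x y : ℂ} {a b : κ}

theorem Cg.add (h : Cg χ₀ x a) (h' : Cg χ₀ y b) : Cg χ₀ (x + y) (a + b) := by
  obtain ⟨r, h1, h2⟩ := h
  obtain ⟨s, h3, h4⟩ := h'
  exact ⟨r + s, by rw [← h1, ← h3]; rfl, by rw [map_add, h2, h4]⟩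

theorem Cg.mul (h : Cg χ₀ x a) (h' : Cg χ₀ y b) : Cg χ₀ (x * y) (a * b) := by
  obtain ⟨r, h1, h2⟩ := h
  obtain ⟨s, h3, h4⟩ := h'
  exact ⟨r * s, by rw [← h1, ← h3]; rfl, by rw [map_mul, h2, h4]⟩

theorem Cg.neg (h : Cg χ₀ x a) : Cg χ₀ (-x) (-a) := by
  obtain ⟨r, h1, h2⟩ := h
  exact ⟨-r, by rw [← h1]; rfl, by rw [map_neg, h2]⟩

theorem Cg.sub (h : Cg χ₀ x a) (h' : Cg χ₀ y b) : Cg χ₀ (x - y) (a - b) := by
  rw [sub_eq_add_neg, sub_eq_add_neg]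
  exact h.add h'.neg

variable (χ₀) in
theorem Cg.one : Cg χ₀ 1 1 := ⟨1, rfl, map_one _⟩

variable (χ₀) in
theorem Cg.zero : Cg χ₀ 0 0 := ⟨0, rfl, map_zero _⟩

variable (χ₀) in
theorem Cg.natCast (n : ℕ) : Cg χ₀ n n := ⟨n, by simp, map_natCast _ _⟩

theorem Cg.pow (h : Cg χ₀ x a) (n : ℕ) : Cg χ₀ (x ^ n) (a ^ n) := by
  obtain ⟨r, h1, h2⟩ := h
  exact ⟨r ^ n, by rw [← h1]; rfl, by rw [map_pow, h2]⟩

theorem Cg.unique (h : Cg χ₀ x a) (h' : Cg χ₀ x b) : a = b := by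
  obtain ⟨r, h1, h2⟩ := h
  obtain ⟨s, h3, h4⟩ := h'
  rw [← h2, ← h4]
  congr 1
  exact Subtype.ext (h1.trans h3.symm)

theorem Cg.ne_zero (h : Cg χ₀ x a) (ha : a ≠ 0) : x ≠ 0 := by
  rintro rfl
  exact ha (h.unique (Cg.zero χ₀))

theorem Cg.inv (hl : LocR χ₀) (h : Cg χ₀ x a) (ha : a ≠ 0) : Cg χ₀ x⁻¹ a⁻¹ := by
  have hx := h.ne_zero ha
  obtain ⟨r, h1, h2⟩ := h
  obtain ⟨s, hs⟩ := hl r (by rw [h2]; exact ha)
  have h3 : r * s = 1 := Subtype.ext hs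
  refine ⟨s, ?_, ?_⟩
  · rw [h1] at hs
    exact eq_inv_of_mul_eq_one_right hs
  · have := congrArg χ₀ h3
    rw [map_mul, map_one, h2] at this
    exact eq_inv_of_mul_eq_one_right this

theorem Cg.sum {ι : Type*} {s : Finset ι} {f : ι → ℂ} {g : ι → κ}
    (h : ∀ i ∈ s, Cg χ₀ (f i) (g i)) : Cg χ₀ (∑ i ∈ s, f i) (∑ i ∈ s, g i) := by
  classical
  induction s using Finset.induction_on with
  | empty => simpa using Cg.zero χ₀
  | insert i s hi ih =>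
    rw [Finset.sum_insert hi, Finset.sum_insert hi]
    exact (h i (Finset.mem_insert_self i s)).add (ih fun j hj => h j (Finset.mem_insert_of_mem hj))

theorem Cg.ite {P : Prop} [Decidable P] (h : P → Cg χ₀ x a) (h' : ¬ P → Cg χ₀ y b) :
    Cg χ₀ (if P then x else y) (if P then a else b) := by
  split_ifs with hP
  · exact h hP
  · exact h' hP

variable (χ₀) in
/-- congruences of power series -/
def CgS (F : PowerSeries ℂ) (φ : PowerSeries κ) : Prop := ∀ n, Cg χ₀ (F.coeff n) (φ.coeff n)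

theorem CgS.mul {F G : PowerSeries ℂ} {φ ψ : PowerSeries κ} (h : CgS χ₀ F φ) (h' : CgS χ₀ G ψ) :
    CgS χ₀ (F * G) (φ * ψ) := by
  intro n
  rw [PowerSeries.coeff_mul, PowerSeries.coeff_mul]
  exact Cg.sum fun p _ => (h p.1).mul (h' p.2)

theorem CgS.exists_lift {F : PowerSeries ℂ} {φ : PowerSeries κ} (h : CgS χ₀ F φ) :
    ∃ G : PowerSeries R, G.map R.subtype = F ∧ G.map χ₀ = φ := by
  choose r h1 h2 using h
  refine ⟨PowerSeries.mk r, ?_, ?_⟩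
  · ext n
    rw [PowerSeries.coeff_map, PowerSeries.coeff_mk]
    exact h1 n
  · ext n
    rw [PowerSeries.coeff_map, PowerSeries.coeff_mk]
    exact h2 n

theorem CgS.of_lift (G : PowerSeries R) : CgS χ₀ (G.map R.subtype) (G.map χ₀) := fun n =>
  ⟨G.coeff n, by rw [PowerSeries.coeff_map]; rfl, by rw [PowerSeries.coeff_map]⟩

theorem CgS.div {F G H : PowerSeries ℂ} (hF : CgS χ₀ F 1) (hG : CgS χ₀ G 1)
    (hG0 : PowerSeries.constantCoeff G = 1) (h : H * G = F) : CgS χ₀ H 1 := by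
  obtain ⟨g, h1, h2⟩ := hG.exists_lift
  have hg0 : PowerSeries.constantCoeff g = ((1 : Rˣ) : R) := by
    apply Subtype.ext
    rw [Units.val_one]
    have h3 := hG0
    rw [← h1] at h3
    rw [← PowerSeries.coeff_zero_eq_constantCoeff_apply, PowerSeries.coeff_map,
      PowerSeries.coeff_zero_eq_constantCoeff_apply] at h3
    exact h3
  have h3 := PowerSeries.mul_invOfUnit g 1 hg0
  set i := PowerSeries.invOfUnit g 1 with hi
  have h4 : G * i.map R.subtype = 1 := by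
    rw [← h1, ← map_mul, h3, map_one]
  have h5 : i.map χ₀ = 1 := by
    have := congrArg (PowerSeries.map χ₀) h3
    rwa [map_mul, h2, one_mul, map_one] at this
  have h6 : H = F * i.map R.subtype := by
    rw [← h, mul_assoc, h4, mul_one]
  rw [h6]
  have h7 := hF.mul (CgS.of_lift (χ₀ := χ₀) i)
  rwa [h5, mul_one] at h7

end cg

section roots

variable {R : Subring ℂ} {κ : Type*} [Field κ] {χ₀ : R →+* κ} {ℓ : ℕ} [hℓ : Fact ℓ.Prime]
  [CharP κ ℓ]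

theorem Cg.zM_pow (hz : zM ℓ ∈ R) (j : ℕ) : Cg χ₀ (zM ℓ ^ j) 1 := by
  have h1 : Cg χ₀ (zM ℓ) 1 := by
    refine ⟨⟨zM ℓ, hz⟩, rfl, ?_⟩
    have h2 : (χ₀ ⟨zM ℓ, hz⟩) ^ ℓ = 1 := by
      rw [← map_pow, ← map_one χ₀]
      congr 1
      apply Subtype.ext
      rw [SubmonoidClass.coe_pow]
      exact Fermat.Agent.GamH.zM_pow ℓ
    have h3 : (χ₀ ⟨zM ℓ, hz⟩ - 1) ^ ℓ = 0 := by
      rw [sub_pow_char, h2, one_pow, sub_self]
    exact sub_eq_zero.1 (pow_eq_zero_iff hℓ.out.ne_zero |>.1 h3)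
  simpa using h1.pow j

theorem natCast_ne (n : ℕ) (h : ¬ ℓ ∣ n) : (n : κ) ≠ 0 := by
  rwa [Ne, CharP.cast_eq_zero_iff κ ℓ]

/-- the inverses of the constant terms vanish modulo `λ` -/
theorem Cg.inv_Pd (hl : LocR χ₀) (hz : zM ℓ ∈ R) (h3 : 3 ≤ ℓ) (b : ZMod ℓ) :
    Cg χ₀ (Pd (zM ℓ ^ b.val))⁻¹ 0 := by
  have h1 : Cg χ₀ (zM ℓ ^ b.val) 1 := Cg.zM_pow hz _
  have h2 : Cg χ₀ (zM ℓ ^ b.val * (1 + zM ℓ ^ b.val)) 2 := by
    have := h1.mul ((Cg.one χ₀).add h1)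
    rwa [one_mul, one_add_one_eq_two] at this
  have h20 : (2 : κ) ≠ 0 := by
    have := natCast_ne (κ := κ) (ℓ := ℓ) 2 fun h => by have := Nat.le_of_dvd two_pos h; omega
    exact_mod_cast this
  have h4 := (((Cg.one χ₀).sub h1).pow 3).mul (h2.inv hl h20)
  rw [sub_self, zero_pow (by norm_num), zero_mul] at h4
  have h5 : (Pd (zM ℓ ^ b.val) : ℂ)⁻¹ =
      (1 - zM ℓ ^ b.val) ^ 3 * (zM ℓ ^ b.val * (1 + zM ℓ ^ b.val))⁻¹ := by
    rw [Pd, inv_div, div_eq_mul_inv]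
  rw [h5]
  exact h4

theorem six_ne (h5 : 5 ≤ ℓ) : (6 : κ) ≠ 0 := by
  have h1 := natCast_ne (κ := κ) (ℓ := ℓ) 6 fun h => by
    have h2 : ℓ ∣ 2 * 3 := h
    rcases (Nat.Prime.dvd_mul hℓ.out).1 h2 with h3 | h3
    · have := Nat.le_of_dvd two_pos h3; omega
    · have := Nat.le_of_dvd three_pos h3; omega
  exact_mod_cast h1

theorem Cg.quad (hz : zM ℓ ∈ R) (j : ℕ) :
    Cg χ₀ (1 + 4 * zM ℓ ^ j + (zM ℓ ^ j) ^ 2) 6 := by
  have h1 : Cg χ₀ (zM ℓ ^ j) 1 := Cg.zM_pow hz _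
  have h4 : Cg χ₀ (4 : ℂ) 4 := by
    have := Cg.natCast χ₀ 4
    exact_mod_cast this
  have := ((Cg.one χ₀).add (h4.mul h1)).add (h1.pow 2)
  have e : (1 + 4 * 1 + 1 ^ 2 : κ) = 6 := by norm_num
  rwa [e] at this

theorem Cg.inv_Pc (hl : LocR χ₀) (hz : zM ℓ ∈ R) (h5 : 5 ≤ ℓ) (b : ZMod ℓ) :
    Cg χ₀ (Pc (zM ℓ ^ b.val))⁻¹ 0 := by
  have h1 : Cg χ₀ (zM ℓ ^ b.val) 1 := Cg.zM_pow hz _
  have h2 := h1.mul (Cg.quad (χ₀ := χ₀) hz b.val)
  rw [one_mul] at h2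
  have h4 := (((Cg.one χ₀).sub h1).pow 4).mul (h2.inv hl (six_ne h5))
  rw [sub_self, zero_pow (by norm_num), zero_mul] at h4
  have h6 : (Pc (zM ℓ ^ b.val) : ℂ)⁻¹ = (1 - zM ℓ ^ b.val) ^ 4 *
      (zM ℓ ^ b.val * (1 + 4 * zM ℓ ^ b.val + (zM ℓ ^ b.val) ^ 2))⁻¹ := by
    rw [Pc, inv_div, div_eq_mul_inv]
  rw [h6]
  exact h4

theorem Pc_ne_zero (χ₀ : R →+* κ) (hz : zM ℓ ∈ R) (h5 : 5 ≤ ℓ) {b : ZMod ℓ} (hb : b ≠ 0) :
    (Pc (zM ℓ ^ b.val) : ℂ) ≠ 0 := by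
  rw [Pc]
  refine div_ne_zero (mul_ne_zero (pow_ne_zero _ zM_ne_zero)
    ((Cg.quad (χ₀ := χ₀) hz b.val).ne_zero (six_ne h5))) (pow_ne_zero _ ?_)
  exact fun h => zM_pow_ne_one hb (by linear_combination -h)

end roots

/-! ### the `q`-expansions of `E_{k, (0, c)}` -/

variable {k : ℕ} {M : ℕ} [NeZero M]

theorem vec_T (c : ZMod M) : ![0, c] ᵥ* redM M ModularGroup.T = ![0, c] := by
  funext i
  fin_cases i <;> simp [redM, Matrix.vecMul, dotProduct, ModularGroup.T]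

theorem per_of_slash_T {k : ℤ} {f : ℍ → ℂ} (h : f ∣[k] ModularGroup.T = f) :
    Function.Periodic (f ∘ ofComplex) (1 : ℝ) := by
  have := periodic_of_slash_T_pow (k := k) (f := f) (M := 1) (by simpa using h)
  simpa using this

theorem qg_of_HB {k : ℤ} {f : ℍ → ℂ} (hf : HB k f) (h : f ∣[k] ModularGroup.T = f) : QG f :=
  ⟨per_of_slash_T h, hf.holo, hf.bdd_self⟩

theorem qg_EV (hk : 2 ≤ k) (c : ZMod M) : QG (EV k ![0, c]) :=
  qg_of_HB (HB_EV hk _) (by rw [EV_slash, vec_T])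

theorem vec_ne_zero {c : ZMod M} (hc : c ≠ 0) : (![0, c] : Fin 2 → ZMod M) ≠ 0 := fun h => hc (by
  have := congrFun h 1
  simpa using this)

theorem qg_hV (hM : Odd M) {c : ZMod M} (hc : c ≠ 0) : QG (hV (![0, c] : Fin 2 → ZMod M)) :=
  qg_of_HB (HB_hV hM (vec_ne_zero hc)) (by rw [hV_slash, vec_T])

/-- uniqueness of `q`-expansions -/
theorem qe_coeff_unique {f : ℍ → ℂ} (hf : QG f) {c : ℕ → ℂ}
    (h : ∀ τ : ℍ, HasSum (fun m => c m • Function.Periodic.qParam (1 : ℝ) τ ^ m) (f τ)) (m : ℕ) :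
    c m = (qe f).coeff m := by
  letI : FunLike (ℍ → ℂ) ℍ ℂ := ⟨fun f => f, fun _ _ h => h⟩
  exact UpperHalfPlane.qExpansion_coeff_unique (F := ℍ → ℂ) f one_pos hf.analyticAt h m

theorem qM_pow (z : ℍ) : qM M (z : ℂ) ^ M = Function.Periodic.qParam (1 : ℝ) z := by
  have hM0 : (M : ℂ) ≠ 0 := by exact_mod_cast NeZero.ne M
  rw [qM, Function.Periodic.qParam, ← Complex.exp_nat_mul]
  congr 1
  push_cast
  field_simp

/-- the coefficients of the `q`-expansion of `E_{k, (0, c)}` -/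
theorem coeff_EV (hk : 2 ≤ k) (c : ZMod M) (n : ℕ) : (qe (EV k ![0, c])).coeff n =
    cGK k (fun m => (m : ZMod M) = 0) c (M * n) := by
  classical
  have hinj : Function.Injective (fun n : ℕ => M * n) := fun a b h =>
    Nat.eq_of_mul_eq_mul_left (NeZero.pos M) h
  have hzero : ∀ m : ℕ, m ∉ Set.range (fun n : ℕ => M * n) →
      cGK k (fun m => (m : ZMod M) = 0) c m = 0 := by
    intro m hm
    have hm0 : m ≠ 0 := by
      rintro rfl
      exact hm ⟨0, mul_zero _⟩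
    rw [cGK, if_neg hm0, Finset.sum_eq_zero, mul_zero]
    intro x hx
    have hx1 := (Nat.mem_divisorsAntidiagonal.1 hx).1
    have hnd : ¬ M ∣ x.1 := by
      intro h
      apply hm
      obtain ⟨y, hy⟩ := h.trans (Dvd.intro _ hx1)
      exact ⟨y, hy.symm⟩
    rw [if_neg, if_neg, mul_zero, add_zero]
    · intro h
      apply hnd
      have h2 : ((x.1 : ℕ) : ZMod M) = 0 := by
        have h3 : (-((x.1 : ℕ) : ZMod M)) = 0 := by
          rw [← h]; push_cast; rfl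
        exact neg_eq_zero.1 h3
      exact (ZMod.natCast_eq_zero_iff _ _).1 h2
    · intro h
      apply hnd
      rw [Int.cast_natCast] at h
      exact (ZMod.natCast_eq_zero_iff _ _).1 h
  have h1 : ∀ τ : ℍ, HasSum (fun n : ℕ => cGK k (fun m => (m : ZMod M) = 0) c (M * n) •
      Function.Periodic.qParam (1 : ℝ) τ ^ n) (EV k ![0, c] τ) := by
    intro τ
    have h2 := hasSum_EV hk (![0, c] : Fin 2 → ZMod M) τ
    have h3 := (hinj.hasSum_iff (f := fun n : ℕ => cGK k (fun m => (m : ZMod M) = 0) c n *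
      qM M τ ^ n) (a := EV k ![0, c] τ) (fun m hm => by rw [hzero m hm, zero_mul])).2 h2
    refine h3.congr_fun fun n => ?_
    simp only [Function.comp, smul_eq_mul]
    rw [pow_mul, qM_pow]
  exact (qe_coeff_unique (qg_EV hk c) h1 n).symm

end Fermat.Agent.DS
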