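import Fermat.Agent.DS.Series
import Fermat.Agent.MFLib.Cusp

/-!
# Rankin's bound for cusp forms of weight one
-/

set_option autoImplicit false

namespace Fermat.Agent.DS

open UpperHalfPlane hiding I
open Finset Filter Topology Complex
open Fermat.Agent.MFLib ModularForm
open scoped MatrixGroups Real

/-- Parseval bound for cusp forms of weight one -/
theorem cusp_parseval {Γ : Subgroup SL(2, ℤ)} [Γ.FiniteIndex] (hT : ModularGroup.T ∈ Γ)
    {f : ℍ → ℂ} (hf : IsCF Γ 1 f) : ∃ C : ℝ, ∀ (y : ℝ), 0 < y → y ≤ 1 → ∀ K : ℕ,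
      ∑ n ∈ range K, ‖(qe f).coeff n‖ ^ 2 * Real.exp (-(4 * Real.pi * n * y)) ≤ C / y := by
  obtain ⟨C, hC⟩ := CuspFormClass.exists_bound (hf.toCuspForm)
  have hC' : ∀ τ : ℍ, ‖f τ‖ ≤ C / τ.im ^ (1 / 2 : ℝ) := by
    intro τ
    have := hC τ
    rw [hf.coe_toCuspForm] at this
    norm_num at this ⊢
    exact this
  have hq : QG f := hf.toIsMF.qg hT
  refine ⟨C ^ 2, fun y hy _ K => ?_⟩
  set r : ℝ := Real.exp (-(2 * Real.pi * y)) with hr
  have hr0 : 0 < r := Real.exp_pos _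
  have hr1 : r < 1 := by
    rw [hr, Real.exp_lt_one_iff]
    have := Real.pi_pos
    nlinarith [mul_pos Real.pi_pos hy]
  have hsum : Summable fun n => ‖(qe f).coeff n‖ * r ^ n := by
    have h1 := UpperHalfPlane.hasSum_qExpansion_of_norm_lt one_pos hq.per hq.holo hq.bdd
      (q := (r : ℂ)) (by rwa [Complex.norm_real, Real.norm_of_nonneg hr0.le])
    have h2 := h1.summable.norm
    refine h2.congr fun n => ?_
    rw [smul_eq_mul, norm_mul, norm_pow, Complex.norm_real, Real.norm_of_nonneg hr0.le]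
  have hCnn : 0 ≤ C / y ^ (1 / 2 : ℝ) := by
    have := (norm_nonneg _).trans (hC' ⟨y * Complex.I, by simpa using hy⟩)
    have h2 : (⟨y * Complex.I, by simpa using hy⟩ : ℍ).im = y := by
      change (y * Complex.I).im = y
      simp
    rwa [h2] at this
  have hb : ∀ q : ℂ, ‖q‖ = r → ‖∑' n, (qe f).coeff n * q ^ n‖ ≤ C / y ^ (1 / 2 : ℝ) := by
    intro q hqr
    have hq0 : q ≠ 0 := by
      intro h
      rw [h, norm_zero] at hqr
      exact hr0.ne hqr
    have hq1 : ‖q‖ < 1 := by rw [hqr]; exact hr1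
    set τ : ℍ := ⟨Function.Periodic.invQParam 1 q,
      Function.Periodic.im_invQParam_pos_of_norm_lt_one one_pos hq1 hq0⟩ with hτ
    have hτq : Function.Periodic.qParam 1 (τ : ℂ) = q :=
      Function.Periodic.qParam_right_inv one_ne_zero hq0
    have h1 := UpperHalfPlane.hasSum_qExpansion (h := 1) one_pos hq.per hq.holo hq.bdd τ
    rw [hτq] at h1
    simp only [smul_eq_mul] at h1
    rw [h1.tsum_eq]
    have him : τ.im = y := by
      have h2 := Function.Periodic.norm_qParam (1 : ℝ) (τ : ℂ)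
      rw [hτq, hqr, hr, Real.exp_eq_exp] at h2
      have h3 : (τ : ℂ).im = τ.im := rfl
      rw [h3] at h2
      have := Real.pi_pos
      have h4 : 2 * Real.pi * y = 2 * Real.pi * τ.im := by
        linear_combination -h2
      exact (mul_left_cancel₀ (by positivity) h4).symm
    rw [← him]
    exact hC' τ
  have h1 := parseval_le hr0.le hCnn hsum hb K
  have h2 : (C / y ^ (1 / 2 : ℝ)) ^ 2 = C ^ 2 / y := by
    rw [div_pow, ← Real.rpow_natCast (y ^ (1 / 2 : ℝ)), ← Real.rpow_mul hy.le]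
    norm_num
  rw [h2] at h1
  refine le_trans (le_of_eq ?_) h1
  refine Finset.sum_congr rfl fun n _ => ?_
  congr 1
  rw [hr, ← Real.exp_nat_mul, ← Real.exp_nat_mul]
  congr 1
  push_cast
  ring

/-- **Rankin's bound** for cusp forms of weight one -/
theorem rankin_cusp {Γ : Subgroup SL(2, ℤ)} [Γ.FiniteIndex] (hT : ModularGroup.T ∈ Γ)
    {f : ℍ → ℂ} (hf : IsCF Γ 1 f) {N : ℕ} {e : ℕ → ℂ} (h : HeckeSeq N (fun n => (qe f).coeff n) e)
    (he : ∀ p, p.Prime → ¬ p ∣ N → ‖e p‖ = 1) :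
    ∃ C' : ℝ, ∀ s : ℝ, 1 < s → s ≤ 2 → ∀ F : Finset ℕ, (∀ p ∈ F, p.Prime ∧ ¬ p ∣ N) →
      ∑ p ∈ F, ‖(qe f).coeff p‖ ^ 2 * (p : ℝ) ^ (-s) ≤ Real.log (1 / (s - 1)) + C' := by
  obtain ⟨C, hC⟩ := cusp_parseval hT hf
  exact rankin h he hC

end Fermat.Agent.DS
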