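import Fermat.Agent.DS.RatSlash
import Fermat.Agent.DS.RankinMF

/-!
# Weight one eigenforms (function level)
-/

set_option autoImplicit false
set_option linter.style.haveILetI false
set_option linter.unusedSectionVars false

noncomputable section

open UpperHalfPlane hiding I
open Complex Filter ModularForm
open scoped Topology MatrixGroups Real Manifold

namespace Fermat.Agent.DS

open Fermat.Agent.GamH Fermat.Agent.MFLib CongruenceSubgroup

variable {N : ℕ} [NeZero N]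

/-- weight one eigenforms whose coefficients are supported on integers prime to the level -/
structure WF (ε : DirichletCharacter ℂ N) (f : ℍ → ℂ) : Prop where
  cf : IsCF (Gamma1 N) 1 f
  one : (qe f).coeff 1 = 1
  rel : ∀ p : ℕ, p.Prime → ¬ p ∣ N → ∀ n : ℕ, (qe f).coeff (p * n) +
    ε (p : ZMod N) * (if p ∣ n then (qe f).coeff (n / p) else 0) = (qe f).coeff p * (qe f).coeff n
  cop : ∀ n : ℕ, ¬ n.Coprime N → (qe f).coeff n = 0

variable {ε : DirichletCharacter ℂ N} {f : ℍ → ℂ}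

namespace WF

theorem ne_zero (h : WF ε f) : f ≠ 0 := by
  rintro rfl
  have h1 := h.one
  have h2 : qe (0 : ℍ → ℂ) = 0 := qExpansion_zero 1
  rw [h2] at h1
  simp at h1

theorem char (h : WF ε f) {γ : SL(2, ℤ)} (hγ : γ ∈ Gamma0 N) :
    f ∣[(1 : ℤ)] γ = ε ((γ 1 1 : ℤ) : ZMod N) • f :=
  diamond_char ε h.cf (a := fun p => (qe f).coeff p) h.rel hγ

theorem eps_neg_one (h : WF ε f) : ε (-1) = -1 := by
  have h1 : (-1 : SL(2, ℤ)) ∈ Gamma0 N := by
    rw [Gamma0_mem]; simp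
  have h2 := h.char h1
  have h3 : f ∣[(1 : ℤ)] (-1 : SL(2, ℤ)) = -f := by
    funext z
    rw [SL_slash_apply]
    simp [denom]
  rw [h3] at h2
  have h4 : (((-1 : SL(2, ℤ)) 1 1 : ℤ) : ZMod N) = -1 := by simp
  rw [h4] at h2
  obtain ⟨z, hz⟩ := Function.ne_iff.1 h.ne_zero
  have h5 := congrFun h2 z
  simp only [Pi.neg_apply, Pi.smul_apply, smul_eq_mul] at h5
  have h6 : (ε (-1) + 1) * f z = 0 := by linear_combination -h5
  rcases mul_eq_zero.1 h6 with h7 | h7
  · linear_combination h7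
  · exact absurd h7 hz

theorem three_le (h : WF ε f) : 3 ≤ N := by
  by_contra hN
  have h1 := h.eps_neg_one
  have h2 : (-1 : ZMod N) = 1 := by
    have h0 := NeZero.ne N
    have : N = 1 ∨ N = 2 := by omega
    rcases this with rfl | rfl <;> decide
  rw [h2, map_one] at h1
  norm_num at h1

theorem heckeSeq (h : WF ε f) : HeckeSeq N (fun n => (qe f).coeff n) (fun n => ε (n : ZMod N)) where
  one := h.one
  rel := h.rel

theorem conj (h : WF ε f) (σ : ℂ →+* ℂ) : ∃ f' : ℍ → ℂ, WF (ε.ringHomComp σ) f' ∧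
    ∀ n, (qe f').coeff n = σ ((qe f).coeff n) := by
  obtain ⟨f', hf', hq⟩ := exists_conj_cusp_Gamma1 h.three_le σ h.cf
  have hq' : ∀ n, (qe f').coeff n = σ ((qe f).coeff n) := fun n => by
    rw [hq, PowerSeries.coeff_map]
  refine ⟨f', ⟨hf', ?_, ?_, ?_⟩, hq'⟩
  · rw [hq', h.one, map_one]
  · intro p hp hpN n
    rw [hq' (p * n), hq' p, hq' n, hq' (n / p), MulChar.ringHomComp_apply, ← map_mul,
      ← h.rel p hp hpN n, map_add, map_mul]
    split_ifs with hd
    · rfl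
    · rw [map_zero]
  · intro n hn
    rw [hq', h.cop n hn, map_zero]

/-- **Rankin's bound for weight one eigenforms** -/
theorem rankin (h : WF ε f) :
    ∃ C' : ℝ, ∀ s : ℝ, 1 < s → s ≤ 2 → ∀ F : Finset ℕ, (∀ p ∈ F, p.Prime ∧ ¬ p ∣ N) →
      ∑ p ∈ F, ‖(qe f).coeff p‖ ^ 2 * (p : ℝ) ^ (-s) ≤ Real.log (1 / (s - 1)) + C' := by
  refine rankin_cusp (T_mem_Gamma1 N) h.cf h.heckeSeq fun p hp hpN => ?_
  have : IsUnit (p : ZMod N) := by
    rw [ZMod.isUnit_iff_coprime]
    exact (Nat.Prime.coprime_iff_not_dvd hp).2 hpN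
  obtain ⟨u, hu⟩ := this
  rw [← hu]
  exact DirichletCharacter.unit_norm_eq_one ε u

end WF

/-- **reduction to forms supported on integers prime to the level** -/
theorem exists_WF (ε : DirichletCharacter ℂ N) (hf : IsCF (Gamma1 N) 1 f)
    (hone : (qe f).coeff 1 = 1)
    (hrel : ∀ p : ℕ, p.Prime → ¬ p ∣ N → ∀ n : ℕ, (qe f).coeff (p * n) +
      ε (p : ZMod N) * (if p ∣ n then (qe f).coeff (n / p) else 0) =
        (qe f).coeff p * (qe f).coeff n) :
    haveI := neZero_sq (N := N)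
    ∃ (ε' : DirichletCharacter ℂ (N ^ 2)) (f' : ℍ → ℂ), WF ε' f' ∧
      ∀ p : ℕ, p.Prime → ¬ p ∣ N → ε' (p : ZMod (N ^ 2)) = ε (p : ZMod N) ∧
        (qe f').coeff p = (qe f).coeff p := by
  haveI := neZero_sq (N := N)
  classical
  obtain ⟨g, hg, hq⟩ := exists_extract hf (fun x => if IsUnit x then 1 else 0)
  have hdvd : N ∣ N ^ 2 := dvd_pow_self N two_ne_zero
  have hcop : ∀ p : ℕ, p.Prime → ¬ p ∣ N ^ 2 → ¬ p ∣ N := fun p _ h h' => h (h'.trans hdvd)
  have hcop' : ∀ p : ℕ, p.Prime → ¬ p ∣ N → ¬ p ∣ N ^ 2 := fun p hp h h' =>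
    h (hp.dvd_of_dvd_pow h')
  have hε : ∀ p : ℕ, p.Prime → ¬ p ∣ N →
      (DirichletCharacter.changeLevel hdvd ε) (p : ZMod (N ^ 2)) = ε (p : ZMod N) := by
    intro p hp hpN
    have h1 : IsCoprime (p : ℤ) ((N ^ 2 : ℕ) : ℤ) := by
      rw [Nat.isCoprime_iff_coprime]
      exact (Nat.Prime.coprime_iff_not_dvd hp).2 (hcop' p hp hpN)
    have := DirichletCharacter.changeLevel_eq_cast_of_dvd' ε hdvd h1
    simpa using this
  have hq1 : ∀ n : ℕ, n.Coprime N → (qe g).coeff n = (qe f).coeff n := by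
    intro n hn
    rw [hq, if_pos ((ZMod.isUnit_iff_coprime n N).2 hn), one_mul]
  have hq0 : ∀ n : ℕ, ¬ n.Coprime N → (qe g).coeff n = 0 := by
    intro n hn
    rw [hq, if_neg fun h => hn ((ZMod.isUnit_iff_coprime n N).1 h), zero_mul]
  refine ⟨DirichletCharacter.changeLevel hdvd ε, g, ⟨hg, ?_, ?_, ?_⟩, fun p hp hpN =>
    ⟨hε p hp hpN, hq1 p ((Nat.Prime.coprime_iff_not_dvd hp).2 hpN)⟩⟩
  · rw [hq1 1 (Nat.coprime_one_left N), hone]
  · intro p hp hpN n
    have hpN' := hcop p hp hpN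
    have hpc : p.Coprime N := (Nat.Prime.coprime_iff_not_dvd hp).2 hpN'
    rw [hε p hp hpN', hq1 p hpc]
    by_cases hn : n.Coprime N
    · rw [hq1 _ (Nat.Coprime.mul_left hpc hn), hq1 n hn, ← hrel p hp hpN' n]
      split_ifs with hd
      · rw [hq1 (n / p) (Nat.Coprime.coprime_div_left hn hd)]
      · rfl
    · rw [hq0 _ (fun h => hn (Nat.Coprime.coprime_mul_left h)), hq0 n hn]
      split_ifs with hd
      · rw [hq0 (n / p)]
        · ring
        · intro h
          apply hn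
          obtain ⟨m, rfl⟩ := hd
          rw [Nat.mul_div_cancel_left _ hp.pos] at h
          exact Nat.Coprime.mul_left hpc h
      · ring
  · intro n hn
    exact hq0 n fun h => hn (Nat.Coprime.pow_right 2 h)

end Fermat.Agent.DS
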