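import Fermat.Agent.DS.MultD
import Fermat.Agent.DS.WF
import Fermat.Agent.KumG.FormChar

/-!
# Weight one eigenforms modulo `λ` in weight two
-/

set_option autoImplicit false
set_option linter.style.haveILetI false
set_option linter.unusedSectionVars false

noncomputable section

open UpperHalfPlane hiding I
open Complex Filter ModularForm EisensteinSeries Matrix
open scoped Topology MatrixGroups Real Manifold

namespace Fermat.Agent.DS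

open Fermat.Agent.GamH Fermat.Agent.MFLib Fermat.Agent.ModPoly

section

variable {R : Subring ℂ} {κ : Type*} [Field κ] {χ₀ : R →+* κ} {ℓ : ℕ} [hℓ : Fact ℓ.Prime]
  [CharP κ ℓ]

theorem Cg.mem_mul {x y : ℂ} (hx : x ∈ R) (hy : Cg χ₀ y 0) : Cg χ₀ (y * x) 0 := by
  have h1 : Cg χ₀ x (χ₀ ⟨x, hx⟩) := ⟨⟨x, hx⟩, rfl, rfl⟩
  have := hy.mul h1
  rwa [zero_mul] at this

theorem cGK_mem (hz : zM ℓ ∈ R) (k : ℕ) (P : ℤ → Prop) (c : ZMod ℓ) {n : ℕ} (hn : n ≠ 0) :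
    ∃ x ∈ R, cGK k P c n = CK k ℓ * x := by
  classical
  rw [cGK, if_neg hn]
  refine ⟨_, ?_, rfl⟩
  have h1 : ∀ (m j : ℕ), (m : ℂ) ^ k * (zM ℓ ^ j) ^ m ∈ R := fun m j =>
    mul_mem (pow_mem (natCast_mem R m) _) (pow_mem (pow_mem hz _) _)
  refine sum_mem fun x _ => add_mem ?_ (mul_mem (pow_mem (neg_mem (one_mem _)) _) ?_)
  · split_ifs
    · exact h1 _ _
    · exact zero_mem _
  · split_ifs
    · exact h1 _ _
    · exact zero_mem _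

/-- the normalised Eisenstein series are congruent to `1` -/
theorem cgS_EV (hz : zM ℓ ∈ R) {k : ℕ} (hk : 2 ≤ k) {c : ZMod ℓ} {P : ℂ} (hP : P ≠ 0)
    (hP0 : Cg χ₀ P⁻¹ 0) (hka : kaK k c = CK k ℓ * P) :
    CgS χ₀ (qe ((kaK k c)⁻¹ • EV k ![0, c])) 1 ∧
      PowerSeries.constantCoeff (qe ((kaK k c)⁻¹ • EV k ![0, c])) = 1 := by
  classical
  have hC := CK_ne_zero k ℓ
  have h0 : (qe ((kaK k c)⁻¹ • EV k ![0, c])).coeff 0 = 1 := by
    rw [(qg_EV hk c).qe_smul, PowerSeries.coeff_smul, coeff_EV hk, mul_zero, cGK, if_pos rfl,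
      if_pos (by rw [Int.cast_zero]), smul_eq_mul, inv_mul_cancel₀]
    rw [hka]
    exact mul_ne_zero hC hP
  refine ⟨fun n => ?_, ?_⟩
  · by_cases hn : n = 0
    · subst hn
      rw [h0, PowerSeries.coeff_zero_one]
      exact Cg.one χ₀
    · rw [PowerSeries.coeff_one, if_neg hn, (qg_EV hk c).qe_smul, PowerSeries.coeff_smul,
        coeff_EV hk, smul_eq_mul, hka]
      obtain ⟨x, hx, hx'⟩ := cGK_mem hz k (fun m => (m : ZMod ℓ) = 0) c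
        (mul_ne_zero hℓ.out.ne_zero hn)
      have e : (CK k ℓ * P)⁻¹ * (CK k ℓ * x) = P⁻¹ * x := by
        rw [mul_inv, mul_comm (CK k ℓ)⁻¹, mul_assoc, inv_mul_cancel_left₀ hC]
      rw [hx', e]
      exact Cg.mem_mul hx hP0
  · rw [← PowerSeries.coeff_zero_eq_constantCoeff_apply, h0]

theorem odd_of_five_le (h5 : 5 ≤ ℓ) : Odd ℓ := hℓ.out.odd_of_ne_two (by omega)

/-- the constant term of the multiplier -/
def kH (c : ZMod ℓ) : ℂ := kaK 3 c / kaK 2 c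

theorem kaK2_ne (h5 : 5 ≤ ℓ) {c : ZMod ℓ} (hc : c ≠ 0) : kaK 2 c ≠ 0 := by
  rw [kaK_two hc]
  exact mul_ne_zero (CK_ne_zero 2 ℓ) (Pd_ne_zero (odd_of_five_le h5) hc)

theorem kaK3_ne (χ₀ : R →+* κ) (hz : zM ℓ ∈ R) (h5 : 5 ≤ ℓ) {c : ZMod ℓ} (hc : c ≠ 0) :
    kaK 3 c ≠ 0 := by
  rw [kaK_three hc]
  exact mul_ne_zero (CK_ne_zero 3 ℓ) (Pc_ne_zero χ₀ hz h5 hc)

theorem kH_ne (χ₀ : R →+* κ) (hz : zM ℓ ∈ R) (h5 : 5 ≤ ℓ) {c : ZMod ℓ} (hc : c ≠ 0) :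
    kH c ≠ 0 := div_ne_zero (kaK3_ne χ₀ hz h5 hc) (kaK2_ne h5 hc)

/-- the normalised multiplier is congruent to `1` -/
theorem cgS_hV (hl : LocR χ₀) (hz : zM ℓ ∈ R) (h5 : 5 ≤ ℓ) {c : ZMod ℓ} (hc : c ≠ 0) :
    CgS χ₀ (qe ((kH c)⁻¹ • hV (![0, c] : Fin 2 → ZMod ℓ))) 1 := by
  have hodd := odd_of_five_le h5
  obtain ⟨h1, -⟩ := cgS_EV (χ₀ := χ₀) hz (k := 3) (by norm_num) (Pc_ne_zero χ₀ hz h5 hc)
    (Cg.inv_Pc hl hz h5 c) (kaK_three hc)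
  obtain ⟨h2, h3⟩ := cgS_EV (χ₀ := χ₀) hz (k := 2) le_rfl (Pd_ne_zero hodd hc)
    (Cg.inv_Pd hl hz (by omega) c) (kaK_two hc)
  refine h1.div h2 h3 ?_
  rw [← ((qg_hV hodd hc).smul _).qe_mul ((qg_EV le_rfl c).smul _)]
  congr 1
  funext z
  have h4 := EV_two_ne_zero hodd (vec_ne_zero hc) z
  have h5' := kaK2_ne h5 hc
  have h6 := kaK3_ne χ₀ hz h5 hc
  simp only [Pi.mul_apply, Pi.smul_apply, smul_eq_mul, hV, Pi.div_apply, kH]
  field_simp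

/-- ratios of constant terms -/
theorem cg_kH (hl : LocR χ₀) (hz : zM ℓ ∈ R) (h5 : 5 ≤ ℓ) {c : ZMod ℓ} (hc : c ≠ 0) :
    Cg χ₀ (kH c / kH (1 : ZMod ℓ)) ((c.val : κ))⁻¹ := by
  haveI : Fact (1 < ℓ) := ⟨hℓ.out.one_lt⟩
  have h20 : (2 : κ) ≠ 0 := by
    have := natCast_ne (κ := κ) (ℓ := ℓ) 2 fun h => by have := Nat.le_of_dvd two_pos h; omega
    exact_mod_cast this
  have hc0 : (c.val : κ) ≠ 0 := natCast_ne _ fun h => by
    have h1 := ZMod.val_lt c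
    have h2 : 0 < c.val := Nat.pos_of_ne_zero fun h => hc ((ZMod.val_eq_zero c).1 h)
    have := Nat.le_of_dvd h2 h
    omega
  set ζ := zM ℓ with hζ
  set w := ζ ^ c.val with hw
  have hζ1 : ζ ≠ 1 := by
    have := zM_pow_ne_one (M := ℓ) (b := 1) one_ne_zero
    rwa [ZMod.val_one, pow_one] at this
  have hs : (1 - w) = (∑ i ∈ Finset.range c.val, ζ ^ i) * (1 - ζ) := by
    rw [geom_sum_mul_neg]
  have gz : Cg χ₀ ζ 1 := by simpa using Cg.zM_pow (χ₀ := χ₀) hz 1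
  have gw : Cg χ₀ w 1 := Cg.zM_pow hz _
  have gs : Cg χ₀ (∑ i ∈ Finset.range c.val, ζ ^ i) (c.val : κ) := by
    have := Cg.sum (χ₀ := χ₀) (s := Finset.range c.val) (f := fun i => ζ ^ i) (g := fun _ => 1)
      (fun i _ => Cg.zM_pow hz i)
    simpa using this
  have gs0 := gs.ne_zero hc0
  have g1 : Cg χ₀ (1 + 4 * w + w ^ 2) 6 := Cg.quad hz c.val
  have g2 : Cg χ₀ (1 + 4 * ζ + ζ ^ 2) 6 := by simpa using Cg.quad (χ₀ := χ₀) hz 1
  have g3 : Cg χ₀ (1 + ζ) 2 := by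
    have := (Cg.one χ₀).add gz
    rwa [one_add_one_eq_two] at this
  have g4 : Cg χ₀ (1 + w) 2 := by
    have := (Cg.one χ₀).add gw
    rwa [one_add_one_eq_two] at this
  have h6 := six_ne (κ := κ) h5
  have n1 := g1.ne_zero h6
  have n2 := g2.ne_zero h6
  have n3 := g3.ne_zero h20
  have n4 := g4.ne_zero h20
  have n5 : (1 - ζ) ≠ 0 := fun h => hζ1 (by linear_combination -h)
  have g := (((g1.mul (g2.inv hl h6)).mul (g3.mul (g4.inv hl h20))).mul (gs.inv hl hc0))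
  rw [mul_inv_cancel₀ h6, mul_inv_cancel₀ h20, one_mul, one_mul] at g
  have e : kH c / kH (1 : ZMod ℓ) = (1 + 4 * w + w ^ 2) * (1 + 4 * ζ + ζ ^ 2)⁻¹ *
      ((1 + ζ) * (1 + w)⁻¹) * (∑ i ∈ Finset.range c.val, ζ ^ i)⁻¹ := by
    have hC3 := CK_ne_zero 3 ℓ
    have hC2 := CK_ne_zero 2 ℓ
    have hz0 : ζ ≠ 0 := zM_ne_zero
    have hw0 : w ≠ 0 := pow_ne_zero _ hz0
    rw [kH, kH, kaK_three hc, kaK_three one_ne_zero, kaK_two hc, kaK_two one_ne_zero,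
      ZMod.val_one, pow_one, Pc, Pc, Pd, Pd, ← hζ, ← hw, hs]
    generalize (∑ i ∈ Finset.range c.val, ζ ^ i) = s at *
    field_simp
  rw [e]
  exact g

end

end Fermat.Agent.DS
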