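import Fermat.Agent.DS.MultE

/-!
# The family of forms of weight two
-/

set_option autoImplicit false
set_option linter.style.haveILetI false
set_option linter.unusedSectionVars false

noncomputable section

open UpperHalfPlane hiding I
open Complex Filter ModularForm EisensteinSeries Matrix
open scoped Topology MatrixGroups Real Manifold

namespace Fermat.Agent.DS

open Fermat.Agent.GamH Fermat.Agent.MFLib Fermat.Agent.ModPoly Fermat.Agent.KumG Fermat.Agent.AL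
  Fermat.Agent.ALCoh CongruenceSubgroup

theorem slash_neg_one (k : ℤ) (f : ℍ → ℂ) : f ∣[k] (-1 : SL(2, ℤ)) = ((-1 : ℂ) ^ k)⁻¹ • f := by
  funext z
  rw [SL_slash_apply]
  simp [denom, mul_comm]

theorem hV_neg {M : ℕ} [NeZero M] (v : Fin 2 → ZMod M) : hV (-v) = -hV v := by
  have h1 := hV_slash v (-1 : SL(2, ℤ))
  rw [slash_neg_one] at h1
  have h2 : v ᵥ* redM M (-1 : SL(2, ℤ)) = -v := by
    have : redM M (-1 : SL(2, ℤ)) = -1 := by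
      ext i j
      fin_cases i <;> fin_cases j <;> simp [redM]
    rw [this, Matrix.vecMul_neg, Matrix.vecMul_one]
  rw [h2] at h1
  rw [← h1]
  simp

variable {N : ℕ} [NeZero N] {ε : DirichletCharacter ℂ N} {f : ℍ → ℂ} {ℓ : ℕ} [hℓ : Fact ℓ.Prime]

/-- reduction to level `N` -/
def toN (N ℓ : ℕ) : ZMod (N * ℓ) →+* ZMod N := ZMod.castHom (Dvd.intro _ rfl) (ZMod N)

/-- reduction to level `ℓ` -/
def toL (N ℓ : ℕ) : ZMod (N * ℓ) →+* ZMod ℓ := ZMod.castHom (Dvd.intro_left _ rfl) (ZMod ℓ)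

/-- the forms of weight two -/
def FF2 (ε : DirichletCharacter ℂ N) (f : ℍ → ℂ) (ℓ : ℕ) [Fact ℓ.Prime] (d : (ZMod (N * ℓ))ˣ) :
    ℍ → ℂ :=
  (ε (toN N ℓ d) * (kH (1 : ZMod ℓ))⁻¹) • (f * hV (![0, toL N ℓ d] : Fin 2 → ZMod ℓ))

theorem toL_ne_zero (d : (ZMod (N * ℓ))ˣ) : toL N ℓ d ≠ 0 := by
  have h1 : IsUnit (toL N ℓ d) := d.isUnit.map _
  exact h1.ne_zero

theorem FF2_slash (h : WF ε f) (d u : (ZMod (N * ℓ))ˣ) {γ : SL(2, ℤ)} (hγ : γ ∈ GG (N * ℓ))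
    (hu : dd (N * ℓ) γ = u) : FF2 ε f ℓ d ∣[(2 : ℤ)] γ = FF2 ε f ℓ (d * u) := by
  have hγN : γ ∈ Gamma0 N := by
    rw [Gamma0_mem] at hγ ⊢
    have := congrArg (toN N ℓ) hγ
    rwa [map_intCast, map_zero] at this
  have hγL : ((γ 1 0 : ℤ) : ZMod ℓ) = 0 := by
    have hγ' := Gamma0_mem.1 hγ
    have := congrArg (toL N ℓ) hγ'
    rwa [map_intCast, map_zero] at this
  have huN : ((γ 1 1 : ℤ) : ZMod N) = toN N ℓ u := by
    rw [← hu, dd, map_intCast]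
  have huL : ((γ 1 1 : ℤ) : ZMod ℓ) = toL N ℓ u := by
    rw [← hu, dd, map_intCast]
  have h2 : (f * hV (![0, toL N ℓ d] : Fin 2 → ZMod ℓ)) ∣[(2 : ℤ)] γ =
      (f ∣[(1 : ℤ)] γ) * (hV (![0, toL N ℓ d] : Fin 2 → ZMod ℓ) ∣[(1 : ℤ)] γ) := by
    have := mul_slash_SL2 1 1 γ f (hV (![0, toL N ℓ d] : Fin 2 → ZMod ℓ))
    exact this
  have h3 : ![0, toL N ℓ d] ᵥ* redM ℓ γ = ![0, toL N ℓ ((d * u : (ZMod (N * ℓ))ˣ) : ZMod (N * ℓ))] := by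
    funext i
    fin_cases i
    · simp [redM, Matrix.vecMul, dotProduct, hγL]
    · simp [redM, Matrix.vecMul, dotProduct, huL]
  rw [FF2, SL_smul_slash, h2, h.char hγN, hV_slash, h3, huN, FF2, smul_mul_assoc, smul_smul]
  congr 1
  rw [Units.val_mul, map_mul, map_mul]
  ring

theorem FF2_neg (h : WF ε f) (d : (ZMod (N * ℓ))ˣ) : FF2 ε f ℓ (-d) = FF2 ε f ℓ d := by
  have h1 : (![0, toL N ℓ ((-d : (ZMod (N * ℓ))ˣ) : ZMod (N * ℓ))] : Fin 2 → ZMod ℓ) =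
      -![0, toL N ℓ d] := by
    funext i
    fin_cases i
    · simp
    · simp
  have h2 : ε (toN N ℓ ((-d : (ZMod (N * ℓ))ˣ) : ZMod (N * ℓ))) = -ε (toN N ℓ d) := by
    rw [Units.val_neg, map_neg, ← neg_one_mul, map_mul, h.eps_neg_one, neg_one_mul]
  rw [FF2, h1, hV_neg, h2, FF2]
  funext z
  simp only [Pi.smul_apply, Pi.mul_apply, Pi.neg_apply, smul_eq_mul]
  ring

theorem HC_mul_HB {k l : ℤ} {f g : ℍ → ℂ} (hf : AL.HC k f) (hg : HB l g) :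
    AL.HC (k + l) (f * g) where
  holo := hf.holo.mul hg.holo
  zero γ := by
    rw [mul_slash_SL2]
    exact Filter.ZeroAtFilter.mul_boundedAtFilter (hf.zero γ) (hg.bdd γ)

/-- the subgroup `{±1}` -/
abbrev pm (M : ℕ) : Subgroup (ZMod M)ˣ := Subgroup.zpowers (-1)

theorem mem_pm {M : ℕ} {u : (ZMod M)ˣ} (hu : u ∈ pm M) : u = 1 ∨ u = -1 := by
  obtain ⟨n, rfl⟩ := Subgroup.mem_zpowers_iff.1 hu
  rcases Int.even_or_odd n with hn | hn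
  · left; exact hn.neg_one_zpow
  · right; exact hn.neg_one_zpow

instance {M : ℕ} : Fact ((-1 : (ZMod M)ˣ) ∈ pm M) := ⟨Subgroup.mem_zpowers _⟩

theorem isCF_FF2 (h : WF ε f) (h5 : 5 ≤ ℓ) (d : (ZMod (N * ℓ))ˣ) :
    IsCF (GH (N * ℓ) (pm (N * ℓ))) 2 (FF2 ε f ℓ d) := by
  have h1 : AL.HC (1 + 1) (FF2 ε f ℓ d) :=
    (HC_mul_HB (AL.HC.of_isCF h.cf) (HB_hV (odd_of_five_le h5) (vec_ne_zero (toL_ne_zero d)))).smul _
  have h2 : AL.HC 2 (FF2 ε f ℓ d) := h1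
  refine ⟨⟨h2.hb, fun γ hγ => ?_⟩, h2.zero⟩
  obtain ⟨hγ0, u, hu, hu'⟩ := mem_GH.1 hγ
  rw [FF2_slash h d u hγ0 hu'.symm]
  rcases mem_pm hu with rfl | rfl
  · rw [mul_one]
  · rw [mul_neg, mul_one, FF2_neg h]

end Fermat.Agent.DS
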