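import Fermat.Agent.DS.MultF
import Fermat.Agent.KumG.Residual
import Fermat.Agent.Cov.GoodH

/-!
# The residual representations
-/

set_option autoImplicit false
set_option linter.style.haveILetI false
set_option linter.unusedSectionVars false

noncomputable section

open UpperHalfPlane hiding I
open Complex Filter ModularForm EisensteinSeries Matrix
open scoped Topology MatrixGroups Real Manifold

namespace Fermat.Agent.DS

open Fermat.Agent.GamH Fermat.Agent.MFLib Fermat.Agent.ModPoly Fermat.Agent.KumG Fermat.Agent.AL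
  Fermat.Agent.ALCoh CongruenceSubgroup Fermat.Agent.GalRep

variable {N : ℕ} [NeZero N] {ε : DirichletCharacter ℂ N} {f : ℍ → ℂ} {ℓ : ℕ} [hℓ : Fact ℓ.Prime]
  {R : Subring ℂ} {κ : Type*} [Field κ] [CharP κ ℓ] {χ₀ : R →+* κ}

theorem toN_toL_unit (d : (ZMod (N * ℓ))ˣ) : toL N ℓ d ≠ 0 := toL_ne_zero d

/-- the reduction of the nebentypus -/
def epsB (χ₀ : R →+* κ) (hε : ∀ x, ε x ∈ R) : (ZMod N) →* κ where
  toFun x := χ₀ ⟨ε x, hε x⟩
  map_one' := by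
    rw [← map_one χ₀]
    congr 1
    exact Subtype.ext (map_one ε)
  map_mul' x y := by
    rw [← map_mul]
    congr 1
    exact Subtype.ext (map_mul ε x y)

variable (κ) in
/-- the inverse of the cyclotomic character -/
def omB (N ℓ : ℕ) [Fact ℓ.Prime] [CharP κ ℓ] : (ZMod (N * ℓ))ˣ →* κ :=
  (Units.coeHom κ).comp ((Units.map (ZMod.castHom (dvd_refl ℓ) κ : ZMod ℓ →* κ)).comp
    ((Units.map (toL N ℓ : ZMod (N * ℓ) →* ZMod ℓ)).comp (invMonoidHom)))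

theorem omB_apply (d : (ZMod (N * ℓ))ˣ) : omB κ N ℓ d = (((toL N ℓ d).val : κ))⁻¹ := by
  have h0 : toL N ℓ d ≠ 0 := toL_ne_zero d
  have h1 : (toL N ℓ ((d⁻¹ : (ZMod (N * ℓ))ˣ) : ZMod (N * ℓ))) * toL N ℓ d = 1 := by
    rw [← map_mul, ← Units.val_mul, inv_mul_cancel, Units.val_one, map_one]
  have h2 := congrArg (ZMod.castHom (dvd_refl ℓ) κ) h1
  rw [map_mul, map_one] at h2
  have h3 : (ZMod.castHom (dvd_refl ℓ) κ) (toL N ℓ d) = ((toL N ℓ d).val : κ) := by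
    rw [ZMod.castHom_apply, ← ZMod.natCast_val]
  rw [h3] at h2
  exact eq_inv_of_mul_eq_one_left h2

/-- the character of the diamond operators -/
def eB (χ₀ : R →+* κ) (hε : ∀ x, ε x ∈ R) : (ZMod (N * ℓ))ˣ →* κ where
  toFun d := epsB χ₀ hε (toN N ℓ d) * omB κ N ℓ d
  map_one' := by
    rw [Units.val_one, map_one, map_one, map_one, mul_one]
  map_mul' x y := by
    rw [Units.val_mul, map_mul, map_mul, map_mul]
    ring

theorem gd_FF2 (h : WF ε f) (h5 : 5 ≤ ℓ) (hl : LocR χ₀) (hz : zM ℓ ∈ R)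
    (hf : ∀ n, (qe f).coeff n ∈ R) (hε : ∀ x, ε x ∈ R) :
    Gd (pm (N * ℓ)) χ₀ (eB χ₀ hε) (fun n => χ₀ ⟨(qe f).coeff n, hf n⟩) 1 (FF2 ε f ℓ) where
  cf d := isCF_FF2 h h5 d
  dia d u γ hγ hu := FF2_slash h d u hγ hu
  coef d n := by
    have hodd := odd_of_five_le h5
    have hd := toL_ne_zero d
    have hk1 : kH (1 : ZMod ℓ) ≠ 0 := by
      haveI : Fact (1 < ℓ) := ⟨hℓ.out.one_lt⟩
      exact kH_ne χ₀ hz h5 one_ne_zero
    have hkd := kH_ne χ₀ hz h5 hd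
    have hqf : QG f := h.cf.toIsMF.qg (T_mem_Gamma1 N)
    have h1 : FF2 ε f ℓ d = (ε (toN N ℓ d) * (kH (toL N ℓ d) / kH (1 : ZMod ℓ))) •
        (f * ((kH (toL N ℓ d))⁻¹ • hV (![0, toL N ℓ d] : Fin 2 → ZMod ℓ))) := by
      rw [FF2]
      funext z
      simp only [Pi.smul_apply, Pi.mul_apply, smul_eq_mul]
      field_simp
    have h2 : CgS χ₀ (qe f) (PowerSeries.mk fun n => χ₀ ⟨(qe f).coeff n, hf n⟩) := fun n =>
      ⟨⟨_, hf n⟩, rfl, by rw [PowerSeries.coeff_mk]⟩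
    have h3 := h2.mul (cgS_hV (χ₀ := χ₀) hl hz h5 hd)
    rw [mul_one, ← hqf.qe_mul ((qg_hV hodd hd).smul _)] at h3
    have h4 := h3 n
    rw [PowerSeries.coeff_mk] at h4
    have h5' : Cg χ₀ (ε (toN N ℓ d)) (epsB χ₀ hε (toN N ℓ d)) := ⟨⟨_, hε _⟩, rfl, rfl⟩
    have h6 := (h5'.mul (cg_kH (χ₀ := χ₀) hl hz h5 hd)).mul h4
    rw [← smul_eq_mul (ε (toN N ℓ d) * _), ← PowerSeries.coeff_smul,
      ← (hqf.mul ((qg_hV hodd hd).smul _)).qe_smul, ← h1] at h6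
    rw [one_mul]
    obtain ⟨r, hr, hr'⟩ := h6
    refine ⟨r, hr, ?_⟩
    rw [hr']
    change _ = epsB χ₀ hε (toN N ℓ d) * omB κ N ℓ d * _
    rw [omB_apply]

/-- **the residual representations attached to a weight one eigenform** -/
theorem exists_rho (h : WF ε f) (h5 : 5 ≤ ℓ) (hl : LocR χ₀) (hz : zM ℓ ∈ R)
    (hf : ∀ n, (qe f).coeff n ∈ R) (hε : ∀ x, ε x ∈ R) :
    ∃ ρ : GQ →* GL (Fin 2) κ,
      (∃ L : IntermediateField ℚ (AlgebraicClosure ℚ), FiniteDimensional ℚ L ∧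
        ∀ σ : GQ, (∀ x ∈ L, σ x = x) → ρ σ = 1) ∧
      (∀ (p : ℕ), p.Prime → ¬ p ∣ N → p ≠ ℓ → ∀ A : ValuationSubring (AlgebraicClosure ℚ),
        A.LiesOverPrime p → ∀ τ : GQ, A.IsFrobeniusAt τ p →
          (ρ τ : Matrix (Fin 2) (Fin 2) κ).trace = χ₀ ⟨(qe f).coeff p, hf p⟩ ∧
          (ρ τ : Matrix (Fin 2) (Fin 2) κ).det = χ₀ ⟨ε (p : ZMod N), hε p⟩) ∧
      (∀ p : ℕ, p.Prime → ¬ p ∣ N → p ≠ ℓ → ∀ A : ValuationSubring (AlgebraicClosure ℚ),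
        A.LiesOverPrime p → ∀ σ ∈ A.inertiaSubgroupIn ℚ, ρ σ = 1) := by
  haveI : NeZero (N * ℓ) := ⟨mul_ne_zero (NeZero.ne N) hℓ.out.ne_zero⟩
  let S : Set ℕ := {q | q.Prime ∧ q ∣ N * ℓ}
  have hS : S.Finite := by
    refine (Finset.finite_toSet (N * ℓ).divisors).subset ?_
    rintro q ⟨-, hq⟩
    exact Nat.mem_divisors.2 ⟨hq, NeZero.ne _⟩
  have hndvd : ∀ p : ℕ, p.Prime → ¬ p ∣ N → p ≠ ℓ → ¬ p ∣ N * ℓ := by
    intro p hp hpN hpl hd
    rcases (Nat.Prime.dvd_mul hp).1 hd with h1 | h1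
    · exact hpN h1
    · exact hpl ((Nat.prime_dvd_prime_iff_eq hp hℓ.out).1 h1)
  have hom : ∀ (p : ℕ), p.Prime → ¬ p ∣ N * ℓ → ∀ u : (ZMod (N * ℓ))ˣ,
      (u : ZMod (N * ℓ)) = p → (p : κ) * eB χ₀ hε u = χ₀ ⟨ε (p : ZMod N), hε p⟩ := by
    intro p hp hpn u hu
    have hpl : (p : κ) ≠ 0 := natCast_ne (ℓ := ℓ) p fun hd =>
      hpn (Dvd.dvd.mul_left (by rw [(Nat.prime_dvd_prime_iff_eq hℓ.out hp).1 hd]) _)
    change (p : κ) * (epsB χ₀ hε (toN N ℓ u) * omB κ N ℓ u) = _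
    have e1 : toN N ℓ (u : ZMod (N * ℓ)) = (p : ZMod N) := by rw [hu, map_natCast]
    have e2 : (((toL N ℓ (u : ZMod (N * ℓ))).val : ℕ) : κ) = (p : κ) := by
      rw [hu, map_natCast, ZMod.val_natCast, CharP.cast_eq_mod κ ℓ p]
    rw [omB_apply, e1, e2, mul_left_comm, mul_inv_cancel₀ hpl, mul_one]
    rfl
  obtain ⟨χ, hχT, hχD⟩ := exists_char_of_form (S := S)
    (ψ := fun n => χ₀ ⟨(qe f).coeff n, hf n⟩)
    ⟨1, by
      have : (⟨(qe f).coeff 1, hf 1⟩ : R) = 1 := Subtype.ext h.one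
      rw [this, map_one]
      exact one_ne_zero⟩
    (gd_FF2 h h5 hl hz hf hε) (t := fun p => χ₀ ⟨(qe f).coeff p, hf p⟩) (by
      intro p hp hpn _ u hu n
      have hpN : ¬ p ∣ N := fun hd => hpn (Dvd.dvd.mul_right hd _)
      have h1 := h.rel p hp hpN n
      have h2 := hom p hp hpn u hu
      have h3 : (⟨(qe f).coeff (p * n), hf _⟩ + ⟨ε (p : ZMod N), hε _⟩ *
          (if p ∣ n then ⟨(qe f).coeff (n / p), hf _⟩ else 0) : R) =
          ⟨(qe f).coeff p, hf p⟩ * ⟨(qe f).coeff n, hf n⟩ := by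
        apply Subtype.ext
        change (qe f).coeff (p * n) + ε (p : ZMod N) *
          (((if p ∣ n then ⟨(qe f).coeff (n / p), hf _⟩ else 0 : R)) : ℂ) = _
        rw [show (((if p ∣ n then ⟨(qe f).coeff (n / p), hf _⟩ else 0 : R)) : ℂ) =
          (if p ∣ n then (qe f).coeff (n / p) else 0) by split_ifs <;> rfl]
        exact h1
      have h4 := congrArg χ₀ h3
      rw [map_add, map_mul, map_mul] at h4
      have h5 : (⟨(qe f).coeff (n * p), hf _⟩ : R) = ⟨(qe f).coeff (p * n), hf _⟩ :=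
        Subtype.ext (by rw [mul_comm])
      rw [h5]
      by_cases hd : p ∣ n
      · rw [if_pos hd] at h4 ⊢
        rw [← mul_assoc, h2]
        exact h4
      · rw [if_neg hd, map_zero, mul_zero] at h4
        rw [if_neg hd]
        exact h4)
  obtain ⟨ρ, h1, h2, h3, -⟩ := exists_residual (p := ℓ) (Cov.hasGoodRedH (N * ℓ) (pm (N * ℓ))) hS
    ⟨hℓ.out, dvd_mul_left _ _⟩ (fun q hq hqn => ⟨hq, hqn⟩) (by omega) χ
  refine ⟨ρ, h1, fun p hp hpN hpl A hA τ hτ => ?_, fun p hp hpN hpl A hA σ hσ => ?_⟩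
  · have hpn := hndvd p hp hpN hpl
    have hpS : p ∉ S := fun hs => hpn hs.2
    obtain ⟨e1, e2⟩ := h2 p hp hpn hpS A hA τ hτ
    refine ⟨by rw [e1, hχT], ?_⟩
    have hu : IsUnit ((p : ZMod (N * ℓ))) := by
      rw [ZMod.isUnit_iff_coprime]
      exact (Nat.Prime.coprime_iff_not_dvd hp).2 hpn
    obtain ⟨u, hu⟩ := hu
    rw [e2 u hu, hχD, hom p hp hpn u hu]
  · refine h3 p hp ?_ A hA σ hσ
    intro hd
    rcases (Nat.Prime.dvd_mul hp).1 hd with h4 | h4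
    · exact hndvd p hp hpN hpl h4
    · exact hpl ((Nat.prime_dvd_prime_iff_eq hp hℓ.out).1 h4)

end Fermat.Agent.DS
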