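import Fermat.Agent.DS.MultG
import Fermat.Agent.DS.Final

/-!
# `HasRes` for weight one eigenforms
-/

set_option autoImplicit false
set_option linter.style.haveILetI false
set_option linter.unusedSectionVars false

noncomputable section

namespace Fermat.Agent.DS

open Fermat.Agent.GamH Fermat.Agent.MFLib Fermat.Agent.GalRep Fermat.Agent.Places
  Fermat.Agent.Cheb

section place

variable {L : Type*} [Field L] (A : ValuationSubring L) (io : L →+* ℂ)

/-- the image of a valuation ring in `ℂ` -/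
def RA : Subring ℂ := A.toSubring.map io

/-- the reduction map on the image -/
def chiA : RA A io →+* IsLocalRing.ResidueField A :=
  (IsLocalRing.residue A).comp
    (A.toSubring.equivMapOfInjective io io.injective).symm.toRingHom

variable {A io}

theorem mem_RA {x : L} (hx : x ∈ A) : io x ∈ RA A io := ⟨x, hx, rfl⟩

theorem chiA_apply {x : L} (hx : x ∈ A) (h : io x ∈ RA A io) :
    chiA A io ⟨io x, h⟩ = IsLocalRing.residue A ⟨x, hx⟩ := by
  have h2 : (A.toSubring.equivMapOfInjective io io.injective).symm ⟨io x, h⟩ = ⟨x, hx⟩ := by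
    rw [RingEquiv.symm_apply_eq]
    rfl
  change IsLocalRing.residue A ((A.toSubring.equivMapOfInjective io io.injective).symm
    ⟨io x, h⟩) = _
  rw [h2]

theorem locR_chiA : LocR (chiA A io) := by
  rintro ⟨_, x, hx, rfl⟩ hr
  have hr' : chiA A io ⟨io x, mem_RA hx⟩ ≠ 0 := hr
  rw [chiA_apply (x := x) hx] at hr'
  have h1 : IsUnit (⟨x, hx⟩ : A) := by
    by_contra hu
    exact hr' ((IsLocalRing.residue_eq_zero_iff _).2 ((IsLocalRing.mem_maximalIdeal _).2 hu))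
  obtain ⟨u, hu⟩ := h1
  refine ⟨⟨io ((u⁻¹ : Aˣ) : A), mem_RA ((u⁻¹ : Aˣ) : A).2⟩, ?_⟩
  have h2 : (⟨x, hx⟩ : A) * ((u⁻¹ : Aˣ) : A) = 1 := by
    rw [← hu, Units.mul_inv]
  have h3 := congrArg (Subtype.val) h2
  have h4 : x * (((u⁻¹ : Aˣ) : A) : L) = 1 := h3
  change io x * io _ = 1
  rw [← map_mul, h4, map_one]

theorem zM_mem_RA [CharZero L] [IsAlgClosed L] (ℓ : ℕ) [NeZero ℓ] : zM ℓ ∈ RA A io := by
  obtain ⟨ζ, hζ⟩ : ∃ ζ : L, IsPrimitiveRoot ζ ℓ := by
    haveI : NeZero ((ℓ : ℕ) : L) := ⟨by exact_mod_cast NeZero.ne ℓ⟩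
    exact HasEnoughRootsOfUnity.exists_primitiveRoot L ℓ
  have h1 : IsPrimitiveRoot (io ζ) ℓ := hζ.map_of_injective io.injective
  obtain ⟨i, -, hi⟩ := h1.eq_pow_of_pow_eq_one (zM_pow ℓ)
  rw [← hi, ← map_pow]
  refine mem_RA ?_
  have h2 : IsIntegral ℤ (ζ ^ i) := by
    refine IsIntegral.pow ?_ i
    exact hζ.isIntegral (NeZero.pos ℓ)
  exact mem_of_isIntegral_int A h2

end place

local notation "𝕂" => AlgebraicClosure ℚ

variable {N : ℕ} [NeZero N] {ε : DirichletCharacter ℂ N} {f : UpperHalfPlane → ℂ}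

theorem WF.hasRes (h : WF ε f) (α e : ℕ → OI 𝕂) (hα : ∀ n, iota (α n : 𝕂) = (qe f).coeff n)
    (he : ∀ n : ℕ, iota (e n : 𝕂) = ε (n : ZMod N)) : HasRes N α e 5 := by
  intro ℓ hℓ h5 A hA
  haveI : Fact ℓ.Prime := ⟨hℓ⟩
  haveI : CharP (IsLocalRing.ResidueField A) ℓ := RedMod.charP_residue hA
  have hOA : ∀ x : OI 𝕂, (x : 𝕂) ∈ A := fun x => mem_of_isIntegral_int A x.2
  have hf : ∀ n, (qe f).coeff n ∈ RA A iota := fun n => by
    rw [← hα]; exact mem_RA (hOA _)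
  have hε : ∀ x : ZMod N, ε x ∈ RA A iota := fun x => by
    rw [← ZMod.natCast_zmod_val x, ← he]; exact mem_RA (hOA _)
  obtain ⟨ρ, ⟨E, hE, h1⟩, h2, h3⟩ := exists_rho h h5 (locR_chiA (A := A) (io := iota))
    (zM_mem_RA ℓ) hf hε
  refine ⟨ρ, ⟨?_, h3, fun p hp hpN hpl A' hA' τ hτ => ?_, fun p hp hpN hpl A' hA' τ hτ => ?_⟩⟩
  · haveI := hE
    refine Subgroup.isOpen_mono (H₁ := E.fixingSubgroup) (fun σ hσ => ?_)
      (IntermediateField.fixingSubgroup_isOpen E)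
    rw [MonoidHom.mem_ker]
    exact h1 σ fun x hx => (IntermediateField.mem_fixingSubgroup_iff _ _).1 hσ x hx
  · rw [(h2 p hp hpN hpl A' hA' τ hτ).1]
    have e1 : (⟨(qe f).coeff p, hf p⟩ : RA A iota) = ⟨iota (α p : 𝕂), mem_RA (hOA _)⟩ :=
      Subtype.ext (hα p).symm
    rw [e1, chiA_apply (hOA (α p))]
    rfl
  · rw [(h2 p hp hpN hpl A' hA' τ hτ).2]
    have e1 : (⟨ε (p : ZMod N), hε p⟩ : RA A iota) = ⟨iota (e p : 𝕂), mem_RA (hOA _)⟩ :=
      Subtype.ext (he p).symm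
    rw [e1, chiA_apply (hOA (e p))]
    rfl

end Fermat.Agent.DS
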