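import Mathlib

/-!
# A Parseval inequality for power series, by roots of unity
-/

set_option autoImplicit false

namespace Fermat.Agent.DS

open Finset Filter Topology

/-- discrete orthogonality -/
theorem sum_pow_root {M : ℕ} {ζ : ℂ} (hζ : IsPrimitiveRoot ζ M) {n m : ℕ} (hn : n < M)
    (hm : m < M) : ∑ j ∈ range M, (ζ ^ n * (ζ ^ m)⁻¹) ^ j = if n = m then (M : ℂ) else 0 := by
  have hM : M ≠ 0 := by omega
  have hζ0 : ζ ≠ 0 := hζ.ne_zero hM
  split_ifs with h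
  · subst h
    rw [mul_inv_cancel₀ (pow_ne_zero _ hζ0)]
    simp
  · have hw : ζ ^ n * (ζ ^ m)⁻¹ ≠ 1 := by
      intro h1
      apply h
      have h2 : ζ ^ n = ζ ^ m := by
        rw [mul_inv_eq_iff_eq_mul₀ (pow_ne_zero _ hζ0), one_mul] at h1
        exact h1
      exact hζ.pow_inj hn hm h2
    rw [geom_sum_eq hw]
    have h3 : (ζ ^ n * (ζ ^ m)⁻¹) ^ M = 1 := by
      rw [mul_pow, inv_pow, ← pow_mul, ← pow_mul, mul_comm n, mul_comm m, pow_mul, pow_mul,
        hζ.pow_eq_one]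
      simp
    rw [h3, sub_self, zero_div]

/-- **discrete Parseval** -/
theorem discrete_parseval {M : ℕ} {ζ : ℂ} (hζ : IsPrimitiveRoot ζ M) (b : ℕ → ℂ) :
    ∑ j ∈ range M, ‖∑ n ∈ range M, b n * (ζ ^ j) ^ n‖ ^ 2 = M * ∑ n ∈ range M, ‖b n‖ ^ 2 := by
  rcases Nat.eq_zero_or_pos M with h0 | hM
  · subst h0; simp
  have hζn : ‖ζ‖ = 1 := Complex.norm_eq_one_of_pow_eq_one hζ.pow_eq_one hM.ne'
  have hconj : (starRingEnd ℂ) ζ = ζ⁻¹ := by
    rw [Complex.inv_def, Complex.normSq_eq_norm_sq, hζn]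
    simp
  have key : ((∑ j ∈ range M, ‖∑ n ∈ range M, b n * (ζ ^ j) ^ n‖ ^ 2 : ℝ) : ℂ) =
      ((M * ∑ n ∈ range M, ‖b n‖ ^ 2 : ℝ) : ℂ) := by
    push_cast
    have h1 : ∀ z : ℂ, ((‖z‖ : ℝ) : ℂ) ^ 2 = z * (starRingEnd ℂ) z := fun z =>
      (Complex.mul_conj' z).symm
    simp only [h1]
    have h2 : ∀ j ∈ range M, (∑ n ∈ range M, b n * (ζ ^ j) ^ n) *
        (starRingEnd ℂ) (∑ n ∈ range M, b n * (ζ ^ j) ^ n) =
        ∑ n ∈ range M, ∑ m ∈ range M, b n * (starRingEnd ℂ) (b m) * (ζ ^ n * (ζ ^ m)⁻¹) ^ j := by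
      intro j _
      rw [map_sum, Finset.sum_mul_sum]
      refine Finset.sum_congr rfl fun n _ => Finset.sum_congr rfl fun m _ => ?_
      rw [map_mul, map_pow, map_pow, hconj]
      ring
    rw [Finset.sum_congr rfl h2, Finset.sum_comm, Finset.mul_sum]
    refine Finset.sum_congr rfl fun n hn => ?_
    rw [Finset.sum_comm]
    have h3 : ∀ m ∈ range M, ∑ j ∈ range M, b n * (starRingEnd ℂ) (b m) *
        (ζ ^ n * (ζ ^ m)⁻¹) ^ j = if n = m then b n * (starRingEnd ℂ) (b m) * M else 0 := by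
      intro m hm
      rw [← Finset.mul_sum, sum_pow_root hζ (Finset.mem_range.1 hn) (Finset.mem_range.1 hm)]
      split_ifs <;> simp
    rw [Finset.sum_congr rfl h3, Finset.sum_ite_eq, if_pos hn]
    ring
  exact_mod_cast key

/-- **Parseval inequality** -/
theorem parseval_le {a : ℕ → ℂ} {r B : ℝ} (hr : 0 ≤ r) (hB : 0 ≤ B)
    (hs : Summable fun n => ‖a n‖ * r ^ n)
    (hb : ∀ q : ℂ, ‖q‖ = r → ‖∑' n, a n * q ^ n‖ ≤ B) (K : ℕ) :
    ∑ n ∈ range K, ‖a n‖ ^ 2 * (r ^ 2) ^ n ≤ B ^ 2 := by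
  have hsum : ∀ q : ℂ, ‖q‖ = r → Summable fun n => a n * q ^ n := fun q hq =>
    Summable.of_norm (by simpa [norm_mul, norm_pow, hq] using hs)
  -- the tail
  set T : ℕ → ℝ := fun M => ∑' n, ‖a (n + M)‖ * r ^ (n + M) with hT
  have hT0 : Tendsto T atTop (𝓝 0) := tendsto_sum_nat_add fun n => ‖a n‖ * r ^ n
  have hTn : ∀ M, 0 ≤ T M := fun M => tsum_nonneg fun n => by positivity
  have hP : ∀ (M : ℕ) (q : ℂ), ‖q‖ = r → ‖∑ n ∈ range M, a n * q ^ n‖ ≤ B + T M := by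
    intro M q hq
    have h1 := (hsum q hq).sum_add_tsum_nat_add M
    have h2 : ∑ n ∈ range M, a n * q ^ n = (∑' n, a n * q ^ n) - ∑' n, a (n + M) * q ^ (n + M) := by
      rw [← h1]; ring
    rw [h2]
    refine (norm_sub_le _ _).trans (add_le_add (hb q hq) ?_)
    refine (norm_tsum_le_tsum_norm ?_).trans (le_of_eq ?_)
    · simpa [norm_mul, norm_pow, hq] using (summable_nat_add_iff M).2 hs
    · simp [norm_mul, norm_pow, hq, hT]
  have hmain : ∀ M, K ≤ M → 1 ≤ M → ∑ n ∈ range K, ‖a n‖ ^ 2 * (r ^ 2) ^ n ≤ (B + T M) ^ 2 := by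
    intro M hKM hM
    have hζ := Complex.isPrimitiveRoot_exp M (by omega)
    set ζ := Complex.exp (2 * Real.pi * Complex.I / M) with hζdef
    have hζn : ‖ζ‖ = 1 := Complex.norm_eq_one_of_pow_eq_one hζ.pow_eq_one (by omega)
    have h1 := discrete_parseval hζ (fun n => a n * (r : ℂ) ^ n)
    have h2 : ∀ j ∈ range M, ‖∑ n ∈ range M, a n * (r : ℂ) ^ n * (ζ ^ j) ^ n‖ ^ 2 ≤
        (B + T M) ^ 2 := by
      intro j _
      have h3 : ∀ n ∈ range M, a n * (r : ℂ) ^ n * (ζ ^ j) ^ n = a n * (r * ζ ^ j) ^ n := by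
        intro n _
        rw [mul_pow]; ring
      rw [Finset.sum_congr rfl h3]
      refine pow_le_pow_left₀ (norm_nonneg _) (hP M _ ?_) 2
      rw [norm_mul, norm_pow, hζn, one_pow, mul_one, Complex.norm_real, Real.norm_of_nonneg hr]
    have h4 := Finset.sum_le_sum h2
    rw [h1, Finset.sum_const, Finset.card_range, nsmul_eq_mul] at h4
    have hMpos : (0 : ℝ) < M := by exact_mod_cast hM
    have h5 := le_of_mul_le_mul_left h4 hMpos
    refine le_trans ?_ h5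
    refine (Finset.sum_le_sum_of_subset_of_nonneg (Finset.range_mono hKM)
      fun _ _ _ => by positivity).trans (le_of_eq ?_)
    refine Finset.sum_congr rfl fun n _ => ?_
    rw [norm_mul, norm_pow, Complex.norm_real, Real.norm_of_nonneg hr, mul_pow, ← pow_mul,
      ← pow_mul, mul_comm 2 n]
  have hlim : Tendsto (fun M => (B + T M) ^ 2) atTop (𝓝 ((B + 0) ^ 2)) :=
    (tendsto_const_nhds.add hT0).pow 2
  rw [add_zero] at hlim
  refine ge_of_tendsto hlim ?_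
  filter_upwards [eventually_ge_atTop K, eventually_ge_atTop 1] with M h1 h2
  exact hmain M h1 h2

end Fermat.Agent.DS
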