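import Fermat.Agent.DS.Diam

/-!
# Translates by rational matrices; extraction of arithmetic progressions of coefficients
-/

set_option autoImplicit false
set_option linter.style.haveILetI false
set_option linter.unusedSectionVars false

noncomputable section

open UpperHalfPlane hiding I
open Complex Filter ModularForm
open scoped Topology MatrixGroups Real Manifold

namespace Fermat.Agent.DS

open Fermat.Agent.GamH Fermat.Agent.MFLib CongruenceSubgroup OnePoint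

variable {Γ : Subgroup SL(2, ℤ)} {k : ℤ} {f : ℍ → ℂ}

/-- rational matrices inside the real ones -/
abbrev rG (g : GL (Fin 2) ℚ) : GL (Fin 2) ℝ := Matrix.GeneralLinearGroup.map (Rat.castHom ℝ) g

theorem isCusp_rG (g : GL (Fin 2) ℚ) : IsCusp (rG g • (∞ : OnePoint ℝ)) 𝒮ℒ := by
  rw [isCusp_SL2Z_iff]
  refine ⟨g • ∞, ?_⟩
  rw [← Rat.coe_castHom, OnePoint.map_smul]
  rfl

theorem bdd_rat (hf : HB k f) (g : GL (Fin 2) ℚ) : IsBoundedAtImInfty (f ∣[k] rG g) := by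
  rw [← isBoundedAt_infty_iff, ← IsBoundedAt.smul_iff, isBoundedAt_iff_forall_SL2Z (isCusp_rG g)]
  exact fun γ _ => hf.bdd γ

theorem zero_rat (hf : IsCF Γ k f) (g : GL (Fin 2) ℚ) : IsZeroAtImInfty (f ∣[k] rG g) := by
  rw [← isZeroAt_infty_iff, ← IsZeroAt.smul_iff, isZeroAt_iff_forall_SL2Z (isCusp_rG g)]
  exact fun γ _ => hf.zero_cusps γ

theorem SL_eq_rG (γ : SL(2, ℤ)) : ∃ g : GL (Fin 2) ℚ, (γ : GL (Fin 2) ℝ) = rG g := by
  refine ⟨Matrix.SpecialLinearGroup.mapGL ℚ γ, ?_⟩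
  apply Matrix.GeneralLinearGroup.ext
  intro i j
  rw [coe_entry]
  simp [rG]

theorem gm_eq_rG {a b c d : ℚ} (h : a * d - b * c ≠ 0) :
    gm a b c d (by exact_mod_cast h) = rG (Matrix.GeneralLinearGroup.mkOfDetNeZero !![a, b; c, d]
      (by rwa [Matrix.det_fin_two_of])) := by
  apply Matrix.GeneralLinearGroup.ext
  intro i j
  rw [val_gm]
  fin_cases i <;> fin_cases j <;> simp [rG, Matrix.GeneralLinearGroup.mkOfDetNeZero]

theorem HB_slash_rat (hf : HB k f) (g : GL (Fin 2) ℚ) : HB k (f ∣[k] rG g) where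
  holo := MDifferentiable.slash hf.holo k _
  bdd γ := by
    obtain ⟨g', hg'⟩ := SL_eq_rG γ
    rw [SL_slash, hg', ← SlashAction.slash_mul, ← map_mul]
    exact bdd_rat hf _

theorem zero_slash_rat (hf : IsCF Γ k f) (g : GL (Fin 2) ℚ) (γ : SL(2, ℤ)) :
    IsZeroAtImInfty ((f ∣[k] rG g) ∣[k] γ) := by
  obtain ⟨g', hg'⟩ := SL_eq_rG γ
  rw [SL_slash, hg', ← SlashAction.slash_mul, ← map_mul]
  exact zero_rat hf _

theorem uT_eq_rG (t : ℚ) : ∃ g : GL (Fin 2) ℚ, uT (t : ℝ) = rG g := by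
  have h := gm_eq_rG (a := 1) (b := t) (c := 0) (d := 1) (by norm_num)
  refine ⟨Matrix.GeneralLinearGroup.mkOfDetNeZero !![1, t; 0, 1] (by
    rw [Matrix.det_fin_two_of]; norm_num), ?_⟩
  rw [← h, uT]
  apply gm_congr <;> simp

variable {N : ℕ} [NeZero N]

/-- `f(z + c/N)` is modular on `Γ₁(N²)` -/
theorem isCF_uT (hf : IsCF (Gamma1 N) k f) (c : ℤ) :
    IsCF (Gamma1 (N ^ 2)) k (f ∣[k] uT ((c / N : ℚ) : ℝ)) := by
  obtain ⟨g, hg⟩ := uT_eq_rG (c / N : ℚ)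
  have hN : (N : ℝ) ≠ 0 := by exact_mod_cast NeZero.ne N
  refine ⟨⟨?_, ?_⟩, ?_⟩
  · rw [hg]; exact HB_slash_rat hf.toHB g
  · intro γ hγ
    rw [Gamma1_mem] at hγ
    obtain ⟨ha, hd, hc⟩ := hγ
    have hdet := sl_det γ
    obtain ⟨c', hc'⟩ : ((N ^ 2 : ℕ) : ℤ) ∣ γ 1 0 := (ZMod.intCast_zmod_eq_zero_iff_dvd _ _).1 hc
    obtain ⟨a', ha'⟩ : ((N ^ 2 : ℕ) : ℤ) ∣ γ 0 0 - 1 := by
      rw [← ZMod.intCast_zmod_eq_zero_iff_dvd]
      push_cast at ha ⊢
      rw [ha, sub_self]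
    obtain ⟨d', hd'⟩ : ((N ^ 2 : ℕ) : ℤ) ∣ γ 1 1 - 1 := by
      rw [← ZMod.intCast_zmod_eq_zero_iff_dvd]
      push_cast at hd ⊢
      rw [hd, sub_self]
    push_cast at hc' ha' hd'
    -- the conjugate
    have key : uT ((c / N : ℚ) : ℝ) * (γ : GL (Fin 2) ℝ) =
        ((sm (γ 0 0 + c * N * c') (γ 0 1 + c * N * (d' - a') - c ^ 2 * c') (N ^ 2 * c')
          (γ 1 1 - c * N * c') (by
            rw [show γ 0 0 = 1 + N ^ 2 * a' by linear_combination ha',
              show γ 1 1 = 1 + N ^ 2 * d' by linear_combination hd'] at hdet ⊢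
            rw [hc'] at hdet
            linear_combination hdet) : SL(2, ℤ)) : GL (Fin 2) ℝ) * uT ((c / N : ℚ) : ℝ) := by
      have h0 := coe_sm _ _ _ _ hdet
      rw [sm_eq γ hdet] at h0
      rw [h0, coe_sm, uT, gm_mul, gm_mul]
      have e0 : ((γ 0 0 : ℤ) : ℝ) = 1 + (N : ℝ) ^ 2 * a' := by
        have : γ 0 0 = 1 + N ^ 2 * a' := by linear_combination ha'
        rw [this]; push_cast; ring
      have e1 : ((γ 1 1 : ℤ) : ℝ) = 1 + (N : ℝ) ^ 2 * d' := by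
        have : γ 1 1 = 1 + N ^ 2 * d' := by linear_combination hd'
        rw [this]; push_cast; ring
      have e2 : ((γ 1 0 : ℤ) : ℝ) = (N : ℝ) ^ 2 * c' := by
        rw [hc']; push_cast; ring
      apply gm_congr
      · push_cast; rw [e2]; field_simp; ring
      · push_cast; rw [e0, e1]; field_simp; ring
      · push_cast; rw [e2]; ring
      · push_cast; field_simp; ring
    rw [SL_slash, ← SlashAction.slash_mul, key, SlashAction.slash_mul, ← SL_slash, hf.slash]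
    refine sm_mem_Gamma1 ⟨N * c', by ring⟩ ⟨N * d' - c * c', by linear_combination hd'⟩
  · intro γ
    rw [hg]
    exact zero_slash_rat hf g γ

theorem neZero_sq : NeZero (N ^ 2) := ⟨pow_ne_zero 2 (NeZero.ne N)⟩

theorem coeff_uT (hf : IsCF (Gamma1 N) k f) (c : ℤ) (n : ℕ) :
    (qe (f ∣[k] uT ((c / N : ℚ) : ℝ))).coeff n =
      ZMod.stdAddChar ((c : ZMod N) * (n : ZMod N)) * (qe f).coeff n := by
  haveI := neZero_sq (N := N)
  have hqf : QG f := hf.qg (T_mem_Gamma1 N)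
  have hg := isCF_uT hf c
  have hN : (N : ℂ) ≠ 0 := by exact_mod_cast NeZero.ne N
  obtain ⟨b, hb⟩ : ∃ b : ℕ → ℂ, b = fun n : ℕ =>
      ZMod.stdAddChar ((c : ZMod N) * (n : ZMod N)) * (qe f).coeff n := ⟨_, rfl⟩
  have h1 : ∀ τ : ℍ, HasSum (fun n : ℕ => b n • Function.Periodic.qParam (1 : ℝ) τ ^ n)
      (hg.toIsMF.toForm τ) := by
    intro τ
    change HasSum _ ((f ∣[k] uT ((c / N : ℚ) : ℝ)) τ)
    rw [slash_uT_apply]
    have h2 := UpperHalfPlane.hasSum_qExpansion one_pos hqf.per hqf.holo hqf.bdd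
      ((((c / N : ℚ) : ℝ)) +ᵥ τ)
    convert h2 using 2 with m
    rw [hb, smul_eq_mul, smul_eq_mul]
    have h3 : Function.Periodic.qParam (1 : ℝ) (((((c / N : ℚ) : ℝ)) +ᵥ τ : ℍ) : ℂ) ^ m =
        ZMod.stdAddChar ((c : ZMod N) * (m : ZMod N)) * Function.Periodic.qParam (1 : ℝ) τ ^ m := by
      have h4 : (c : ZMod N) * (m : ZMod N) = ((c * m : ℤ) : ZMod N) := by push_cast; ring
      rw [h4, ZMod.stdAddChar_coe, Function.Periodic.qParam, Function.Periodic.qParam,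
        ← Complex.exp_nat_mul, ← Complex.exp_nat_mul, ← Complex.exp_add]
      congr 1
      rw [UpperHalfPlane.coe_vadd]
      push_cast
      field_simp
    rw [h3]
    ring
  have h2 := UpperHalfPlane.qExpansion_coeff_unique (hg.toIsMF.toForm) (h := 1) one_pos
    (hg.qg (T_mem_Gamma1 _)).analyticAt h1 n
  rw [hb] at h2
  exact h2.symm

/-- **extraction of coefficients according to the residue class** -/
theorem exists_extract (hf : IsCF (Gamma1 N) k f) (h : ZMod N → ℂ) :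
    ∃ g : ℍ → ℂ, IsCF (Gamma1 (N ^ 2)) k g ∧ ∀ n : ℕ, (qe g).coeff n = h (n : ZMod N) * (qe f).coeff n := by
  haveI := neZero_sq (N := N)
  refine ⟨∑ c : ZMod N, ((N : ℂ)⁻¹ * ZMod.dft h c) • (f ∣[k] uT (((c.val : ℤ) / N : ℚ) : ℝ)), ?_, ?_⟩
  · have hs : ∀ s : Finset (ZMod N), IsCF (Gamma1 (N ^ 2)) k
        (∑ c ∈ s, ((N : ℂ)⁻¹ * ZMod.dft h c) • (f ∣[k] uT (((c.val : ℤ) / N : ℚ) : ℝ))) := by
      intro s
      refine ⟨IsMF.sum fun c _ => (isCF_uT hf _).toIsMF.smul _, fun γ => ?_⟩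
      rw [sum_slash_SL]
      have h0 : ∀ c ∈ s, Tendsto ((((N : ℂ)⁻¹ * ZMod.dft h c) •
          (f ∣[k] uT (((c.val : ℤ) / N : ℚ) : ℝ))) ∣[k] γ) atImInfty (𝓝 0) := by
        intro c _
        rw [SL_smul_slash]
        have h1 : Tendsto ((f ∣[k] uT (((c.val : ℤ) / N : ℚ) : ℝ)) ∣[k] γ) atImInfty (𝓝 0) :=
          (isCF_uT hf _).zero_cusps γ
        have := h1.const_smul ((N : ℂ)⁻¹ * ZMod.dft h c)
        rwa [smul_zero] at this
      have h2 := tendsto_finsetSum s h0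
      rw [Finset.sum_const_zero] at h2
      refine h2.congr fun z => ?_
      rw [Finset.sum_apply]
    exact hs _
  · intro n
    rw [QG.qe_sum fun c _ => ((isCF_uT hf _).qg (T_mem_Gamma1 _)).smul _, map_sum]
    have h1 : ∀ c : ZMod N, (qe (((N : ℂ)⁻¹ * ZMod.dft h c) •
        (f ∣[k] uT (((c.val : ℤ) / N : ℚ) : ℝ)))).coeff n =
        ((N : ℂ)⁻¹ * (ZMod.stdAddChar (c * (n : ZMod N)) * ZMod.dft h c)) * (qe f).coeff n := by
      intro c
      rw [((isCF_uT hf _).qg (T_mem_Gamma1 _)).qe_smul, PowerSeries.coeff_smul, coeff_uT hf,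
        smul_eq_mul]
      rw [show (((c.val : ℤ)) : ZMod N) = c by simp]
      ring
    simp only [h1]
    rw [← Finset.sum_mul, ← Finset.mul_sum]
    congr 1
    have h2 := ZMod.invDFT_apply (ZMod.dft h) (n : ZMod N)
    rw [LinearEquiv.symm_apply_apply] at h2
    rw [h2]
    simp [smul_eq_mul]

end Fermat.Agent.DS
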