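import Fermat.Agent.DS.EisK
import Fermat.Agent.MFLib.BoundDen

/-!
# The group `Γ₁(N)`, `N ≥ 3`: a separating rational form of weight 15, conjugates of forms,
bounded denominators
-/

set_option autoImplicit false
set_option linter.style.haveILetI false
set_option linter.unusedSectionVars false

noncomputable section

open UpperHalfPlane hiding I
open Complex Filter ModularForm EisensteinSeries Matrix
open scoped Topology MatrixGroups Real Manifold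

namespace Fermat.Agent.DS

open Fermat.Agent.GamH Fermat.Agent.MFLib Fermat.Agent.ModPoly CongruenceSubgroup

local notation "Δ" => ModularForm.discriminant

variable {N : ℕ} [NeZero N]

instance finiteIndex_Gamma1 : (Gamma1 N).FiniteIndex := inferInstance

/-- the weight three series over `m ≡ a` -/
def E3 (a : ZMod N) : ℍ → ℂ := LatK 2 (fun v => (v 0 : ZMod N) = a)

theorem HB_E3 (a : ZMod N) : HB 3 (E3 a) :=
  HB_LatK (k := 2) le_rfl (fun v : Fin 2 → ZMod N => v 0 = a)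

theorem E3_slash {γ : SL(2, ℤ)} (hγ : γ ∈ Gamma0 N) (a : ZMod N) :
    E3 a ∣[(3 : ℤ)] γ = E3 (a * ((γ 0 0 : ℤ) : ZMod N)) := by
  have h := LatK_slash (k := 2) (fun v => (v 0 : ZMod N) = a) γ
  change E3 a ∣[((2 + 1 : ℕ) : ℤ)] γ = _
  rw [E3, h, E3]
  congr 1
  funext v
  have h0 : ((γ 1 0 : ℤ) : ZMod N) = 0 := Gamma0_mem.1 hγ
  have h1 : (v ᵥ* (γ⁻¹).1) 0 = v 0 * γ 1 1 - v 1 * γ 1 0 := by
    have h2 : (γ⁻¹).1 = !![γ 1 1, -γ 0 1; -γ 1 0, γ 0 0] := by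
      have := Matrix.SpecialLinearGroup.coe_inv γ
      rw [Matrix.adjugate_fin_two] at this
      exact this
    rw [h2]
    simp [Matrix.vecMul, dotProduct, Fin.sum_univ_two]
    ring
  rw [h1]
  push_cast
  rw [h0, mul_zero, sub_zero]
  have hd := Gamma0_det hγ
  apply propext
  constructor
  · rintro rfl
    rw [mul_assoc, mul_comm ((γ 1 1 : ℤ) : ZMod N), hd, mul_one]
  · intro h
    rw [h, mul_assoc, hd, mul_one]

theorem E3_eq_lsK (a : ZMod N) : E3 a = lsK (M := 1) 2 (fun m => (m : ZMod N) = a) 0 := by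
  classical
  funext z
  rw [E3, LatK, lsK, ← (finTwoArrowEquiv ℤ).symm.tsum_eq]
  refine tsum_congr fun w => ?_
  have h0 : (finTwoArrowEquiv ℤ).symm w = ![w.1, w.2] := rfl
  rw [h0, trK]
  have h1 : ((w.2 : ℤ) : ZMod 1) = 0 := Subsingleton.elim _ _
  simp only [h1, and_true]
  congr 1

theorem isMF_E3 (a : ZMod N) : IsMF (Gamma1 N) 3 (E3 a) where
  toHB := HB_E3 a
  slash γ hγ := by
    rw [Gamma1_mem] at hγ
    rw [E3_slash (Gamma0_mem.2 hγ.2.2), hγ.1]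
    simp

/-- the integral power series of the weight three series -/
def f3 (a : ZMod N) : PowerSeries ℤ :=
  PowerSeries.mk fun n => ∑ x ∈ n.divisorsAntidiagonal,
    ((if ((x.1 : ℕ) : ZMod N) = a then (x.2 : ℤ) ^ 2 else 0) -
      (if -((x.1 : ℕ) : ZMod N) = a then (x.2 : ℤ) ^ 2 else 0))

theorem cG_E3 {a : ZMod N} (ha : a ≠ 0) (n : ℕ) :
    cGK (M := 1) 2 (fun m => (m : ZMod N) = a) 0 n = CK 2 1 * ((f3 a).coeff n : ℂ) := by
  classical
  rw [cGK]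
  have hz : zM 1 = 1 := by
    have := zM_pow 1
    rwa [pow_one] at this
  by_cases hn : n = 0
  · subst hn
    rw [if_pos rfl, if_neg]
    · simp [f3]
    · intro h
      apply ha
      simpa using h.symm
  · rw [if_neg hn, f3, PowerSeries.coeff_mk, hz]
    congr 1
    push_cast
    refine Finset.sum_congr rfl fun x _ => ?_
    simp only [one_pow, mul_one]
    ring

theorem qg_E3 (a : ZMod N) : QG (E3 a) := (isMF_E3 a).qg (T_mem_Gamma1 N)

theorem qe_E3 {a : ZMod N} (ha : a ≠ 0) :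
    qe (E3 a) = (CK 2 1) • (f3 a).map (Int.castRingHom ℂ) := by
  ext n
  obtain ⟨c, hc⟩ : ∃ c : ℕ → ℂ, c = fun n => CK 2 1 * ((f3 a).coeff n : ℂ) := ⟨_, rfl⟩
  have h1 : ∀ τ : ℍ, HasSum (fun n : ℕ => c n • Function.Periodic.qParam (1 : ℝ) τ ^ n)
      ((isMF_E3 a).toForm τ) := by
    intro τ
    have h1 := hasSum_lsK (M := 1) (k := 2) le_rfl (fun m => (m : ZMod N) = a) 0 τ
    rw [← E3_eq_lsK] at h1
    have h2 : qM 1 (τ : ℂ) = Function.Periodic.qParam (1 : ℝ) τ := by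
      rw [qM, Function.Periodic.qParam]
      norm_num
    rw [h2] at h1
    refine h1.congr_fun ?_
    intro n
    rw [smul_eq_mul, hc]
    simp only
    rw [← cG_E3 ha]
  have h2 := UpperHalfPlane.qExpansion_coeff_unique ((isMF_E3 a).toForm) (h := 1) one_pos
    (qg_E3 a).analyticAt h1 n
  rw [hc] at h2
  rw [PowerSeries.coeff_smul, PowerSeries.coeff_map, smul_eq_mul]
  exact h2.symm

/-- normalised weight three series -/
def G3 (a : ZMod N) : ℍ → ℂ := (CK 2 1)⁻¹ • E3 a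

theorem isMF_G3 (a : ZMod N) : IsMF (Gamma1 N) 3 (G3 a) := (isMF_E3 a).smul _

theorem qg_G3 (a : ZMod N) : QG (G3 a) := (isMF_G3 a).qg (T_mem_Gamma1 N)

theorem qe_G3 {a : ZMod N} (ha : a ≠ 0) : qe (G3 a) = (f3 a).map (Int.castRingHom ℂ) := by
  rw [G3, (qg_E3 a).qe_smul, qe_E3 ha, smul_smul, inv_mul_cancel₀ (CK_ne_zero 2 1), one_smul]

theorem isInt_qe_G3 {a : ZMod N} (ha : a ≠ 0) : IsInt (qe (G3 a)) := fun n =>
  ⟨(f3 a).coeff n, by rw [qe_G3 ha, PowerSeries.coeff_map]; rfl⟩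

theorem G3_slash {γ : SL(2, ℤ)} (hγ : γ ∈ Gamma0 N) (a : ZMod N) :
    G3 a ∣[(3 : ℤ)] γ = G3 (a * ((γ 0 0 : ℤ) : ZMod N)) := by
  rw [G3, SL_smul_slash, E3_slash hγ, G3]

theorem coeff_f3_one (a : ZMod N) : (f3 a).coeff 1 =
    (if 1 = a then 1 else 0) - (if -1 = a then 1 else 0) := by
  rw [f3, PowerSeries.coeff_mk, Nat.divisorsAntidiagonal_one, Finset.sum_singleton]
  norm_num

theorem one_ne_zero_of (hN : 3 ≤ N) : (1 : ZMod N) ≠ 0 := by
  haveI : Fact (1 < N) := ⟨by omega⟩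
  exact one_ne_zero

theorem one_ne_neg_one_of (hN : 3 ≤ N) : (-1 : ZMod N) ≠ 1 := by
  intro h
  have h2 : ((2 : ℕ) : ZMod N) = 0 := by
    have : (1 : ZMod N) + 1 = 0 := by
      nth_rewrite 1 [← h]
      exact neg_add_cancel 1
    push_cast
    rw [← this]
    norm_num
  rw [ZMod.natCast_eq_zero_iff] at h2
  have := Nat.le_of_dvd two_pos h2
  omega

theorem G3_ne_zero (hN : 3 ≤ N) : G3 (1 : ZMod N) ≠ 0 := by
  intro h
  have h1 : (qe (G3 (1 : ZMod N))).coeff 1 = 0 := by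
    rw [h]
    have : qe (0 : ℍ → ℂ) = 0 := QG.zero.qe_eq_zero.mpr rfl
    rw [this]; simp
  rw [qe_G3 (one_ne_zero_of hN), PowerSeries.coeff_map, coeff_f3_one, if_pos rfl,
    if_neg (one_ne_neg_one_of hN)] at h1
  simp at h1

/-- `γ` fixing `G₃` and lying in `Γ₀(N)` lies in `Γ₁(N)` -/
theorem mem_Gamma1_of_G3_slash (hN : 3 ≤ N) {γ : SL(2, ℤ)} (hγ : γ ∈ Gamma0 N)
    (h : G3 (1 : ZMod N) ∣[(3 : ℤ)] γ = G3 (1 : ZMod N)) : γ ∈ Gamma1 N := by
  rw [G3_slash hγ, one_mul] at h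
  have hunit : ((γ 0 0 : ℤ) : ZMod N) ≠ 0 := by
    intro h0
    have := Gamma0_det hγ
    rw [h0, zero_mul] at this
    exact one_ne_zero_of hN this.symm
  have h5 := congrArg (fun F => (qe F).coeff 1) h
  simp only [qe_G3 hunit, qe_G3 (one_ne_zero_of hN), PowerSeries.coeff_map] at h5
  have h6 := (algebraMap ℤ ℂ).injective_int h5
  rw [coeff_f3_one, coeff_f3_one, if_pos rfl, if_neg (one_ne_neg_one_of hN)] at h6
  have h7 : (1 : ZMod N) = ((γ 0 0 : ℤ) : ZMod N) := by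
    by_contra hne
    rw [if_neg hne] at h6
    split_ifs at h6 <;> omega
  have h8 := Gamma0_det hγ
  rw [← h7, one_mul] at h8
  rw [Gamma1_mem]
  exact ⟨h7.symm, h8, Gamma0_mem.1 hγ⟩

/-- the candidates for the separating form -/
def xc (N : ℕ) [NeZero N] (c : ℕ) : ℍ → ℂ := G3 (1 : ZMod N) * (xN N + (c : ℂ) • Δ)

theorem isMF_u (c : ℕ) : IsMF (Gamma1 N) 12 (xN N + (c : ℂ) • Δ) :=
  ((isMF_xN N).mono (Gamma1_in_Gamma0 N)).add ((isMF_disc.mono le_top).smul _)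

theorem isMF_xc (c : ℕ) : IsMF (Gamma1 N) 15 (xc N c) :=
  ((isMF_G3 (1 : ZMod N)).mul (isMF_u c)).congr_weight (by norm_num)

theorem isRat_u (c : ℕ) : IsRat (qe (xN N + (c : ℂ) • Δ)) := by
  rw [QG.qe_add ((isMF_xN N).qg (T_mem_Gamma0 N)) (qg_disc.smul _), qg_disc.qe_smul]
  have := (isRat_qe_disc).smul (c : ℚ)
  exact (isRat_qe_xN N).add (by simpa using this)

theorem BD_u (c : ℕ) : BD (qe (xN N + (c : ℂ) • Δ)) := by
  rw [QG.qe_add ((isMF_xN N).qg (T_mem_Gamma0 N)) (qg_disc.smul _), qg_disc.qe_smul]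
  refine BD.add (exists_isInt_qe_xN N) ?_
  have h1 : (c : ℂ) • qe Δ = ((c : ℂ) • (1 : PowerSeries ℂ)) * qe Δ := by
    rw [smul_mul_assoc, one_mul]
  rw [h1]
  exact (IsInt.one.natsmul c).BD.mul exists_isInt_qe_disc

theorem isRat_xc (hN : 3 ≤ N) (c : ℕ) : IsRat (qe (xc N c)) := by
  rw [xc, (qg_G3 (1 : ZMod N)).qe_mul ((isMF_u c).qg (T_mem_Gamma1 N))]
  exact (isInt_qe_G3 (one_ne_zero_of hN)).isRat.mul (isRat_u c)

theorem BD_xc (hN : 3 ≤ N) (c : ℕ) : BD (qe (xc N c)) := by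
  rw [xc, (qg_G3 (1 : ZMod N)).qe_mul ((isMF_u c).qg (T_mem_Gamma1 N))]
  exact (isInt_qe_G3 (one_ne_zero_of hN)).BD.mul (BD_u c)

theorem xc_slash (c : ℕ) (γ : SL(2, ℤ)) : xc N c ∣[(15 : ℤ)] γ =
    (G3 (1 : ZMod N) ∣[(3 : ℤ)] γ) * (xN N ∣[(12 : ℤ)] γ + (c : ℂ) • Δ) := by
  have h1 := mul_slash_SL2 3 12 γ (G3 (1 : ZMod N)) (xN N + (c : ℂ) • Δ)
  have h2 : (Δ : ℍ → ℂ) ∣[(12 : ℤ)] γ = Δ := isMF_disc.slash γ (Subgroup.mem_top γ)
  rw [SlashAction.add_slash, SL_smul_slash, h2] at h1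
  exact h1

/-- at most one candidate fails for a given `γ` -/
theorem xc_ne (hN : 3 ≤ N) {γ : SL(2, ℤ)} (hγ : γ ∉ Gamma1 N) {c d : ℕ} (hcd : c ≠ d)
    (hc : xc N c ∣[(15 : ℤ)] γ = xc N c) (hd : xc N d ∣[(15 : ℤ)] γ = xc N d) : False := by
  rw [xc_slash] at hc hd
  have hcd' : (c : ℂ) - d ≠ 0 := by
    rw [sub_ne_zero]
    exact_mod_cast hcd
  have hG : G3 (1 : ZMod N) ∣[(3 : ℤ)] γ = G3 (1 : ZMod N) := by
    funext τ
    have h1 := congrFun hc τ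
    have h2 := congrFun hd τ
    simp only [xc, Pi.mul_apply, Pi.add_apply, Pi.smul_apply, smul_eq_mul] at h1 h2
    have h3 : ((c : ℂ) - d) * Δ τ ≠ 0 := mul_ne_zero hcd' (discriminant_ne_zero τ)
    apply mul_right_cancel₀ h3
    linear_combination h1 - h2
  rw [hG] at hc
  have hx : xN N ∣[(12 : ℤ)] γ = xN N := by
    have h1 : G3 (1 : ZMod N) * (xN N ∣[(12 : ℤ)] γ - xN N) = 0 := by
      have h2 : G3 (1 : ZMod N) * (xN N ∣[(12 : ℤ)] γ + (c : ℂ) • Δ) =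
        G3 1 * (xN N + (c : ℂ) • Δ) := hc
      rw [mul_add, mul_add] at h2
      rw [mul_sub, sub_eq_zero]
      exact add_right_cancel h2
    rcases (UpperHalfPlane.mul_eq_zero_iff (qg_G3 (1 : ZMod N)).holo
      ((holo_slash (isMF_xN N).holo 12 γ).sub (isMF_xN N).holo)).mp h1 with h | h
    · exact absurd h (G3_ne_zero hN)
    · exact sub_eq_zero.1 h
  exact hγ (mem_Gamma1_of_G3_slash hN (mem_Gamma0_of_xN_slash (N := N) hx) hG)

/-- **a separating rational form for `Γ₁(N)`** -/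
theorem exists_sep (hN : 3 ≤ N) : ∃ x : ℍ → ℂ, IsMF (Gamma1 N) 15 x ∧ IsRat (qe x) ∧ BD (qe x) ∧
    Function.Injective (conj (Gamma1 N) 15 x) := by
  classical
  -- the bad parameters
  let bad : (SL(2, ℤ) ⧸ (Gamma1 N)) → Set ℕ := fun q =>
    {c | q ≠ ((1 : SL(2, ℤ)) : SL(2, ℤ) ⧸ (Gamma1 N)) ∧ conj (Gamma1 N) 15 (xc N c) q = xc N c}
  have hbad : ∀ q, (bad q).Subsingleton := by
    intro q c hc d hd
    induction q using QuotientGroup.induction_on with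
    | H g =>
      by_contra hcd
      obtain ⟨hq, hc⟩ := hc
      obtain ⟨-, hd⟩ := hd
      rw [conj_mk (isMF_xc c)] at hc
      rw [conj_mk (isMF_xc d)] at hd
      refine xc_ne hN (γ := g⁻¹) (fun hmem => hq ?_) hcd hc hd
      rw [QuotientGroup.eq, mul_one]
      exact hmem
  have hfin : (⋃ q, bad q).Finite := Set.finite_iUnion fun q => (hbad q).finite
  obtain ⟨c, hc⟩ := hfin.exists_notMem
  refine ⟨xc N c, isMF_xc c, isRat_xc hN c, BD_xc hN c, ?_⟩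
  intro p q
  induction p using QuotientGroup.induction_on with
  | H g =>
  induction q using QuotientGroup.induction_on with
  | H h =>
  intro heq
  rw [conj_mk (isMF_xc c), conj_mk (isMF_xc c)] at heq
  by_contra hne
  apply hc
  rw [Set.mem_iUnion]
  refine ⟨((h⁻¹ * g : SL(2, ℤ)) : SL(2, ℤ) ⧸ (Gamma1 N)), ?_, ?_⟩
  · intro h1
    apply hne
    rw [QuotientGroup.eq, mul_one, _root_.mul_inv_rev, inv_inv] at h1
    rw [QuotientGroup.eq]
    exact h1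
  · rw [conj_mk (isMF_xc c), _root_.mul_inv_rev, inv_inv, SlashAction.slash_mul, heq,
      ← SlashAction.slash_mul, inv_mul_cancel, SlashAction.slash_one]

/-- conjugates of modular forms on `Γ₁(N)` -/
theorem exists_conj_Gamma1 (hN : 3 ≤ N) (σ : ℂ →+* ℂ) {k : ℤ} {f : ℍ → ℂ}
    (hf : IsMF (Gamma1 N) k f) :
    ∃ f' : ℍ → ℂ, IsMF (Gamma1 N) k f' ∧ qe f' = PowerSeries.map σ (qe f) := by
  obtain ⟨x, hx, hrat, -, hinj⟩ := exists_sep hN
  exact exists_conj_form hx (T_mem_Gamma1 N) hinj hrat σ hf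

/-- rational modular forms on `Γ₁(N)` have bounded denominators -/
theorem BD_Gamma1 (hN : 3 ≤ N) {k : ℤ} {f : ℍ → ℂ} (hf : IsMF (Gamma1 N) k f)
    (hfrat : IsRat (qe f)) : BD (qe f) := by
  obtain ⟨x, hx, hrat, hBD, hinj⟩ := exists_sep hN
  exact BD_of_isRat hx (T_mem_Gamma1 N) hinj hrat hBD hf hfrat

/-- conjugates of cusp forms on `Γ₁(N)` -/
theorem exists_conj_cusp_Gamma1 (hN : 3 ≤ N) (σ : ℂ →+* ℂ) {k : ℤ} {f : ℍ → ℂ}
    (hf : IsCF (Gamma1 N) k f) :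
    ∃ f' : ℍ → ℂ, IsCF (Gamma1 N) k f' ∧ qe f' = PowerSeries.map σ (qe f) := by
  obtain ⟨n, hn, g, hg, hfg⟩ := hf.exists_pow_eq
  obtain ⟨f', hf', hqf⟩ := exists_conj_Gamma1 hN σ hf.toIsMF
  obtain ⟨g', hg', hqg⟩ := exists_conj_Gamma1 hN σ hg
  refine ⟨f', isCF_of_pow_eq hn hf' hg' ?_, hqf⟩
  have hT := T_mem_Gamma1 N
  rw [← ((hf'.qg hT).pow n).qe_inj (qg_disc.mul (hg'.qg hT)), (hf'.qg hT).qe_pow,
    qg_disc.qe_mul (hg'.qg hT), hqf, hqg, ← map_pow, ← (hf.qg hT).qe_pow, hfg,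
    qg_disc.qe_mul (hg.qg hT), map_mul]
  congr 1
  ext m
  obtain ⟨r, hr⟩ := isRat_qe_disc m
  rw [PowerSeries.coeff_map, hr, map_ratCast]

end Fermat.Agent.DS
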