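import Fermat.Agent.DS.Euler
import Fermat.Agent.DS.Parseval

/-!
# Bounding the Rankin series
-/

set_option autoImplicit false

namespace Fermat.Agent.DS

open Finset Filter Topology

variable {N : ℕ} {a e : ℕ → ℂ}

theorem one_sub_two_rpow {t : ℝ} (ht0 : 0 < t) (ht1 : t ≤ 1) : t / 4 ≤ 1 - (2 : ℝ) ^ (-t) := by
  have h1 : (2 : ℝ) ^ (-t) = Real.exp (-(t * Real.log 2)) := by
    rw [Real.rpow_def_of_pos two_pos]
    congr 1
    ring
  have hl := Real.log_two_gt_d9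
  have hl2 := Real.log_two_lt_d9
  set u := t * Real.log 2 with hu
  have hu0 : 0 < u := by positivity
  have hu1 : u ≤ 1 := by nlinarith
  have h2 := Real.add_one_le_exp u
  have h3 : Real.exp (-u) ≤ 1 / (1 + u) := by
    rw [Real.exp_neg, ← one_div]
    exact one_div_le_one_div_of_le (by linarith) (by linarith)
  have h4 : 1 - 1 / (1 + u) = u / (1 + u) := by field_simp; ring
  have h5 : u / 2 ≤ u / (1 + u) := by
    apply div_le_div_of_nonneg_left hu0.le (by linarith) (by linarith)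
  rw [h1]
  have h6 : t / 4 ≤ u / 2 := by
    rw [hu]; nlinarith
  linarith

theorem rk_le (n K : ℕ) (hnK : n < K) {s : ℝ} (hs : 1 < s) :
    rk N a s n ≤ Real.exp (8 * Real.pi) * ∑ j ∈ range K, ((2 : ℝ) ^ (-s)) ^ j *
      (‖a n‖ ^ 2 * Real.exp (-(4 * Real.pi * n * (1 / 2) ^ j))) := by
  have hnn : 0 ≤ Real.exp (8 * Real.pi) * ∑ j ∈ range K, ((2 : ℝ) ^ (-s)) ^ j *
      (‖a n‖ ^ 2 * Real.exp (-(4 * Real.pi * n * (1 / 2) ^ j))) := by positivity
  rw [rk]
  split_ifs with hc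
  swap
  · exact hnn
  rcases Nat.eq_zero_or_pos n with h0 | hn
  · subst h0
    have h0' : ((0 : ℕ) : ℝ) ^ (-s) = 0 := by
      rw [Nat.cast_zero, Real.zero_rpow (by linarith)]
    rw [h0', mul_zero]
    exact hnn
  set j := Nat.log 2 n with hj
  have hj1 : 2 ^ j ≤ n := Nat.pow_log_le_self 2 hn.ne'
  have hj2 : n < 2 ^ (j + 1) := Nat.lt_pow_succ_log_self one_lt_two n
  have hjK : j ∈ range K := by
    rw [Finset.mem_range]
    exact (Nat.log_lt_self 2 hn.ne').trans hnK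
  have h1 : ((2 : ℝ) ^ (-s)) ^ j * (‖a n‖ ^ 2 * Real.exp (-(4 * Real.pi * n * (1 / 2) ^ j))) ≤
      ∑ j ∈ range K, ((2 : ℝ) ^ (-s)) ^ j *
      (‖a n‖ ^ 2 * Real.exp (-(4 * Real.pi * n * (1 / 2) ^ j))) :=
    Finset.single_le_sum (f := fun j => ((2 : ℝ) ^ (-s)) ^ j *
      (‖a n‖ ^ 2 * Real.exp (-(4 * Real.pi * n * (1 / 2) ^ j)))) (fun i _ => by positivity) hjK
  refine le_trans ?_ (mul_le_mul_of_nonneg_left h1 (Real.exp_pos _).le)
  have h2 : (n : ℝ) ^ (-s) ≤ ((2 : ℝ) ^ (-s)) ^ j := by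
    rw [Real.rpow_pow_comm two_pos.le]
    refine Real.rpow_le_rpow_of_nonpos (by positivity) ?_ (by linarith)
    exact_mod_cast hj1
  have h3 : 1 ≤ Real.exp (8 * Real.pi) * Real.exp (-(4 * Real.pi * n * (1 / 2) ^ j)) := by
    rw [← Real.exp_add]
    apply Real.one_le_exp
    have h4 : (n : ℝ) * (1 / 2) ^ j ≤ 2 := by
      have h5 : (n : ℝ) ≤ 2 ^ (j + 1) := by exact_mod_cast hj2.le
      calc (n : ℝ) * (1 / 2) ^ j ≤ 2 ^ (j + 1) * (1 / 2) ^ j :=
            mul_le_mul_of_nonneg_right h5 (by positivity)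
        _ = 2 := by
          rw [pow_succ, one_div, inv_pow]
          field_simp
    have hpi := Real.pi_pos
    nlinarith
  calc ‖a n‖ ^ 2 * (n : ℝ) ^ (-s) ≤ ‖a n‖ ^ 2 * ((2 : ℝ) ^ (-s)) ^ j :=
        mul_le_mul_of_nonneg_left h2 (by positivity)
    _ ≤ (‖a n‖ ^ 2 * ((2 : ℝ) ^ (-s)) ^ j) *
        (Real.exp (8 * Real.pi) * Real.exp (-(4 * Real.pi * n * (1 / 2) ^ j))) :=
        le_mul_of_one_le_right (by positivity) h3
    _ = _ := by ring

/-- **the Rankin series is `O(1/(s-1))`** -/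
theorem rankin_series {C : ℝ} (hC : ∀ (y : ℝ), 0 < y → y ≤ 1 → ∀ K : ℕ,
    ∑ n ∈ range K, ‖a n‖ ^ 2 * Real.exp (-(4 * Real.pi * n * y)) ≤ C / y)
    {s : ℝ} (hs : 1 < s) (hs2 : s ≤ 2) :
    Summable (rk N a s) ∧ ∑' n, rk N a s n ≤ 4 * Real.exp (8 * Real.pi) * C / (s - 1) := by
  have hC0 : 0 ≤ C := by
    have := hC 1 one_pos le_rfl 0
    simpa using this
  set x : ℝ := 2 * (2 : ℝ) ^ (-s) with hx
  have hx1 : x = (2 : ℝ) ^ (-(s - 1)) := by
    rw [hx, neg_sub, sub_eq_add_neg, Real.rpow_add two_pos, Real.rpow_one]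
  have hx0 : 0 < x := by positivity
  have hx2 : (s - 1) / 4 ≤ 1 - x := by
    rw [hx1]
    exact one_sub_two_rpow (by linarith) (by linarith)
  have hx3 : x < 1 := by linarith
  have hbound : ∀ K, ∑ n ∈ range K, rk N a s n ≤ 4 * Real.exp (8 * Real.pi) * C / (s - 1) := by
    intro K
    have h1 : ∑ n ∈ range K, rk N a s n ≤ ∑ n ∈ range K, Real.exp (8 * Real.pi) *
        ∑ j ∈ range K, ((2 : ℝ) ^ (-s)) ^ j *
        (‖a n‖ ^ 2 * Real.exp (-(4 * Real.pi * n * (1 / 2) ^ j))) :=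
      Finset.sum_le_sum fun n hn => rk_le n K (Finset.mem_range.1 hn) hs
    refine h1.trans ?_
    rw [← Finset.mul_sum, Finset.sum_comm]
    have h2 : ∀ j ∈ range K, ∑ n ∈ range K, ((2 : ℝ) ^ (-s)) ^ j *
        (‖a n‖ ^ 2 * Real.exp (-(4 * Real.pi * n * (1 / 2) ^ j))) ≤ C * x ^ j := by
      intro j _
      rw [← Finset.mul_sum]
      have h3 := hC ((1 / 2) ^ j) (by positivity) (pow_le_one₀ (by norm_num) (by norm_num)) K
      have h4 : C / (1 / 2) ^ j = C * 2 ^ j := by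
        rw [one_div, inv_pow, div_inv_eq_mul]
      rw [h4] at h3
      calc _ ≤ ((2 : ℝ) ^ (-s)) ^ j * (C * 2 ^ j) := mul_le_mul_of_nonneg_left h3 (by positivity)
        _ = _ := by rw [hx, mul_pow]; ring
    have h5 : ∑ j ∈ range K, C * x ^ j ≤ C * (4 / (s - 1)) := by
      rw [← Finset.mul_sum]
      refine mul_le_mul_of_nonneg_left ?_ hC0
      have h6 : ∑ j ∈ range K, x ^ j ≤ (1 - x)⁻¹ := by
        rw [← tsum_geometric_of_lt_one hx0.le hx3]
        exact (summable_geometric_of_lt_one hx0.le hx3).sum_le_tsum _ fun i _ => by positivity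
      refine h6.trans ?_
      rw [inv_le_comm₀ (by linarith) (by apply div_pos <;> linarith), inv_div]
      exact hx2
    calc _ ≤ Real.exp (8 * Real.pi) * (C * (4 / (s - 1))) :=
          mul_le_mul_of_nonneg_left ((Finset.sum_le_sum h2).trans h5) (Real.exp_pos _).le
      _ = _ := by ring
  have hsum : Summable (rk N a s) :=
    summable_of_sum_range_le (fun n => rk_nonneg _ _ _ _) hbound
  exact ⟨hsum, hsum.tsum_le_of_sum_range_le hbound⟩

/-- **Rankin's bound** -/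
theorem rankin {C : ℝ} (h : HeckeSeq N a e) (he : ∀ p, p.Prime → ¬ p ∣ N → ‖e p‖ = 1)
    (hC : ∀ (y : ℝ), 0 < y → y ≤ 1 → ∀ K : ℕ,
      ∑ n ∈ range K, ‖a n‖ ^ 2 * Real.exp (-(4 * Real.pi * n * y)) ≤ C / y) :
    ∃ C' : ℝ, ∀ s : ℝ, 1 < s → s ≤ 2 → ∀ F : Finset ℕ, (∀ p ∈ F, p.Prime ∧ ¬ p ∣ N) →
      ∑ p ∈ F, ‖a p‖ ^ 2 * (p : ℝ) ^ (-s) ≤ Real.log (1 / (s - 1)) + C' := by
  have hC0 : 0 ≤ C := by
    have := hC 1 one_pos le_rfl 0
    simpa using this
  refine ⟨Real.log (4 * Real.exp (8 * Real.pi) * (C + 1)) + 2, fun s hs hs2 F hF => ?_⟩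
  obtain ⟨hsum, hle⟩ := rankin_series (N := N) hC hs hs2
  have h1 := sum_le_log h he hs hsum F hF
  have hpos : 0 < ∑' n, rk N a s n := by
    have h2 := hsum.le_tsum 1 fun n _ => rk_nonneg _ _ _ _
    rw [rk_one h] at h2
    linarith
  have hs1 : 0 < s - 1 := by linarith
  have h3 : Real.log (∑' n, rk N a s n) ≤ Real.log (1 / (s - 1)) +
      Real.log (4 * Real.exp (8 * Real.pi) * (C + 1)) := by
    rw [← Real.log_mul (by positivity) (by positivity)]
    refine Real.log_le_log hpos (hle.trans ?_)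
    rw [one_div_mul_eq_div]
    refine div_le_div_of_nonneg_right ?_ hs1.le
    have := Real.exp_pos (8 * Real.pi)
    nlinarith
  linarith

end Fermat.Agent.DS
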