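import Fermat.Agent.DS.Sturm
import Fermat.Prelude.Thm_UpperHalfPlane_qCoeff_heckeT
import Fermat.Prelude.Thm_UpperHalfPlane_qCoeff_heckeU

/-!
# A form invariant under `Γ₁(N)` and `[1,0;N/p,1]` is zero
-/

set_option autoImplicit false
set_option linter.style.haveILetI false
set_option linter.unusedSectionVars false

noncomputable section

open UpperHalfPlane hiding I
open Complex Filter ModularForm
open scoped Topology MatrixGroups Real Manifold

namespace Fermat.Agent.DS

open Fermat.Agent.GamH Fermat.Agent.MFLib CongruenceSubgroup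

/-- real invertible matrices -/
def gm (a b c d : ℝ) (h : a * d - b * c ≠ 0) : GL (Fin 2) ℝ :=
  Matrix.GeneralLinearGroup.mkOfDetNeZero !![a, b; c, d] (by rwa [Matrix.det_fin_two_of])

theorem val_gm (a b c d : ℝ) (h : a * d - b * c ≠ 0) :
    ((gm a b c d h : GL (Fin 2) ℝ) : Matrix (Fin 2) (Fin 2) ℝ) = !![a, b; c, d] := rfl

/-- integral matrices of determinant one -/
def sm (a b c d : ℤ) (h : a * d - b * c = 1) : SL(2, ℤ) :=
  ⟨!![a, b; c, d], by rwa [Matrix.det_fin_two_of]⟩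

theorem sm_eq (γ : SL(2, ℤ)) (h : γ 0 0 * γ 1 1 - γ 0 1 * γ 1 0 = 1) :
    sm (γ 0 0) (γ 0 1) (γ 1 0) (γ 1 1) h = γ := by
  ext i j
  fin_cases i <;> fin_cases j <;> rfl

theorem sl_det (γ : SL(2, ℤ)) : γ 0 0 * γ 1 1 - γ 0 1 * γ 1 0 = 1 := by
  have := γ.det_coe
  rwa [Matrix.det_fin_two] at this

theorem coe_sm (a b c d : ℤ) (h : a * d - b * c = 1) :
    ((sm a b c d h : SL(2, ℤ)) : GL (Fin 2) ℝ) =
      gm a b c d (by
        have : ((a * d - b * c : ℤ) : ℝ) = 1 := by rw [h]; simp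
        push_cast at this
        rw [this]; exact one_ne_zero) := by
  apply Matrix.GeneralLinearGroup.ext
  intro i j
  rw [coe_entry, val_gm]
  fin_cases i <;> fin_cases j <;> rfl

theorem gm_mul (a b c d : ℝ) (h : a * d - b * c ≠ 0) (a' b' c' d' : ℝ) (h' : a' * d' - b' * c' ≠ 0) :
    gm a b c d h * gm a' b' c' d' h' = gm (a * a' + b * c') (a * b' + b * d') (c * a' + d * c')
      (c * b' + d * d') (by
        have : (a * a' + b * c') * (c * b' + d * d') - (a * b' + b * d') * (c * a' + d * c') =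
          (a * d - b * c) * (a' * d' - b' * c') := by ring
        rw [this]; exact mul_ne_zero h h') := by
  apply Matrix.GeneralLinearGroup.ext
  intro i j
  rw [Matrix.GeneralLinearGroup.coe_mul, Matrix.mul_apply, Fin.sum_univ_two]
  simp only [val_gm]
  fin_cases i <;> fin_cases j <;> simp

theorem gm_congr {a b c d a' b' c' d' : ℝ} (h : a * d - b * c ≠ 0) (h' : a' * d' - b' * c' ≠ 0)
    (h1 : a = a') (h2 : b = b') (h3 : c = c') (h4 : d = d') : gm a b c d h = gm a' b' c' d' h' := by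
  subst h1 h2 h3 h4; rfl

theorem sm_mem_Gamma1 {N : ℕ} {a b c d : ℤ} {h : a * d - b * c = 1} (hc : (N : ℤ) ∣ c)
    (hd : (N : ℤ) ∣ d - 1) : sm a b c d h ∈ Gamma1 N := by
  rw [Gamma1_mem]
  have h1 : ((c : ℤ) : ZMod N) = 0 := (ZMod.intCast_zmod_eq_zero_iff_dvd _ _).2 hc
  have h2 : ((d : ℤ) : ZMod N) = 1 := by
    have := (ZMod.intCast_zmod_eq_zero_iff_dvd (d - 1) N).2 hd
    push_cast at this
    exact sub_eq_zero.1 this
  have h3 : ((a : ℤ) : ZMod N) = 1 := by
    have := congrArg (fun z : ℤ => (z : ZMod N)) h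
    push_cast at this
    rw [h1, h2] at this
    simpa using this
  exact ⟨h3, h2, h1⟩

/-- the stabiliser of a function for the slash action -/
def stb (k : ℤ) (g : ℍ → ℂ) : Subgroup (GL (Fin 2) ℝ) where
  carrier := {x | g ∣[k] x = g}
  mul_mem' := fun {x y} hx hy => by
    change g ∣[k] (x * y) = g
    rw [SlashAction.slash_mul, show g ∣[k] x = g from hx, show g ∣[k] y = g from hy]
  one_mem' := SlashAction.slash_one k g
  inv_mem' := fun {x} hx => by
    change g ∣[k] x⁻¹ = g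
    have : g ∣[k] x = g := hx
    conv_lhs => rw [← this]
    rw [← SlashAction.slash_mul, mul_inv_cancel, SlashAction.slash_one]

theorem mem_stb {k : ℤ} {g : ℍ → ℂ} {x : GL (Fin 2) ℝ} : x ∈ stb k g ↔ g ∣[k] x = g := Iff.rfl

theorem mem_stb_slash {k : ℤ} {g : ℍ → ℂ} {x y : GL (Fin 2) ℝ} :
    x ∈ stb k (g ∣[k] y) ↔ y * x * y⁻¹ ∈ stb k g := by
  rw [mem_stb, mem_stb, ← SlashAction.slash_mul, SlashAction.slash_mul (a := g) (g := y * x)]
  constructor
  · intro h
    rw [h, ← SlashAction.slash_mul, mul_inv_cancel, SlashAction.slash_one]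
  · intro h
    conv_rhs => rw [← h]
    rw [← SlashAction.slash_mul, inv_mul_cancel, SlashAction.slash_one]

/-- translations -/
def uT (t : ℝ) : GL (Fin 2) ℝ := gm 1 t 0 1 (by norm_num)

/-- lower unipotent matrices -/
def lT (t : ℝ) : GL (Fin 2) ℝ := gm 1 0 t 1 (by norm_num)

theorem uT_mul (s t : ℝ) : uT s * uT t = uT (s + t) := by
  rw [uT, uT, gm_mul, uT]
  apply gm_congr <;> ring

theorem uT_zero : uT 0 = 1 := by
  apply Matrix.GeneralLinearGroup.ext
  intro i j
  rw [uT, val_gm]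
  fin_cases i <;> fin_cases j <;> simp

/-- translations as a homomorphism -/
def uH : Multiplicative ℝ →* GL (Fin 2) ℝ where
  toFun t := uT t.toAdd
  map_one' := uT_zero
  map_mul' _ _ := (uT_mul _ _).symm

theorem uT_zsmul_mem {S : Subgroup (GL (Fin 2) ℝ)} {t : ℝ} (h : uT t ∈ S) (n : ℤ) :
    uT (n * t) ∈ S := by
  have h1 : uT (n * t) = uT t ^ n := by
    have := map_zpow uH (Multiplicative.ofAdd t) n
    rw [← ofAdd_zsmul] at this
    simpa [uH, zsmul_eq_mul] using this
  rw [h1]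
  exact S.zpow_mem h n

variable {N : ℕ} {p : ℕ}

/-- the key identity -/
theorem uT_mem_of {S : Subgroup (GL (Fin 2) ℝ)} (hN : N ≠ 0) (hp : p.Prime) (hpN : ¬ p ∣ N)
    (h1 : ∀ γ ∈ Gamma1 N, (γ : GL (Fin 2) ℝ) ∈ S) (hA : lT (N / p) ∈ S) : uT (1 / p) ∈ S := by
  have hp0 : (p : ℝ) ≠ 0 := by exact_mod_cast hp.ne_zero
  obtain ⟨d'', b, hd⟩ : ∃ d'' b : ℤ, (p : ℤ) ^ 2 * d'' = 1 + b * N := by
    have hcop : Nat.Coprime p N := (Nat.Prime.coprime_iff_not_dvd hp).2 hpN
    have h2 : ((p ^ (2 * N.totient) : ℕ) : ZMod N) = 1 := by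
      rw [pow_mul]
      have h3 : (p ^ 2).Coprime N := Nat.Coprime.pow_left 2 hcop
      have := ZMod.pow_totient (ZMod.unitOfCoprime (p ^ 2) h3)
      have h4 := congrArg (fun u : (ZMod N)ˣ => (u : ZMod N)) this
      change ((ZMod.unitOfCoprime (p ^ 2) h3 ^ N.totient : (ZMod N)ˣ) : ZMod N) = ((1 : (ZMod N)ˣ) : ZMod N) at h4
      rw [Units.val_pow_eq_pow_val, ZMod.coe_unitOfCoprime, Units.val_one] at h4
      rw [← h4]
      push_cast
      rfl
    have h5 : (N : ℤ) ∣ (p : ℤ) ^ (2 * N.totient) - 1 := by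
      rw [← ZMod.intCast_zmod_eq_zero_iff_dvd]
      push_cast
      rw [sub_eq_zero]
      exact_mod_cast h2
    obtain ⟨b, hb⟩ := h5
    have h6 : 0 < N.totient := Nat.totient_pos.2 (Nat.pos_of_ne_zero hN)
    refine ⟨(p : ℤ) ^ (2 * N.totient - 2), b, ?_⟩
    rw [← pow_add, show 2 + (2 * N.totient - 2) = 2 * N.totient by omega]
    linear_combination hb
  have hpb : ¬ (p : ℤ) ∣ b := by
    rintro ⟨m, rfl⟩
    have : (p : ℤ) ∣ 1 := ⟨(p : ℤ) * d'' - m * N, by linear_combination -hd⟩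
    exact hp.one_lt.ne' (by exact_mod_cast Int.natCast_dvd_natCast.1 (by exact_mod_cast this) |> Nat.dvd_one.1)
  have hdR : (p : ℝ) ^ 2 * d'' = 1 + b * N := by exact_mod_cast hd
  -- the matrices
  let L : SL(2, ℤ) := sm 1 0 N 1 (by ring)
  let T : SL(2, ℤ) := sm 1 b 0 1 (by ring)
  let D : SL(2, ℤ) := sm (1 - b * N * d'') (b * (1 - p * d'')) (N * (1 + p * d'')) (p ^ 2 * d'')
    (by linear_combination hd)
  have hL : (L : GL (Fin 2) ℝ) ∈ S := h1 _ (sm_mem_Gamma1 (dvd_refl _) (by simp))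
  have hT : (T : GL (Fin 2) ℝ) ∈ S := h1 _ (sm_mem_Gamma1 (dvd_zero _) (by simp))
  have hD : (D : GL (Fin 2) ℝ) ∈ S := h1 _ (sm_mem_Gamma1 (Dvd.intro _ rfl)
    ⟨b, by linear_combination hd⟩)
  have key : uT (b / p) * (D : GL (Fin 2) ℝ) = (L : GL (Fin 2) ℝ) * (T : GL (Fin 2) ℝ) * lT (N / p) := by
    rw [coe_sm, coe_sm, coe_sm, uT, lT, gm_mul, gm_mul, gm_mul]
    apply gm_congr
    · push_cast; field_simp; ring
    · push_cast; field_simp; ring
    · push_cast; field_simp; linear_combination (N : ℝ) * hdR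
    · push_cast; linear_combination hdR
  have h2 : uT (b / p) ∈ S := by
    have : uT (b / p) = (L : GL (Fin 2) ℝ) * (T : GL (Fin 2) ℝ) * lT (N / p) * (D : GL (Fin 2) ℝ)⁻¹ := by
      rw [← key, mul_inv_cancel_right]
    rw [this]
    exact S.mul_mem (S.mul_mem (S.mul_mem hL hT) hA) (S.inv_mem hD)
  have h3 : uT 1 ∈ S := by
    have := h1 (sm 1 1 0 1 (by ring)) (sm_mem_Gamma1 (dvd_zero _) (by simp))
    rw [coe_sm] at this
    convert this using 1
    rw [uT]
    apply gm_congr <;> simp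
  obtain ⟨x, y, hxy⟩ : IsCoprime b (p : ℤ) :=
    ((Prime.coprime_iff_not_dvd (Nat.prime_iff_prime_int.1 hp)).2 hpb).symm
  have h4 := S.mul_mem (uT_zsmul_mem h2 x) (uT_zsmul_mem h3 y)
  rw [uT_mul] at h4
  have h5 : (x : ℝ) * (b / p) + y * 1 = 1 / p := by
    have : (x : ℝ) * b + y * p = 1 := by exact_mod_cast hxy
    field_simp
    linear_combination this
  rwa [h5] at h4

/-- the diagonal matrix -/
def bM (hp : p ≠ 0) : GL (Fin 2) ℝ := gm p 0 0 1 (by simpa using hp)

theorem bM_eq (hp : p ≠ 0) : heckeDiagMatrix p = bM hp := by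
  apply Matrix.GeneralLinearGroup.ext
  intro i j
  rw [val_heckeDiagMatrix hp, bM, val_gm]

theorem conj_bM (hp : p ≠ 0) (a b c d : ℝ) (h : a * d - b * c ≠ 0) :
    (bM hp)⁻¹ * gm a b c d h * bM hp = gm a (b / p) (p * c) d (by
      have : (p : ℝ) ≠ 0 := by exact_mod_cast hp
      have h2 : a * d - b / p * (p * c) = a * d - b * c := by field_simp
      rwa [h2]) := by
  rw [mul_assoc, inv_mul_eq_iff_eq_mul, bM, gm_mul, gm_mul]
  have : (p : ℝ) ≠ 0 := by exact_mod_cast hp
  apply gm_congr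
  · ring
  · field_simp; ring
  · ring
  · ring

theorem mem_stb_bM {k : ℤ} {g : ℍ → ℂ} (hp : p ≠ 0) {a b c d : ℝ} {h : a * d - b * c ≠ 0}
    {h' : a * d - b / p * (p * c) ≠ 0} :
    gm a b c d h ∈ stb k (g ∣[k] (bM hp)⁻¹) ↔ gm a (b / p) (p * c) d h' ∈ stb k g := by
  rw [mem_stb_slash, inv_inv, conj_bM]

theorem uT_pow_mem {k : ℤ} (hN : N ≠ 0) (hp : p.Prime) (hpN : ¬ p ∣ N) (n : ℕ) :
    ∀ g : ℍ → ℂ, (∀ γ ∈ Gamma1 N, (γ : GL (Fin 2) ℝ) ∈ stb k g) → lT (N / p) ∈ stb k g →
      uT (1 / p ^ n) ∈ stb k g := by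
  have hp0 : (p : ℝ) ≠ 0 := by exact_mod_cast hp.ne_zero
  induction n with
  | zero =>
    intro g h1 _
    have := h1 (sm 1 1 0 1 (by ring)) (sm_mem_Gamma1 (dvd_zero _) (by simp))
    rw [coe_sm] at this
    convert this using 1
    rw [uT]
    apply gm_congr <;> simp
  | succ n ih =>
    intro g h1 hA
    have hT := uT_mem_of (S := stb k g) hN hp hpN h1 hA
    -- `β⁻¹γβ` stabilises `g` for `γ ∈ Γ₁(N)`
    have h2 : ∀ γ ∈ Gamma1 N, (γ : GL (Fin 2) ℝ) ∈ stb k (g ∣[k] (bM hp.ne_zero)⁻¹) := by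
      -- first case: `p ∣ b`
      have base : ∀ a b c d : ℤ, ∀ h : a * d - b * c = 1, (p : ℤ) ∣ b → (N : ℤ) ∣ c →
          (N : ℤ) ∣ d - 1 → ((sm a b c d h : SL(2, ℤ)) : GL (Fin 2) ℝ) ∈
            stb k (g ∣[k] (bM hp.ne_zero)⁻¹) := by
        rintro a b c d h ⟨b', rfl⟩ hc hd
        have h3 := h1 (sm a b' (p * c) d (by rw [← h]; ring)) (sm_mem_Gamma1 (hc.mul_left _) hd)
        rw [coe_sm] at h3 ⊢
        rw [mem_stb_bM (h' := by
          have : ((a * d - p * b' * c : ℤ) : ℝ) = 1 := by rw [h]; simp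
          push_cast at this ⊢
          have h4 : (a : ℝ) * d - p * b' / p * (p * c) = a * d - p * b' * c := by field_simp
          rw [h4, this]; exact one_ne_zero)]
        convert h3 using 1
        apply gm_congr
        · rfl
        · push_cast; field_simp
        · push_cast; ring
        · rfl
      have hT' : uT 1 ∈ stb k (g ∣[k] (bM hp.ne_zero)⁻¹) := by
        rw [uT, mem_stb_bM (h' := by norm_num)]
        convert hT using 1
        rw [uT]
        apply gm_congr <;> simp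
      have second : ∀ a b c d : ℤ, ∀ h : a * d - b * c = 1, ¬ (p : ℤ) ∣ d → (N : ℤ) ∣ c →
          (N : ℤ) ∣ d - 1 → ((sm a b c d h : SL(2, ℤ)) : GL (Fin 2) ℝ) ∈
            stb k (g ∣[k] (bM hp.ne_zero)⁻¹) := by
        intro a b c d h hpd hc hd
        obtain ⟨x, y, hxy⟩ : IsCoprime d (p : ℤ) :=
          ((Prime.coprime_iff_not_dvd (Nat.prime_iff_prime_int.1 hp)).2 hpd).symm
        -- `b + j d ≡ 0`, `j = -b x`
        have h3 := base (a + -b * x * c) (b + -b * x * d) c d (by linear_combination h)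
          ⟨b * y, by linear_combination (-b) * hxy⟩ hc hd
        have h4 := uT_zsmul_mem hT' (b * x)
        have h5 := (stb k (g ∣[k] (bM hp.ne_zero)⁻¹)).mul_mem h4 h3
        convert h5 using 1
        rw [coe_sm, coe_sm, uT, gm_mul]
        apply gm_congr <;> push_cast <;> ring
      intro γ hγ
      have hdet := sl_det γ
      rw [← sm_eq γ hdet]
      rw [Gamma1_mem] at hγ
      obtain ⟨-, hd, hc⟩ := hγ
      have hc' : (N : ℤ) ∣ γ 1 0 := (ZMod.intCast_zmod_eq_zero_iff_dvd _ _).1 hc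
      have hd' : (N : ℤ) ∣ γ 1 1 - 1 := by
        rw [← ZMod.intCast_zmod_eq_zero_iff_dvd]
        push_cast
        rw [hd, sub_self]
      by_cases hpd : (p : ℤ) ∣ γ 1 1
      · have hpc : ¬ (p : ℤ) ∣ γ 1 0 := by
          intro hpc
          have : (p : ℤ) ∣ 1 := by
            rw [← hdet]
            exact dvd_sub (hpd.mul_left _) (hpc.mul_left _)
          exact hp.one_lt.ne' (Nat.dvd_one.1 (by exact_mod_cast this))
        have h3 := second (γ 0 0) (γ 0 1 + γ 0 0) (γ 1 0) (γ 1 1 + γ 1 0)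
          (by linear_combination hdet) (fun h => hpc ((dvd_add_right hpd).1 h)) hc'
          (by
            have : γ 1 1 + γ 1 0 - 1 = γ 1 1 - 1 + γ 1 0 := by ring
            rw [this]; exact dvd_add hd' hc')
        have h5 := (stb k (g ∣[k] (bM hp.ne_zero)⁻¹)).mul_mem h3
          (uT_zsmul_mem hT' (-1))
        convert h5 using 1
        rw [coe_sm, coe_sm, uT, gm_mul]
        apply gm_congr <;> push_cast <;> ring
      · exact second _ _ _ _ hdet hpd hc' hd'
    have h3 : lT (N / p) ∈ stb k (g ∣[k] (bM hp.ne_zero)⁻¹) := by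
      rw [lT, mem_stb_bM (h' := by norm_num)]
      have := h1 (sm 1 0 N 1 (by ring)) (sm_mem_Gamma1 (dvd_refl _) (by simp))
      rw [coe_sm] at this
      convert this using 1
      apply gm_congr
      · simp
      · simp
      · push_cast; field_simp
      · simp
    have h4 := ih _ h2 h3
    rw [uT, mem_stb_bM (h' := by norm_num)] at h4
    convert h4 using 1
    rw [uT]
    apply gm_congr
    · rfl
    · rw [pow_succ]; field_simp
    · simp
    · rfl

theorem slash_uT_apply (k : ℤ) (g : ℍ → ℂ) (t : ℝ) (z : ℍ) : (g ∣[k] uT t) z = g (t +ᵥ z) := by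
  have hdet : ((uT t).det : ℝ) = 1 := by
    rw [Matrix.GeneralLinearGroup.val_det_apply, uT, val_gm, Matrix.det_fin_two_of]
    ring
  have hpos : 0 < ((uT t).det : ℝ) := by rw [hdet]; exact one_pos
  have hden : denom (uT t) z = 1 := by
    simp [denom, uT, val_gm]
  have hsm : uT t • z = t +ᵥ z := by
    apply UpperHalfPlane.ext
    rw [UpperHalfPlane.coe_smul_of_det_pos hpos, hden]
    simp [num, uT, val_gm, add_comm]
  rw [ModularForm.slash_apply, σ, if_pos hpos, hdet, hden, hsm]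
  simp

/-- **a form invariant under `Γ₁(N)` and `[1,0;N/p,1]` vanishes** -/
theorem eq_zero_of_lT {k : ℤ} {g : ℍ → ℂ} (hN : N ≠ 0) (hp : p.Prime) (hpN : ¬ p ∣ N)
    (hg : MDiff g) (hz : IsZeroAtImInfty g)
    (h1 : ∀ γ ∈ Gamma1 N, (γ : GL (Fin 2) ℝ) ∈ stb k g) (hA : lT (N / p) ∈ stb k g) : g = 0 := by
  have hp0 : (0 : ℝ) < p := by exact_mod_cast hp.pos
  have hp1 : (1 : ℝ) < p := by exact_mod_cast hp.one_lt
  have hinv : ∀ (n : ℕ) (z : ℍ), g (((1 : ℝ) / p ^ n) +ᵥ z) = g z := by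
    intro n z
    have := uT_pow_mem (k := k) hN hp hpN n g h1 hA
    rw [mem_stb] at this
    rw [← slash_uT_apply k g, this]
  -- `g` is constant
  have hconst : ∀ z : ℍ, g z = g UpperHalfPlane.I := by
    have han : AnalyticOnNhd ℂ (g ∘ ofComplex) {z : ℂ | 0 < z.im} := by
      have h2 : DifferentiableOn ℂ (g ∘ ofComplex) {z : ℂ | 0 < z.im} :=
        UpperHalfPlane.mdifferentiable_iff.1 hg
      exact h2.analyticOnNhd isOpen_upperHalfPlaneSet
    have h3 : Set.EqOn (g ∘ ofComplex) (fun _ => g UpperHalfPlane.I) {z : ℂ | 0 < z.im} := by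
      refine han.eqOn_of_preconnected_of_frequently_eq analyticOnNhd_const
        (convex_halfSpace_im_gt 0).isPreconnected (z₀ := Complex.I) (by simp) ?_
      have htend : Tendsto (fun n : ℕ => (((1 : ℝ) / p ^ n : ℝ) : ℂ) + Complex.I) atTop
          (𝓝[≠] Complex.I) := by
        rw [tendsto_nhdsWithin_iff]
        constructor
        · have h4 : Tendsto (fun n : ℕ => ((1 : ℝ) / p ^ n : ℝ)) atTop (𝓝 0) := by
            have := tendsto_pow_atTop_nhds_zero_of_lt_one (r := 1 / (p : ℝ)) (by positivity)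
              (by rw [div_lt_one hp0]; exact hp1)
            simpa [one_div, inv_pow] using this
          have h5 : Tendsto (fun n : ℕ => ((((1 : ℝ) / p ^ n : ℝ) : ℂ)) + Complex.I) atTop
              (𝓝 (((0 : ℝ) : ℂ) + Complex.I)) :=
            ((Complex.continuous_ofReal.tendsto 0).comp h4).add_const _
          simpa using h5
        · refine Filter.Eventually.of_forall fun n => ?_
          simp only [Set.mem_compl_iff, Set.mem_singleton_iff, add_eq_right,
            Complex.ofReal_eq_zero]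
          positivity
      refine htend.frequently (Filter.Eventually.of_forall fun n => ?_).frequently
      change g (ofComplex _) = g UpperHalfPlane.I
      have h4 : ofComplex ((((1 : ℝ) / p ^ n : ℝ) : ℂ) + Complex.I) =
          ((1 : ℝ) / p ^ n) +ᵥ UpperHalfPlane.I := by
        apply UpperHalfPlane.ext
        have him : 0 < ((((1 : ℝ) / p ^ n : ℝ) : ℂ) + Complex.I).im := by
          rw [Complex.add_im, Complex.ofReal_im, Complex.I_im]; norm_num
        rw [UpperHalfPlane.coe_vadd, ofComplex_apply_of_im_pos him]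
        rfl
      rw [h4, hinv]
    intro z
    have := h3 z.im_pos
    simpa using this
  have h5 : g UpperHalfPlane.I = 0 := by
    have h6 : Tendsto g atImInfty (𝓝 0) := hz
    have h7 : Tendsto g atImInfty (𝓝 (g UpperHalfPlane.I)) := by
      refine tendsto_const_nhds.congr fun z => (hconst z).symm
    exact tendsto_nhds_unique h7 h6
  funext z
  rw [hconst z, h5]
  rfl

end Fermat.Agent.DS
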