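import Fermat.Agent.DS.Density

/-!
# Upper densities of sets of primes
-/

set_option autoImplicit false
set_option linter.unusedSectionVars false
set_option linter.style.haveILetI false

namespace Fermat.Agent.DS

open NumberField Filter Topology Ideal Fermat.Agent.Cheb Fermat.Agent.Places

open scoped Classical in
/-- indicator function -/
noncomputable def ind (S : Set Nat.Primes) (p : Nat.Primes) : ℝ := if p ∈ S then 1 else 0

theorem ind_nonneg (S : Set Nat.Primes) (p : Nat.Primes) : 0 ≤ ind S p := by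
  rw [ind]; split_ifs <;> norm_num

theorem abs_ind_le (S : Set Nat.Primes) (p : Nat.Primes) : |ind S p| ≤ 1 := by
  rw [ind]; split_ifs <;> norm_num

theorem primeSum_mono {b c : Nat.Primes → ℝ} {B C : ℝ} (hB : ∀ p, |b p| ≤ B) (hC : ∀ p, |c p| ≤ C)
    (h : ∀ p, b p ≤ c p) {s : ℝ} (hs : 1 < s) : primeSum b s ≤ primeSum c s :=
  (summable_primeSum hB hs).tsum_le_tsum (fun p => mul_le_mul_of_nonneg_right (h p) (by positivity))
    (summable_primeSum hC hs)

/-- `S` has upper (Dirichlet) density at most `δ` -/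
def UD (S : Set Nat.Primes) (δ : ℝ) : Prop :=
  ∀ ε > 0, ∀ᶠ s : ℝ in 𝓝[>] 1, primeSum (ind S) s ≤ (δ + ε) * Real.log (1 / (s - 1))

theorem UD.mono {S T : Set Nat.Primes} {δ δ' : ℝ} (h : UD T δ) (hST : S ⊆ T) (hδ : δ ≤ δ') :
    UD S δ' := by
  intro ε hε
  filter_upwards [h ε hε, self_mem_nhdsWithin, tendsto_log_atTop.eventually_gt_atTop 0]
    with s hs hs1 hs2
  have h1 : primeSum (ind S) s ≤ primeSum (ind T) s := by
    refine primeSum_mono (abs_ind_le S) (abs_ind_le T) (fun p => ?_) hs1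
    rw [ind, ind]
    split_ifs with h2 h3
    · exact le_rfl
    · exact absurd (hST h2) h3
    · norm_num
    · exact le_rfl
  refine h1.trans (hs.trans ?_)
  exact mul_le_mul_of_nonneg_right (by linarith) hs2.le

theorem UD.union {S T : Set Nat.Primes} {δ δ' : ℝ} (h : UD S δ) (h' : UD T δ') :
    UD (S ∪ T) (δ + δ') := by
  intro ε hε
  filter_upwards [h (ε / 2) (by positivity), h' (ε / 2) (by positivity), self_mem_nhdsWithin]
    with s hs hs' hs1
  have h1 : primeSum (ind (S ∪ T)) s ≤ primeSum (ind S) s + primeSum (ind T) s := by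
    unfold primeSum
    rw [← (summable_primeSum (abs_ind_le S) hs1).tsum_add (summable_primeSum (abs_ind_le T) hs1)]
    refine (summable_primeSum (abs_ind_le _) hs1).tsum_le_tsum (fun p => ?_)
      ((summable_primeSum (abs_ind_le S) hs1).add (summable_primeSum (abs_ind_le T) hs1))
    rw [← add_mul]
    refine mul_le_mul_of_nonneg_right ?_ (by positivity)
    rw [ind, ind, ind]
    by_cases h2 : p ∈ S <;> by_cases h3 : p ∈ T <;> simp [h2, h3]
  refine h1.trans ((add_le_add hs hs').trans (le_of_eq ?_))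
  ring

theorem UD.of_hasMean {S : Set Nat.Primes} {b : Nat.Primes → ℝ} {δ : ℝ} (hb : HasMean b δ)
    (h : ∀ p, ind S p ≤ b p) : UD S δ := by
  intro ε hε
  obtain ⟨⟨B, hB⟩, hlim⟩ := hb
  have h1 := hlim.eventually (gt_mem_nhds (show δ < δ + ε by linarith))
  filter_upwards [h1, self_mem_nhdsWithin, tendsto_log_atTop.eventually_gt_atTop 0]
    with s hs hs1 hs2
  rw [div_lt_iff₀ hs2] at hs
  exact (primeSum_mono (abs_ind_le S) hB h hs1).trans hs.le

theorem UD.of_finite {S : Set Nat.Primes} (hS : S.Finite) : UD S 0 := by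
  refine UD.of_hasMean (b := ind S) (hasMean_of_finite (hS.subset fun p hp => ?_)) fun p => le_rfl
  rw [Function.mem_support, ind] at hp
  by_contra h
  exact hp (if_neg h)

theorem UD.of_forall {S : Set Nat.Primes} {δ : ℝ} (h : ∀ η > 0, UD S (δ + η)) : UD S δ := by
  intro ε hε
  filter_upwards [h (ε / 2) (by positivity) (ε / 2) (by positivity)] with s hs
  refine hs.trans (le_of_eq ?_)
  ring

theorem UD.biUnion {ι : Type*} (T : Finset ι) {S : ι → Set Nat.Primes}
    (h : ∀ i ∈ T, UD (S i) 0) : UD (⋃ i ∈ T, S i) 0 := by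
  classical
  induction T using Finset.induction_on with
  | empty => simpa using UD.of_finite Set.finite_empty
  | insert a T ha ih =>
    have h1 := (h a (Finset.mem_insert_self _ _)).union
      (ih fun i hi => h i (Finset.mem_insert_of_mem hi))
    rw [add_zero] at h1
    refine h1.mono ?_ le_rfl
    rw [Finset.set_biUnion_insert]

/-- If `b` has positive mean and is bounded by a multiple of the indicator function of a set of
density zero, contradiction. -/
theorem HasMean.le_zero {b : Nat.Primes → ℝ} {β : ℝ} (hb : HasMean b β) {S : Set Nat.Primes}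
    (hS : UD S 0) {C : ℝ} (hC : 0 ≤ C) (h : ∀ p, b p ≤ C * ind S p) : β ≤ 0 := by
  by_contra hcon
  push Not at hcon
  obtain ⟨⟨B, hB⟩, hlim⟩ := hb
  set ε := β / (2 * (C + 1)) with hε
  have hε0 : 0 < ε := by positivity
  have h1 := hlim.eventually (lt_mem_nhds (show β / 2 < β by linarith))
  have h2 := hS ε hε0
  have h0 : ∀ᶠ s : ℝ in 𝓝[>] 1, 1 < s := self_mem_nhdsWithin
  obtain ⟨s, hs, hs', hs1, hs2⟩ := (h1.and (h2.and (h0.and
    (tendsto_log_atTop.eventually_gt_atTop 0)))).exists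
  rw [lt_div_iff₀ hs2] at hs
  have h3 : primeSum b s ≤ C * primeSum (ind S) s := by
    have h4 : C * primeSum (ind S) s = primeSum (fun p => C * ind S p) s := by
      unfold primeSum
      rw [← tsum_mul_left]
      exact tsum_congr fun p => by ring
    rw [h4]
    refine primeSum_mono hB (C := C) (fun p => ?_) h hs1
    rw [abs_mul, abs_of_nonneg hC]
    exact mul_le_of_le_one_right hC (abs_ind_le S p)
  have h5 : C * primeSum (ind S) s ≤ C * ((0 + ε) * Real.log (1 / (s - 1))) :=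
    mul_le_mul_of_nonneg_left hs' hC
  have h6 : C * ε ≤ β / 2 := by
    rw [hε]
    rw [mul_div_assoc', div_le_div_iff₀ (by positivity) (by positivity)]
    nlinarith
  have h7 : C * ((0 + ε) * Real.log (1 / (s - 1))) ≤ β / 2 * Real.log (1 / (s - 1)) := by
    rw [zero_add, ← mul_assoc]
    exact mul_le_mul_of_nonneg_right h6 hs2.le
  linarith

section finite

variable {K : Type*} [Field K] [NumberField K] [IsGalois ℚ K]

theorem exists_prime_avoiding {S : Set Nat.Primes} (hS : UD S 0) (g : Gal(K/ℚ)) :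
    ∃ p ∉ S, Unr K p ∧ ∃ P : Ideal (𝓞 K), P.IsPrime ∧ P.LiesOver (pp p) ∧
      ∃ σ : Gal(K/ℚ), IsArithFrobAt ℤ σ P ∧ Subgroup.zpowers σ = Subgroup.zpowers g := by
  classical
  by_contra hcon
  push Not at hcon
  have hm : HasMean (fun p => if Unr K p then (EE (Subgroup.zpowers g) p : ℝ) else 0)
      (gen (Subgroup.zpowers g)) := by
    refine (hasMean_EE (Subgroup.zpowers g)).congr ((finite_not_unr K).subset fun p hp => ?_)
    by_contra hunr
    simp only [Set.mem_ofPred_eq, not_not] at hunr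
    apply hp
    rw [if_pos hunr]
  have h2 := HasMean.le_zero hm hS (C := Nat.card Gal(K/ℚ)) (Nat.cast_nonneg _) (fun p => by
    rw [ind]
    by_cases hunr : Unr K p
    · rw [if_pos hunr]
      split_ifs with h3
      · rw [mul_one, ← sum_T hunr, EE]
        exact_mod_cast Finset.sum_le_sum fun P _ => by split_ifs <;> simp
      · rw [mul_zero]
        have : EE (Subgroup.zpowers g) p = 0 := by
          rw [EE]
          refine Finset.sum_eq_zero fun P hP => ?_
          rw [if_neg]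
          rintro ⟨σ, hσ, hσ'⟩
          exact hcon p h3 hunr P (mem_T.1 hP).1 (mem_T.1 hP).2 σ hσ hσ'
        rw [this, Nat.cast_zero]
    · rw [if_neg hunr]
      split_ifs <;> positivity)
  have h3 : 0 < gen (Subgroup.zpowers g) := by
    haveI : Nonempty {h : Gal(K/ℚ) // Subgroup.zpowers h = Subgroup.zpowers g} := ⟨⟨g, rfl⟩⟩
    exact Nat.card_pos
  have h4 : (0 : ℝ) < gen (Subgroup.zpowers g) := by exact_mod_cast h3
  linarith

end finite

section finite'

variable (K : Type*) [Field K] [CharZero K] [inst : Algebra ℚ K] [FiniteDimensional ℚ K]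
  [IsGalois ℚ K]

theorem exists_prime_avoiding' {S : Set Nat.Primes} (hS : UD S 0) (g : K ≃ₐ[ℚ] K) :
    ∃ p ∉ S, ∃ P : Ideal (𝓞 K), P.IsPrime ∧ ((p : ℕ) : 𝓞 K) ∈ P ∧
      ∃ σ : K ≃ₐ[ℚ] K,
        (∀ τ : K ≃ₐ[ℚ] K, (∀ x : 𝓞 K, τ • x - x ^ (p : ℕ) ∈ P) → τ = σ) ∧
        Subgroup.zpowers σ = Subgroup.zpowers g := by
  obtain rfl : inst = DivisionRing.toRatAlgebra := Subsingleton.elim _ _
  haveI : NumberField K := ⟨⟩
  obtain ⟨p, hpS, hunr, P, hP1, hP2, σ, hσ, hσg⟩ := exists_prime_avoiding hS g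
  refine ⟨p, hpS, P, hP1, ?_, σ, ?_, hσg⟩
  · have h1 : ((p : ℕ) : ℤ) ∈ P.under ℤ := by
      rw [← P.over_def (pp p)]
      exact Ideal.mem_span_singleton_self _
    simpa [Ideal.under] using h1
  · intro τ hτ
    refine hunr.eq_of_isArithFrobAt P (fun x => ?_) hσ
    rw [natCard_quot K p P]
    exact hτ x

end finite'

section places

variable {L : Type*} [Field L] [CharZero L] [inst : Algebra ℚ L] [IsGalois ℚ L]

/-- **Frobenius density theorem** avoiding a set of density zero -/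
theorem exists_frobenius_avoiding {S : Set Nat.Primes} (hS : UD S 0)
    (U : Subgroup (L ≃ₐ[ℚ] L)) (hU : IsOpen (U : Set (L ≃ₐ[ℚ] L))) (g : L ≃ₐ[ℚ] L) :
    ∃ p ∉ S, ∃ A : ValuationSubring L, A.LiesOverPrime p ∧
      ∃ τ : L ≃ₐ[ℚ] L, A.IsFrobeniusAt τ p ∧
        ∃ n m : ℕ, g⁻¹ * τ ^ n ∈ U ∧ τ⁻¹ * g ^ m ∈ U := by
  obtain ⟨E, hfin, hnorm, hE⟩ := (krullTopology_mem_nhds_one_iff_of_normal ℚ L
    (U : Set (L ≃ₐ[ℚ] L))).mp (hU.mem_nhds (one_mem U))
  letI algE : Algebra ℚ E := E.algebra'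
  haveI := hfin
  haveI : Algebra.IsSeparable ℚ E := Algebra.IsAlgebraic.isSeparable_of_perfectField
  haveI : IsGalois ℚ E := ⟨⟩
  haveI hNF : NumberField E := by
    have h := hfin
    have h2 : algE = DivisionRing.toRatAlgebra := Subsingleton.elim _ _
    exact { to_charZero := inferInstance, to_finiteDimensional := h2 ▸ h }
  obtain ⟨p, hpS, P, hP, hpP, σ, huniq, hσg⟩ :=
    exists_prime_avoiding' E hS (AlgEquiv.restrictNormal g E)
  obtain ⟨A, hAp, τ, hτ, hτσ⟩ := exists_place_of_prime E p.2 P hpP σ huniq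
  have key : ∀ ρ₁ ρ₂ : L ≃ₐ[ℚ] L, AlgEquiv.restrictNormal ρ₁ E = AlgEquiv.restrictNormal ρ₂ E →
      ρ₁⁻¹ * ρ₂ ∈ U := by
    intro ρ₁ ρ₂ h
    apply hE
    rw [SetLike.mem_coe, IntermediateField.mem_fixingSubgroup_iff]
    intro x hx
    have h1 : ((AlgEquiv.restrictNormal ρ₁ E ⟨x, hx⟩ : E) : L) = ρ₁ x :=
      AlgEquiv.restrictNormal_commutes ρ₁ E ⟨x, hx⟩
    have h2 : ((AlgEquiv.restrictNormal ρ₂ E ⟨x, hx⟩ : E) : L) = ρ₂ x :=
      AlgEquiv.restrictNormal_commutes ρ₂ E ⟨x, hx⟩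
    rw [AlgEquiv.mul_apply, ← h2, ← h, h1]
    exact ρ₁.symm_apply_apply x
  have hpow : ∀ (ρ : L ≃ₐ[ℚ] L) (n : ℕ), AlgEquiv.restrictNormal (ρ ^ n) E =
      (AlgEquiv.restrictNormal ρ E) ^ n := fun ρ n =>
    map_pow (AlgEquiv.restrictNormalHom E) ρ n
  refine ⟨p, hpS, A, hAp, τ, hτ, ?_⟩
  haveI : Finite (E ≃ₐ[ℚ] E) := inferInstance
  have h1 : AlgEquiv.restrictNormal g E ∈ Submonoid.powers σ := by
    rw [mem_powers_iff_mem_zpowers, hσg]
    exact Subgroup.mem_zpowers _
  have h2 : σ ∈ Submonoid.powers (AlgEquiv.restrictNormal g E) := by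
    rw [mem_powers_iff_mem_zpowers, ← hσg]
    exact Subgroup.mem_zpowers _
  obtain ⟨n, hn⟩ := h1
  obtain ⟨m, hm⟩ := h2
  refine ⟨n, m, key _ _ ?_, key _ _ ?_⟩
  · rw [hpow, hτσ]; exact hn.symm
  · rw [hpow, hτσ]; exact hm.symm

end places

end Fermat.Agent.DS
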